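import Mathlib
import Fermat.Prelude.Def_FLTPrelim_GaloisRep
import Fermat.Prelude.Def_FLTPrelim_Modularity
import Fermat.Prelude.Def_FLTPrelim_ModularRep
import Fermat.Prelude.Def_FLTPrelim_Ramification
import Fermat.Prelude.Def_EllipticCurve_FrobeniusTrace

/-!
# P17 (S52): shared definitions

* Klein's icosahedral forms `kF`, `kH`, `kT` (with `kT² + kH³ = 1728 kF⁵`);
* the short model `shortCurve h τ : y² = x³ + 27 h x + 54 τ`;
* the perturbed model `perturb W d₄ d₆`;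
* `IsTorsionIso5`: a map between the geometric points of two rational curves which restricts to
  an injective additive Galois-equivariant map on `5`-torsion;
* `KleinFamily h τ`: the data exported by block X (the family of curves with the same mod `5`
  representation as `shortCurve h τ`).
-/

set_option autoImplicit false

namespace Fermat.Agent.S52

open WeierstrassCurve WeierstrassCurve.Affine Polynomial

/-- Klein's icosahedral form `f` of degree `12`. -/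
def kF {R : Type*} [CommRing R] (u v : R) : R :=
  u * v * (u ^ 10 + 11 * u ^ 5 * v ^ 5 - v ^ 10)

/-- Klein's icosahedral form `H` of degree `20`. -/
def kH {R : Type*} [CommRing R] (u v : R) : R :=
  -(u ^ 20 + v ^ 20) + 228 * (u ^ 15 * v ^ 5 - u ^ 5 * v ^ 15) - 494 * u ^ 10 * v ^ 10

/-- Klein's icosahedral form `T` of degree `30`. -/
def kT {R : Type*} [CommRing R] (u v : R) : R :=
  (u ^ 30 + v ^ 30) + 522 * (u ^ 25 * v ^ 5 - u ^ 5 * v ^ 25) -
    10005 * (u ^ 20 * v ^ 10 + u ^ 10 * v ^ 20)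

theorem kT_sq_add_kH_cube {R : Type*} [CommRing R] (u v : R) :
    kT u v ^ 2 + kH u v ^ 3 = 1728 * kF u v ^ 5 := by
  unfold kT kH kF
  ring

/-- The short Weierstrass model `y² = x³ + 27 h x + 54 τ`. -/
def shortCurve {R : Type*} [CommRing R] (h τ : R) : WeierstrassCurve R :=
  ⟨0, 0, 0, 27 * h, 54 * τ⟩

/-- The model obtained from `W` by adding `d₄` to `a₄` and `d₆` to `a₆`. -/
def perturb {R : Type*} [CommRing R] (W : WeierstrassCurve R) (d₄ d₆ : R) : WeierstrassCurve R :=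
  ⟨W.a₁, W.a₂, W.a₃, W.a₄ + d₄, W.a₆ + d₆⟩

/-- `ψ` restricts to an injective, additive, Galois-equivariant map on `5`-torsion. -/
structure IsTorsionIso5 {E₁ E₂ : WeierstrassCurve ℚ}
    (ψ : (E₁⁄(AlgebraicClosure ℚ)).Point → (E₂⁄(AlgebraicClosure ℚ)).Point) : Prop where
  map_add : ∀ P Q : (E₁⁄(AlgebraicClosure ℚ)).Point, 5 • P = 0 → 5 • Q = 0 →
    ψ (P + Q) = ψ P + ψ Q
  inj : ∀ P : (E₁⁄(AlgebraicClosure ℚ)).Point, 5 • P = 0 → ψ P = 0 → P = 0
  equivariant : ∀ (σ : AlgebraicClosure ℚ ≃ₐ[ℚ] AlgebraicClosure ℚ)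
    (P : (E₁⁄(AlgebraicClosure ℚ)).Point), 5 • P = 0 → ψ (σ • P) = σ • ψ P

/-- The export of block X: the Klein (Rubin–Silverberg) family through `shortCurve h τ`. -/
structure KleinFamily (h τ : ℚ) where
  /-- `H` along the family -/
  Hp : ℚ[X]
  /-- `T` along the family -/
  Tp : ℚ[X]
  /-- `f⁵` along the family -/
  Fp : ℚ[X]
  Hp_zero : Hp.eval 0 = h
  Tp_zero : Tp.eval 0 = τ
  rel : Tp ^ 2 + Hp ^ 3 = C 1728 * Fp
  coprime : IsCoprime Hp Fp
  iso : ∀ t : ℚ, Fp.eval t ≠ 0 →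
    ∃ ψ : ((shortCurve h τ)⁄(AlgebraicClosure ℚ)).Point →
        ((shortCurve (Hp.eval t) (Tp.eval t))⁄(AlgebraicClosure ℚ)).Point, IsTorsionIso5 ψ
  cone : ∃ bad : Option ℚ, ∀ u₁ : ℚ, some u₁ ≠ bad → kF u₁ 1 ≠ 0 →
    ∃ t₁ μ : AlgebraicClosure ℚ, μ ≠ 0 ∧
      aeval t₁ Hp = μ ^ 2 * algebraMap ℚ (AlgebraicClosure ℚ) (kH u₁ 1) ∧
      aeval t₁ Tp = μ ^ 3 * algebraMap ℚ (AlgebraicClosure ℚ) (kT u₁ 1) ∧
      ∀ σ : AlgebraicClosure ℚ ≃ₐ[ℚ] AlgebraicClosure ℚ,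
        (∀ P : ((shortCurve h τ)⁄(AlgebraicClosure ℚ)).Point, 5 • P = 0 → σ • P = P) →
        (∀ ζ : AlgebraicClosure ℚ, ζ ^ 5 = 1 → σ ζ = ζ) → σ t₁ = t₁ ∧ σ μ = μ

end Fermat.Agent.S52
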