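import Mathlib
import Fermat.Agent.S52.Defs

set_option autoImplicit false

/-!
# S52, block M12: the perturbed integral model

For an integral Weierstrass model `W`, the model `perturb W d₄ d₆` (defined in `Defs.lean`) has
`a₄`, `a₆` replaced by `a₄ + d₄`, `a₆ + d₆`.  This file computes its invariants `c₄`, `c₆`,
shows that `Δ`, `c₄` and the reductions are unchanged modulo any `m` dividing `d₄`, `d₆`,
realises prescribed invariants congruent to those of `W` modulo `41472 * m`, and transfers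
`Δ ≠ 0` and semistability.  Also: a semistable model with `Δ ≠ 0` has `c₄ ≠ 0` and `c₆ ≠ 0`.
-/

open WeierstrassCurve

namespace Fermat.Agent.S52

namespace M1Perturb

variable {R : Type*} [CommRing R]

theorem perturb_b₂ (W : WeierstrassCurve R) (d₄ d₆ : R) : (perturb W d₄ d₆).b₂ = W.b₂ := rfl

theorem perturb_b₄ (W : WeierstrassCurve R) (d₄ d₆ : R) :
    (perturb W d₄ d₆).b₄ = W.b₄ + 2 * d₄ := by
  simp only [perturb, WeierstrassCurve.b₄]
  ring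

theorem perturb_b₆ (W : WeierstrassCurve R) (d₄ d₆ : R) :
    (perturb W d₄ d₆).b₆ = W.b₆ + 4 * d₆ := by
  simp only [perturb, WeierstrassCurve.b₆]
  ring

theorem perturb_b₈ (W : WeierstrassCurve R) (d₄ d₆ : R) :
    (perturb W d₄ d₆).b₈ = W.b₈ + W.b₂ * d₆ - W.b₄ * d₄ - d₄ ^ 2 := by
  simp only [perturb, WeierstrassCurve.b₈, WeierstrassCurve.b₂, WeierstrassCurve.b₄]
  ring

/-- The difference of the discriminants, as a combination of `d₄` and `d₆`. -/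
theorem perturb_Δ_sub (W : WeierstrassCurve R) (d₄ d₆ : R) :
    W.Δ - (perturb W d₄ d₆).Δ =
      d₄ * (-(W.b₂ ^ 2 * (W.b₄ + d₄)) + 8 * (6 * W.b₄ ^ 2 + 12 * W.b₄ * d₄ + 8 * d₄ ^ 2)
          - 9 * W.b₂ * (2 * W.b₆ + 8 * d₆))
        + d₆ * (W.b₂ ^ 3 + 27 * (8 * W.b₆ + 16 * d₆) - 36 * W.b₂ * W.b₄) := by
  rw [WeierstrassCurve.Δ, WeierstrassCurve.Δ, perturb_b₂, perturb_b₄, perturb_b₆, perturb_b₈]
  ring

/-- An integer that no prime divides is `1` or `-1`. -/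
theorem eq_one_or_neg_one_of_no_prime {D : ℤ} (h : ∀ p : ℕ, p.Prime → ¬ (p : ℤ) ∣ D) :
    D = 1 ∨ D = -1 := by
  have h1 : D.natAbs = 1 := by
    by_contra hne
    obtain ⟨p, hp, hpd⟩ := Nat.exists_prime_and_dvd hne
    exact h p hp (Int.natCast_dvd.mpr hpd)
  exact Int.isUnit_iff.mp (Int.isUnit_iff_natAbs_eq.mpr h1)

theorem sq_mod_five : ∀ x : ZMod 5, x ^ 2 ≠ 2 ∧ x ^ 2 ≠ 3 := by decide

theorem b₂_sq_mod_eight : ∀ x y : ZMod 8, (x ^ 2 + 4 * y) ^ 2 ≠ 4 := by decide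

end M1Perturb

theorem perturb_c₄ (W : WeierstrassCurve ℤ) (d₄ d₆ : ℤ) :
    (perturb W d₄ d₆).c₄ = W.c₄ - 48 * d₄ := by
  rw [WeierstrassCurve.c₄, WeierstrassCurve.c₄, M1Perturb.perturb_b₂, M1Perturb.perturb_b₄]
  ring

theorem perturb_c₆ (W : WeierstrassCurve ℤ) (d₄ d₆ : ℤ) :
    (perturb W d₄ d₆).c₆ = W.c₆ + 72 * W.b₂ * d₄ - 864 * d₆ := by
  rw [WeierstrassCurve.c₆, WeierstrassCurve.c₆, M1Perturb.perturb_b₂, M1Perturb.perturb_b₄,
    M1Perturb.perturb_b₆]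
  ring

theorem perturb_Δ_modEq (W : WeierstrassCurve ℤ) {m d₄ d₆ : ℤ} (h4 : m ∣ d₄) (h6 : m ∣ d₆) :
    (perturb W d₄ d₆).Δ ≡ W.Δ [ZMOD m] := by
  rw [Int.modEq_iff_dvd, M1Perturb.perturb_Δ_sub]
  exact dvd_add (Dvd.dvd.mul_right h4 _) (Dvd.dvd.mul_right h6 _)

theorem perturb_c₄_modEq (W : WeierstrassCurve ℤ) {m d₄ : ℤ} (d₆ : ℤ) (h4 : m ∣ d₄) :
    (perturb W d₄ d₆).c₄ ≡ W.c₄ [ZMOD m] := by
  rw [Int.modEq_iff_dvd, perturb_c₄]
  have e : W.c₄ - (W.c₄ - 48 * d₄) = d₄ * 48 := by ring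
  rw [e]
  exact Dvd.dvd.mul_right h4 _

theorem perturb_reductionMod (W : WeierstrassCurve ℤ) {p : ℕ} {d₄ d₆ : ℤ} (h4 : (p : ℤ) ∣ d₄)
    (h6 : (p : ℤ) ∣ d₆) : (perturb W d₄ d₆).reductionMod p = W.reductionMod p := by
  have e4 : ((d₄ : ℤ) : ZMod p) = 0 := (ZMod.intCast_zmod_eq_zero_iff_dvd d₄ p).mpr h4
  have e6 : ((d₆ : ℤ) : ZMod p) = 0 := (ZMod.intCast_zmod_eq_zero_iff_dvd d₆ p).mpr h6
  unfold WeierstrassCurve.reductionMod
  ext <;> simp [perturb, WeierstrassCurve.map, e4, e6]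

/-- Integrality: if `c₄' ≡ c₄` and `c₆' ≡ c₆` modulo `41472 * m` then there is a perturbation
with invariants `c₄'`, `c₆'`, congruent to `W` modulo `m`. -/
theorem exists_perturb_of_modEq (W : WeierstrassCurve ℤ) (m : ℤ) {c₄' c₆' : ℤ}
    (h4 : c₄' ≡ W.c₄ [ZMOD 41472 * m]) (h6 : c₆' ≡ W.c₆ [ZMOD 41472 * m]) :
    ∃ d₄ d₆ : ℤ, m ∣ d₄ ∧ m ∣ d₆ ∧ (perturb W d₄ d₆).c₄ = c₄' ∧ (perturb W d₄ d₆).c₆ = c₆' := by
  obtain ⟨k, hk⟩ := Int.modEq_iff_dvd.mp h4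
  obtain ⟨l, hl⟩ := Int.modEq_iff_dvd.mp h6
  refine ⟨m * (864 * k), m * (48 * l + 72 * W.b₂ * k), Dvd.intro _ rfl, Dvd.intro _ rfl, ?_, ?_⟩
  · rw [perturb_c₄]
    linear_combination hk
  · rw [perturb_c₆]
    linear_combination hl

/-- Semistability and `Δ ≠ 0` of a perturbation congruent to `W` modulo `m`, where `m` is a
multiple of `2 Δ(W) e` and `e` is a Bezout constant for the new `c₄`, `c₆`. -/
theorem perturb_isSemistableModel (W : WeierstrassCurve ℤ) (hΔ : W.Δ ≠ 0)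
    (hW : W.IsSemistableModel) {m d₄ d₆ e : ℤ} (h4 : m ∣ d₄) (h6 : m ∣ d₆) (he : e ≠ 0)
    (hm : 2 * W.Δ * e ∣ m) (hm0 : m ≠ 0)
    (hbez : ∃ x y : ℤ, x * (perturb W d₄ d₆).c₄ + y * (perturb W d₄ d₆).c₆ = e) :
    (perturb W d₄ d₆).Δ ≠ 0 ∧ (perturb W d₄ d₆).IsSemistableModel := by
  have _ := he
  have _ := hm0
  have hdvd : m ∣ W.Δ - (perturb W d₄ d₆).Δ := Int.modEq_iff_dvd.mp (perturb_Δ_modEq W h4 h6)
  refine ⟨?_, ?_⟩
  · intro h0
    rw [h0, sub_zero] at hdvd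
    obtain ⟨c, hc⟩ := hm.trans hdvd
    have h1 : W.Δ * (1 - 2 * (e * c)) = 0 := by linear_combination hc
    have h2 : 1 - 2 * (e * c) = 0 := (mul_eq_zero.mp h1).resolve_left hΔ
    omega
  · intro p hp hpΔ hpc
    have hpp : Prime (p : ℤ) := Nat.prime_iff_prime_int.mp hp
    by_cases hpm : (p : ℤ) ∣ m
    · have h1 : (p : ℤ) ∣ W.Δ := by
        have h2 := dvd_add (hpm.trans hdvd) hpΔ
        rwa [sub_add_cancel] at h2
      refine hW p hp h1 ?_
      have h3 : W.c₄ = (perturb W d₄ d₆).c₄ + d₄ * 48 := by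
        rw [perturb_c₄]
        ring
      rw [h3]
      exact dvd_add hpc (Dvd.dvd.mul_right (hpm.trans h4) _)
    · apply hpm
      obtain ⟨x, y, hxy⟩ := hbez
      have hrel := (perturb W d₄ d₆).c_relation
      have h1 : (p : ℤ) ∣ (perturb W d₄ d₆).c₆ ^ 2 := by
        have h2 : (perturb W d₄ d₆).c₆ ^ 2 =
            (perturb W d₄ d₆).c₄ * (perturb W d₄ d₆).c₄ ^ 2 - (perturb W d₄ d₆).Δ * 1728 := by
          linear_combination hrel
        rw [h2]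
        exact dvd_sub (Dvd.dvd.mul_right hpc _) (Dvd.dvd.mul_right hpΔ _)
      have h3 : (p : ℤ) ∣ (perturb W d₄ d₆).c₆ := hpp.dvd_of_dvd_pow h1
      have h5 : (p : ℤ) ∣ e := by
        rw [← hxy]
        exact dvd_add (Dvd.dvd.mul_left hpc _) (Dvd.dvd.mul_left h3 _)
      exact h5.trans ((Dvd.intro_left (2 * W.Δ) rfl).trans hm)

/-- A semistable integral model with `Δ ≠ 0` has `c₄ ≠ 0` and `c₆ ≠ 0`. -/
theorem c4_c6_ne_zero (W : WeierstrassCurve ℤ) (hΔ : W.Δ ≠ 0) (hW : W.IsSemistableModel) :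
    W.c₄ ≠ 0 ∧ W.c₆ ≠ 0 := by
  have _ := hΔ
  have hrel := W.c_relation
  constructor
  · intro h4
    have hu : W.Δ = 1 ∨ W.Δ = -1 :=
      M1Perturb.eq_one_or_neg_one_of_no_prime fun p hp hpd => hW p hp hpd (h4 ▸ dvd_zero _)
    have h5 : ((W.c₆ : ℤ) : ZMod 5) ^ 2 = -(1728 * ((W.Δ : ℤ) : ZMod 5)) := by
      have e : W.c₆ ^ 2 = -(1728 * W.Δ) := by
        rw [h4] at hrel
        linear_combination hrel
      exact_mod_cast congrArg (Int.cast : ℤ → ZMod 5) e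
    rcases hu with hu | hu
    · rw [hu] at h5
      exact (M1Perturb.sq_mod_five _).1 (h5.trans (by decide))
    · rw [hu] at h5
      exact (M1Perturb.sq_mod_five _).2 (h5.trans (by decide))
  · intro h6
    have h3 : W.c₄ ^ 3 = 1728 * W.Δ := by
      rw [h6] at hrel
      linear_combination -hrel
    have hu : W.Δ = 1 ∨ W.Δ = -1 := by
      apply M1Perturb.eq_one_or_neg_one_of_no_prime
      intro p hp hpd
      refine hW p hp hpd ((Nat.prime_iff_prime_int.mp hp).dvd_of_dvd_pow (n := 3) ?_)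
      rw [h3]
      exact Dvd.dvd.mul_left hpd _
    have hodd : Odd 3 := by decide
    have h8 : (((W.a₁ : ℤ) : ZMod 8) ^ 2 + 4 * ((W.a₂ : ℤ) : ZMod 8)) ^ 2 = 4 := by
      have hc : W.c₄ = 12 ∨ W.c₄ = -12 := by
        rcases hu with hu | hu
        · left
          apply hodd.pow_injective
          show W.c₄ ^ 3 = 12 ^ 3
          rw [h3, hu]
          norm_num
        · right
          apply hodd.pow_injective
          show W.c₄ ^ 3 = (-12) ^ 3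
          rw [h3, hu]
          norm_num
      have e : (W.a₁ ^ 2 + 4 * W.a₂) ^ 2 = W.c₄ + 8 * (3 * W.b₄) := by
        rw [WeierstrassCurve.c₄, WeierstrassCurve.b₂]
        ring
      have e' := congrArg (Int.cast : ℤ → ZMod 8) e
      push_cast at e'
      rw [e']
      have h80 : (8 : ZMod 8) = 0 := by decide
      rcases hc with hc | hc
      · rw [hc, h80, zero_mul, add_zero]
        decide
      · rw [hc, h80, zero_mul, add_zero]
        decide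
    exact M1Perturb.b₂_sq_mod_eight _ _ h8

end Fermat.Agent.S52
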