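import Mathlib

set_option autoImplicit false

/-!
# S52, block M12, slice Q: rational polynomials at integer arguments, and CRT

* `exists_denominator_eval`: values of `P : ℚ[X]` with integral constant term at multiples of a
  suitable `D` are integers congruent to the constant term.
* `exists_bezout_const`: an integral Bezout constant for coprime `P, Q : ℚ[X]`.
* `exists_dvd_and_modEq`: CRT for `M` and a prime `q ∤ M`.
-/

namespace Fermat.Agent.S52

namespace M1Poly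

open Polynomial

/-- Clearing denominators of a rational polynomial. -/
theorem exists_int_poly (R : Polynomial ℚ) :
    ∃ D : ℕ, 0 < D ∧ ∃ R' : Polynomial ℤ, R'.map (Int.castRingHom ℚ) = C (D : ℚ) * R := by
  induction R using Polynomial.induction_on' with
  | add p q hp hq =>
    obtain ⟨D₁, hD₁, p', hp'⟩ := hp
    obtain ⟨D₂, hD₂, q', hq'⟩ := hq
    refine ⟨D₁ * D₂, Nat.mul_pos hD₁ hD₂, C (D₂ : ℤ) * p' + C (D₁ : ℤ) * q', ?_⟩
    rw [Polynomial.map_add, Polynomial.map_mul, Polynomial.map_mul, hp', hq', Polynomial.map_C,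
      Polynomial.map_C]
    simp only [eq_intCast, Int.cast_natCast, Nat.cast_mul, C_mul]
    ring
  | monomial n a =>
    refine ⟨a.den, a.den_pos, monomial n a.num, ?_⟩
    rw [Polynomial.map_monomial, C_mul_monomial, eq_intCast, mul_comm, Rat.mul_den_eq_num]

/-- Evaluation of a cleared-denominator polynomial at an integer. -/
theorem eval_int_poly {R : Polynomial ℚ} {D : ℕ} {R' : Polynomial ℤ}
    (h : R'.map (Int.castRingHom ℚ) = C (D : ℚ) * R) (t : ℤ) :
    ((R'.eval t : ℤ) : ℚ) = (D : ℚ) * R.eval (t : ℚ) := by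
  have h1 := Polynomial.eval_map_apply (p := R') (Int.castRingHom ℚ) t
  rw [h, eval_mul, eval_C] at h1
  exact h1.symm

end M1Poly

open Polynomial in
/-- Values of a rational polynomial at multiples of a suitable `D`: integral and congruent to the
constant term. -/
theorem exists_denominator_eval (P : Polynomial ℚ) {c : ℤ} (hc : P.eval 0 = (c : ℚ)) :
    ∃ D : ℕ, 0 < D ∧ ∀ N t : ℤ, (D : ℤ) * N ∣ t →
      ∃ z : ℤ, (z : ℚ) = P.eval (t : ℚ) ∧ z ≡ c [ZMOD N] := by
  obtain ⟨D, hD, R', hR'⟩ := M1Poly.exists_int_poly P.divX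
  refine ⟨D, hD, ?_⟩
  rintro N t ⟨s, rfl⟩
  refine ⟨c + N * s * R'.eval ((D : ℤ) * N * s), ?_, ?_⟩
  · have h1 := M1Poly.eval_int_poly hR' ((D : ℤ) * N * s)
    have h2 : P = P.divX * X + C (c : ℚ) := by
      rw [← hc, ← Polynomial.coeff_zero_eq_eval_zero, Polynomial.divX_mul_X_add]
    rw [Int.cast_add, Int.cast_mul, h1]
    conv_rhs => rw [h2]
    rw [eval_add, eval_mul, eval_X, eval_C]
    push_cast
    ring
  · rw [Int.modEq_iff_dvd]
    exact ⟨-(s * R'.eval ((D : ℤ) * N * s)), by ring⟩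

open Polynomial in
/-- Integral Bezout constant from coprimality over `ℚ`. -/
theorem exists_bezout_const (P Q : Polynomial ℚ) (h : IsCoprime P Q) :
    ∃ e : ℕ, 0 < e ∧ ∀ (t : ℤ) (p q : ℤ), (p : ℚ) = P.eval (t : ℚ) → (q : ℚ) = Q.eval (t : ℚ) →
      ∃ x y : ℤ, x * p + y * q = e := by
  obtain ⟨a, b, hab⟩ := h
  obtain ⟨Da, hDa, a', ha'⟩ := M1Poly.exists_int_poly a
  obtain ⟨Db, hDb, b', hb'⟩ := M1Poly.exists_int_poly b
  refine ⟨Da * Db, Nat.mul_pos hDa hDb, ?_⟩
  intro t p q hp hq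
  refine ⟨(Db : ℤ) * a'.eval t, (Da : ℤ) * b'.eval t, ?_⟩
  have h1 := M1Poly.eval_int_poly ha' t
  have h2 := M1Poly.eval_int_poly hb' t
  have h3 : a.eval (t : ℚ) * P.eval (t : ℚ) + b.eval (t : ℚ) * Q.eval (t : ℚ) = 1 := by
    rw [← eval_mul, ← eval_mul, ← eval_add, hab, eval_one]
  have h4 : (((Db : ℤ) * a'.eval t * p + (Da : ℤ) * b'.eval t * q : ℤ) : ℚ) =
      (((Da * Db : ℕ) : ℤ) : ℚ) := by
    push_cast
    rw [h1, h2, hp, hq]
    linear_combination ((Da : ℚ) * (Db : ℚ)) * h3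
  exact_mod_cast h4

/-- CRT: an integer divisible by `M` in a prescribed class modulo a prime `q ∤ M`. -/
theorem exists_dvd_and_modEq {M q : ℕ} (hq : q.Prime) (hqM : ¬ q ∣ M) (t₀ : ℤ) :
    ∃ t : ℤ, (M : ℤ) ∣ t ∧ t ≡ t₀ [ZMOD q] := by
  have hcop : Nat.Coprime M q := ((Nat.Prime.coprime_iff_not_dvd hq).mpr hqM).symm
  have hb := Int.gcd_eq_gcd_ab (M : ℤ) (q : ℤ)
  have hg : Int.gcd (M : ℤ) (q : ℤ) = 1 := by
    rw [Int.gcd_natCast_natCast]
    exact hcop
  rw [hg, Nat.cast_one] at hb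
  refine ⟨(M : ℤ) * (Int.gcdA M q * t₀), Dvd.intro _ rfl, ?_⟩
  rw [Int.modEq_iff_dvd]
  exact ⟨Int.gcdB M q * t₀, by linear_combination t₀ * hb⟩

end Fermat.Agent.S52
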