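import Mathlib
import Fermat.Agent.S52.Defs
import Fermat.Agent.S52.M1Perturb
import Fermat.Agent.S52.M1Poly

set_option autoImplicit false

/-!
# S52, block M12, slice M: integral semistable models along a polynomial family

* `exists_perturb_family`: for a semistable `W` and coprime `C₄, C₆ : ℚ[X]` through
  `(c₄(W), c₆(W))` at `0`, all `t` divisible by a suitable `M` give an integral semistable model
  with invariants `(C₄(t), C₆(t))`, congruent to `W` modulo the primes dividing a given `m`.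
* `exists_model_strong`, `exists_model`: the same along a `KleinFamily`, in every residue class
  modulo a prime outside a finite set.
-/

namespace Fermat.Agent.S52

open WeierstrassCurve Polynomial

/-- **Block M12.** Integral semistable models along a coprime polynomial family. -/
theorem exists_perturb_family (W : WeierstrassCurve ℤ) (hΔ : W.Δ ≠ 0) (hW : W.IsSemistableModel)
    (C₄ C₆ : Polynomial ℚ) (h4 : C₄.eval 0 = (W.c₄ : ℚ)) (h6 : C₆.eval 0 = (W.c₆ : ℚ))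
    (hcop : IsCoprime C₄ C₆) (m : ℕ) (hm : 0 < m) :
    ∃ M : ℕ, 0 < M ∧ m ∣ M ∧ ∀ t : ℤ, (M : ℤ) ∣ t →
      ∃ W' : WeierstrassCurve ℤ, W'.Δ ≠ 0 ∧ W'.IsSemistableModel ∧
        (W'.c₄ : ℚ) = C₄.eval (t : ℚ) ∧ (W'.c₆ : ℚ) = C₆.eval (t : ℚ) ∧
        ∀ p : ℕ, p.Prime → p ∣ m → W'.reductionMod p = W.reductionMod p := by
  obtain ⟨e, he, hbez⟩ := exists_bezout_const C₄ C₆ hcop
  obtain ⟨D₄, hD₄, hden4⟩ := exists_denominator_eval C₄ h4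
  obtain ⟨D₆, hD₆, hden6⟩ := exists_denominator_eval C₆ h6
  have hΔn : 0 < W.Δ.natAbs := Int.natAbs_pos.mpr hΔ
  set m₀ : ℕ := 2 * W.Δ.natAbs * e * m with hm₀
  have hm₀pos : 0 < m₀ := by positivity
  have hmm₀ : m ∣ m₀ := Dvd.intro_left _ rfl
  have hΔm₀ : 2 * W.Δ * (e : ℤ) ∣ (m₀ : ℤ) := by
    have h1 : W.Δ ∣ |W.Δ| := (dvd_abs _ _).mpr dvd_rfl
    have h2 : 2 * W.Δ * (e : ℤ) ∣ 2 * |W.Δ| * (e : ℤ) :=
      mul_dvd_mul (mul_dvd_mul dvd_rfl h1) dvd_rfl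
    rw [hm₀]
    push_cast
    exact Dvd.dvd.mul_right h2 _
  refine ⟨D₄ * D₆ * (41472 * m₀), by positivity, ?_, ?_⟩
  · exact Dvd.dvd.mul_left (Dvd.dvd.mul_left hmm₀ _) _
  intro t ht
  have ht4 : (D₄ : ℤ) * (41472 * (m₀ : ℤ)) ∣ t := by
    refine dvd_trans ?_ ht
    push_cast
    exact ⟨(D₆ : ℤ), by ring⟩
  have ht6 : (D₆ : ℤ) * (41472 * (m₀ : ℤ)) ∣ t := by
    refine dvd_trans ?_ ht
    push_cast
    exact ⟨(D₄ : ℤ), by ring⟩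
  obtain ⟨z₄, hz₄, hz₄m⟩ := hden4 (41472 * (m₀ : ℤ)) t ht4
  obtain ⟨z₆, hz₆, hz₆m⟩ := hden6 (41472 * (m₀ : ℤ)) t ht6
  obtain ⟨d₄, d₆, hd₄, hd₆, hc₄, hc₆⟩ := exists_perturb_of_modEq W (m₀ : ℤ) hz₄m hz₆m
  obtain ⟨x, y, hxy⟩ := hbez t z₄ z₆ hz₄ hz₆
  have hss := perturb_isSemistableModel W hΔ hW hd₄ hd₆
    (Int.natCast_ne_zero.mpr he.ne') hΔm₀ (Int.natCast_ne_zero.mpr hm₀pos.ne')
    ⟨x, y, by rw [hc₄, hc₆]; exact hxy⟩
  refine ⟨perturb W d₄ d₆, hss.1, hss.2, by rw [hc₄, hz₄], by rw [hc₆, hz₆], ?_⟩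
  intro p _ hpm
  have hpm₀ : (p : ℤ) ∣ (m₀ : ℤ) := Int.natCast_dvd_natCast.mpr (dvd_trans hpm hmm₀)
  exact perturb_reductionMod W (dvd_trans hpm₀ hd₄) (dvd_trans hpm₀ hd₆)

namespace M1Main

/-- `Hp` and `Tp` of a Klein family are coprime. -/
theorem isCoprime_Hp_Tp {h τ : ℚ} (K : KleinFamily h τ) : IsCoprime K.Hp K.Tp := by
  obtain ⟨a, b, hab⟩ := K.coprime
  have hrel := K.rel
  refine ⟨a + C (1 / 1728 : ℚ) * b * K.Hp ^ 2, C (1 / 1728 : ℚ) * b * K.Tp, ?_⟩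
  have hC : C (1 / 1728 : ℚ) * C (1728 : ℚ) = 1 := by
    rw [← C_mul]; norm_num
  linear_combination hab + (C (1 / 1728 : ℚ) * b) * hrel + (b * K.Fp) * hC

end M1Main

/-- Integral semistable models in a Klein family, in every residue class modulo a prime outside
a finite set, with prescribed reduction at the primes dividing `m`. -/
theorem exists_model_strong (W : WeierstrassCurve ℤ) (hΔ : W.Δ ≠ 0) (hW : W.IsSemistableModel)
    (K : KleinFamily (-(W.c₄ : ℚ)) (-(W.c₆ : ℚ))) (m : ℕ) (hm : 0 < m) :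
    ∃ S : Finset ℕ, ∀ q : ℕ, q.Prime → q ∉ S → ∀ t₀ : ℤ, ∃ t : ℤ, t ≡ t₀ [ZMOD q] ∧
      ∃ W' : WeierstrassCurve ℤ, W'.Δ ≠ 0 ∧ W'.IsSemistableModel ∧
        (W'.c₄ : ℚ) = -K.Hp.eval (t : ℚ) ∧ (W'.c₆ : ℚ) = -K.Tp.eval (t : ℚ) ∧
        ∀ p : ℕ, p.Prime → p ∣ m → W'.reductionMod p = W.reductionMod p := by
  have h4 : (-K.Hp).eval 0 = (W.c₄ : ℚ) := by rw [eval_neg, K.Hp_zero, neg_neg]
  have h6 : (-K.Tp).eval 0 = (W.c₆ : ℚ) := by rw [eval_neg, K.Tp_zero, neg_neg]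
  have hcop : IsCoprime (-K.Hp) (-K.Tp) := (M1Main.isCoprime_Hp_Tp K).neg_left.neg_right
  obtain ⟨M, hM, -, hfam⟩ := exists_perturb_family W hΔ hW (-K.Hp) (-K.Tp) h4 h6 hcop m hm
  refine ⟨M.primeFactors, ?_⟩
  intro q hq hqS t₀
  have hqM : ¬ q ∣ M := fun hdvd => hqS (Nat.mem_primeFactors.mpr ⟨hq, hdvd, hM.ne'⟩)
  obtain ⟨t, htM, htq⟩ := exists_dvd_and_modEq hq hqM t₀
  obtain ⟨W', hΔ', hW', hc4, hc6, hred⟩ := hfam t htM
  refine ⟨t, htq, W', hΔ', hW', ?_, ?_, hred⟩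
  · rw [hc4, eval_neg]
  · rw [hc6, eval_neg]

/-- Integral semistable models in a Klein family, in every residue class modulo a prime outside
a finite set. -/
theorem exists_model (W : WeierstrassCurve ℤ) (hΔ : W.Δ ≠ 0) (hW : W.IsSemistableModel)
    (K : KleinFamily (-(W.c₄ : ℚ)) (-(W.c₆ : ℚ))) :
    ∃ S : Finset ℕ, ∀ q : ℕ, q.Prime → q ∉ S → ∀ t₀ : ℤ, ∃ t : ℤ, t ≡ t₀ [ZMOD q] ∧
      ∃ W' : WeierstrassCurve ℤ, (W'.c₄ : ℚ) = -K.Hp.eval (t : ℚ) ∧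
        (W'.c₆ : ℚ) = -K.Tp.eval (t : ℚ) ∧ W'.IsSemistableModel := by
  obtain ⟨S, hS⟩ := exists_model_strong W hΔ hW K 1 Nat.one_pos
  refine ⟨S, fun q hq hqS t₀ => ?_⟩
  obtain ⟨t, htq, W', -, hW', hc4, hc6, -⟩ := hS q hq hqS t₀
  exact ⟨t, htq, W', hc4, hc6, hW'⟩

end Fermat.Agent.S52
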