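import Mathlib

set_option autoImplicit false

/-!
# S52, block M12: the map on affine points induced by a change of variables (definition)

For a change of variables `C = (u, r, s, t)` and Weierstrass curves with `C • W₂ = W₁` over a
field, `vcPoint C h : W₁.Point → W₂.Point` is `(x, y) ↦ (u²x + r, u³y + u²sx + t)`.

This file contains only the definition (so that the slices of the block can be developed in
parallel); the properties are in `M1VCBasic.lean` (nonsingularity, bijectivity, naturality) and
`M1VCAdd.lean` (additivity).
-/

open WeierstrassCurve

namespace Fermat.Agent.S52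

variable {K : Type*} [Field K]

open Classical in
/-- The map on affine points induced by a change of variables `C` with `C • W₂ = W₁`:
`(x, y) ↦ (u²x + r, u³y + u²sx + t)`.  (The hypothesis `h` is not used by the definition; it
guarantees that the image point is nonsingular, see `vcPoint_some`.) -/
noncomputable def vcPoint (C : VariableChange K) {W₁ W₂ : WeierstrassCurve K}
    (_h : C • W₂ = W₁) : W₁.toAffine.Point → W₂.toAffine.Point
  | .zero => .zero
  | .some x y _ =>
    if h' : W₂.toAffine.Nonsingular ((C.u : K) ^ 2 * x + C.r)
        ((C.u : K) ^ 3 * y + (C.u : K) ^ 2 * C.s * x + C.t) then .some _ _ h' else .zero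

theorem vcPoint_zero (C : VariableChange K) {W₁ W₂ : WeierstrassCurve K} (h : C • W₂ = W₁) :
    vcPoint C h 0 = 0 := rfl

theorem vcPoint_some_of_nonsingular (C : VariableChange K) {W₁ W₂ : WeierstrassCurve K}
    (h : C • W₂ = W₁) {x y : K} (hxy : W₁.toAffine.Nonsingular x y)
    (hxy' : W₂.toAffine.Nonsingular ((C.u : K) ^ 2 * x + C.r)
      ((C.u : K) ^ 3 * y + (C.u : K) ^ 2 * C.s * x + C.t)) :
    vcPoint C h (Affine.Point.some x y hxy) = Affine.Point.some _ _ hxy' := by
  unfold vcPoint
  exact dif_pos hxy'

end Fermat.Agent.S52
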