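import Mathlib
import Fermat.Agent.S52.M1VC

set_option autoImplicit false

/-!
# S52, block M12: basic properties of `vcPoint`

For a change of variables `C = (u, r, s, t)` with `C • W₂ = W₁` over a field, the map
`(x, y) ↦ (u²x + r, u³y + u²sx + t)` preserves the Weierstrass equation and nonsingularity, so
`vcPoint C h` sends affine points to affine points (`vcPoint_some`), and it is a bijection with
inverse `vcPoint C⁻¹` (`vcPoint_bijective`).
-/

open WeierstrassCurve

namespace Fermat.Agent.S52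

variable {K : Type*} [Field K]

namespace M1VCBasic

/-- The Weierstrass polynomial transforms by the factor `u⁶`. -/
theorem poly_eq (C : VariableChange K) (W : WeierstrassCurve K) (x y : K) :
    ((C.u : K) ^ 3 * y + (C.u : K) ^ 2 * C.s * x + C.t) ^ 2 +
        W.a₁ * ((C.u : K) ^ 2 * x + C.r) * ((C.u : K) ^ 3 * y + (C.u : K) ^ 2 * C.s * x + C.t) +
        W.a₃ * ((C.u : K) ^ 3 * y + (C.u : K) ^ 2 * C.s * x + C.t) -
        (((C.u : K) ^ 2 * x + C.r) ^ 3 + W.a₂ * ((C.u : K) ^ 2 * x + C.r) ^ 2 +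
          W.a₄ * ((C.u : K) ^ 2 * x + C.r) + W.a₆) =
      (C.u : K) ^ 6 * (y ^ 2 + (C • W).a₁ * x * y + (C • W).a₃ * y -
        (x ^ 3 + (C • W).a₂ * x ^ 2 + (C • W).a₄ * x + (C • W).a₆)) := by
  have hv : (C.u : K) ≠ 0 := C.u.ne_zero
  simp only [variableChange_a₁, variableChange_a₂, variableChange_a₃, variableChange_a₄,
    variableChange_a₆, Units.val_inv_eq_inv_val]
  field_simp
  ring

/-- The `y`-derivative of the Weierstrass polynomial transforms by the factor `u³`. -/
theorem polyY_eq (C : VariableChange K) (W : WeierstrassCurve K) (x y : K) :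
    2 * ((C.u : K) ^ 3 * y + (C.u : K) ^ 2 * C.s * x + C.t) +
        W.a₁ * ((C.u : K) ^ 2 * x + C.r) + W.a₃ =
      (C.u : K) ^ 3 * (2 * y + (C • W).a₁ * x + (C • W).a₃) := by
  have hv : (C.u : K) ≠ 0 := C.u.ne_zero
  simp only [variableChange_a₁, variableChange_a₃, Units.val_inv_eq_inv_val]
  field_simp
  ring

/-- The `x`-derivative of the Weierstrass polynomial (chain rule). -/
theorem polyX_eq (C : VariableChange K) (W : WeierstrassCurve K) (x y : K) :
    W.a₁ * ((C.u : K) ^ 3 * y + (C.u : K) ^ 2 * C.s * x + C.t) -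
        (3 * ((C.u : K) ^ 2 * x + C.r) ^ 2 + 2 * W.a₂ * ((C.u : K) ^ 2 * x + C.r) + W.a₄) =
      (C.u : K) ^ 4 * ((C • W).a₁ * y - (3 * x ^ 2 + 2 * (C • W).a₂ * x + (C • W).a₄)) -
        C.s * ((C.u : K) ^ 3 * (2 * y + (C • W).a₁ * x + (C • W).a₃)) := by
  have hv : (C.u : K) ≠ 0 := C.u.ne_zero
  simp only [variableChange_a₁, variableChange_a₂, variableChange_a₃, variableChange_a₄,
    Units.val_inv_eq_inv_val]
  field_simp
  ring

/-- The change of variables preserves the Weierstrass equation. -/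
theorem equation_iff (C : VariableChange K) {W₁ W₂ : WeierstrassCurve K} (h : C • W₂ = W₁)
    (x y : K) :
    W₁.toAffine.Equation x y ↔
      W₂.toAffine.Equation ((C.u : K) ^ 2 * x + C.r)
        ((C.u : K) ^ 3 * y + (C.u : K) ^ 2 * C.s * x + C.t) := by
  subst h
  rw [Affine.equation_iff', Affine.equation_iff', poly_eq C W₂ x y]
  constructor
  · intro h0
    rw [h0, mul_zero]
  · intro h0
    exact (mul_eq_zero.mp h0).resolve_left (pow_ne_zero _ C.u.ne_zero)

/-- The change of variables preserves nonsingularity. -/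
theorem nonsingular_iff (C : VariableChange K) {W₁ W₂ : WeierstrassCurve K} (h : C • W₂ = W₁)
    (x y : K) :
    W₁.toAffine.Nonsingular x y ↔
      W₂.toAffine.Nonsingular ((C.u : K) ^ 2 * x + C.r)
        ((C.u : K) ^ 3 * y + (C.u : K) ^ 2 * C.s * x + C.t) := by
  have he := equation_iff C h x y
  subst h
  have hv : (C.u : K) ≠ 0 := C.u.ne_zero
  rw [Affine.nonsingular_iff', Affine.nonsingular_iff', ← he, polyX_eq C W₂ x y,
    polyY_eq C W₂ x y]
  refine and_congr_right fun _ => ?_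
  constructor
  · rintro (h1 | h1)
    · by_cases h2 : 2 * y + (C • W₂).a₁ * x + (C • W₂).a₃ = 0
      · left
        rw [h2, mul_zero, mul_zero, sub_zero]
        exact mul_ne_zero (pow_ne_zero _ hv) h1
      · right
        exact mul_ne_zero (pow_ne_zero _ hv) h2
    · right
      exact mul_ne_zero (pow_ne_zero _ hv) h1
  · rintro (h1 | h1)
    · by_contra hcon
      rw [not_or, not_not, not_not] at hcon
      apply h1
      rw [hcon.1, hcon.2]
      ring
    · right
      exact right_ne_zero_of_mul h1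

/-- Two mutually inverse changes of variables give mutually inverse maps on points. -/
theorem vcPoint_vcPoint_of_eq_inv (C D : VariableChange K) {W₁ W₂ : WeierstrassCurve K}
    (h : C • W₂ = W₁) (h' : D • W₁ = W₂) (hD : D = C⁻¹) (P : W₁.toAffine.Point) :
    vcPoint D h' (vcPoint C h P) = P := by
  subst hD
  rcases P with _ | ⟨x, y, hxy⟩
  · rfl
  · have h1 := (nonsingular_iff C h x y).mp hxy
    rw [vcPoint_some_of_nonsingular C h hxy h1]
    have h2 := (nonsingular_iff C⁻¹ h' _ _).mp h1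
    rw [vcPoint_some_of_nonsingular C⁻¹ h' h1 h2]
    have hv : (C.u : K) ≠ 0 := C.u.ne_zero
    have hx : ((C⁻¹.u : Kˣ) : K) ^ 2 * ((C.u : K) ^ 2 * x + C.r) + C⁻¹.r = x := by
      simp only [VariableChange.inv_def, Units.val_inv_eq_inv_val]
      field_simp
      ring
    have hy : ((C⁻¹.u : Kˣ) : K) ^ 3 * ((C.u : K) ^ 3 * y + (C.u : K) ^ 2 * C.s * x + C.t) +
        ((C⁻¹.u : Kˣ) : K) ^ 2 * C⁻¹.s * ((C.u : K) ^ 2 * x + C.r) + C⁻¹.t = y := by
      simp only [VariableChange.inv_def, Units.val_inv_eq_inv_val]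
      field_simp
      ring
    rw [Affine.Point.some.injEq]
    exact ⟨hx, hy⟩

end M1VCBasic

theorem vcPoint_some (C : VariableChange K) {W₁ W₂ : WeierstrassCurve K} (h : C • W₂ = W₁)
    {x y : K} (hxy : W₁.toAffine.Nonsingular x y) :
    ∃ hxy' : W₂.toAffine.Nonsingular ((C.u : K) ^ 2 * x + C.r)
        ((C.u : K) ^ 3 * y + (C.u : K) ^ 2 * C.s * x + C.t),
      vcPoint C h (Affine.Point.some x y hxy) = Affine.Point.some _ _ hxy' :=
  ⟨(M1VCBasic.nonsingular_iff C h x y).mp hxy, vcPoint_some_of_nonsingular C h hxy _⟩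

/-- `vcPoint C⁻¹` is a left inverse of `vcPoint C`. -/
theorem vcPoint_vcPoint_inv (C : VariableChange K) {W₁ W₂ : WeierstrassCurve K}
    (h : C • W₂ = W₁) (h' : C⁻¹ • W₁ = W₂) (P : W₁.toAffine.Point) :
    vcPoint C⁻¹ h' (vcPoint C h P) = P :=
  M1VCBasic.vcPoint_vcPoint_of_eq_inv C C⁻¹ h h' rfl P

/-- `vcPoint C⁻¹` is a right inverse of `vcPoint C`. -/
theorem vcPoint_inv_vcPoint (C : VariableChange K) {W₁ W₂ : WeierstrassCurve K}
    (h : C • W₂ = W₁) (h' : C⁻¹ • W₁ = W₂) (Q : W₂.toAffine.Point) :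
    vcPoint C h (vcPoint C⁻¹ h' Q) = Q :=
  M1VCBasic.vcPoint_vcPoint_of_eq_inv C⁻¹ C h' h (inv_inv C).symm Q

theorem vcPoint_bijective (C : VariableChange K) {W₁ W₂ : WeierstrassCurve K} (h : C • W₂ = W₁) :
    Function.Bijective (vcPoint C h) := by
  have h' : C⁻¹ • W₁ = W₂ := by rw [← h, inv_smul_smul]
  exact ⟨Function.LeftInverse.injective (g := vcPoint C⁻¹ h') (vcPoint_vcPoint_inv C h h'),
    Function.RightInverse.surjective (g := vcPoint C⁻¹ h') (vcPoint_inv_vcPoint C h h')⟩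

end Fermat.Agent.S52
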