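import Mathlib
import Fermat.Agent.S52.M1VC
import Fermat.Agent.S52.M1VCBasic

set_option autoImplicit false

/-!
# S52, block M12: additivity of the map on points induced by a change of variables

`vcPoint_add`: the map `vcPoint C h : W₁.Point → W₂.Point`, `(x, y) ↦ (u²x + r, u³y + u²sx + t)`,
is additive; `vcPointEquiv` packages it as an additive equivalence.
-/

open WeierstrassCurve

namespace Fermat.Agent.S52

variable {K : Type*} [Field K]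

namespace M1VCAdd

variable (C : VariableChange K) (W : WeierstrassCurve K)

theorem negY_vc (x y : K) :
    W.toAffine.negY ((C.u : K) ^ 2 * x + C.r)
        ((C.u : K) ^ 3 * y + (C.u : K) ^ 2 * C.s * x + C.t) =
      (C.u : K) ^ 3 * (C • W).toAffine.negY x y + (C.u : K) ^ 2 * C.s * x + C.t := by
  have hu : (C.u : K) ≠ 0 := C.u.ne_zero
  simp only [Affine.negY, variableChange_a₁, variableChange_a₃, Units.val_inv_eq_inv_val]
  field_simp
  ring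

theorem addX_vc (x₁ x₂ L : K) :
    W.toAffine.addX ((C.u : K) ^ 2 * x₁ + C.r) ((C.u : K) ^ 2 * x₂ + C.r) ((C.u : K) * L + C.s) =
      (C.u : K) ^ 2 * (C • W).toAffine.addX x₁ x₂ L + C.r := by
  have hu : (C.u : K) ≠ 0 := C.u.ne_zero
  simp only [Affine.addX, variableChange_a₁, variableChange_a₂, Units.val_inv_eq_inv_val]
  field_simp
  ring

theorem negAddY_vc (x₁ x₂ y₁ L : K) :
    W.toAffine.negAddY ((C.u : K) ^ 2 * x₁ + C.r) ((C.u : K) ^ 2 * x₂ + C.r)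
        ((C.u : K) ^ 3 * y₁ + (C.u : K) ^ 2 * C.s * x₁ + C.t) ((C.u : K) * L + C.s) =
      (C.u : K) ^ 3 * (C • W).toAffine.negAddY x₁ x₂ y₁ L +
        (C.u : K) ^ 2 * C.s * (C • W).toAffine.addX x₁ x₂ L + C.t := by
  rw [Affine.negAddY, Affine.negAddY, addX_vc]
  ring

theorem addY_vc (x₁ x₂ y₁ L : K) :
    W.toAffine.addY ((C.u : K) ^ 2 * x₁ + C.r) ((C.u : K) ^ 2 * x₂ + C.r)
        ((C.u : K) ^ 3 * y₁ + (C.u : K) ^ 2 * C.s * x₁ + C.t) ((C.u : K) * L + C.s) =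
      (C.u : K) ^ 3 * (C • W).toAffine.addY x₁ x₂ y₁ L +
        (C.u : K) ^ 2 * C.s * (C • W).toAffine.addX x₁ x₂ L + C.t := by
  rw [Affine.addY, Affine.addY, negAddY_vc, addX_vc, negY_vc]

theorem div_aux (u s N d : K) (hu : u ≠ 0) (hd : d ≠ 0) :
    (u ^ 4 * N + s * u ^ 3 * d) / (u ^ 3 * d) = u * (N / d) + s := by
  field_simp

theorem num_vc (x y : K) :
    3 * ((C.u : K) ^ 2 * x + C.r) ^ 2 + 2 * W.a₂ * ((C.u : K) ^ 2 * x + C.r) + W.a₄ -
        W.a₁ * ((C.u : K) ^ 3 * y + (C.u : K) ^ 2 * C.s * x + C.t) =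
      (C.u : K) ^ 4 * (3 * x ^ 2 + 2 * (C • W).a₂ * x + (C • W).a₄ - (C • W).a₁ * y) +
        C.s * (C.u : K) ^ 3 * (y - (C • W).toAffine.negY x y) := by
  have hu : (C.u : K) ≠ 0 := C.u.ne_zero
  simp only [Affine.negY, variableChange_a₁, variableChange_a₂, variableChange_a₃,
    variableChange_a₄, Units.val_inv_eq_inv_val]
  field_simp
  ring

/-- The image points are in the vertical position iff the original ones are. -/
theorem vertical_iff (x₁ x₂ y₁ y₂ : K) :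
    ((C.u : K) ^ 2 * x₁ + C.r = (C.u : K) ^ 2 * x₂ + C.r ∧
        (C.u : K) ^ 3 * y₁ + (C.u : K) ^ 2 * C.s * x₁ + C.t =
          W.toAffine.negY ((C.u : K) ^ 2 * x₂ + C.r)
            ((C.u : K) ^ 3 * y₂ + (C.u : K) ^ 2 * C.s * x₂ + C.t)) ↔
      (x₁ = x₂ ∧ y₁ = (C • W).toAffine.negY x₂ y₂) := by
  have hu : (C.u : K) ≠ 0 := C.u.ne_zero
  rw [negY_vc]
  constructor
  · rintro ⟨hx, hy⟩
    have hx' : x₁ = x₂ := by
      have h1 : (C.u : K) ^ 2 * (x₁ - x₂) = 0 := by linear_combination hx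
      exact sub_eq_zero.1 ((mul_eq_zero.1 h1).resolve_left (pow_ne_zero 2 hu))
    refine ⟨hx', ?_⟩
    subst hx'
    have h1 : (C.u : K) ^ 3 * (y₁ - (C • W).toAffine.negY x₁ y₂) = 0 := by
      linear_combination hy
    exact sub_eq_zero.1 ((mul_eq_zero.1 h1).resolve_left (pow_ne_zero 3 hu))
  · rintro ⟨rfl, hy⟩
    exact ⟨rfl, by rw [← hy]⟩

theorem slope_vc [DecidableEq K] {x₁ x₂ y₁ y₂ : K}
    (h₁ : (C • W).toAffine.Equation x₁ y₁) (h₂ : (C • W).toAffine.Equation x₂ y₂)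
    (hxy : ¬(x₁ = x₂ ∧ y₁ = (C • W).toAffine.negY x₂ y₂)) :
    W.toAffine.slope ((C.u : K) ^ 2 * x₁ + C.r) ((C.u : K) ^ 2 * x₂ + C.r)
        ((C.u : K) ^ 3 * y₁ + (C.u : K) ^ 2 * C.s * x₁ + C.t)
        ((C.u : K) ^ 3 * y₂ + (C.u : K) ^ 2 * C.s * x₂ + C.t) =
      (C.u : K) * (C • W).toAffine.slope x₁ x₂ y₁ y₂ + C.s := by
  have hu : (C.u : K) ≠ 0 := C.u.ne_zero
  by_cases hx : x₁ = x₂
  · have hy : y₁ ≠ (C • W).toAffine.negY x₂ y₂ := fun hy => hxy ⟨hx, hy⟩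
    have hyy : y₁ = y₂ := Affine.Y_eq_of_Y_ne h₁ h₂ hx hy
    subst hx
    subst hyy
    have hy' : (C.u : K) ^ 3 * y₁ + (C.u : K) ^ 2 * C.s * x₁ + C.t ≠
        W.toAffine.negY ((C.u : K) ^ 2 * x₁ + C.r)
          ((C.u : K) ^ 3 * y₁ + (C.u : K) ^ 2 * C.s * x₁ + C.t) :=
      fun e => hxy ((vertical_iff C W x₁ x₁ y₁ y₁).1 ⟨rfl, e⟩)
    have hd : y₁ - (C • W).toAffine.negY x₁ y₁ ≠ 0 := sub_ne_zero.2 hy
    rw [Affine.slope_of_Y_ne rfl hy, Affine.slope_of_Y_ne rfl hy', negY_vc, num_vc]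
    have hden : (C.u : K) ^ 3 * y₁ + (C.u : K) ^ 2 * C.s * x₁ + C.t -
        ((C.u : K) ^ 3 * (C • W).toAffine.negY x₁ y₁ + (C.u : K) ^ 2 * C.s * x₁ + C.t) =
        (C.u : K) ^ 3 * (y₁ - (C • W).toAffine.negY x₁ y₁) := by ring
    rw [hden]
    exact div_aux _ _ _ _ hu hd
  · have hX : (C.u : K) ^ 2 * x₁ + C.r ≠ (C.u : K) ^ 2 * x₂ + C.r := by
      intro e
      have h1 : (C.u : K) ^ 2 * (x₁ - x₂) = 0 := by linear_combination e
      exact hx (sub_eq_zero.1 ((mul_eq_zero.1 h1).resolve_left (pow_ne_zero 2 hu)))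
    have hd : x₁ - x₂ ≠ 0 := sub_ne_zero.2 hx
    rw [Affine.slope_of_X_ne hx, Affine.slope_of_X_ne hX]
    have hden : (C.u : K) ^ 2 * x₁ + C.r - ((C.u : K) ^ 2 * x₂ + C.r) =
        (C.u : K) ^ 2 * (x₁ - x₂) := by ring
    rw [hden]
    field_simp
    ring

end M1VCAdd

theorem vcPoint_add [DecidableEq K] (C : VariableChange K) {W₁ W₂ : WeierstrassCurve K}
    (h : C • W₂ = W₁) (P Q : W₁.toAffine.Point) :
    vcPoint C h (P + Q) = vcPoint C h P + vcPoint C h Q := by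
  subst h
  rcases P with _ | ⟨x₁, y₁, h₁⟩
  · rw [show (Affine.Point.zero : (C • W₂).toAffine.Point) = 0 from rfl, zero_add, vcPoint_zero,
      zero_add]
  rcases Q with _ | ⟨x₂, y₂, h₂⟩
  · rw [show (Affine.Point.zero : (C • W₂).toAffine.Point) = 0 from rfl, add_zero, vcPoint_zero,
      add_zero]
  obtain ⟨h₁', e₁⟩ := vcPoint_some C rfl h₁
  obtain ⟨h₂', e₂⟩ := vcPoint_some C rfl h₂
  rw [e₁, e₂]
  by_cases hxy : x₁ = x₂ ∧ y₁ = (C • W₂).toAffine.negY x₂ y₂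
  · have hxy' := (M1VCAdd.vertical_iff C W₂ x₁ x₂ y₁ y₂).2 hxy
    rw [Affine.Point.add_of_Y_eq hxy.1 hxy.2, vcPoint_zero,
      Affine.Point.add_of_Y_eq hxy'.1 hxy'.2]
  · have hxy' := fun e => hxy ((M1VCAdd.vertical_iff C W₂ x₁ x₂ y₁ y₂).1 e)
    rw [Affine.Point.add_some hxy, Affine.Point.add_some hxy']
    obtain ⟨h₃', e₃⟩ := vcPoint_some C rfl (Affine.nonsingular_add h₁ h₂ hxy)
    rw [e₃, Affine.Point.some.injEq, M1VCAdd.slope_vc C W₂ h₁.1 h₂.1 hxy, M1VCAdd.addX_vc,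
      M1VCAdd.addY_vc]
    exact ⟨rfl, rfl⟩

/-- `vcPoint` as an additive equivalence. -/
noncomputable def vcPointEquiv [DecidableEq K] (C : VariableChange K) {W₁ W₂ : WeierstrassCurve K}
    (h : C • W₂ = W₁) : W₁.toAffine.Point ≃+ W₂.toAffine.Point :=
  AddEquiv.ofBijective
    (AddMonoidHom.mk' (vcPoint C h) (vcPoint_add C h)) (vcPoint_bijective C h)

@[simp]
theorem vcPointEquiv_apply [DecidableEq K] (C : VariableChange K) {W₁ W₂ : WeierstrassCurve K}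
    (h : C • W₂ = W₁) (P : W₁.toAffine.Point) : vcPointEquiv C h P = vcPoint C h P := rfl

end Fermat.Agent.S52
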