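import Mathlib
import Fermat.Prelude.Def_FLTPrelim_GaloisRep
import Fermat.Agent.S52.Defs
import Fermat.Agent.S52.M1VC
import Fermat.Agent.S52.M1VCBasic
import Fermat.Agent.S52.M1VCAdd
import Fermat.Agent.S51.Galois

/-!
# S52, block M12, slice S: the short Weierstrass model

For a Weierstrass curve `W` over a field `F` with `2, 3 ≠ 0`, the short model
`shortOf W : y² = x³ - 27 c₄ x - 54 c₆` and the Galois-equivariant group isomorphism
`shortEquiv K W : W(K) ≃ shortOf(W)(K)`, `(x, y) ↦ (36x + 3b₂, 108(2y + a₁x + a₃))`.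
-/

set_option autoImplicit false

open WeierstrassCurve

namespace Fermat.Agent.S52

section Short

variable {F : Type*} [Field F]

/-- The short Weierstrass model `y² = x³ - 27 c₄ x - 54 c₆`. -/
def shortOf (W : WeierstrassCurve F) : WeierstrassCurve F :=
  shortCurve (-W.c₄) (-W.c₆)

theorem shortOf_eq_of_c₄_c₆ (W : WeierstrassCurve F) {a b : F} (h4 : W.c₄ = a) (h6 : W.c₆ = b) :
    shortOf W = shortCurve (-a) (-b) := by
  subst h4 h6
  rfl

namespace M1Short

theorem six_ne_zero (h2 : (2 : F) ≠ 0) (h3 : (3 : F) ≠ 0) : (6 : F) ≠ 0 := by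
  have h : (6 : F) = 2 * 3 := by norm_num
  rw [h]
  exact mul_ne_zero h2 h3

/-- The change of variables from the short model to `W`. -/
def vc (W : WeierstrassCurve F) (h2 : (2 : F) ≠ 0) (h3 : (3 : F) ≠ 0) : VariableChange F :=
  ⟨Units.mk0 6 (six_ne_zero h2 h3), 3 * W.b₂, 3 * W.a₁, 108 * W.a₃⟩

theorem vc_smul_shortOf (W : WeierstrassCurve F) (h2 : (2 : F) ≠ 0) (h3 : (3 : F) ≠ 0) :
    vc W h2 h3 • shortOf W = W := by
  have h6 : (6 : F) ≠ 0 := six_ne_zero h2 h3
  ext
  · simp only [variableChange_a₁, vc, shortOf, shortCurve, Units.val_inv_eq_inv_val,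
      Units.val_mk0]
    field_simp
    ring
  · simp only [variableChange_a₂, vc, shortOf, shortCurve, Units.val_inv_eq_inv_val,
      Units.val_mk0, WeierstrassCurve.b₂]
    field_simp
    ring
  · simp only [variableChange_a₃, vc, shortOf, shortCurve, Units.val_inv_eq_inv_val,
      Units.val_mk0]
    field_simp
    ring
  · simp only [variableChange_a₄, vc, shortOf, shortCurve, Units.val_inv_eq_inv_val,
      Units.val_mk0, WeierstrassCurve.c₄, WeierstrassCurve.b₂, WeierstrassCurve.b₄]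
    field_simp
    ring
  · simp only [variableChange_a₆, vc, shortOf, shortCurve, Units.val_inv_eq_inv_val,
      Units.val_mk0, WeierstrassCurve.c₄, WeierstrassCurve.c₆, WeierstrassCurve.b₂,
      WeierstrassCurve.b₄, WeierstrassCurve.b₆]
    field_simp
    ring

theorem vc_map_smul (K : Type*) [Field K] [Algebra F K] (W : WeierstrassCurve F)
    (h2 : (2 : F) ≠ 0) (h3 : (3 : F) ≠ 0) :
    (vc W h2 h3).map (algebraMap F K) • (shortOf W)⁄K = W⁄K := by
  show (vc W h2 h3).map (algebraMap F K) • (shortOf W).map (algebraMap F K) =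
    W.map (algebraMap F K)
  rw [map_variableChange, vc_smul_shortOf]

theorem exists_some_eq {K : Type*} [Field K] {V : WeierstrassCurve K} {x x' y y' : K}
    (hx : x = x') (hy : y = y') (h : V.toAffine.Nonsingular x y) (Q : V.toAffine.Point)
    (hQ : Q = Affine.Point.some x y h) :
    ∃ h' : V.toAffine.Nonsingular x' y', Q = Affine.Point.some x' y' h' := by
  subst hx hy
  exact ⟨h, hQ⟩

end M1Short

variable (K : Type*) [Field K] [DecidableEq K] [Algebra F K]

/-- The group isomorphism `W(K) ≃ shortOf(W)(K)`, `(x, y) ↦ (36x + 3b₂, 108(2y + a₁x + a₃))`,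
in characteristic `≠ 2, 3`. -/
noncomputable def shortEquiv (W : WeierstrassCurve F) (h2 : (2 : F) ≠ 0) (h3 : (3 : F) ≠ 0) :
    (W⁄K).toAffine.Point ≃+ ((shortOf W)⁄K).toAffine.Point :=
  vcPointEquiv ((M1Short.vc W h2 h3).map (algebraMap F K)) (M1Short.vc_map_smul K W h2 h3)

theorem M1Short.shortEquiv_apply (W : WeierstrassCurve F) (h2 : (2 : F) ≠ 0) (h3 : (3 : F) ≠ 0)
    (P : (W⁄K).toAffine.Point) :
    shortEquiv K W h2 h3 P =
      vcPoint ((M1Short.vc W h2 h3).map (algebraMap F K)) (M1Short.vc_map_smul K W h2 h3) P :=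
  rfl

theorem shortEquiv_some (W : WeierstrassCurve F) (h2 : (2 : F) ≠ 0) (h3 : (3 : F) ≠ 0)
    {x y : K} (hxy : (W⁄K).toAffine.Nonsingular x y) :
    ∃ hxy' : ((shortOf W)⁄K).toAffine.Nonsingular (36 * x + 3 * algebraMap F K W.b₂)
        (108 * (2 * y + algebraMap F K W.a₁ * x + algebraMap F K W.a₃)),
      shortEquiv K W h2 h3 (Affine.Point.some x y hxy) = Affine.Point.some _ _ hxy' := by
  obtain ⟨hxy', h⟩ := vcPoint_some ((M1Short.vc W h2 h3).map (algebraMap F K))
    (M1Short.vc_map_smul K W h2 h3) hxy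
  refine M1Short.exists_some_eq ?_ ?_ hxy' _ ((M1Short.shortEquiv_apply K W h2 h3 _).trans h)
  · simp only [VariableChange.map, M1Short.vc, Units.coe_map, MonoidHom.coe_coe, Units.val_mk0,
      map_mul, map_ofNat]
    ring
  · simp only [VariableChange.map, M1Short.vc, Units.coe_map, MonoidHom.coe_coe, Units.val_mk0,
      map_mul, map_ofNat]
    ring

/-- Galois equivariance (Prelude action `σ • P = Point.map σ P`). -/
theorem shortEquiv_smul (W : WeierstrassCurve F) (h2 : (2 : F) ≠ 0) (h3 : (3 : F) ≠ 0)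
    (σ : K ≃ₐ[F] K) (P : (W⁄K).toAffine.Point) :
    shortEquiv K W h2 h3 (σ • P) = σ • shortEquiv K W h2 h3 P := by
  rcases P with _ | ⟨x, y, hxy⟩
  · show shortEquiv K W h2 h3 (σ • 0) = σ • shortEquiv K W h2 h3 0
    rw [smul_zero, map_zero, smul_zero]
  · obtain ⟨h1, e1⟩ := shortEquiv_some K W h2 h3 hxy
    have hσ : ∃ h' : (W⁄K).toAffine.Nonsingular (σ x) (σ y),
        σ • (Affine.Point.some x y hxy : (W⁄K).toAffine.Point) = Affine.Point.some (σ x) (σ y) h' :=
      ⟨_, rfl⟩
    obtain ⟨h', e'⟩ := hσ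
    obtain ⟨h2', e2⟩ := shortEquiv_some K W h2 h3 h'
    have hσ1 : ∃ h'' : ((shortOf W)⁄K).toAffine.Nonsingular
        (σ (36 * x + 3 * algebraMap F K W.b₂))
        (σ (108 * (2 * y + algebraMap F K W.a₁ * x + algebraMap F K W.a₃))),
        σ • (Affine.Point.some _ _ h1 : ((shortOf W)⁄K).toAffine.Point) =
          Affine.Point.some _ _ h'' :=
      ⟨_, rfl⟩
    obtain ⟨h'', e''⟩ := hσ1
    rw [e', e2, e1, e'', Affine.Point.some.injEq]
    constructor
    · simp only [map_add, map_mul, map_ofNat, AlgEquiv.commutes]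
    · simp only [map_add, map_mul, map_ofNat, AlgEquiv.commutes]

namespace M1Short

variable {K}

/-- The inverse of an equivariant additive equivalence is equivariant. -/
theorem symm_smul {W W' : WeierstrassCurve F}
    (e : (W⁄K).toAffine.Point ≃+ (W'⁄K).toAffine.Point)
    (he : ∀ (σ : K ≃ₐ[F] K) (P : (W⁄K).toAffine.Point), e (σ • P) = σ • e P)
    (σ : K ≃ₐ[F] K) (Q : (W'⁄K).toAffine.Point) : e.symm (σ • Q) = σ • e.symm Q := by
  apply e.injective
  rw [e.apply_symm_apply, he, e.apply_symm_apply]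

theorem mem_torsionBy_map {W W' : WeierstrassCurve F}
    (e : (W⁄K).toAffine.Point ≃+ (W'⁄K).toAffine.Point) (n : ℕ) {P : (W⁄K).toAffine.Point}
    (hP : P ∈ Submodule.torsionBy ℤ (W⁄K).toAffine.Point (n : ℤ)) :
    e P ∈ Submodule.torsionBy ℤ (W'⁄K).toAffine.Point (n : ℤ) := by
  rw [Submodule.mem_torsionBy_iff] at hP ⊢
  rw [← map_zsmul, hP, map_zero]

/-- The map induced on `n`-torsion by an additive equivalence, as a `ZMod n`-linear map. -/
noncomputable def torsionMap {W W' : WeierstrassCurve F}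
    (e : (W⁄K).toAffine.Point ≃+ (W'⁄K).toAffine.Point) (n : ℕ) :
    Submodule.torsionBy ℤ (W⁄K).toAffine.Point (n : ℤ) →ₗ[ZMod n]
      Submodule.torsionBy ℤ (W'⁄K).toAffine.Point (n : ℤ) :=
  AddMonoidHom.toZModLinearMap n
    { toFun := fun P => ⟨e P.1, mem_torsionBy_map e n P.2⟩
      map_zero' := Subtype.ext (map_zero e)
      map_add' := fun P Q => Subtype.ext (map_add e P.1 Q.1) }

theorem torsionMap_coe {W W' : WeierstrassCurve F}
    (e : (W⁄K).toAffine.Point ≃+ (W'⁄K).toAffine.Point) (n : ℕ)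
    (P : Submodule.torsionBy ℤ (W⁄K).toAffine.Point (n : ℤ)) :
    ((torsionMap e n P : Submodule.torsionBy ℤ (W'⁄K).toAffine.Point (n : ℤ)) :
      (W'⁄K).toAffine.Point) = e P.1 :=
  rfl

end M1Short

/-- Irreducibility of the mod `n` representation is transported by an equivariant additive
equivalence of the point groups. -/
theorem galoisRepIsIrreducible_of_addEquiv (W W' : WeierstrassCurve F)
    (e : (W⁄K).toAffine.Point ≃+ (W'⁄K).toAffine.Point)
    (he : ∀ (σ : K ≃ₐ[F] K) (P : (W⁄K).toAffine.Point), e (σ • P) = σ • e P) (n : ℕ)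
    (hW : Affine.Point.GaloisRepIsIrreducible (K := K) F W n) :
    Affine.Point.GaloisRepIsIrreducible (K := K) F W' n := by
  obtain ⟨hnt, hirr⟩ := hW
  have hfg : ∀ y, M1Short.torsionMap e n (M1Short.torsionMap e.symm n y) = y :=
    fun y => Subtype.ext (e.apply_symm_apply y.1)
  have hgf : ∀ x, M1Short.torsionMap e.symm n (M1Short.torsionMap e n x) = x :=
    fun x => Subtype.ext (e.symm_apply_apply x.1)
  have hfσ : ∀ (σ : K ≃ₐ[F] K) (x : Submodule.torsionBy ℤ (W⁄K).toAffine.Point (n : ℤ)),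
      M1Short.torsionMap e n (σ • x) = σ • M1Short.torsionMap e n x :=
    fun σ x => Subtype.ext (he σ x.1)
  refine ⟨?_, ?_⟩
  · obtain ⟨x, y, hxy⟩ := hnt
    exact ⟨M1Short.torsionMap e n x, M1Short.torsionMap e n y,
      fun h => hxy (by rw [← hgf x, ← hgf y, h])⟩
  · intro N' hN'
    have hst : Affine.Point.IsGaloisStable F (N'.comap (M1Short.torsionMap e n)) := by
      intro σ x hx
      rw [Submodule.mem_comap] at hx ⊢
      rw [hfσ]
      exact hN' σ _ hx
    rcases hirr _ hst with h | h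
    · left
      rw [eq_bot_iff]
      intro y hy
      have h1 : M1Short.torsionMap e.symm n y ∈ N'.comap (M1Short.torsionMap e n) := by
        rw [Submodule.mem_comap, hfg]
        exact hy
      rw [h, Submodule.mem_bot] at h1
      rw [Submodule.mem_bot, ← hfg y, h1, map_zero]
    · right
      rw [eq_top_iff]
      intro y _
      have h1 : M1Short.torsionMap e.symm n y ∈ N'.comap (M1Short.torsionMap e n) := by
        rw [h]
        exact Submodule.mem_top
      rw [Submodule.mem_comap, hfg] at h1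
      exact h1

/-- Transfer of irreducibility of the mod-`n` representation to the short model. -/
theorem galoisRepIsIrreducible_shortOf_iff (W : WeierstrassCurve F) (h2 : (2 : F) ≠ 0)
    (h3 : (3 : F) ≠ 0) (n : ℕ) :
    Affine.Point.GaloisRepIsIrreducible (K := K) F (shortOf W) n ↔
      Affine.Point.GaloisRepIsIrreducible (K := K) F W n :=
  ⟨galoisRepIsIrreducible_of_addEquiv K (shortOf W) W (shortEquiv K W h2 h3).symm
      (M1Short.symm_smul _ (shortEquiv_smul K W h2 h3)) n,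
    galoisRepIsIrreducible_of_addEquiv K W (shortOf W) (shortEquiv K W h2 h3)
      (shortEquiv_smul K W h2 h3) n⟩

theorem M1Short.exists_equiv_of_eq_shortOf (W' : WeierstrassCurve F) (h2 : (2 : F) ≠ 0)
    (h3 : (3 : F) ≠ 0) (S : WeierstrassCurve F) (hS : S = shortOf W') :
    ∃ e : (S⁄K).toAffine.Point ≃+ (W'⁄K).toAffine.Point,
      ∀ (σ : K ≃ₐ[F] K) (P : (S⁄K).toAffine.Point), e (σ • P) = σ • e P := by
  subst hS
  exact ⟨(shortEquiv K W' h2 h3).symm, M1Short.symm_smul _ (shortEquiv_smul K W' h2 h3)⟩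

/-- If two curves over `F` have the same `c₄`, `c₆` then their point groups over `K` are
equivariantly isomorphic. -/
theorem exists_equiv_of_c₄_c₆_eq (W W' : WeierstrassCurve F) (h2 : (2 : F) ≠ 0) (h3 : (3 : F) ≠ 0)
    (h4 : W.c₄ = W'.c₄) (h6 : W.c₆ = W'.c₆) :
    ∃ e : (W⁄K).toAffine.Point ≃+ (W'⁄K).toAffine.Point,
      ∀ (σ : K ≃ₐ[F] K) (P : (W⁄K).toAffine.Point), e (σ • P) = σ • e P := by
  have hS : shortOf W = shortOf W' := by
    unfold shortOf
    rw [h4, h6]
  obtain ⟨e₂, he₂⟩ := M1Short.exists_equiv_of_eq_shortOf K W' h2 h3 (shortOf W) hS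
  refine ⟨(shortEquiv K W h2 h3).trans e₂, fun σ P => ?_⟩
  rw [AddEquiv.trans_apply, AddEquiv.trans_apply, shortEquiv_smul, he₂]

end Short

section Rat

open WeierstrassCurve.Affine

local notation "Qbar" => AlgebraicClosure ℚ

set_option linter.unusedVariables false in
/-- The short model: a Galois-equivariant group isomorphism
`W(ℚ̄) ≃ (y² = x³ - 27 c₄ x - 54 c₆)(ℚ̄)`. -/
theorem short_iso (W : WeierstrassCurve ℤ) (hΔ : W.Δ ≠ 0) (h τ : ℚ) (hh : h = -(W.c₄ : ℚ))
    (hτ : τ = -(W.c₆ : ℚ)) :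
    ∃ e : (S51.gal_V W).Point ≃+ ((shortCurve h τ)⁄Qbar).Point,
      ∀ (σ : Qbar ≃ₐ[ℚ] Qbar) (P : (S51.gal_V W).Point), e (σ • P) = σ • e P := by
  subst hh hτ
  have hS : shortOf (W.map (Int.castRingHom ℚ)) = shortCurve (-(W.c₄ : ℚ)) (-(W.c₆ : ℚ)) :=
    shortOf_eq_of_c₄_c₆ _ (by rw [WeierstrassCurve.map_c₄]; rfl)
      (by rw [WeierstrassCurve.map_c₆]; rfl)
  rw [← hS]
  exact ⟨shortEquiv Qbar (W.map (Int.castRingHom ℚ)) (by norm_num) (by norm_num),
    shortEquiv_smul Qbar _ _ _⟩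

end Rat

end Fermat.Agent.S52
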