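import Fermat.Agent.S52.M3Basic

/-!
# P17 (S52), block M3: elementary arithmetic

* `m3_kF_dvd`: if `p` divides `u₁` exactly once then it divides `kF u₁ 1` exactly once;
* `m3_no_rat_root`: for `u₁ ≡ 2 mod 7` the quartic `m3Psi (kH u₁ 1) (kT u₁ 1)` has no rational
  root (reduction modulo `7`);
* `m3_exists_choice`: existence of a suitable pair `(p, u₁)`.
-/

set_option autoImplicit false

namespace Fermat.Agent.S52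

theorem m3_kF_dvd (p : ℕ) (hp : p.Prime) (u₁ : ℤ) (h1 : (p : ℤ) ∣ u₁) (h2 : ¬ (p : ℤ) ^ 2 ∣ u₁) :
    (p : ℤ) ∣ kF u₁ 1 ∧ ¬ (p : ℤ) ^ 2 ∣ kF u₁ 1 := by
  have hk : kF u₁ 1 = u₁ * (u₁ ^ 10 + 11 * u₁ ^ 5 - 1) := by
    unfold kF
    ring
  rw [hk]
  refine ⟨Dvd.dvd.mul_right h1 _, fun h => h2 ?_⟩
  have hpZ : Prime (p : ℤ) := Nat.prime_iff_prime_int.mp hp
  have hm : ¬ (p : ℤ) ∣ (u₁ ^ 10 + 11 * u₁ ^ 5 - 1) := by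
    intro hd
    have h3 : (p : ℤ) ∣ u₁ ^ 10 + 11 * u₁ ^ 5 :=
      Dvd.dvd.add (Dvd.dvd.pow h1 (by norm_num))
        (Dvd.dvd.mul_left (Dvd.dvd.pow h1 (by norm_num)) _)
    have h4 : (p : ℤ) ∣ 1 := by
      have h5 := Dvd.dvd.sub h3 hd
      have h6 : u₁ ^ 10 + 11 * u₁ ^ 5 - (u₁ ^ 10 + 11 * u₁ ^ 5 - 1) = 1 := by ring
      rwa [h6] at h5
    exact hpZ.not_dvd_one h4
  have hcop : IsCoprime ((p : ℤ) ^ 2) (u₁ ^ 10 + 11 * u₁ ^ 5 - 1) :=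
    IsCoprime.pow_left ((Prime.coprime_iff_not_dvd hpZ).mpr hm)
  exact hcop.dvd_of_dvd_mul_right h

/-- Clearing denominators in `m3Psi`. -/
theorem m3a_clear (H T a b : ℚ) (hb : b ≠ 0) :
    b ^ 4 * m3Psi H T (a / b) =
      3 * a ^ 4 + 162 * H * a ^ 2 * b ^ 2 + 648 * T * a * b ^ 3 - 729 * H ^ 2 * b ^ 4 := by
  unfold m3Psi
  field_simp

/-- The homogenized quartic has only the trivial zero modulo `7`. -/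
theorem m3a_mod7 : ∀ m n : ZMod 7,
    3 * m ^ 4 + 162 * 3 * m ^ 2 * n ^ 2 + 648 * 3 * m * n ^ 3 - 729 * 3 ^ 2 * n ^ 4 = 0 →
      m = 0 ∧ n = 0 := by
  decide

theorem m3a_cast_two (u₁ : ℤ) (h7 : u₁ ≡ 2 [ZMOD 7]) : ((u₁ : ℤ) : ZMod 7) = 2 := by
  have h := (ZMod.intCast_eq_intCast_iff u₁ 2 7).mpr h7
  rw [h]
  rfl

theorem m3a_kH_mod7 (u₁ : ℤ) (h7 : u₁ ≡ 2 [ZMOD 7]) : ((kH u₁ 1 : ℤ) : ZMod 7) = 3 := by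
  unfold kH
  push_cast
  rw [m3a_cast_two u₁ h7]
  decide

theorem m3a_kT_mod7 (u₁ : ℤ) (h7 : u₁ ≡ 2 [ZMOD 7]) : ((kT u₁ 1 : ℤ) : ZMod 7) = 3 := by
  unfold kT
  push_cast
  rw [m3a_cast_two u₁ h7]
  decide

theorem m3_no_rat_root (u₁ : ℤ) (h7 : u₁ ≡ 2 [ZMOD 7]) (x : ℚ) :
    m3Psi ((kH u₁ 1 : ℤ) : ℚ) ((kT u₁ 1 : ℤ) : ℚ) x ≠ 0 := by
  intro hx
  have hb : (x.den : ℚ) ≠ 0 := Nat.cast_ne_zero.mpr x.den_nz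
  have h0 : m3Psi ((kH u₁ 1 : ℤ) : ℚ) ((kT u₁ 1 : ℤ) : ℚ) ((x.num : ℚ) / (x.den : ℚ)) = 0 := by
    rw [Rat.num_div_den]
    exact hx
  have h1 := m3a_clear ((kH u₁ 1 : ℤ) : ℚ) ((kT u₁ 1 : ℤ) : ℚ) (x.num : ℚ) (x.den : ℚ) hb
  rw [h0, mul_zero] at h1
  have hZ : 3 * x.num ^ 4 + 162 * kH u₁ 1 * x.num ^ 2 * (x.den : ℤ) ^ 2 +
      648 * kT u₁ 1 * x.num * (x.den : ℤ) ^ 3 - 729 * kH u₁ 1 ^ 2 * (x.den : ℤ) ^ 4 = 0 := by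
    have h2 : ((3 * x.num ^ 4 + 162 * kH u₁ 1 * x.num ^ 2 * (x.den : ℤ) ^ 2 +
        648 * kT u₁ 1 * x.num * (x.den : ℤ) ^ 3 - 729 * kH u₁ 1 ^ 2 * (x.den : ℤ) ^ 4 : ℤ) : ℚ)
        = 0 := by
      push_cast
      exact h1.symm
    exact_mod_cast h2
  have h7' := congrArg (Int.cast : ℤ → ZMod 7) hZ
  push_cast at h7'
  rw [m3a_kH_mod7 u₁ h7, m3a_kT_mod7 u₁ h7] at h7'
  obtain ⟨hm, hn⟩ := m3a_mod7 _ _ h7'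
  have hd1 : (7 : ℤ) ∣ x.num := (ZMod.intCast_zmod_eq_zero_iff_dvd x.num 7).mp hm
  have hd2 : 7 ∣ x.den := (ZMod.natCast_eq_zero_iff x.den 7).mp hn
  have hd1' : 7 ∣ x.num.natAbs := Int.natCast_dvd.mp hd1
  have h3 : 7 ∣ Nat.gcd x.num.natAbs x.den := Nat.dvd_gcd hd1' hd2
  rw [Nat.Coprime.gcd_eq_one x.reduced] at h3
  omega

theorem m3a_pow6 : ∀ r : ZMod 7, r ≠ 0 → r ^ 6 = 1 := by
  decide

/-- The candidates `u = p (2 p⁵ + 7 + 7 p k)`. -/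
theorem m3a_cand (p : ℕ) (hp : p.Prime) (h7 : 7 < p) (k : ℤ) :
    (p : ℤ) ∣ (p : ℤ) * (2 * (p : ℤ) ^ 5 + 7 + 7 * (p : ℤ) * k) ∧
    ¬ (p : ℤ) ^ 2 ∣ (p : ℤ) * (2 * (p : ℤ) ^ 5 + 7 + 7 * (p : ℤ) * k) ∧
    (p : ℤ) * (2 * (p : ℤ) ^ 5 + 7 + 7 * (p : ℤ) * k) ≡ 2 [ZMOD 7] := by
  have hp0 : (p : ℤ) ≠ 0 := Int.natCast_ne_zero.mpr hp.ne_zero
  have hn7 : ¬ (p : ℤ) ∣ 7 := by
    intro h
    have h1 : (p : ℤ) ≤ 7 := Int.le_of_dvd (by norm_num) h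
    have h2 : p ≤ 7 := by exact_mod_cast h1
    omega
  refine ⟨dvd_mul_right _ _, ?_, ?_⟩
  · intro h
    rw [pow_two] at h
    have h2 : (p : ℤ) ∣ 2 * (p : ℤ) ^ 5 + 7 + 7 * (p : ℤ) * k :=
      (mul_dvd_mul_iff_left hp0).mp h
    have h3 : 2 * (p : ℤ) ^ 5 + 7 + 7 * (p : ℤ) * k
        = (p : ℤ) * (2 * (p : ℤ) ^ 4 + 7 * k) + 7 := by ring
    rw [h3] at h2
    exact hn7 ((dvd_add_right (dvd_mul_right _ _)).mp h2)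
  · have hpz : (p : ZMod 7) ≠ 0 := by
      rw [Ne, ZMod.natCast_eq_zero_iff]
      intro h
      have h1 := (Nat.prime_dvd_prime_iff_eq (by norm_num) hp).mp h
      omega
    have h6 : (p : ZMod 7) ^ 6 = 1 := m3a_pow6 _ hpz
    have h70 : (7 : ZMod 7) = 0 := by decide
    have h2 : (((p : ℤ) * (2 * (p : ℤ) ^ 5 + 7 + 7 * (p : ℤ) * k) : ℤ) : ZMod 7)
        = ((2 : ℤ) : ZMod 7) := by
      push_cast
      rw [h70]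
      linear_combination 2 * h6
    exact (ZMod.intCast_eq_intCast_iff _ _ 7).mp h2

theorem m3_exists_choice (D : ℤ) (hD : D ≠ 0) (S : Finset ℕ) (bad : Option ℚ) :
    ∃ (p : ℕ) (u₁ : ℤ), p.Prime ∧ p ∉ S ∧ 7 < p ∧ ¬ (p : ℤ) ∣ D ∧ (p : ℤ) ∣ u₁ ∧
      ¬ (p : ℤ) ^ 2 ∣ u₁ ∧ u₁ ≡ 2 [ZMOD 7] ∧ some (u₁ : ℚ) ≠ bad := by
  obtain ⟨p, hpn, hp⟩ := Nat.exists_infinite_primes (8 + S.sup id + D.natAbs + 1)
  have h7 : 7 < p := by omega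
  have hS : p ∉ S := by
    intro hmem
    have h1 : id p ≤ S.sup id := Finset.le_sup (f := id) hmem
    simp only [id] at h1
    omega
  have hDp : ¬ (p : ℤ) ∣ D := by
    intro h
    have h1 : p ∣ D.natAbs := Int.natCast_dvd.mp h
    have h2 : p ≤ D.natAbs := Nat.le_of_dvd (Int.natAbs_pos.mpr hD) h1
    omega
  have hp0 : (p : ℤ) ≠ 0 := Int.natCast_ne_zero.mpr hp.ne_zero
  obtain ⟨a1, a2, a3⟩ := m3a_cand p hp h7 0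
  obtain ⟨b1, b2, b3⟩ := m3a_cand p hp h7 1
  by_cases hbad : some ((((p : ℤ) * (2 * (p : ℤ) ^ 5 + 7 + 7 * (p : ℤ) * 0) : ℤ)) : ℚ) = bad
  · refine ⟨p, _, hp, hS, h7, hDp, b1, b2, b3, ?_⟩
    rw [← hbad]
    intro h
    have h' := Option.some.inj h
    have h'' : (p : ℤ) * (2 * (p : ℤ) ^ 5 + 7 + 7 * (p : ℤ) * 1)
        = (p : ℤ) * (2 * (p : ℤ) ^ 5 + 7 + 7 * (p : ℤ) * 0) := by exact_mod_cast h'
    have h3 := mul_left_cancel₀ hp0 h''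
    have h4 : (p : ℤ) = 0 := by linarith
    exact hp0 h4
  · exact ⟨p, _, hp, hS, h7, hDp, a1, a2, a3, hbad⟩

end Fermat.Agent.S52
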