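import Fermat.Agent.S42.FrobQbar

/-!
# P17 (S52), block M3, module `M3Density`: Frobenius density in generator form

For a finite Galois extension `L/ℚ` inside `ℚ̄`, an element `g` of the absolute Galois group and a
finite set `S`, there are a prime `ℓ ∉ S`, a valuation subring `A` of `ℚ̄` over `ℓ` and a Frobenius
element `σ` at `A` such that `σ` and `g` generate the same cyclic subgroup of `Gal(L/ℚ)`:
`σ = g ^ i` and `σ ^ j = g` on `L` (`exists_frobenius_gen_on`).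

This is the statement `Fermat.Agent.S42.exists_frobenius_pow_eq_on` with the additional conclusion
`σ = g ^ i` on `L`, which is what its proof gives (the Frobenius lies in the Galois group of `L`
over the fixed field of `g`).
-/

set_option autoImplicit false

namespace Fermat.Agent.S52

open NumberField IsDedekindDomain Fermat.Agent.S42

/-- Finite level: every element `γ` of the Galois group of a Galois number field `L/ℚ` generates
the same cyclic subgroup as an element `φ` which is a Frobenius (`φ x ≡ x ^ ℓ`) modulo a prime `𝔏`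
of `L` over an arbitrarily large prime number `ℓ`. -/
theorem m3d_exists_frob_gen.{u}
    (L : Type u) [Field L] [NumberField L] [IsGalois ℚ L] (γ : L ≃ₐ[ℚ] L) (N : ℕ) :
    ∃ (ℓ : ℕ) (𝔏 : Ideal (𝓞 L)) (φ : L ≃ₐ[ℚ] L) (i j : ℕ),
      ℓ.Prime ∧ N < ℓ ∧ 𝔏.IsPrime ∧ (ℓ : 𝓞 L) ∈ 𝔏 ∧ φ ^ j = γ ∧ γ ^ i = φ ∧
        ∀ x : 𝓞 L, φ • x - x ^ ℓ ∈ 𝔏 := by
  classical
  let H : Subgroup (L ≃ₐ[ℚ] L) := Subgroup.zpowers γ
  let M : IntermediateField ℚ L := IntermediateField.fixedField H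
  have hfix : M.fixingSubgroup = H := IntermediateField.fixingSubgroup_fixedField H
  have hcyc : IsCyclic (L ≃ₐ[M] L) := by
    have h1 : IsCyclic M.fixingSubgroup := by
      rw [hfix]
      infer_instance
    exact isCyclic_of_injective (IntermediateField.fixingSubgroupEquiv M).symm.toMonoidHom
      (IntermediateField.fixingSubgroupEquiv M).symm.injective
  obtain ⟨𝔮, ⟨hqprime, hQ⟩, hN⟩ := fq_exists_inert_gt M L (infinite_inertSet M L) N
  obtain ⟨φ', hφ', hgen⟩ := fq_exists_frob_generator M L 𝔮.asIdeal hqprime hQ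
  -- `γ` as an element of `Gal(L/M)`
  have hγmem : γ ∈ M.fixingSubgroup := by
    rw [hfix]
    exact Subgroup.mem_zpowers γ
  have hγ' : IntermediateField.fixingSubgroupEquiv M ⟨γ, hγmem⟩ ∈ Subgroup.zpowers φ' := by
    rw [hgen]
    trivial
  obtain ⟨j, hj⟩ := mem_powers_iff_mem_zpowers.mpr hγ'
  have hj' : φ' ^ j = IntermediateField.fixingSubgroupEquiv M ⟨γ, hγmem⟩ := hj
  -- `φ'` as an element of `⟨γ⟩`
  have hφmem : ((IntermediateField.fixingSubgroupEquiv M).symm φ' : L ≃ₐ[ℚ] L) ∈ H := by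
    rw [← hfix]
    exact SetLike.coe_mem _
  obtain ⟨i, hi⟩ := mem_powers_iff_mem_zpowers.mpr hφmem
  have hi' : γ ^ i = ((IntermediateField.fixingSubgroupEquiv M).symm φ' : L ≃ₐ[ℚ] L) := hi
  refine ⟨Ideal.absNorm 𝔮.asIdeal, _, φ'.restrictScalars ℚ, i, j, hqprime, hN, hQ, ?_, ?_, ?_, ?_⟩
  · have h1 : ((Ideal.absNorm 𝔮.asIdeal : ℕ) : 𝓞 M) ∈ 𝔮.asIdeal := Ideal.absNorm_mem _
    have h2 := Ideal.mem_map_of_mem (algebraMap (𝓞 M) (𝓞 L)) h1
    rwa [map_natCast] at h2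
  · have h1 : ((IntermediateField.fixingSubgroupEquiv M).symm φ') ^ j = ⟨γ, hγmem⟩ := by
      rw [← map_pow, hj', MulEquiv.symm_apply_apply]
    have h2 := congrArg Subtype.val h1
    rw [Subgroup.coe_pow] at h2
    exact h2
  · exact hi'
  · intro x
    exact hφ' x

local notation "Ω" => AlgebraicClosure ℚ

/-- **Frobenius density theorem for valuation subrings of `ℚ̄`, generator form.** For a finite
Galois extension `L/ℚ` inside `ℚ̄`, an element `g` of the absolute Galois group and a finite set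
`S`, there are a prime `ℓ ∉ S`, a valuation subring `A` of `ℚ̄` over `ℓ`, a Frobenius element `σ`
at `A` and exponents `i`, `j` such that `σ = g ^ i` and `σ ^ j = g` on `L`. -/
theorem exists_frobenius_gen_on (L : IntermediateField ℚ (AlgebraicClosure ℚ))
    [FiniteDimensional ℚ L] [IsGalois ℚ L]
    (g : AlgebraicClosure ℚ ≃ₐ[ℚ] AlgebraicClosure ℚ) (S : Finset ℕ) :
    ∃ (ℓ : ℕ) (A : ValuationSubring (AlgebraicClosure ℚ))
      (σ : AlgebraicClosure ℚ ≃ₐ[ℚ] AlgebraicClosure ℚ) (i j : ℕ),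
      ℓ.Prime ∧ ℓ ∉ S ∧ A.LiesOverPrime ℓ ∧ A.IsFrobeniusAt σ ℓ ∧
        (∀ x ∈ L, σ x = (g ^ i) x) ∧ (∀ x ∈ L, (σ ^ j) x = g x) := by
  classical
  have hNF : NumberField ↥L := fq_numberField L
  obtain ⟨N, hN⟩ := fq_exists_bound ↥L
  obtain ⟨ℓ, 𝔏, φ, i, j, hℓ, hlt, h𝔏prime, hℓ𝔏, hφj, hγi, hφ⟩ :=
    m3d_exists_frob_gen ↥L (AlgEquiv.restrictNormalHom L g) (max N (S.sup id))
  have hℓ0 : (ℓ : 𝓞 ↥L) ≠ 0 := Nat.cast_ne_zero.mpr hℓ.ne_zero
  have h𝔏bot : 𝔏 ≠ ⊥ := by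
    intro h
    rw [h, Ideal.mem_bot] at hℓ𝔏
    exact hℓ0 hℓ𝔏
  have h𝔏max : 𝔏.IsMaximal := h𝔏prime.isMaximal h𝔏bot
  obtain ⟨A, -, hA⟩ := fq_exists_valuationSubring (fq_emb L) (fq_emb_injective L) 𝔏
  have hAℓ : A.LiesOverPrime ℓ := by
    have h1 := (hA (ℓ : 𝓞 ↥L)).mpr hℓ𝔏
    rw [map_natCast] at h1
    exact h1
  obtain ⟨σ, hσ⟩ := Fermat.Agent.S37.exists_isFrobeniusAt_of_liesOver A ℓ hℓ hAℓ
  have hσφ : AlgEquiv.restrictNormalHom L σ = φ := by
    refine hN ℓ hℓ (lt_of_le_of_lt (le_max_left _ _) hlt) 𝔏 h𝔏prime.ne_top hℓ𝔏 _ _ fun x => ?_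
    have h1 := fq_restrict_frob L A σ ℓ hσ 𝔏 hA x
    have h2 := hφ x
    have h3 : (AlgEquiv.restrictNormalHom L σ) • x - φ • x =
        ((AlgEquiv.restrictNormalHom L σ) • x - x ^ ℓ) - (φ • x - x ^ ℓ) := by ring
    rw [h3]
    exact 𝔏.sub_mem h1 h2
  refine ⟨ℓ, A, σ, i, j, hℓ, ?_, hAℓ, hσ, ?_, ?_⟩
  · intro hS
    have h1 : ℓ ≤ S.sup id := Finset.le_sup (f := id) hS
    have h2 : S.sup id < ℓ := lt_of_le_of_lt (le_max_right _ _) hlt
    exact absurd h1 (not_le.mpr h2)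
  · intro x hx
    have h1 : AlgEquiv.restrictNormalHom L σ = AlgEquiv.restrictNormalHom L (g ^ i) := by
      rw [map_pow, hσφ, hγi]
    have h2 := AlgEquiv.restrictNormal_commutes σ ↥L (⟨x, hx⟩ : ↥L)
    have h3 := AlgEquiv.restrictNormal_commutes (g ^ i) ↥L (⟨x, hx⟩ : ↥L)
    have h4 : σ.restrictNormal ↥L = (g ^ i).restrictNormal ↥L := h1
    rw [h4, h3] at h2
    exact h2.symm
  · intro x hx
    have h1 : AlgEquiv.restrictNormalHom L (σ ^ j) = AlgEquiv.restrictNormalHom L g := by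
      rw [map_pow, hσφ, hφj]
    have h2 := AlgEquiv.restrictNormal_commutes (σ ^ j) ↥L (⟨x, hx⟩ : ↥L)
    have h3 := AlgEquiv.restrictNormal_commutes g ↥L (⟨x, hx⟩ : ↥L)
    have h4 : (σ ^ j).restrictNormal ↥L = g.restrictNormal ↥L := h1
    rw [h4, h3] at h2
    exact h2.symm

end Fermat.Agent.S52
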