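import Fermat.Agent.S52.Defs
import Fermat.Agent.S51.Galois
import Fermat.Agent.S42.Cyclo

/-!
# P17 (S52) block M3: the subgroup fixing `E[5]` and `μ₅`, and a finite level for it
-/

set_option autoImplicit false

namespace Fermat.Agent.S52

open WeierstrassCurve WeierstrassCurve.Affine Polynomial

local notation "Qbar" => AlgebraicClosure ℚ
local notation "Γ" => (AlgebraicClosure ℚ ≃ₐ[ℚ] AlgebraicClosure ℚ)

theorem m3fb_smul_nsmul (E : WeierstrassCurve ℚ) (σ : Γ) (k : ℕ) (P : (E⁄Qbar).Point) :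
    σ • (k • P) = k • (σ • P) :=
  map_nsmul (Point.map σ.toAlgHom) k P

/-- The Galois automorphisms fixing all `5`-torsion points of `E` over `ℚ̄` and all fifth roots of
unity. -/
def m3FixerB (E : WeierstrassCurve ℚ) : Subgroup Γ where
  carrier := {σ | (∀ P : (E⁄Qbar).Point, 5 • P = 0 → σ • P = P) ∧
    ∀ ζ : Qbar, ζ ^ 5 = 1 → σ ζ = ζ}
  mul_mem' := by
    rintro a b ⟨ha1, ha2⟩ ⟨hb1, hb2⟩
    refine ⟨fun P hP => ?_, fun ζ hζ => ?_⟩
    · rw [mul_smul, hb1 P hP, ha1 P hP]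
    · rw [AlgEquiv.mul_apply, hb2 ζ hζ, ha2 ζ hζ]
  one_mem' := ⟨fun P _ => one_smul _ P, fun ζ _ => rfl⟩
  inv_mem' := by
    rintro a ⟨ha1, ha2⟩
    refine ⟨fun P hP => ?_, fun ζ hζ => ?_⟩
    · rw [inv_smul_eq_iff]
      exact (ha1 P hP).symm
    · rw [AlgEquiv.aut_inv]
      exact (AlgEquiv.symm_apply_eq a).mpr (ha2 ζ hζ).symm

theorem mem_m3FixerB (E : WeierstrassCurve ℚ) (σ : Γ) :
    σ ∈ m3FixerB E ↔ (∀ P : (E⁄Qbar).Point, 5 • P = 0 → σ • P = P) ∧
      ∀ ζ : Qbar, ζ ^ 5 = 1 → σ ζ = ζ := Iff.rfl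

instance m3FixerB_normal (E : WeierstrassCurve ℚ) : (m3FixerB E).Normal := by
  refine ⟨?_⟩
  rintro n ⟨hn1, hn2⟩ g
  refine ⟨fun P hP => ?_, fun ζ hζ => ?_⟩
  · have h1 : 5 • (g⁻¹ • P) = 0 := by
      rw [← m3fb_smul_nsmul, hP]
      rfl
    rw [mul_smul, mul_smul, hn1 _ h1, smul_inv_smul]
  · have h1 : (g⁻¹ ζ) ^ 5 = 1 := by rw [← map_pow, hζ, map_one]
    rw [AlgEquiv.mul_apply, AlgEquiv.mul_apply, hn2 _ h1]
    exact AlgEquiv.apply_symm_apply g ζ

/-- The `y`-coordinate of an affine point, with junk value `0` at the point at infinity. -/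
def m3fb_yc {k : Type*} [CommRing k] {V : Affine k} : V.Point → k
  | .zero => 0
  | .some _ y _ => y

/-- A finite Galois extension `L/ℚ` inside `ℚ̄` containing a given finite set and such that
membership in `m3FixerB E` only depends on the restriction to `L`. -/
theorem m3_exists_field_B (E : WeierstrassCurve ℚ) (hE : E.Δ ≠ 0) (X : Finset Qbar) :
    ∃ L : IntermediateField ℚ Qbar, FiniteDimensional ℚ L ∧ IsGalois ℚ L ∧ (∀ x ∈ X, x ∈ L) ∧
      ∀ σ τ : Γ, (∀ x ∈ L, σ x = τ x) → τ ∈ m3FixerB E → σ ∈ m3FixerB E := by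
  classical
  have hΔ : (E⁄Qbar).Δ ≠ 0 := by
    have h1 : (E⁄Qbar).Δ = algebraMap ℚ Qbar E.Δ := by
      simp [WeierstrassCurve.baseChange, WeierstrassCurve.map_Δ]
    rw [h1]
    simpa using hE
  have hfin := (S51.five_torsion_finite (E⁄Qbar) hΔ).1
  have h5fin : {ζ : Qbar | ζ ^ 5 = 1}.Finite := by
    have h : {ζ : Qbar | ζ ^ 5 = 1} ⊆ ((Polynomial.nthRoots 5 (1 : Qbar)).toFinset : Set Qbar) := by
      intro ζ hζ
      simp only [Finset.mem_coe, Multiset.mem_toFinset]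
      exact (Polynomial.mem_nthRoots (by norm_num)).mpr hζ
    exact (Finset.finite_toSet _).subset h
  set Y : Set Qbar := (↑X ∪ {ζ : Qbar | ζ ^ 5 = 1}) ∪
    ((S51.xc '' {P : (E⁄Qbar).Point | 5 • P = 0}) ∪
      (m3fb_yc '' {P : (E⁄Qbar).Point | 5 • P = 0})) with hY
  have hYfin : Y.Finite :=
    ((Finset.finite_toSet X).union h5fin).union ((hfin.image _).union (hfin.image _))
  have hfd : FiniteDimensional ℚ (IntermediateField.adjoin ℚ Y) := by
    have := hYfin.fintype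
    exact IntermediateField.finiteDimensional_adjoin (fun x _ => Algebra.IsIntegral.isIntegral x)
  obtain ⟨L, hle, hLfin, hLgal⟩ := S42.cy_exists_finite_galois_ge (IntermediateField.adjoin ℚ Y)
  have hYL : ∀ y ∈ Y, y ∈ L := fun y hy => hle (IntermediateField.subset_adjoin ℚ Y hy)
  refine ⟨L, hLfin, hLgal, fun x hx => hYL x (Or.inl (Or.inl (Finset.mem_coe.mpr hx))), ?_⟩
  rintro σ τ hστ ⟨hτ1, hτ2⟩
  refine ⟨fun P hP => ?_, fun ζ hζ => ?_⟩
  · have key : σ • P = τ • P := by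
      cases P with
      | zero => rfl
      | some x y h =>
        have hx : σ x = τ x :=
          hστ x (hYL x (Or.inr (Or.inl ⟨Point.some x y h, hP, rfl⟩)))
        have hy : σ y = τ y :=
          hστ y (hYL y (Or.inr (Or.inr ⟨Point.some x y h, hP, rfl⟩)))
        simp only [Point.algEquiv_smul_def, Point.map_some]
        rw [Point.some.injEq]
        exact ⟨hx, hy⟩
    rw [key, hτ1 P hP]
  · rw [hστ ζ (hYL ζ (Or.inl (Or.inr hζ))), hτ2 ζ hζ]

end Fermat.Agent.S52
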