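import Fermat.Agent.S52.M3Basic
import Fermat.Prelude.Def_FLTPrelim_Ramification
import Fermat.Agent.S05.Inertia
import Fermat.Agent.S54.Frobenius

/-!
# P17 (S52), block M3: the reduction step

* `m3_final`: a rational root of the `3`-division polynomial of a curve congruent (up to the
  twist by a unit `μ`) to `shortCurve H0 T0` contradicts a decomposition-group element moving
  all four roots of `m3Psi H0 T0`.
* `m3_good`: such a congruent curve has good reduction at `q`.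
-/

set_option autoImplicit false

namespace Fermat.Agent.S52

open WeierstrassCurve

local notation "Qbar" => AlgebraicClosure ℚ
local notation "Γ" => (AlgebraicClosure ℚ ≃ₐ[ℚ] AlgebraicClosure ℚ)

section m3e_aux

variable {L : Type*} [Field L] (A : ValuationSubring L)

theorem m3e_lt_add {a b : L} (ha : A.valuation a < 1) (hb : A.valuation b < 1) :
    A.valuation (a + b) < 1 :=
  lt_of_le_of_lt (A.valuation.map_add a b) (max_lt ha hb)

theorem m3e_lt_sub {a b : L} (ha : A.valuation a < 1) (hb : A.valuation b < 1) :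
    A.valuation (a - b) < 1 :=
  lt_of_le_of_lt (A.valuation.map_sub a b) (max_lt ha hb)

theorem m3e_mem_mul_lt {a b : L} (ha : a ∈ A) (hb : A.valuation b < 1) :
    A.valuation (a * b) < 1 := by
  rw [map_mul]
  exact lt_of_le_of_lt (mul_le_of_le_one_left' ((A.valuation_le_one_iff a).mpr ha)) hb

theorem m3e_mem_of_valuation_eq_one {a : L} (ha : A.valuation a = 1) : a ∈ A :=
  (A.valuation_le_one_iff a).mp ha.le

/-- Roots of `m3Psi H T` with integral `H`, `T` are integral when `3` is a unit. -/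
theorem m3e_root_mem {H T X : L} (h3 : A.valuation (3 : L) = 1) (hH : H ∈ A) (hT : T ∈ A)
    (hX : m3Psi H T X = 0) : X ∈ A := by
  rcases A.mem_or_inv_mem X with h | h
  · exact h
  · have h30 : (3 : L) ≠ 0 := by
      intro h0
      rw [h0, map_zero] at h3
      exact zero_ne_one h3
    by_cases hX0 : X = 0
    · rw [hX0]; exact zero_mem A
    have h3inv : (3 : L)⁻¹ ∈ A :=
      (A.valuation_le_one_iff _).mp (by rw [map_inv₀, h3, inv_one])
    have e : X = (3 : L)⁻¹ *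
        (729 * H ^ 2 * X⁻¹ ^ 3 - 162 * H * X⁻¹ - 648 * T * X⁻¹ ^ 2) := by
      unfold m3Psi at hX
      field_simp
      linear_combination hX
    rw [e]
    refine mul_mem h3inv (sub_mem (sub_mem ?_ ?_) ?_)
    · exact mul_mem (mul_mem (ofNat_mem A 729) (pow_mem hH 2)) (pow_mem h 3)
    · exact mul_mem (mul_mem (ofNat_mem A 162) hH) h
    · exact mul_mem (mul_mem (ofNat_mem A 648) hT) (pow_mem h 2)

theorem m3e_exists_lt {a b c d : L} (ha : A.valuation a ≤ 1) (hb : A.valuation b ≤ 1)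
    (hc : A.valuation c ≤ 1) (hd : A.valuation d ≤ 1)
    (h : A.valuation (a * b * c * d) < 1) :
    A.valuation a < 1 ∨ A.valuation b < 1 ∨ A.valuation c < 1 ∨ A.valuation d < 1 := by
  by_contra hcon
  rw [not_or, not_or, not_or, not_lt, not_lt, not_lt, not_lt] at hcon
  obtain ⟨h1, h2, h3, h4⟩ := hcon
  rw [map_mul, map_mul, map_mul, le_antisymm ha h1, le_antisymm hb h2, le_antisymm hc h3,
    le_antisymm hd h4, one_mul, one_mul, one_mul] at h
  exact lt_irrefl _ h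

end m3e_aux

theorem m3_final (q : ℕ) (hq : q.Prime) (hq3 : q ≠ 3) (A : ValuationSubring Qbar)
    (hA : A.LiesOverPrime q) (σ : Γ) (hσ : σ ∈ A.decompositionSubgroup ℚ)
    (H0 T0 : ℤ) (x : Fin 4 → Qbar)
    (hx : ∀ X : Qbar, m3Psi (H0 : Qbar) (T0 : Qbar) X =
      3 * ((X - x 0) * (X - x 1) * (X - x 2) * (X - x 3)))
    (hunit : ∀ a b, a ≠ b → A.valuation (x a - x b) = 1)
    (hmove : ∀ b, σ (x b) ≠ x b)
    (μ : Qbar) (hμ : A.valuation μ = 1) (hσμ : σ μ = μ)
    (Ht Tt : ℤ) (hH : A.valuation ((Ht : Qbar) - μ ^ 2 * (H0 : Qbar)) < 1)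
    (hT : A.valuation ((Tt : Qbar) - μ ^ 3 * (T0 : Qbar)) < 1)
    (y : ℚ) (hy : m3Psi (Ht : ℚ) (Tt : ℚ) y = 0) : False := by
  -- `3` and `μ` are units
  have h3 : A.valuation (3 : Qbar) = 1 := by
    have h := S05.valuation_natCast_eq_one (A := A) hq hA (n := 3)
      (fun h => hq3 ((Nat.prime_dvd_prime_iff_eq hq Nat.prime_three).mp h))
    simpa using h
  have h30 : (3 : Qbar) ≠ 0 := by
    intro h0
    rw [h0, map_zero] at h3
    exact zero_ne_one h3
  have hμ0 : μ ≠ 0 := by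
    intro h0
    rw [h0, map_zero] at hμ
    exact zero_ne_one hμ
  have hμA : μ ∈ A := m3e_mem_of_valuation_eq_one A hμ
  have hint : ∀ n : ℤ, (n : Qbar) ∈ A := fun n => intCast_mem A n
  -- the rational root, seen in `Qbar`
  have hyq : m3Psi (Ht : Qbar) (Tt : Qbar) (y : Qbar) = 0 := by
    have h := congrArg (Rat.castHom Qbar) hy
    rw [m3Psi_map, map_zero, map_intCast, map_intCast] at h
    exact h
  -- integrality of the roots
  have hyA : (y : Qbar) ∈ A := m3e_root_mem A h3 (hint Ht) (hint Tt) hyq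
  have hx0 : ∀ b, m3Psi (H0 : Qbar) (T0 : Qbar) (x b) = 0 := by
    intro b
    rw [hx (x b)]
    fin_cases b <;> simp
  have hxA : ∀ b, x b ∈ A := fun b => m3e_root_mem A h3 (hint H0) (hint T0) (hx0 b)
  -- the twisted root
  set z : Qbar := (y : Qbar) / μ with hz
  have hzA : z ∈ A := by
    refine (A.valuation_le_one_iff _).mp ?_
    rw [hz, map_div₀, hμ, div_one]
    exact (A.valuation_le_one_iff _).mpr hyA
  have hσz : σ z = z := by
    rw [hz, map_div₀, hσμ, map_ratCast]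
  have hkey : μ ^ 4 * m3Psi (H0 : Qbar) (T0 : Qbar) z =
      (-162 * (y : Qbar) ^ 2) * ((Ht : Qbar) - μ ^ 2 * (H0 : Qbar)) +
      (-648 * (y : Qbar)) * ((Tt : Qbar) - μ ^ 3 * (T0 : Qbar)) +
      (729 * (μ ^ 2 * (H0 : Qbar) + (Ht : Qbar))) * ((Ht : Qbar) - μ ^ 2 * (H0 : Qbar)) := by
    have e : (y : Qbar) = z * μ := by rw [hz, div_mul_cancel₀ _ hμ0]
    unfold m3Psi at hyq ⊢
    rw [e] at hyq ⊢
    linear_combination hyq
  have hsmall : A.valuation (m3Psi (H0 : Qbar) (T0 : Qbar) z) < 1 := by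
    have h1 : A.valuation (μ ^ 4 * m3Psi (H0 : Qbar) (T0 : Qbar) z) < 1 := by
      rw [hkey]
      refine m3e_lt_add A (m3e_lt_add A (m3e_mem_mul_lt A ?_ hH) (m3e_mem_mul_lt A ?_ hT))
        (m3e_mem_mul_lt A ?_ hH)
      · exact mul_mem (neg_mem (ofNat_mem A 162)) (pow_mem hyA 2)
      · exact mul_mem (neg_mem (ofNat_mem A 648)) hyA
      · exact mul_mem (ofNat_mem A 729) (add_mem (mul_mem (pow_mem hμA 2) (hint H0)) (hint Ht))
    rw [map_mul, map_pow, hμ, one_pow, one_mul] at h1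
    exact h1
  -- `z` is congruent to one of the roots
  have hprod : A.valuation ((z - x 0) * (z - x 1) * (z - x 2) * (z - x 3)) < 1 := by
    have h1 := hsmall
    rw [hx z, map_mul, h3, one_mul] at h1
    exact h1
  have hfac : ∀ b, A.valuation (z - x b) ≤ 1 := fun b =>
    (A.valuation_le_one_iff _).mpr (sub_mem hzA (hxA b))
  obtain ⟨b, hb⟩ : ∃ b, A.valuation (z - x b) < 1 := by
    rcases m3e_exists_lt A (hfac 0) (hfac 1) (hfac 2) (hfac 3) hprod with h | h | h | h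
    exacts [⟨0, h⟩, ⟨1, h⟩, ⟨2, h⟩, ⟨3, h⟩]
  -- hence `σ (x b)` is congruent to `x b`
  have h5 : A.valuation (z - σ (x b)) < 1 := by
    have h := S05.Inertia.valuation_apply_of_mem_decomposition A σ hσ (z - x b)
    rw [map_sub, hσz] at h
    rw [h]
    exact hb
  have h6 : A.valuation (x b - σ (x b)) < 1 := by
    have e : x b - σ (x b) = (z - σ (x b)) - (z - x b) := by ring
    rw [e]
    exact m3e_lt_sub A h5 hb
  -- but `σ (x b)` is another root
  have hroot : m3Psi (H0 : Qbar) (T0 : Qbar) (σ (x b)) = 0 := by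
    have h := congrArg σ (hx0 b)
    unfold m3Psi at h ⊢
    simp only [map_sub, map_add, map_mul, map_pow, map_ofNat, map_intCast, map_zero] at h
    exact h
  have hzero : (σ (x b) - x 0) * (σ (x b) - x 1) * (σ (x b) - x 2) * (σ (x b) - x 3) = 0 := by
    have h := hroot
    rw [hx (σ (x b))] at h
    exact (mul_eq_zero.mp h).resolve_left h30
  obtain ⟨b', hb'⟩ : ∃ b', σ (x b) = x b' := by
    rcases mul_eq_zero.mp hzero with h | h
    · rcases mul_eq_zero.mp h with h | h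
      · rcases mul_eq_zero.mp h with h | h
        · exact ⟨0, sub_eq_zero.mp h⟩
        · exact ⟨1, sub_eq_zero.mp h⟩
      · exact ⟨2, sub_eq_zero.mp h⟩
    · exact ⟨3, sub_eq_zero.mp h⟩
  have hne : b ≠ b' := by
    intro h
    rw [← h] at hb'
    exact hmove b hb'
  have h7 := hunit b b' hne
  rw [hb', h7] at h6
  exact lt_irrefl _ h6

theorem m3_good (q : ℕ) (hq : q.Prime) (A : ValuationSubring Qbar) (hA : A.LiesOverPrime q)
    (μ : Qbar) (hμ : A.valuation μ = 1) (H0 T0 F0 : ℤ) (hrel : T0 ^ 2 + H0 ^ 3 = 1728 * F0 ^ 5)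
    (hF : ¬ (q : ℤ) ∣ 1728 * F0) (W' : WeierstrassCurve ℤ)
    (hH : A.valuation (((-W'.c₄ : ℤ) : Qbar) - μ ^ 2 * (H0 : Qbar)) < 1)
    (hT : A.valuation (((-W'.c₆ : ℤ) : Qbar) - μ ^ 3 * (T0 : Qbar)) < 1) :
    ¬ (q : ℤ) ∣ W'.Δ := by
  intro hdvd
  have hqZ : Prime (q : ℤ) := Nat.prime_iff_prime_int.mp hq
  have hF5 : ¬ (q : ℤ) ∣ 1728 * F0 ^ 5 := by
    intro h
    rcases hqZ.dvd_or_dvd h with h1 | h1
    · exact hF (Dvd.dvd.mul_right h1 F0)
    · exact hF (Dvd.dvd.mul_left (hqZ.dvd_of_dvd_pow h1) 1728)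
  have hv1 : A.valuation (((1728 * F0 ^ 5 : ℤ) : ℤ) : Qbar) = 1 :=
    S05.valuation_intCast_eq_one hq hA hF5
  have hint : ∀ n : ℤ, (n : Qbar) ∈ A := fun n => intCast_mem A n
  have hμA : μ ∈ A := m3e_mem_of_valuation_eq_one A hμ
  set a : Qbar := ((-W'.c₄ : ℤ) : Qbar) with ha
  set b : Qbar := ((-W'.c₆ : ℤ) : Qbar) with hb
  set a0 : Qbar := μ ^ 2 * (H0 : Qbar) with ha0
  set b0 : Qbar := μ ^ 3 * (T0 : Qbar) with hb0
  have haA : a ∈ A := hint _
  have hbA : b ∈ A := hint _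
  have ha0A : a0 ∈ A := mul_mem (pow_mem hμA 2) (hint H0)
  have hb0A : b0 ∈ A := mul_mem (pow_mem hμA 3) (hint T0)
  have hmain : a0 ^ 3 + b0 ^ 2 = μ ^ 6 * (((1728 * F0 ^ 5 : ℤ) : ℤ) : Qbar) := by
    rw [← hrel, ha0, hb0]
    push_cast
    ring
  have hv2 : A.valuation (a0 ^ 3 + b0 ^ 2) = 1 := by
    rw [hmain, map_mul, map_pow, hμ, one_pow, one_mul, hv1]
  have hdiff : A.valuation ((a ^ 3 + b ^ 2) - (a0 ^ 3 + b0 ^ 2)) < 1 := by
    have e : (a ^ 3 + b ^ 2) - (a0 ^ 3 + b0 ^ 2) =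
        (a ^ 2 + a * a0 + a0 ^ 2) * (a - a0) + (b + b0) * (b - b0) := by ring
    rw [e]
    refine m3e_lt_add A (m3e_mem_mul_lt A ?_ hH) (m3e_mem_mul_lt A ?_ hT)
    · exact add_mem (add_mem (pow_mem haA 2) (mul_mem haA ha0A)) (pow_mem ha0A 2)
    · exact add_mem hbA hb0A
  have hv3 : A.valuation (a ^ 3 + b ^ 2) = 1 := by
    have e : a ^ 3 + b ^ 2 = (a0 ^ 3 + b0 ^ 2) + ((a ^ 3 + b ^ 2) - (a0 ^ 3 + b0 ^ 2)) := by ring
    rw [e, Valuation.map_add_eq_of_lt_left _ (by rw [hv2]; exact hdiff), hv2]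
  obtain ⟨m, hm⟩ := hdvd
  have hcast : a ^ 3 + b ^ 2 = ((-1728 * m : ℤ) : Qbar) * ((q : ℕ) : Qbar) := by
    have hrelW : (-W'.c₄) ^ 3 + (-W'.c₆) ^ 2 = -1728 * m * (q : ℤ) := by
      have h := W'.c_relation
      rw [hm] at h
      linear_combination h
    rw [ha, hb]
    have h := congrArg (Int.cast : ℤ → Qbar) hrelW
    push_cast at h ⊢
    exact h
  have hlt : A.valuation (a ^ 3 + b ^ 2) < 1 := by
    rw [hcast]
    exact m3e_mem_mul_lt A (hint _) (S05.valuation_prime_lt_one hA)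
  rw [hv3] at hlt
  exact lt_irrefl _ hlt

end Fermat.Agent.S52
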