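import Mathlib
import Fermat.Prelude.Def_FLTPrelim_Ramification
import Fermat.Prelude.Def_EllipticCurve_FrobeniusTrace
import Fermat.Agent.S42.Cyclo
import Fermat.Agent.S05.Inertia

set_option autoImplicit false

/-!
# P17 (S52), block M3: Frobenius-fixed integral elements are congruent to integers

`m3_exists_int_of_frob_fixed`: if `σ` is a Frobenius element at a valuation subring `A` of `ℚ̄`
above the prime `q` and `y ∈ A` is fixed by `σ`, then `y ≡ n` modulo the maximal ideal of `A`
for some integer `n` (the residue class of `y` lies in the prime subfield of the residue field).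
-/

namespace Fermat.Agent.S52

/-- The residue field of a valuation subring lying over the prime `q` has characteristic `q`. -/
theorem m3f_charP_residueField {Ω : Type*} [Field Ω] (q : ℕ) (hq : q.Prime)
    (A : ValuationSubring Ω) (hA : A.LiesOverPrime q) :
    CharP (IsLocalRing.ResidueField A) q := by
  refine (CharP.charP_iff_prime_eq_zero hq).mpr ?_
  have h : IsLocalRing.residue A ((q : ℕ) : A) = 0 := by
    rw [IsLocalRing.residue_eq_zero_iff, A.valuation_lt_one_iff]
    exact A.mem_nonunits_iff.mp hA
  rwa [map_natCast] at h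

/-- In a valuation subring over `q`, an element whose residue class is fixed by `x ↦ x ^ q` is
congruent to an integer modulo the maximal ideal. -/
theorem m3f_exists_int_of_pow_sub_mem {Ω : Type*} [Field Ω] (q : ℕ) (hq : q.Prime)
    (A : ValuationSubring Ω) (hA : A.LiesOverPrime q) (y : Ω) (hyA : y ∈ A)
    (h : y - y ^ q ∈ A.nonunits) : ∃ n : ℤ, A.valuation (y - (n : Ω)) < 1 := by
  have : Fact q.Prime := ⟨hq⟩
  have : CharP (IsLocalRing.ResidueField A) q := m3f_charP_residueField q hq A hA
  have hres : IsLocalRing.residue A ⟨y, hyA⟩ ^ q = IsLocalRing.residue A ⟨y, hyA⟩ := by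
    rw [← map_pow, eq_comm, ← sub_eq_zero, ← map_sub, IsLocalRing.residue_eq_zero_iff,
      A.valuation_lt_one_iff]
    exact A.mem_nonunits_iff.mp h
  obtain ⟨n, hn⟩ := (mem_bot_iff_intCast q (IsLocalRing.ResidueField A)).mp
    ((Subfield.mem_bot_iff_pow_eq_self _ q).mpr hres)
  refine ⟨n, ?_⟩
  have h2 : IsLocalRing.residue A (⟨y, hyA⟩ - (n : A)) = 0 := by
    rw [map_sub, map_intCast, hn, sub_self]
  rw [IsLocalRing.residue_eq_zero_iff, A.valuation_lt_one_iff] at h2
  exact h2

/-- An `A`-integral element fixed by a Frobenius element at `A` is congruent to an integer. -/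
theorem m3_exists_int_of_frob_fixed (q : ℕ) (hq : q.Prime)
    (A : ValuationSubring (AlgebraicClosure ℚ)) (hA : A.LiesOverPrime q)
    (σ : AlgebraicClosure ℚ ≃ₐ[ℚ] AlgebraicClosure ℚ) (hσ : A.IsFrobeniusAt σ q)
    (y : AlgebraicClosure ℚ) (hy : A.valuation y ≤ 1) (hfix : σ y = y) :
    ∃ n : ℤ, A.valuation (y - (n : AlgebraicClosure ℚ)) < 1 := by
  have hyA : y ∈ A := (A.valuation_le_one_iff y).mp hy
  have h1 : σ y - y ^ q ∈ A.nonunits := S42.cy_frobenius_sub_mem_nonunits hσ hyA
  rw [hfix] at h1
  exact m3f_exists_int_of_pow_sub_mem q hq A hA y hyA h1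

end Fermat.Agent.S52
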