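import Fermat.Agent.S52.M3Basic

/-!
# P17 (S52), block M3: permutations of four letters

* `m3_pair_invariant`: a permutation preserving the pairing `{{0,1},{2,3}}` fixes
  `x₀ x₁ + x₂ x₃`;
* `m3_perm_unique_fix`: a permutation `c` such that neither `c` nor `c²` preserves the pairing
  (a `3`-cycle) has exactly one fixed point;
* `m3_perm_main`: if moreover `h` moves the fixed point of `c`, then `c (h c h⁻¹)` or
  `c (h c h⁻¹)⁻¹` has no fixed point;
* `m3_exists_perm`: a field automorphism mapping four distinct elements among themselves induces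
  a permutation of the indices.
-/

set_option autoImplicit false

namespace Fermat.Agent.S52

/-- The value tables of the permutations preserving the pairing `{{0,1},{2,3}}`. -/
theorem m3p_pair_cases : ∀ π : Equiv.Perm (Fin 4), m3PairFix π →
    ((π 0 = 0 ∧ π 1 = 1 ∨ π 0 = 1 ∧ π 1 = 0) ∧ (π 2 = 2 ∧ π 3 = 3 ∨ π 2 = 3 ∧ π 3 = 2)) ∨
    ((π 0 = 2 ∧ π 1 = 3 ∨ π 0 = 3 ∧ π 1 = 2) ∧ (π 2 = 0 ∧ π 3 = 1 ∨ π 2 = 1 ∧ π 3 = 0)) := by
  decide

theorem m3_pair_invariant {R : Type*} [CommRing R] (x : Fin 4 → R) (π : Equiv.Perm (Fin 4))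
    (h : m3PairFix π) :
    x (π 0) * x (π 1) + x (π 2) * x (π 3) = x 0 * x 1 + x 2 * x 3 := by
  rcases m3p_pair_cases π h with
    ⟨⟨h0, h1⟩ | ⟨h0, h1⟩, ⟨h2, h3⟩ | ⟨h2, h3⟩⟩ | ⟨⟨h0, h1⟩ | ⟨h0, h1⟩, ⟨h2, h3⟩ | ⟨h2, h3⟩⟩ <;>
  rw [h0, h1, h2, h3] <;> ring

theorem m3p_unique_fix_all : ∀ c : Equiv.Perm (Fin 4), ¬ m3PairFix c → ¬ m3PairFix (c * c) →
    ∃ a, c a = a ∧ ∀ b, c b = b → b = a := by
  decide

theorem m3_perm_unique_fix (c : Equiv.Perm (Fin 4)) (h1 : ¬ m3PairFix c)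
    (h2 : ¬ m3PairFix (c * c)) : ∃ a, c a = a ∧ ∀ b, c b = b → b = a :=
  m3p_unique_fix_all c h1 h2

set_option maxRecDepth 100000 in
theorem m3p_main_all : ∀ c h : Equiv.Perm (Fin 4), ¬ m3PairFix c → ¬ m3PairFix (c * c) →
    (∀ a, c a = a → h a ≠ a) →
    (∀ b, (c * (h * c * h⁻¹)) b ≠ b) ∨ (∀ b, (c * (h * c * h⁻¹)⁻¹) b ≠ b) := by
  decide

theorem m3_perm_main (c h : Equiv.Perm (Fin 4)) (h1 : ¬ m3PairFix c) (h2 : ¬ m3PairFix (c * c))
    (hh : ∀ a, c a = a → h a ≠ a) :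
    (∀ b, (c * (h * c * h⁻¹)) b ≠ b) ∨ (∀ b, (c * (h * c * h⁻¹)⁻¹) b ≠ b) :=
  m3p_main_all c h h1 h2 hh

/-- A field automorphism mapping the (distinct) values `x i` among themselves induces a
permutation of the indices. -/
theorem m3_exists_perm {F : Type*} [Field F] (x : Fin 4 → F) (hx : Function.Injective x)
    (σ : F ≃+* F) (hσ : ∀ i, ∃ j, σ (x i) = x j) :
    ∃ π : Equiv.Perm (Fin 4), ∀ i, σ (x i) = x (π i) := by
  choose j hj using hσ
  have hinj : Function.Injective j := by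
    intro a b hab
    apply hx
    apply σ.injective
    rw [hj a, hj b, hab]
  have hbij : Function.Bijective j := Finite.injective_iff_bijective.mp hinj
  exact ⟨Equiv.ofBijective j hbij, fun i => hj i⟩

end Fermat.Agent.S52
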