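import Mathlib
import Fermat.Agent.S13.GlobMain
import Fermat.Agent.S54.Frobenius
import Fermat.Agent.S30.CycloAdic

set_option autoImplicit false

/-!
# P17 (S52), block M3, step (c) [Ram3]: inertia moves cube roots of `p ∥ a`

For a prime `p ≠ 3`, an integer `a` exactly divisible by `p`, a valuation subring `A` of `ℚ̄`
over `p` and a cube root `β` of `a` in `ℚ̄`, some element of the inertia group of `A` moves `β`
(`m3_exists_inertia_moving`).

Proof: in the splitting field `L` of `X ^ 3 - a` the centre `P` of `A` satisfies `p ∈ P ^ 2`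
(as `β ^ 3 = p s` with `s ∉ P` and `β ∈ P`), so `P` is ramified and has a nontrivial inertia
element, which lifts to the inertia group of `A`; it moves some cube root `β'` of `a`, and it
fixes the cube root of unity `β' / β` (distinct cube roots of unity are incongruent modulo the
maximal ideal of `A` since `p ≠ 3`), hence it moves `β`.
-/

namespace Fermat.Agent.S52

local notation "K" => AlgebraicClosure ℚ
local notation "Γ" => (AlgebraicClosure ℚ ≃ₐ[ℚ] AlgebraicClosure ℚ)

open scoped NumberField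

open Polynomial

/-- A prime `P` of the ring of integers of a number field with `p ∈ P ^ 2` is ramified
over `ℤ`. -/
theorem m3r_not_isUnramifiedAt (L : Type) [Field L] [NumberField L] (P : Ideal (𝓞 L)) [P.IsPrime]
    {p : ℕ} (hp : p.Prime) (hpP : (p : 𝓞 L) ∈ P ^ 2) : ¬ Algebra.IsUnramifiedAt ℤ P := by
  intro hunr
  have hPp : (p : 𝓞 L) ∈ P := Ideal.pow_le_self two_ne_zero hpP
  have h1 : P.ramificationIdx ℤ = 1 := Ideal.ramificationIdx_eq_one P ℤ
  have hFact : Fact p.Prime := ⟨hp⟩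
  have hunder : P.under ℤ = Ideal.span {(p : ℤ)} := by
    have hmax : (Ideal.span {(p : ℤ)}).IsMaximal := Int.ideal_span_isMaximal_of_prime p
    refine (hmax.eq_of_le (Ideal.comap_ne_top _ (Ideal.IsPrime.ne_top inferInstance)) ?_).symm
    rw [Ideal.span_singleton_le_iff_mem, Ideal.mem_comap]
    simpa using hPp
  have hmap : (P.under ℤ).map (algebraMap ℤ (𝓞 L)) = Ideal.span {(p : 𝓞 L)} := by
    rw [hunder, Ideal.map_span, Set.image_singleton]
    simp
  have hp0 : (P.under ℤ).map (algebraMap ℤ (𝓞 L)) ≠ ⊥ := by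
    rw [hmap, Ne, Ideal.span_singleton_eq_bot]
    exact Nat.cast_ne_zero.mpr hp.ne_zero
  have hle : (P.under ℤ).map (algebraMap ℤ (𝓞 L)) ≤ P ^ 2 := by
    rw [hmap, Ideal.span_singleton_le_iff_mem]
    exact hpP
  rw [Ideal.IsDedekindDomain.ramificationIdx_eq_multiplicity (P.under ℤ) P hp0] at h1
  have hdvd : P ^ 2 ∣ (P.under ℤ).map (algebraMap ℤ (𝓞 L)) := Ideal.dvd_iff_le.mpr hle
  have hnu : ¬ IsUnit P := by
    rw [Ideal.isUnit_iff]
    exact Ideal.IsPrime.ne_top inferInstance
  have hfin : FiniteMultiplicity P ((P.under ℤ).map (algebraMap ℤ (𝓞 L))) :=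
    FiniteMultiplicity.of_not_isUnit hnu hp0
  have h2 := hfin.le_multiplicity_of_pow_dvd hdvd
  omega

/-- For a prime `p ≠ 3`, an integer `a` with `p ∥ a`, a valuation subring `A` of `ℚ̄` over `p`
and a cube root `β` of `a`, some inertia element at `A` moves `β`. -/
theorem m3_exists_inertia_moving (p : ℕ) (hp : p.Prime) (hp3 : p ≠ 3) (a : ℤ)
    (ha : (p : ℤ) ∣ a) (ha2 : ¬ (p : ℤ) ^ 2 ∣ a) (A : ValuationSubring (AlgebraicClosure ℚ))
    (hA : A.LiesOverPrime p) (β : AlgebraicClosure ℚ)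
    (hβ : β ^ 3 = (a : AlgebraicClosure ℚ)) :
    ∃ τ ∈ A.inertiaSubgroupIn ℚ, τ β ≠ β := by
  classical
  obtain ⟨s, rfl⟩ := ha
  have ha0 : (p : ℤ) * s ≠ 0 := by
    intro h
    rw [h] at ha2
    exact ha2 (dvd_zero _)
  have haK : (((p : ℤ) * s : ℤ) : K) ≠ 0 := Int.cast_ne_zero.mpr ha0
  have hs : ¬ (p : ℤ) ∣ s := by
    intro h
    apply ha2
    rw [pow_two]
    exact mul_dvd_mul_left _ h
  have hβ0 : β ≠ 0 := by
    rintro rfl
    rw [zero_pow (by norm_num)] at hβ
    exact haK hβ.symm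
  -- the splitting field of `X ^ 3 - a`
  let q : ℚ[X] := X ^ 3 - C ((((p : ℤ) * s : ℤ)) : ℚ)
  have hq0 : q ≠ 0 := X_pow_sub_C_ne_zero (by norm_num) _
  have hsplit : (q.map (algebraMap ℚ K)).Splits := IsAlgClosed.splits _
  let L : IntermediateField ℚ K := IntermediateField.adjoin ℚ (q.rootSet K)
  have hsf : q.IsSplittingField ℚ L := IntermediateField.adjoin_rootSet_isSplittingField hsplit
  have hfd : FiniteDimensional ℚ L := Polynomial.IsSplittingField.finiteDimensional L q
  have hnormal : Normal ℚ L := Normal.of_isSplittingField q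
  have hgal : IsGalois ℚ L := ⟨⟩
  have hNF : NumberField L := NumberField.mk
  have hLopen : IsOpen (L.fixingSubgroup : Set Γ) := L.fixingSubgroup_isOpen
  have hLnormal : L.fixingSubgroup.Normal :=
    ((InfiniteGalois.isOpen_and_normal_iff_finite_and_isGalois L).mpr ⟨hfd, hgal⟩).2
  -- the same instances, in the form used by the intermediate-field API
  obtain ⟨hfd2, hgal2⟩ :=
    (InfiniteGalois.isOpen_and_normal_iff_finite_and_isGalois L).mp ⟨hLopen, hLnormal⟩
  -- cube roots of `a` lie in `L` and are integral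
  have hrootL : ∀ b : K, b ^ 3 = (((p : ℤ) * s : ℤ) : K) → b ∈ L := by
    intro b hb
    apply IntermediateField.subset_adjoin
    rw [Polynomial.mem_rootSet]
    refine ⟨hq0, ?_⟩
    simp only [q, map_sub, map_pow, aeval_X, aeval_C, eq_ratCast, Rat.cast_intCast]
    rw [hb, sub_self]
  have hrootInt : ∀ b : K, b ^ 3 = (((p : ℤ) * s : ℤ) : K) → IsIntegral ℤ b := by
    intro b hb
    refine ⟨X ^ 3 - C ((p : ℤ) * s), monic_X_pow_sub_C _ (by norm_num), ?_⟩
    rw [eval₂_sub, eval₂_pow, eval₂_X, eval₂_C, eq_intCast, hb, sub_self]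
  -- the prime of `𝓞 L` below `A`
  have hint : ∀ x : 𝓞 L, IsIntegral ℤ (((x : L) : K)) := fun x =>
    (NumberField.RingOfIntegers.isIntegral_coe x).map (IsScalarTower.toAlgHom ℤ L K)
  have hmem : ∀ x : 𝓞 L, ((algebraMap L K).comp (algebraMap (𝓞 L) L)) x ∈ A.toSubring :=
    fun x => S54.mem_of_isIntegral_int A (hint x)
  let f : 𝓞 L →+* A := ((algebraMap L K).comp (algebraMap (𝓞 L) L)).codRestrict A.toSubring hmem
  let P : Ideal (𝓞 L) := Ideal.comap f (IsLocalRing.maximalIdeal A)
  have hPprime : P.IsPrime := Ideal.comap_isPrime f _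
  have hPval : ∀ x : 𝓞 L, x ∈ P ↔ A.valuation ((x : L) : K) < 1 := fun x => by
    show f x ∈ IsLocalRing.maximalIdeal A ↔ _
    rw [A.valuation_lt_one_iff]; rfl
  have hpP : (p : 𝓞 L) ∈ P := by
    rw [hPval]
    have : (((p : 𝓞 L) : L) : K) = (p : K) := by simp
    rw [this]
    exact A.mem_nonunits_iff.mp hA
  -- `β` as an element of `𝓞 L`
  have hβL : β ∈ L := hrootL β hβ
  have hβint : IsIntegral ℤ (⟨β, hβL⟩ : L) := by
    have : IsIntegral ℤ (algebraMap L K ⟨β, hβL⟩) := hrootInt β hβ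
    exact (isIntegral_algebraMap_iff (algebraMap L K).injective).mp this
  let xβ : 𝓞 L := ⟨⟨β, hβL⟩, hβint⟩
  have hvp : A.valuation (p : K) < 1 := A.mem_nonunits_iff.mp hA
  have hvs : A.valuation ((s : ℤ) : K) ≤ 1 :=
    (A.valuation_le_one_iff _).mpr (intCast_mem A s)
  have hβval : A.valuation β < 1 := by
    by_contra hcon
    have h1 : 1 ≤ A.valuation β ^ 3 := one_le_pow_of_one_le' (not_lt.mp hcon) 3
    rw [← map_pow, hβ] at h1
    have h2 : A.valuation (((p : ℤ) * s : ℤ) : K) < 1 := by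
      push_cast
      rw [map_mul]
      exact lt_of_le_of_lt (mul_le_of_le_one_right' hvs) hvp
    exact absurd h1 (not_le.mpr h2)
  have hβP : xβ ∈ P := by
    rw [hPval]
    exact hβval
  have hsP : (s : 𝓞 L) ∉ P := by
    rw [hPval]
    have : ((((s : ℤ) : 𝓞 L) : L) : K) = ((s : ℤ) : K) := by simp
    rw [this]
    intro h
    exact hs (S54.dvd_of_valuation_intCast_lt_one A hp hA s h)
  have hcube : ((s : ℤ) : 𝓞 L) * (p : 𝓞 L) = xβ ^ 3 := by
    apply FaithfulSMul.algebraMap_injective (𝓞 L) L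
    apply (algebraMap L K).injective
    have h1 : algebraMap L K (algebraMap (𝓞 L) L (xβ ^ 3)) = β ^ 3 := by
      rw [map_pow, map_pow]
      rfl
    rw [h1, hβ]
    simp [mul_comm]
  have hpP2 : (p : 𝓞 L) ∈ P ^ 2 := by
    have h1 : xβ ^ 3 ∈ P ^ 2 :=
      Ideal.pow_le_pow_right (by norm_num : 2 ≤ 3) (Ideal.pow_mem_pow hβP 3)
    rw [← hcube] at h1
    exact (Ideal.IsPrime.mul_mem_pow P h1).resolve_left hsP
  have hram : ¬ Algebra.IsUnramifiedAt ℤ P := m3r_not_isUnramifiedAt L P hp hpP2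
  obtain ⟨g, hg1, hg⟩ := S13.GlobMain.exists_inertia_ne_one L P hp hpP hram
  obtain ⟨γ, hγ⟩ := AlgEquiv.restrictNormalHom_surjective K g
  have hkey : ∀ b : K, IsIntegral ℤ b → (∀ h ∈ L.fixingSubgroup, h b = b) →
      A.valuation (γ b - b) < 1 := by
    intro b hb hfixb
    have hbL : b ∈ L := by
      rw [← InfiniteGalois.fixedField_fixingSubgroup L]
      exact fun h => hfixb h.1 h.2
    have hbL' : IsIntegral ℤ (⟨b, hbL⟩ : L) := by
      have : IsIntegral ℤ (algebraMap L K ⟨b, hbL⟩) := hb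
      exact (isIntegral_algebraMap_iff (algebraMap L K).injective).mp this
    let x : 𝓞 L := ⟨⟨b, hbL⟩, hbL'⟩
    have h1 := (hPval _).mp (hg x)
    have h2 : A.valuation (γ b - b) =
        A.valuation (((galRestrict ℤ ℚ L (𝓞 L) g x - x : 𝓞 L) : L) : K) := by
      congr 1
      have e1 : ((galRestrict ℤ ℚ L (𝓞 L) g x - x : 𝓞 L) : L) = g (x : L) - (x : L) := by
        have := algebraMap_galRestrict_apply ℤ g x
        rw [← this]
        exact map_sub (algebraMap (𝓞 L) L) _ _
      rw [e1, ← hγ]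
      have e2 : (((AlgEquiv.restrictNormalHom L γ) (x : L) : L) : K) = γ ((x : L) : K) :=
        AlgEquiv.restrictNormalHom_apply L γ (x : L)
      show γ b - b = ((((AlgEquiv.restrictNormalHom L γ) (x : L) : L) : K) - ((x : L) : K))
      rw [e2]
      rfl
    rw [h2]; exact h1
  obtain ⟨σ, hσ, hσγ⟩ := S13.exists_inertia_lift L.fixingSubgroup hLopen A hp hA γ hkey
  have hσL : ∀ x : K, x ∈ L → σ x = γ x := by
    intro x hx
    have h1 := (IntermediateField.mem_fixingSubgroup_iff L (σ⁻¹ * γ)).mp hσγ x hx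
    have h2 : σ ((σ⁻¹ * γ) x) = γ x := by
      rw [AlgEquiv.mul_apply]
      exact AlgEquiv.apply_symm_apply σ (γ x)
    rw [← h2]
    exact congrArg σ h1.symm
  -- `γ` moves some cube root of `a`
  have hmove : ∃ b : K, b ^ 3 = (((p : ℤ) * s : ℤ) : K) ∧ γ b ≠ b := by
    by_contra hcon
    push Not at hcon
    let F : IntermediateField ℚ K :=
      { carrier := {x | γ x = x}
        mul_mem' := fun {x y} hx hy => by
          simp only [Set.mem_ofPred_eq] at hx hy ⊢
          rw [map_mul, hx, hy]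
        one_mem' := map_one γ
        add_mem' := fun {x y} hx hy => by
          simp only [Set.mem_ofPred_eq] at hx hy ⊢
          rw [map_add, hx, hy]
        zero_mem' := map_zero γ
        algebraMap_mem' := fun r => γ.commutes r
        inv_mem' := fun x hx => by
          simp only [Set.mem_ofPred_eq] at hx ⊢
          rw [map_inv₀, hx] }
    have hLF : L ≤ F := by
      apply IntermediateField.adjoin_le_iff.mpr
      intro b hb
      rw [Polynomial.mem_rootSet] at hb
      have hb3 : b ^ 3 = (((p : ℤ) * s : ℤ) : K) := by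
        have h1 := hb.2
        simp only [q, map_sub, map_pow, aeval_X, aeval_C, eq_ratCast, Rat.cast_intCast] at h1
        exact sub_eq_zero.mp h1
      exact hcon b hb3
    apply hg1
    rw [← hγ]
    ext x
    have h1 : (((AlgEquiv.restrictNormalHom L γ) x : L) : K) = γ (x : K) :=
      AlgEquiv.restrictNormalHom_apply L γ x
    rw [h1]
    exact hLF x.2
  obtain ⟨β', hβ', hγβ'⟩ := hmove
  have hσβ' : σ β' ≠ β' := by
    rw [hσL β' (hrootL β' hβ')]
    exact hγβ'
  -- the cube root of unity `β' / β` is fixed by `σ`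
  set ω : K := β' / β with hω
  have hω3 : ω ^ 3 = 1 := by
    rw [hω, div_pow, hβ, hβ']
    exact div_self haK
  have hωint : IsIntegral ℤ ω := by
    refine ⟨X ^ 3 - C 1, monic_X_pow_sub_C 1 (by norm_num), ?_⟩
    rw [eval₂_sub, eval₂_pow, eval₂_X, eval₂_C, map_one, hω3, sub_self]
  have hωval : A.valuation ω ≤ 1 :=
    (A.valuation_le_one_iff _).mpr (S54.mem_of_isIntegral_int A hωint)
  have hσω3 : (σ ω) ^ 3 = 1 := by
    rw [← map_pow, hω3, map_one]
  have hp3' : ¬ p ∣ 3 := by
    intro h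
    exact hp3 ((Nat.prime_dvd_prime_iff_eq hp Nat.prime_three).mp h)
  have hσω : σ ω = ω := by
    apply S30.cya_eq_of_sub_mem_nonunits A hp (m := 3) (by norm_num) hp3' hA hσω3 hω3
    rw [A.mem_nonunits_iff]
    exact S05.inertia_valuation_sub_lt hσ hωval
  refine ⟨σ, hσ, fun hσβ => hσβ' ?_⟩
  have hβ'eq : β' = ω * β := by
    rw [hω]
    field_simp
  rw [hβ'eq, map_mul, hσω, hσβ]

end Fermat.Agent.S52
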