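import Fermat.Agent.S52.M3Basic

/-!
# P17 (S52), block M3: the four roots of `m3Psi` and the cubic resolvent

* `m3_exists_roots`: for `T² + H³ ≠ 0` the quartic `m3Psi H T` has four distinct roots in `ℚ̄`;
* `m3_resolvent`: for the roots `x₀, …, x₃`, the element `ρ = (x₀x₁ + x₂x₃ − 18 H) / 432`
  satisfies `ρ³ = (T² + H³) / 1728`.
-/

set_option autoImplicit false

namespace Fermat.Agent.S52

open Polynomial

/-- The monic quartic `m3Psi / 3`, as a polynomial. -/
noncomputable def m3ro_poly {K : Type*} [Field K] (H T : K) : K[X] :=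
  X ^ 4 + C (54 * H) * X ^ 2 + C (216 * T) * X - C (243 * H ^ 2)

theorem m3ro_eval {K : Type*} [Field K] (H T x : K) :
    m3Psi H T x = 3 * (m3ro_poly H T).eval x := by
  unfold m3Psi m3ro_poly
  simp only [eval_add, eval_sub, eval_mul, eval_pow, eval_X, eval_C]
  ring

theorem m3ro_monic {K : Type*} [Field K] (H T : K) : (m3ro_poly H T).Monic := by
  unfold m3ro_poly
  monicity!

theorem m3ro_natDegree {K : Type*} [Field K] (H T : K) : (m3ro_poly H T).natDegree = 4 := by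
  unfold m3ro_poly
  compute_degree!

theorem m3ro_derivative {K : Type*} [Field K] (H T : K) :
    derivative (m3ro_poly H T) = 4 * X ^ 3 + 108 * C H * X + 216 * C T := by
  unfold m3ro_poly
  simp only [derivative_add, derivative_sub, derivative_mul, derivative_X_pow, derivative_C,
    derivative_X, map_mul, Nat.cast_ofNat, map_ofNat]
  norm_num
  ring

/-- The Bezout certificate for the separability of `m3ro_poly`. -/
theorem m3ro_bezout {K : Type*} [Field K] (H T : K) :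
    (X ^ 3 + 63 * C H * X + 162 * C T) * derivative (m3ro_poly H T) -
      (4 * X ^ 2 + 144 * C H) * m3ro_poly H T = C (34992 * (T ^ 2 + H ^ 3)) := by
  rw [m3ro_derivative]
  unfold m3ro_poly
  simp only [map_mul, map_add, map_pow, map_ofNat]
  ring

theorem m3ro_separable {K : Type*} [Field K] [CharZero K] (H T : K) (hd : T ^ 2 + H ^ 3 ≠ 0) :
    (m3ro_poly H T).Separable := by
  have hne : (34992 * (T ^ 2 + H ^ 3) : K) ≠ 0 := mul_ne_zero (by norm_num) hd
  set u : K := (34992 * (T ^ 2 + H ^ 3))⁻¹ with hu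
  have hC : C u * C (34992 * (T ^ 2 + H ^ 3)) = (1 : K[X]) := by
    rw [← C_mul, hu, inv_mul_cancel₀ hne, C_1]
  have hB := m3ro_bezout H T
  rw [separable_def]
  refine ⟨-(C u * (4 * X ^ 2 + 144 * C H)), C u * (X ^ 3 + 63 * C H * X + 162 * C T), ?_⟩
  linear_combination C u * hB + hC

/-- For `T² + H³ ≠ 0` the quartic `m3Psi H T` has four distinct roots. -/
theorem m3_exists_roots (H T : AlgebraicClosure ℚ) (hd : T ^ 2 + H ^ 3 ≠ 0) :
    ∃ x : Fin 4 → AlgebraicClosure ℚ, Function.Injective x ∧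
      ∀ X : AlgebraicClosure ℚ,
        m3Psi H T X = 3 * ((X - x 0) * (X - x 1) * (X - x 2) * (X - x 3)) := by
  have hsplit : (m3ro_poly H T).Splits := IsAlgClosed.splits _
  have hcard : (m3ro_poly H T).roots.card = 4 := by
    rw [← hsplit.natDegree_eq_card_roots, m3ro_natDegree]
  have hnodup : (m3ro_poly H T).roots.Nodup := nodup_roots (m3ro_separable H T hd)
  have hprod := hsplit.eq_prod_roots_of_monic (m3ro_monic H T)
  obtain ⟨a, b, c, d, habcd⟩ := Multiset.card_eq_four.mp hcard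
  rw [habcd] at hnodup hprod
  simp only [Multiset.insert_eq_cons, Multiset.nodup_cons, Multiset.mem_cons,
    Multiset.mem_singleton, Multiset.nodup_singleton, not_or, and_true] at hnodup
  obtain ⟨⟨hab, hac, had⟩, ⟨hbc, hbd⟩, hcd⟩ := hnodup
  simp only [Multiset.insert_eq_cons, Multiset.map_cons, Multiset.prod_cons,
    Multiset.map_singleton, Multiset.prod_singleton] at hprod
  refine ⟨![a, b, c, d], ?_, ?_⟩
  · intro i j hij
    fin_cases i <;> fin_cases j <;> simp_all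
  · intro X
    rw [m3ro_eval, hprod]
    simp only [eval_mul, eval_sub, eval_X, eval_C]
    simp
    ring

/-- The cubic resolvent: `ρ = (x₀x₁ + x₂x₃ − 18 H) / 432` satisfies `ρ³ = (T² + H³) / 1728`. -/
theorem m3_resolvent (H T : AlgebraicClosure ℚ) (x : Fin 4 → AlgebraicClosure ℚ)
    (hx : ∀ X : AlgebraicClosure ℚ,
      m3Psi H T X = 3 * ((X - x 0) * (X - x 1) * (X - x 2) * (X - x 3))) :
    ((x 0 * x 1 + x 2 * x 3 - 18 * H) / 432) ^ 3 = (T ^ 2 + H ^ 3) / 1728 := by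
  have h0 := hx 0
  have h1 := hx 1
  have hm1 := hx (-1)
  have h2 := hx 2
  have hm2 := hx (-2)
  unfold m3Psi at h0 h1 hm1 h2 hm2
  -- Vieta
  have E1 : x 0 + x 1 + x 2 + x 3 = 0 := by
    linear_combination (1 / 36) * h2 - (1 / 36) * hm2 - (1 / 18) * h1 + (1 / 18) * hm1
  have E2 : x 0 * x 1 + x 0 * x 2 + x 0 * x 3 + x 1 * x 2 + x 1 * x 3 + x 2 * x 3 = 54 * H := by
    linear_combination (-1 / 6) * h1 + (-1 / 6) * hm1 + (1 / 3) * h0
  have E3 : x 0 * x 1 * x 2 + x 0 * x 1 * x 3 + x 0 * x 2 * x 3 + x 1 * x 2 * x 3 = -216 * T := by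
    linear_combination (2 / 9) * h1 - (2 / 9) * hm1 - (1 / 36) * h2 + (1 / 36) * hm2
  have E4 : x 0 * x 1 * x 2 * x 3 = -243 * H ^ 2 := by
    linear_combination (-1 / 3) * h0
  -- the three pairings
  have hS1 : (x 0 * x 1 + x 2 * x 3) + (x 0 * x 2 + x 1 * x 3) + (x 0 * x 3 + x 1 * x 2) =
      54 * H := by
    linear_combination E2
  have hS2 : (x 0 * x 1 + x 2 * x 3) * (x 0 * x 2 + x 1 * x 3) +
      (x 0 * x 1 + x 2 * x 3) * (x 0 * x 3 + x 1 * x 2) +
      (x 0 * x 2 + x 1 * x 3) * (x 0 * x 3 + x 1 * x 2) = 972 * H ^ 2 := by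
    linear_combination
      (x 0 * x 1 * x 2 + x 0 * x 1 * x 3 + x 0 * x 2 * x 3 + x 1 * x 2 * x 3) * E1 - 4 * E4
  have hS3 : (x 0 * x 1 + x 2 * x 3) * (x 0 * x 2 + x 1 * x 3) * (x 0 * x 3 + x 1 * x 2) =
      46656 * T ^ 2 + 52488 * H ^ 3 := by
    linear_combination
      ((x 0 + x 1 + x 2 + x 3) * (x 0 * x 1 * x 2 * x 3)) * E1 +
      (x 0 * x 1 * x 2 + x 0 * x 1 * x 3 + x 0 * x 2 * x 3 + x 1 * x 2 * x 3 - 216 * T) * E3 -
      4 * (x 0 * x 1 * x 2 * x 3) * E2 - 216 * H * E4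
  have key : (x 0 * x 1 + x 2 * x 3) ^ 3 - 54 * H * (x 0 * x 1 + x 2 * x 3) ^ 2 +
      972 * H ^ 2 * (x 0 * x 1 + x 2 * x 3) - (46656 * T ^ 2 + 52488 * H ^ 3) = 0 := by
    linear_combination (x 0 * x 1 + x 2 * x 3) ^ 2 * hS1 - (x 0 * x 1 + x 2 * x 3) * hS2 + hS3
  have h432 : (432 : AlgebraicClosure ℚ) ^ 3 = 46656 * 1728 := by norm_num
  rw [div_pow, h432, div_eq_div_iff (by norm_num) (by norm_num)]
  linear_combination 1728 * key

end Fermat.Agent.S52
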