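import Fermat.Agent.S52.M3Basic
import Fermat.Agent.S52.M3Arith
import Fermat.Agent.S52.M3Roots
import Fermat.Agent.S52.M3Perm
import Fermat.Agent.S52.M3Ram
import Fermat.Agent.S54.Frobenius
import Fermat.Agent.S42.Cyclo
import Fermat.Agent.S51.GaloisDescent

/-!
# P17 (S52), block M3: the Galois element (second team)

`m3_exists_galois_B`: for `p ∥ u₁`, `p ≠ 3`, `u₁ ≡ 2 mod 7`, any normal subgroup `N` of the
absolute Galois group containing the inertia groups above `p` contains an element moving all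
four roots of `m3Psi (kH u₁ 1) (kT u₁ 1)`.

Auxiliary declarations carry the prefix `m3gb_`.
-/

set_option autoImplicit false

namespace Fermat.Agent.S52

local notation "Qbar" => AlgebraicClosure ℚ
local notation "Γ" => (AlgebraicClosure ℚ ≃ₐ[ℚ] AlgebraicClosure ℚ)

/-- The roots `x i` are roots. -/
theorem m3gb_root (H T : Qbar) (x : Fin 4 → Qbar)
    (hx : ∀ X : Qbar, m3Psi H T X = 3 * ((X - x 0) * (X - x 1) * (X - x 2) * (X - x 3)))
    (i : Fin 4) : m3Psi H T (x i) = 0 := by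
  rw [hx]
  fin_cases i <;> simp

/-- Every root is one of the `x j`. -/
theorem m3gb_eq_of_root (H T : Qbar) (x : Fin 4 → Qbar)
    (hx : ∀ X : Qbar, m3Psi H T X = 3 * ((X - x 0) * (X - x 1) * (X - x 2) * (X - x 3)))
    (X : Qbar) (hX : m3Psi H T X = 0) : ∃ j, X = x j := by
  rw [hx] at hX
  have h3 : (3 : Qbar) ≠ 0 := by norm_num
  rcases mul_eq_zero.mp hX with h | h
  · exact absurd h h3
  · rcases mul_eq_zero.mp h with h | h4
    · rcases mul_eq_zero.mp h with h | h3'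
      · rcases mul_eq_zero.mp h with h | h2
        · exact ⟨0, sub_eq_zero.mp h⟩
        · exact ⟨1, sub_eq_zero.mp h2⟩
      · exact ⟨2, sub_eq_zero.mp h3'⟩
    · exact ⟨3, sub_eq_zero.mp h4⟩

/-- Every Galois element maps roots of `m3Psi` with integer coefficients to roots. -/
theorem m3gb_root_map (H T : ℤ) (x : Fin 4 → Qbar)
    (hx : ∀ X : Qbar, m3Psi (H : Qbar) (T : Qbar) X =
      3 * ((X - x 0) * (X - x 1) * (X - x 2) * (X - x 3)))
    (σ : Γ) (i : Fin 4) : ∃ j, σ (x i) = x j := by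
  refine m3gb_eq_of_root (H : Qbar) (T : Qbar) x hx (σ (x i)) ?_
  have h := congrArg σ (m3gb_root (H : Qbar) (T : Qbar) x hx i)
  unfold m3Psi at h ⊢
  simpa only [map_sub, map_add, map_mul, map_pow, map_ofNat, map_intCast, map_zero] using h

/-- Every Galois element permutes the roots. -/
theorem m3gb_exists_perm (H T : ℤ) (x : Fin 4 → Qbar) (hxinj : Function.Injective x)
    (hx : ∀ X : Qbar, m3Psi (H : Qbar) (T : Qbar) X =
      3 * ((X - x 0) * (X - x 1) * (X - x 2) * (X - x 3)))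
    (σ : Γ) : ∃ π : Equiv.Perm (Fin 4), ∀ i, σ (x i) = x (π i) :=
  m3_exists_perm x hxinj (σ : Qbar ≃+* Qbar) (fun i => m3gb_root_map H T x hx σ i)

/-- The action on the roots is multiplicative. -/
theorem m3gb_acts_mul (x : Fin 4 → Qbar) {σ τ : Γ} {π ρ : Equiv.Perm (Fin 4)}
    (h1 : ∀ i, σ (x i) = x (π i)) (h2 : ∀ i, τ (x i) = x (ρ i)) :
    ∀ i, (σ * τ) (x i) = x ((π * ρ) i) := by
  intro i
  rw [AlgEquiv.mul_apply, h2, h1, Equiv.Perm.mul_apply]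

/-- The action on the roots is compatible with inverses. -/
theorem m3gb_acts_inv (x : Fin 4 → Qbar) {σ : Γ} {π : Equiv.Perm (Fin 4)}
    (h1 : ∀ i, σ (x i) = x (π i)) : ∀ i, σ⁻¹ (x i) = x (π⁻¹ i) := by
  intro i
  rw [AlgEquiv.aut_inv, AlgEquiv.symm_apply_eq, h1, Equiv.Perm.inv_def, Equiv.apply_symm_apply]

/-- A Galois element acting through a permutation preserving the pairing fixes `θ`. -/
theorem m3gb_theta_fixed (x : Fin 4 → Qbar) (σ : Γ) (π : Equiv.Perm (Fin 4))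
    (hπ : ∀ i, σ (x i) = x (π i)) (h : m3PairFix π) :
    σ (x 0 * x 1 + x 2 * x 3) = x 0 * x 1 + x 2 * x 3 := by
  rw [map_add, map_mul, map_mul, hπ, hπ, hπ, hπ]
  exact m3_pair_invariant x π h

/-- The cube root `β` is a rational expression in `θ`. -/
theorem m3gb_beta_map (σ : Γ) (H F : ℤ) (θ : Qbar) :
    σ (((θ - 18 * (H : Qbar)) / 432) ^ 2 / (F : Qbar) ^ 3) =
      ((σ θ - 18 * (H : Qbar)) / 432) ^ 2 / (F : Qbar) ^ 3 := by
  simp only [map_div₀, map_pow, map_sub, map_mul, map_ofNat, map_intCast]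

/-- The fixed root of the inertia element is moved by some Galois element. -/
theorem m3gb_exists_moving (u₁ : ℤ) (h7 : u₁ ≡ 2 [ZMOD 7]) (x : Fin 4 → Qbar)
    (hx : ∀ X : Qbar, m3Psi ((kH u₁ 1 : ℤ) : Qbar) ((kT u₁ 1 : ℤ) : Qbar) X =
      3 * ((X - x 0) * (X - x 1) * (X - x 2) * (X - x 3)))
    (a : Fin 4) : ∃ h : Γ, h (x a) ≠ x a := by
  by_contra hcon
  have hfix : ∀ σ : Γ, σ (x a) = x a := fun σ => not_not.mp fun hσ => hcon ⟨σ, hσ⟩
  obtain ⟨q, hq⟩ := S51.gd_rat_of_fixed (x a) hfix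
  have hroot := m3gb_root ((kH u₁ 1 : ℤ) : Qbar) ((kT u₁ 1 : ℤ) : Qbar) x hx a
  have hmap := m3Psi_map (algebraMap ℚ Qbar) ((kH u₁ 1 : ℤ) : ℚ) ((kT u₁ 1 : ℤ) : ℚ) q
  rw [map_intCast, map_intCast, hq, hroot] at hmap
  exact m3_no_rat_root u₁ h7 q ((map_eq_zero (algebraMap ℚ Qbar)).mp hmap)

/-- An inertia element at `p ≠ 3` moving a cube root `β` of a nonzero integer satisfies
`c (c β) ≠ β`. -/
theorem m3gb_inertia_sq (p : ℕ) (hp : p.Prime) (hp3 : p ≠ 3) (A : ValuationSubring Qbar)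
    (hA : A.LiesOverPrime p) (c : Γ) (hc : c ∈ A.inertiaSubgroupIn ℚ) (F : ℤ) (hF : F ≠ 0)
    (β : Qbar) (hβ : β ^ 3 = (F : Qbar)) (hcβ : c β ≠ β) : c (c β) ≠ β := by
  have hFQ : (F : Qbar) ≠ 0 := Int.cast_ne_zero.mpr hF
  have hβ0 : β ≠ 0 := by
    intro h0
    rw [h0] at hβ
    exact hFQ (by rw [← hβ]; ring)
  have hcβ3 : c β ^ 3 = (F : Qbar) := by
    rw [← map_pow, hβ, map_intCast]
  -- the cube root of unity `ε`
  obtain ⟨ε, hε⟩ : ∃ ε : Qbar, ε = c β / β := ⟨_, rfl⟩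
  have hε3 : ε ^ 3 = 1 := by
    rw [hε, div_pow, hcβ3, hβ, div_self hFQ]
  have hε1 : ε ≠ 1 := by
    intro h
    rw [hε] at h
    exact hcβ ((div_eq_one_iff_eq hβ0).mp h)
  have hcε : c ε = ε :=
    S42.cy_inertia_apply Nat.prime_three hp hp3 hA hc hε3
  have h4 : c β = ε * β := by
    rw [hε, div_mul_cancel₀ _ hβ0]
  intro h
  have h1 : c (c β) = ε * (ε * β) := by
    rw [h4, map_mul, hcε, h4]
  rw [h] at h1
  have h5 : β * (ε ^ 2 - 1) = 0 := by linear_combination -h1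
  have hε2 : ε ^ 2 = 1 := by
    rcases mul_eq_zero.mp h5 with h6 | h6
    · exact absurd h6 hβ0
    · exact sub_eq_zero.mp h6
  apply hε1
  linear_combination hε3 - ε * hε2

/-- The inertia element `c` moving the cube root `β` of `F`, and `c ∘ c`, both move `θ`. -/
theorem m3gb_inertia_theta (p : ℕ) (hp : p.Prime) (hp3 : p ≠ 3) (A : ValuationSubring Qbar)
    (hA : A.LiesOverPrime p) (c : Γ) (hc : c ∈ A.inertiaSubgroupIn ℚ) (H F : ℤ) (hF : F ≠ 0)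
    (θ : Qbar)
    (hβ : (((θ - 18 * (H : Qbar)) / 432) ^ 2 / (F : Qbar) ^ 3) ^ 3 = (F : Qbar))
    (hcβ : c (((θ - 18 * (H : Qbar)) / 432) ^ 2 / (F : Qbar) ^ 3) ≠
      ((θ - 18 * (H : Qbar)) / 432) ^ 2 / (F : Qbar) ^ 3) :
    c θ ≠ θ ∧ c (c θ) ≠ θ := by
  have hccβ := m3gb_inertia_sq p hp hp3 A hA c hc F hF _ hβ hcβ
  constructor
  · intro h
    apply hcβ
    rw [m3gb_beta_map, h]
  · intro h
    apply hccβ
    rw [m3gb_beta_map, m3gb_beta_map, h]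

/-- The Galois element: it lies in every normal subgroup containing the inertia groups above
`p` and moves all four roots of `ψ₃(C₀)`. -/
theorem m3_exists_galois_B (p : ℕ) (hp : p.Prime) (hp3 : p ≠ 3) (u₁ : ℤ)
    (h1 : (p : ℤ) ∣ u₁) (h2 : ¬ (p : ℤ) ^ 2 ∣ u₁) (h7 : u₁ ≡ 2 [ZMOD 7])
    (x : Fin 4 → Qbar) (hxinj : Function.Injective x)
    (hx : ∀ X : Qbar, m3Psi ((kH u₁ 1 : ℤ) : Qbar) ((kT u₁ 1 : ℤ) : Qbar) X =
      3 * ((X - x 0) * (X - x 1) * (X - x 2) * (X - x 3)))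
    (N : Subgroup Γ) [N.Normal]
    (hN : ∀ A : ValuationSubring Qbar, A.LiesOverPrime p → A.inertiaSubgroupIn ℚ ≤ N) :
    ∃ g ∈ N, ∀ b, g (x b) ≠ x b := by
  obtain ⟨hF1, hF2⟩ := m3_kF_dvd p hp u₁ h1 h2
  have hF0 : kF u₁ 1 ≠ 0 := by
    intro h0
    exact hF2 (h0 ▸ dvd_zero _)
  have hFQ : ((kF u₁ 1 : ℤ) : Qbar) ≠ 0 := Int.cast_ne_zero.mpr hF0
  have hrel : ((kT u₁ 1 : ℤ) : Qbar) ^ 2 + ((kH u₁ 1 : ℤ) : Qbar) ^ 3 =
      1728 * ((kF u₁ 1 : ℤ) : Qbar) ^ 5 := by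
    exact_mod_cast congrArg (Int.cast : ℤ → Qbar) (kT_sq_add_kH_cube u₁ 1)
  have hres := m3_resolvent ((kH u₁ 1 : ℤ) : Qbar) ((kT u₁ 1 : ℤ) : Qbar) x hx
  rw [hrel, mul_div_cancel_left₀ _ (by norm_num : (1728 : Qbar) ≠ 0)] at hres
  -- the cube root of `F0`
  have hβ : (((x 0 * x 1 + x 2 * x 3 - 18 * ((kH u₁ 1 : ℤ) : Qbar)) / 432) ^ 2 /
      ((kF u₁ 1 : ℤ) : Qbar) ^ 3) ^ 3 = ((kF u₁ 1 : ℤ) : Qbar) := by
    rw [div_pow, ← pow_mul, ← pow_mul, mul_comm 2 3, pow_mul, hres, div_eq_iff (pow_ne_zero _ hFQ)]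
    ring
  obtain ⟨A, hA⟩ := S54.exists_valuationSubring_liesOver p hp
  obtain ⟨c, hc, hcβ⟩ := m3_exists_inertia_moving p hp hp3 (kF u₁ 1) hF1 hF2 A hA _ hβ
  have hcN : c ∈ N := hN A hA hc
  obtain ⟨hθ1, hθ2⟩ := m3gb_inertia_theta p hp hp3 A hA c hc (kH u₁ 1) (kF u₁ 1) hF0 _ hβ hcβ
  -- the permutation of `c`
  obtain ⟨π, hπ⟩ := m3gb_exists_perm (kH u₁ 1) (kT u₁ 1) x hxinj hx c
  have hπ1 : ¬ m3PairFix π := fun h => hθ1 (m3gb_theta_fixed x c π hπ h)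
  have hπ2 : ¬ m3PairFix (π * π) := fun h =>
    hθ2 (m3gb_theta_fixed x (c * c) (π * π) (m3gb_acts_mul x hπ hπ) h)
  obtain ⟨a, ha, hauniq⟩ := m3_perm_unique_fix π hπ1 hπ2
  -- a Galois element moving the fixed root
  obtain ⟨h, hh⟩ := m3gb_exists_moving u₁ h7 x hx a
  obtain ⟨η, hη⟩ := m3gb_exists_perm (kH u₁ 1) (kT u₁ 1) x hxinj hx h
  have hηa : ∀ a', π a' = a' → η a' ≠ a' := by
    intro a' ha' hηa'
    rw [hauniq a' ha'] at hηa'
    apply hh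
    rw [hη, hηa']
  have hconj : h * c * h⁻¹ ∈ N := Subgroup.Normal.conj_mem inferInstance c hcN h
  have hconjact : ∀ i, (h * c * h⁻¹) (x i) = x ((η * π * η⁻¹) i) :=
    m3gb_acts_mul x (m3gb_acts_mul x hη hπ) (m3gb_acts_inv x hη)
  rcases m3_perm_main π η hπ1 hπ2 hηa with hmain | hmain
  · refine ⟨c * (h * c * h⁻¹), N.mul_mem hcN hconj, fun b hb => hmain b ?_⟩
    rw [m3gb_acts_mul x hπ hconjact b] at hb
    exact hxinj hb
  · refine ⟨c * (h * c * h⁻¹)⁻¹, N.mul_mem hcN (N.inv_mem hconj), fun b hb => hmain b ?_⟩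
    rw [m3gb_acts_mul x hπ (m3gb_acts_inv x hconjact) b] at hb
    exact hxinj hb

end Fermat.Agent.S52
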