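import Mathlib
import Fermat.Prelude.Def_FLTPrelim_Ramification
import Fermat.Agent.S54.Frobenius
import Fermat.Agent.S05.Inertia

/-!
# P17 (S52) block M3: units and congruences away from a finite set of primes

* `m3_exists_finset_unit`: a nonzero algebraic number is a unit at every valuation subring of
  `AlgebraicClosure ℚ` over `q`, for all primes `q` outside a finite set;
* `m3_exists_finset_aeval`: a rational polynomial preserves congruences modulo the maximal ideal
  of every valuation subring over `q`, for all primes `q` outside a finite set.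
-/

set_option autoImplicit false

namespace Fermat.Agent.S52

open Polynomial

local notation "Qbar" => AlgebraicClosure ℚ

/-- An algebraic number is integral at every valuation subring over `q`, for all primes `q`
outside a finite set (the prime divisors of a denominator). -/
theorem m3u_exists_finset_le (y : Qbar) :
    ∃ T : Finset ℕ, ∀ q : ℕ, q.Prime → q ∉ T → ∀ A : ValuationSubring Qbar, A.LiesOverPrime q →
      A.valuation y ≤ 1 := by
  obtain ⟨c, hc0, hc⟩ := (S54.isAlgebraic_int y).exists_integral_multiple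
  refine ⟨c.natAbs.primeFactors, fun q hq hqT A hA => ?_⟩
  have hqc : ¬ (q : ℤ) ∣ c := fun h =>
    hqT (Nat.mem_primeFactors.mpr ⟨hq, Int.natCast_dvd.mp h, Int.natAbs_ne_zero.mpr hc0⟩)
  have hvc : A.valuation ((c : ℤ) : Qbar) = 1 := S05.valuation_intCast_eq_one hq hA hqc
  have hle : A.valuation (c • y) ≤ 1 :=
    (A.valuation_le_one_iff _).mpr (S54.mem_of_isIntegral_int A hc)
  rw [zsmul_eq_mul, map_mul, hvc, one_mul] at hle
  exact hle

/-- A nonzero algebraic number is a unit at every valuation subring over `q`, for all primes `q`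
outside a finite set. -/
theorem m3_exists_finset_unit (y : Qbar) (hy : y ≠ 0) :
    ∃ T : Finset ℕ, ∀ q : ℕ, q.Prime → q ∉ T → ∀ A : ValuationSubring Qbar, A.LiesOverPrime q →
      A.valuation y = 1 := by
  classical
  obtain ⟨T₁, hT₁⟩ := m3u_exists_finset_le y
  obtain ⟨T₂, hT₂⟩ := m3u_exists_finset_le y⁻¹
  refine ⟨T₁ ∪ T₂, fun q hq hqT A hA => ?_⟩
  have h1 : A.valuation y ≤ 1 := hT₁ q hq (fun h => hqT (Finset.mem_union_left _ h)) A hA
  have h2 : A.valuation y⁻¹ ≤ 1 := hT₂ q hq (fun h => hqT (Finset.mem_union_right _ h)) A hA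
  have h3 : A.valuation y * A.valuation y⁻¹ = 1 := by
    rw [← map_mul, mul_inv_cancel₀ hy, map_one]
  refine le_antisymm h1 ?_
  rw [← h3]
  exact mul_le_of_le_one_right' h2

/-- Rational polynomials are congruence-preserving at the valuation subrings over all primes
outside a finite set. -/
theorem m3_exists_finset_aeval (P : ℚ[X]) :
    ∃ T : Finset ℕ, ∀ q : ℕ, q.Prime → q ∉ T → ∀ A : ValuationSubring Qbar, A.LiesOverPrime q →
      ∀ a b : Qbar, A.valuation a ≤ 1 → A.valuation b ≤ 1 → A.valuation (a - b) < 1 →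
        A.valuation (aeval a P - aeval b P) < 1 := by
  classical
  have h1 : ∀ i : ℕ, ∃ T : Finset ℕ, ∀ q : ℕ, q.Prime → q ∉ T → ∀ A : ValuationSubring Qbar,
      A.LiesOverPrime q → A.valuation (algebraMap ℚ Qbar (P.coeff i)) ≤ 1 :=
    fun i => m3u_exists_finset_le _
  choose T hT using h1
  refine ⟨(Finset.range (P.natDegree + 1)).biUnion T, fun q hq hqT A hA a b ha hb hab => ?_⟩
  have hcoeff : ∀ i ∈ Finset.range (P.natDegree + 1),
      A.valuation (algebraMap ℚ Qbar (P.coeff i)) ≤ 1 := fun i hi =>
    hT i q hq (fun h => hqT (Finset.mem_biUnion.mpr ⟨i, hi, h⟩)) A hA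
  have hpow : ∀ i : ℕ, A.valuation (a ^ i - b ^ i) < 1 := by
    intro i
    induction i with
    | zero => simp
    | succ i ih =>
      have h3 : a ^ (i + 1) - b ^ (i + 1) = (a ^ i - b ^ i) * a + (a - b) * b ^ i := by ring
      rw [h3]
      refine lt_of_le_of_lt (A.valuation.map_add _ _) (max_lt ?_ ?_)
      · rw [map_mul]; exact mul_lt_one_of_lt_of_le ih ha
      · rw [map_mul, map_pow]; exact mul_lt_one_of_lt_of_le hab (pow_le_one' hb i)
  rw [aeval_eq_sum_range, aeval_eq_sum_range, ← Finset.sum_sub_distrib]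
  refine Valuation.map_sum_lt _ one_ne_zero fun i hi => ?_
  rw [← smul_sub, Algebra.smul_def, map_mul, mul_comm]
  exact mul_lt_one_of_lt_of_le (hpow i) (hcoeff i hi)

end Fermat.Agent.S52
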