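import Mathlib.AlgebraicGeometry.EllipticCurve.Affine.Point
import Mathlib.RingTheory.Valuation.ValuationSubring
import Mathlib.RingTheory.LocalRing.ResidueField.Basic

/-!
# P17 (S52), block R: reduction of points with integral coordinates — shared definitions

`A` is a valuation subring of a field `L`, with residue field `κ = IsLocalRing.ResidueField A`;
`E` is a Weierstrass curve over `L` and `C` a Weierstrass curve over `κ` (in the applications both
are base changes of one Weierstrass curve over `ℤ`).

* `RInt A E P`: the point `P` of `E` is `0` or has both coordinates in `A`;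
* `rRed A E C P`: the reduction of `P`, a point of `C` (junk value `0` unless `P` has coordinates
  in `A` whose residues form a nonsingular point of `C`).
-/

set_option autoImplicit false

namespace Fermat.Agent.S52

open WeierstrassCurve WeierstrassCurve.Affine

variable {L : Type*} [Field L] (A : ValuationSubring L)

/-- The point `P` is `0` or has both coordinates in the valuation subring `A`. -/
def RInt (E : Affine L) : E.Point → Prop
  | .zero => True
  | .some x y _ => x ∈ A ∧ y ∈ A

theorem rInt_zero (E : Affine L) : RInt A E (0 : E.Point) := trivial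

theorem rInt_some_iff (E : Affine L) {x y : L} (h : E.Nonsingular x y) :
    RInt A E (Point.some x y h) ↔ x ∈ A ∧ y ∈ A := Iff.rfl

theorem rInt_neg (E : Affine L) (ha₁ : E.a₁ ∈ A) (ha₃ : E.a₃ ∈ A) {P : E.Point}
    (hP : RInt A E P) : RInt A E (-P) := by
  rcases P with _ | ⟨x, y, h⟩
  · exact trivial
  · obtain ⟨hx, hy⟩ := hP
    refine ⟨hx, ?_⟩
    show -y - E.a₁ * x - E.a₃ ∈ A
    exact sub_mem (sub_mem (neg_mem hy) (mul_mem ha₁ hx)) ha₃

open Classical in
/-- Reduction of a point: `0 ↦ 0`, and `(x, y) ↦ (x mod 𝔪, y mod 𝔪)` when `x, y ∈ A` and the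
residues form a nonsingular point of `C` (junk value `0` otherwise). -/
noncomputable def rRed (E : Affine L) (C : Affine (IsLocalRing.ResidueField A)) :
    E.Point → C.Point
  | .zero => 0
  | .some x y _ =>
    if h : ∃ (hx : x ∈ A) (hy : y ∈ A),
        C.Nonsingular (IsLocalRing.residue A ⟨x, hx⟩) (IsLocalRing.residue A ⟨y, hy⟩) then
      Point.some (IsLocalRing.residue A ⟨x, h.choose⟩)
        (IsLocalRing.residue A ⟨y, h.choose_spec.choose⟩) h.choose_spec.choose_spec
    else 0

theorem rRed_zero (E : Affine L) (C : Affine (IsLocalRing.ResidueField A)) :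
    rRed A E C (0 : E.Point) = 0 := rfl

theorem rRed_some (E : Affine L) (C : Affine (IsLocalRing.ResidueField A)) {x y : L}
    (h : E.Nonsingular x y) (hx : x ∈ A) (hy : y ∈ A)
    (hns : C.Nonsingular (IsLocalRing.residue A ⟨x, hx⟩) (IsLocalRing.residue A ⟨y, hy⟩)) :
    rRed A E C (Point.some x y h) =
      Point.some (IsLocalRing.residue A ⟨x, hx⟩) (IsLocalRing.residue A ⟨y, hy⟩) hns := by
  have hex : ∃ (hx : x ∈ A) (hy : y ∈ A),
      C.Nonsingular (IsLocalRing.residue A ⟨x, hx⟩) (IsLocalRing.residue A ⟨y, hy⟩) :=
    ⟨hx, hy, hns⟩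
  unfold rRed
  exact dif_pos hex

/-- A point with coordinates in `A` whose reduction is nonsingular does not reduce to `0`. -/
theorem rRed_some_ne_zero (E : Affine L) (C : Affine (IsLocalRing.ResidueField A)) {x y : L}
    (h : E.Nonsingular x y) (hx : x ∈ A) (hy : y ∈ A)
    (hns : C.Nonsingular (IsLocalRing.residue A ⟨x, hx⟩) (IsLocalRing.residue A ⟨y, hy⟩)) :
    rRed A E C (Point.some x y h) ≠ 0 := by
  rw [rRed_some A E C h hx hy hns]
  exact Point.some_ne_zero hns

end Fermat.Agent.S52
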