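import Fermat.Agent.S51.Torsion5
import Fermat.Agent.S52.RDefs

/-!
# P17 (S52), block R: `5`-torsion points have integral coordinates

For a valuation subring `A` of a field `L` whose residue field has characteristic `≠ 5` and a
Weierstrass curve `W` over `ℤ`, every `5`-torsion point of `W` over `L` is `0` or has both
coordinates in `A` (`rInt_of_five_torsion`).

The `x`-coordinate is a root of the `5`-division polynomial `ψ₅ = 5 x¹² + …` (`S51/Torsion5`);
if `x ∉ A` then `u = x⁻¹` lies in the maximal ideal and `u¹² ψ₅(1/u) ≡ 5` modulo the maximal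
ideal.
-/

set_option autoImplicit false

namespace Fermat.Agent.S52

open WeierstrassCurve WeierstrassCurve.Affine

section Qfun

variable {R : Type*} [CommRing R]

/-- The reversed `5`-division polynomial `u¹² ψ₅(1/u)`, as a function of `u` and the `bᵢ`. -/
def ri5_Q (u b2 b4 b6 b8 : R) : R :=
  (2 + b2 * u + 5 * b4 * u ^ 2 + 10 * b6 * u ^ 3 + 10 * b8 * u ^ 4 + (b2 * b8 - b4 * b6) * u ^ 5 +
      (b4 * b8 - b6 ^ 2) * u ^ 6) * (4 + b2 * u + 2 * b4 * u ^ 2 + b6 * u ^ 3) ^ 2 -
    (3 + b2 * u + 3 * b4 * u ^ 2 + 3 * b6 * u ^ 3 + b8 * u ^ 4) ^ 3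

theorem ri5_map_Q {S : Type*} [CommRing S] (f : R →+* S) (u b2 b4 b6 b8 : R) :
    f (ri5_Q u b2 b4 b6 b8) = ri5_Q (f u) (f b2) (f b4) (f b6) (f b8) := by
  simp only [ri5_Q, map_sub, map_mul, map_add, map_pow, map_ofNat]

theorem ri5_Q_zero (b2 b4 b6 b8 : R) : ri5_Q 0 b2 b4 b6 b8 = 5 := by
  simp only [ri5_Q]
  ring

end Qfun

section Field

variable {k : Type*} [Field k]

theorem ri5_Q_inv (V : WeierstrassCurve k) {x : k} (hx : x ≠ 0) :
    ri5_Q x⁻¹ V.b₂ V.b₄ V.b₆ V.b₈ * x ^ 12 =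
      S51.t5_pre4 V x * S51.dupDen V x ^ 2 - S51.psi3 V x ^ 3 := by
  simp only [ri5_Q, S51.t5_pre4, S51.dupDen, S51.psi3]
  field_simp

variable [DecidableEq k]

/-- The `x`-coordinate of a nonzero `5`-torsion point is a root of the `5`-division polynomial. -/
theorem ri5_psi5_eq_zero {V : Affine k} {P : V.Point} (hP0 : P ≠ 0) (hP : 5 • P = 0) :
    S51.t5_pre4 V (S51.xc P) * S51.dupDen V (S51.xc P) ^ 2 - S51.psi3 V (S51.xc P) ^ 3 = 0 := by
  have h1 := S51.t5_eval_xc hP0 hP
  rw [S51.t5_eval_poly, S51.t5_id5] at h1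
  have h2 : 2 • P ≠ 0 := S51.t5_two_nsmul_ne_zero hP0 hP
  have hden : S51.dupDen V (S51.xc P) ≠ 0 := fun h => h2 ((S51.dupDen_eq_zero_iff hP0).mp h)
  have hpsi3 : S51.psi3 V (S51.xc P) ≠ 0 := by
    intro h3
    rw [S51.psi3_eq, ← S51.xc_two_nsmul hP0 h2, ← sub_mul] at h3
    rcases mul_eq_zero.mp h3 with h | h
    · exact (S51.five_torsion_rel hP0 hP).1 (sub_eq_zero.mp h)
    · exact hden h
  rcases mul_eq_zero.mp h1 with h | h
  · exact absurd (neg_eq_zero.mp h) hpsi3
  · exact h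

end Field

/-- **Integrality of `5`-torsion points.** If `5` is invertible in the residue field of the
valuation subring `A`, every `5`-torsion point of a Weierstrass curve over `ℤ` is `0` or has both
coordinates in `A`. -/
theorem rInt_of_five_torsion {L : Type*} [Field L] [DecidableEq L] (A : ValuationSubring L)
    (W : WeierstrassCurve ℤ) (h5 : (5 : IsLocalRing.ResidueField A) ≠ 0) (E : Affine L)
    (hE : E = W.map (Int.castRingHom L)) {P : E.Point} (hP : 5 • P = 0) : RInt A E P := by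
  subst hE
  rcases P with _ | ⟨x, y, h⟩
  · exact trivial
  · have hP0 : (Point.some x y h) ≠ 0 := Point.some_ne_zero h
    have hψ := ri5_psi5_eq_zero hP0 hP
    rw [S51.xc_some] at hψ
    have hx : x ∈ A := by
      by_contra hxA
      have hx0 : x ≠ 0 := fun h0 => hxA (h0 ▸ A.zero_mem)
      have hu : x⁻¹ ∈ A := (A.mem_or_inv_mem x).resolve_left hxA
      have hQ0 : ri5_Q x⁻¹ (W.map (Int.castRingHom L)).b₂ (W.map (Int.castRingHom L)).b₄
          (W.map (Int.castRingHom L)).b₆ (W.map (Int.castRingHom L)).b₈ = 0 := by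
        have hQ := ri5_Q_inv (W.map (Int.castRingHom L)) hx0
        rw [hψ] at hQ
        exact (mul_eq_zero.mp hQ).resolve_right (pow_ne_zero _ hx0)
      -- pull back to `A`
      have hA0 : ri5_Q (⟨x⁻¹, hu⟩ : A) ((W.b₂ : ℤ) : A) ((W.b₄ : ℤ) : A) ((W.b₆ : ℤ) : A)
          ((W.b₈ : ℤ) : A) = 0 := by
        apply Subtype.val_injective
        have h1 := ri5_map_Q A.subtype (⟨x⁻¹, hu⟩ : A) ((W.b₂ : ℤ) : A) ((W.b₄ : ℤ) : A)
          ((W.b₆ : ℤ) : A) ((W.b₈ : ℤ) : A)
        simp only [map_intCast] at h1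
        rw [WeierstrassCurve.map_b₂, WeierstrassCurve.map_b₄, WeierstrassCurve.map_b₆,
          WeierstrassCurve.map_b₈] at hQ0
        exact h1.trans hQ0
      -- push to the residue field
      have hres := congrArg (IsLocalRing.residue A) hA0
      rw [ri5_map_Q, map_zero] at hres
      have hu0 : IsLocalRing.residue A ⟨x⁻¹, hu⟩ = 0 := by
        rw [IsLocalRing.residue_eq_zero_iff]
        have h1 : x⁻¹ ∈ A.nonunits := A.inv_mem_nonunits_iff.mpr (Or.inr hxA)
        obtain ⟨_, h2⟩ := A.mem_nonunits_iff_exists_mem_maximalIdeal.mp h1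
        exact h2
      rw [hu0, ri5_Q_zero] at hres
      exact h5 hres
    refine ⟨hx, ?_⟩
    by_contra hyA
    have hy0 : y ≠ 0 := fun h0 => hyA (h0 ▸ A.zero_mem)
    have hw : y⁻¹ ∈ A := (A.mem_or_inv_mem y).resolve_left hyA
    have hEq := (equation_iff x y).mp h.1
    have ha1 : (W.map (Int.castRingHom L)).a₁ ∈ A := intCast_mem A W.a₁
    have ha2 : (W.map (Int.castRingHom L)).a₂ ∈ A := intCast_mem A W.a₂
    have ha3 : (W.map (Int.castRingHom L)).a₃ ∈ A := intCast_mem A W.a₃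
    have ha4 : (W.map (Int.castRingHom L)).a₄ ∈ A := intCast_mem A W.a₄
    have ha6 : (W.map (Int.castRingHom L)).a₆ ∈ A := intCast_mem A W.a₆
    have hy : y = -((W.map (Int.castRingHom L)).a₁ * x + (W.map (Int.castRingHom L)).a₃) +
        (x ^ 3 + (W.map (Int.castRingHom L)).a₂ * x ^ 2 + (W.map (Int.castRingHom L)).a₄ * x +
          (W.map (Int.castRingHom L)).a₆) * y⁻¹ := by
      field_simp
      linear_combination hEq
    apply hyA
    rw [hy]
    exact add_mem (neg_mem (add_mem (mul_mem ha1 hx) ha3))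
      (mul_mem (add_mem (add_mem (add_mem (pow_mem hx 3) (mul_mem ha2 (pow_mem hx 2)))
        (mul_mem ha4 hx)) ha6) hw)

end Fermat.Agent.S52
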