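import Fermat.Agent.S52.RRedCore
import Fermat.Agent.S52.RInt5
import Fermat.Agent.S51.Galois
import Fermat.Agent.S37.FrobRes

/-!
# P17 (S52), block R: Frobenius elements and inertia on the `5`-torsion of a curve with good
reduction

* `frob_quadratic_of_relation`: if the Frobenius endomorphism `φ` of the reduced curve satisfies
  `φ² - a_ℓ φ + ℓ = 0` (block F), then a Frobenius element `σ` at a place `A` over `ℓ ∤ 5Δ`
  satisfies `σ² - a_ℓ σ + ℓ = 0` on `W[5]`;
* `inertia_five_torsion`: the inertia group at a place over `p ∤ 5Δ` acts trivially on `W[5]`.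

Both follow from the reduction map `W[5] → (W mod ℓ)(κ)`, `κ` the residue field of `A`, which is
an injective homomorphism, equivariant for the decomposition group.
-/

set_option autoImplicit false

namespace Fermat.Agent.S52

open WeierstrassCurve WeierstrassCurve.Affine

local notation "Qbar" => AlgebraicClosure ℚ

namespace RRed5

theorem galV_eq (W : WeierstrassCurve ℤ) :
    (S51.gal_V W : Affine Qbar) = W.map (Int.castRingHom Qbar) := by
  have h : (algebraMap ℚ Qbar).comp (Int.castRingHom ℚ) = Int.castRingHom Qbar :=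
    RingHom.ext_int _ _
  show (W.map (Int.castRingHom ℚ)).map (algebraMap ℚ Qbar) = W.map (Int.castRingHom Qbar)
  rw [← h]
  exact WeierstrassCurve.map_map W _ _

theorem redCurve_eq (W : WeierstrassCurve ℤ) (ℓ : ℕ) {κ : Type*} [Field κ] [Algebra (ZMod ℓ) κ] :
    ((W.reductionMod ℓ)⁄κ : Affine κ) = W.map (Int.castRingHom κ) := by
  have h : (algebraMap (ZMod ℓ) κ).comp (Int.castRingHom (ZMod ℓ)) = Int.castRingHom κ :=
    RingHom.ext_int _ _
  show (W.map (Int.castRingHom (ZMod ℓ))).map (algebraMap (ZMod ℓ) κ) = W.map (Int.castRingHom κ)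
  rw [← h]
  exact WeierstrassCurve.map_map W _ _

theorem some_congr {F : Type*} [Field F] {V : Affine F} {x x' y y' : F} (hx : x = x')
    (hy : y = y') (h : V.Nonsingular x y) (h' : V.Nonsingular x' y') :
    Point.some x y h = Point.some x' y' h' := by
  subst hx hy
  rfl

section Core

variable (W : WeierstrassCurve ℤ) {ℓ : ℕ} (A : ValuationSubring Qbar)
  [Algebra (ZMod ℓ) (IsLocalRing.ResidueField A)] [DecidableEq (IsLocalRing.ResidueField A)]
  (hΔ : ((W.Δ : ℤ) : IsLocalRing.ResidueField A) ≠ 0)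
  (h5 : (5 : IsLocalRing.ResidueField A) ≠ 0)

/-- The reduction map (on all points; meaningful on points with coordinates in `A`). -/
noncomputable abbrev red (ℓ : ℕ) [Algebra (ZMod ℓ) (IsLocalRing.ResidueField A)] :
    (S51.gal_V W).Point → ((W.reductionMod ℓ)⁄(IsLocalRing.ResidueField A)).Point :=
  rRed A (S51.gal_V W) ((W.reductionMod ℓ)⁄(IsLocalRing.ResidueField A))

omit [Algebra (ZMod ℓ) (IsLocalRing.ResidueField A)] [DecidableEq (IsLocalRing.ResidueField A)] in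
include h5 in
theorem rint {P : (S51.gal_V W).Point} (hP : 5 • P = 0) : RInt A (S51.gal_V W) P :=
  rInt_of_five_torsion A W h5 _ (galV_eq W) hP

include hΔ h5 in
theorem red_add {P Q : (S51.gal_V W).Point} (hP : 5 • P = 0) (hQ : 5 • Q = 0) :
    red W A ℓ (P + Q) = red W A ℓ P + red W A ℓ Q := by
  have hPQ : 5 • (P + Q) = 0 := by rw [nsmul_add, hP, hQ, add_zero]
  have hPQ' : 5 • (P - Q) = 0 := by rw [nsmul_sub, hP, hQ, sub_zero]
  exact rRed_add A W hΔ _ (galV_eq W) _ (redCurve_eq W ℓ) (rint W A h5 hP) (rint W A h5 hQ)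
    (rint W A h5 hPQ) (rint W A h5 hPQ')

omit [DecidableEq (IsLocalRing.ResidueField A)] in
include hΔ h5 in
theorem red_eq_zero {P : (S51.gal_V W).Point} (hP : 5 • P = 0) (h : red W A ℓ P = 0) :
    P = 0 := by
  rcases P with _ | ⟨x, y, hxy⟩
  · rfl
  · exfalso
    obtain ⟨hx, hy⟩ := rint W A h5 hP
    obtain ⟨hns, he⟩ := rRed_some_exists A W hΔ _ (galV_eq W)
      ((W.reductionMod ℓ)⁄(IsLocalRing.ResidueField A)) (redCurve_eq W ℓ) hxy hx hy
    have h' : rRed A (S51.gal_V W) ((W.reductionMod ℓ)⁄(IsLocalRing.ResidueField A))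
        (Point.some x y hxy) = 0 := h
    rw [he] at h'
    exact Point.some_ne_zero hns h'

/-- The `5`-torsion subgroup. -/
def T5 : AddSubgroup (S51.gal_V W).Point where
  carrier := {P | 5 • P = 0}
  zero_mem' := nsmul_zero 5
  add_mem' := fun {P Q} hP hQ => by
    have hP' : 5 • P = 0 := hP
    have hQ' : 5 • Q = 0 := hQ
    show 5 • (P + Q) = 0
    rw [nsmul_add, hP', hQ', add_zero]
  neg_mem' := fun {P} hP => by
    have hP' : 5 • P = 0 := hP
    show 5 • (-P) = 0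
    rw [neg_nsmul, hP', neg_zero]

theorem mem_T5 {P : (S51.gal_V W).Point} : P ∈ T5 W ↔ 5 • P = 0 := Iff.rfl

theorem smul_mem_T5 (σ : Qbar ≃ₐ[ℚ] Qbar) {P : (S51.gal_V W).Point} (hP : 5 • P = 0) :
    5 • (σ • P) = 0 := by
  rw [← S51.gal_smul_nsmul, hP]
  rfl

/-- The reduction homomorphism on the `5`-torsion. -/
noncomputable def redHom (hΔ : ((W.Δ : ℤ) : IsLocalRing.ResidueField A) ≠ 0)
    (h5 : (5 : IsLocalRing.ResidueField A) ≠ 0) :
    T5 W →+ ((W.reductionMod ℓ)⁄(IsLocalRing.ResidueField A)).Point :=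
  AddMonoidHom.mk' (fun P => red W A ℓ (P : (S51.gal_V W).Point))
    (fun P Q => red_add W A hΔ h5 P.2 Q.2)

theorem redHom_apply (P : T5 W) :
    redHom W A hΔ h5 P = red W A ℓ (P : (S51.gal_V W).Point) := rfl

theorem redHom_injective : Function.Injective (redHom (ℓ := ℓ) W A hΔ h5) := by
  rw [injective_iff_map_eq_zero]
  intro P hP
  exact Subtype.ext (red_eq_zero W A hΔ h5 P.2 hP)

include hΔ h5 in
/-- Frobenius elements reduce to the Frobenius endomorphism. -/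
theorem red_frob {σ : Qbar ≃ₐ[ℚ] Qbar} (hσ : A.IsFrobeniusAt σ ℓ)
    (φ : IsLocalRing.ResidueField A →ₐ[ZMod ℓ] IsLocalRing.ResidueField A)
    (hφ : ∀ x, φ x = x ^ ℓ) {P : (S51.gal_V W).Point} (hP : 5 • P = 0) :
    red W A ℓ (σ • P) = Point.map φ (red W A ℓ P) := by
  rcases P with _ | ⟨x, y, hxy⟩
  · rfl
  · obtain ⟨hx, hy⟩ := rint W A h5 hP
    have hσx : σ x ∈ A := S37.apply_mem_of_mem_decomposition hσ.mem_decompositionSubgroup hx
    have hσy : σ y ∈ A := S37.apply_mem_of_mem_decomposition hσ.mem_decompositionSubgroup hy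
    obtain ⟨hns, he⟩ := rRed_some_exists A W hΔ _ (galV_eq W)
      ((W.reductionMod ℓ)⁄(IsLocalRing.ResidueField A)) (redCurve_eq W ℓ) hxy hx hy
    have hxy' : (S51.gal_V W).Nonsingular (σ x) (σ y) :=
      (WeierstrassCurve.Affine.baseChange_nonsingular (W.map (Int.castRingHom ℚ))
        σ.toAlgHom.injective x y).mpr hxy
    have hsm : σ • (Point.some x y hxy : (S51.gal_V W).Point) = Point.some (σ x) (σ y) hxy' := rfl
    obtain ⟨hns', he'⟩ := rRed_some_exists A W hΔ _ (galV_eq W)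
      ((W.reductionMod ℓ)⁄(IsLocalRing.ResidueField A)) (redCurve_eq W ℓ) hxy' hσx hσy
    show rRed A (S51.gal_V W) ((W.reductionMod ℓ)⁄(IsLocalRing.ResidueField A))
        (σ • (Point.some x y hxy : (S51.gal_V W).Point)) =
      Point.map φ (rRed A (S51.gal_V W) ((W.reductionMod ℓ)⁄(IsLocalRing.ResidueField A))
        (Point.some x y hxy))
    rw [hsm, he', he, Point.map_some]
    apply some_congr
    · rw [hφ]
      exact S37.residue_apply_of_isFrobeniusAt hσ hx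
    · rw [hφ]
      exact S37.residue_apply_of_isFrobeniusAt hσ hy

omit [DecidableEq (IsLocalRing.ResidueField A)] in
include hΔ h5 in
/-- Inertia acts trivially after reduction. -/
theorem red_inertia {τ : Qbar ≃ₐ[ℚ] Qbar} (hτ : τ ∈ A.inertiaSubgroupIn ℚ)
    {P : (S51.gal_V W).Point} (hP : 5 • P = 0) :
    red W A ℓ (τ • P) = red W A ℓ P := by
  rcases P with _ | ⟨x, y, hxy⟩
  · rfl
  · obtain ⟨hx, hy⟩ := rint W A h5 hP
    have hdec := S37.inertiaSubgroupIn_le_decomposition hτ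
    have hτx : τ x ∈ A := S37.apply_mem_of_mem_decomposition hdec hx
    have hτy : τ y ∈ A := S37.apply_mem_of_mem_decomposition hdec hy
    obtain ⟨hns, he⟩ := rRed_some_exists A W hΔ _ (galV_eq W)
      ((W.reductionMod ℓ)⁄(IsLocalRing.ResidueField A)) (redCurve_eq W ℓ) hxy hx hy
    have hxy' : (S51.gal_V W).Nonsingular (τ x) (τ y) :=
      (WeierstrassCurve.Affine.baseChange_nonsingular (W.map (Int.castRingHom ℚ))
        τ.toAlgHom.injective x y).mpr hxy
    have hsm : τ • (Point.some x y hxy : (S51.gal_V W).Point) = Point.some (τ x) (τ y) hxy' := rfl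
    obtain ⟨hns', he'⟩ := rRed_some_exists A W hΔ _ (galV_eq W)
      ((W.reductionMod ℓ)⁄(IsLocalRing.ResidueField A)) (redCurve_eq W ℓ) hxy' hτx hτy
    show rRed A (S51.gal_V W) ((W.reductionMod ℓ)⁄(IsLocalRing.ResidueField A))
        (τ • (Point.some x y hxy : (S51.gal_V W).Point)) =
      rRed A (S51.gal_V W) ((W.reductionMod ℓ)⁄(IsLocalRing.ResidueField A))
        (Point.some x y hxy)
    rw [hsm, he', he]
    apply some_congr
    · exact S37.residue_apply_of_mem_inertia hτ hx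
    · exact S37.residue_apply_of_mem_inertia hτ hy

end Core

/-- Hypotheses on the residue field from `ℓ ∤ 5Δ`. -/
theorem residue_hyps (W : WeierstrassCurve ℤ) {ℓ : ℕ} (hℓ : ℓ.Prime) (hgood : ¬ (ℓ : ℤ) ∣ W.Δ)
    (hℓ5 : ℓ ≠ 5) (A : ValuationSubring Qbar) (hA : A.LiesOverPrime ℓ) :
    ((W.Δ : ℤ) : IsLocalRing.ResidueField A) ≠ 0 ∧ (5 : IsLocalRing.ResidueField A) ≠ 0 := by
  have hchar := S37.charP_residueField A hℓ hA
  constructor
  · intro h0
    exact hgood ((CharP.intCast_eq_zero_iff (IsLocalRing.ResidueField A) ℓ W.Δ).mp h0)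
  · intro h0
    have h1 : ((5 : ℕ) : IsLocalRing.ResidueField A) = 0 := by exact_mod_cast h0
    have h2 := (CharP.cast_eq_zero_iff (IsLocalRing.ResidueField A) ℓ 5).mp h1
    have h3 : ℓ = 5 := (Nat.prime_dvd_prime_iff_eq hℓ (by norm_num)).mp h2
    exact hℓ5 h3

end RRed5

/-- The reduction of `W` modulo a prime of good reduction is nonsingular. -/
theorem RRed5.reductionMod_Δ_ne_zero (W : WeierstrassCurve ℤ) {ℓ : ℕ}
    (hgood : ¬ (ℓ : ℤ) ∣ W.Δ) : (W.reductionMod ℓ).Δ ≠ 0 := by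
  intro h0
  apply hgood
  have h1 : (W.reductionMod ℓ).Δ = ((W.Δ : ℤ) : ZMod ℓ) := by
    show (W.map (Int.castRingHom (ZMod ℓ))).Δ = _
    rw [WeierstrassCurve.map_Δ]
    rfl
  rw [h1] at h0
  exact (ZMod.intCast_zmod_eq_zero_iff_dvd W.Δ ℓ).mp h0

/-- (R1, hypothesis form) If the Frobenius endomorphism of the reduced curve satisfies
`φ² - a_ℓ φ + ℓ = 0`, then Frobenius elements satisfy `σ² - a_ℓ σ + ℓ = 0` on `W[5]`, `ℓ ∤ 5Δ`. -/
theorem frob_quadratic_of_relation (W : WeierstrassCurve ℤ) (ℓ : ℕ) (hℓ : ℓ.Prime)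
    (hgood : ¬ (ℓ : ℤ) ∣ W.Δ) (hℓ5 : ℓ ≠ 5) (A : ValuationSubring Qbar) (hA : A.LiesOverPrime ℓ)
    [Algebra (ZMod ℓ) (IsLocalRing.ResidueField A)] [DecidableEq (IsLocalRing.ResidueField A)]
    (φ : IsLocalRing.ResidueField A →ₐ[ZMod ℓ] IsLocalRing.ResidueField A)
    (hφ : ∀ x, φ x = x ^ ℓ)
    (hrel : ∀ Q : ((W.reductionMod ℓ)⁄(IsLocalRing.ResidueField A)).Point,
      Point.map φ (Point.map φ Q) - (W.reductionMod ℓ).traceOfFrobenius • Point.map φ Q +
        (ℓ : ℤ) • Q = 0)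
    (σ : Qbar ≃ₐ[ℚ] Qbar) (hσ : A.IsFrobeniusAt σ ℓ) (P : (S51.gal_V W).Point)
    (hP : 5 • P = 0) :
    σ • (σ • P) - W.apOfModel ℓ • (σ • P) + (ℓ : ℤ) • P = 0 := by
  obtain ⟨hΔ, h5⟩ := RRed5.residue_hyps W hℓ hgood hℓ5 A hA
  have hσP : 5 • (σ • P) = 0 := RRed5.smul_mem_T5 W σ hP
  have hσσP : 5 • (σ • (σ • P)) = 0 := RRed5.smul_mem_T5 W σ hσP
  set X : RRed5.T5 W := (⟨σ • (σ • P), hσσP⟩ : RRed5.T5 W) -
    W.apOfModel ℓ • (⟨σ • P, hσP⟩ : RRed5.T5 W) + (ℓ : ℤ) • (⟨P, hP⟩ : RRed5.T5 W) with hX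
  have hXval : (X : (S51.gal_V W).Point) =
      σ • (σ • P) - W.apOfModel ℓ • (σ • P) + (ℓ : ℤ) • P := rfl
  rw [← hXval]
  have hred : RRed5.redHom (ℓ := ℓ) W A hΔ h5 X = 0 := by
    rw [hX, map_add, map_sub, map_zsmul, map_zsmul, RRed5.redHom_apply, RRed5.redHom_apply,
      RRed5.redHom_apply]
    show RRed5.red W A ℓ (σ • (σ • P)) - W.apOfModel ℓ • RRed5.red W A ℓ (σ • P) +
      (ℓ : ℤ) • RRed5.red W A ℓ P = 0
    rw [RRed5.red_frob W A hΔ h5 hσ φ hφ hσP, RRed5.red_frob W A hΔ h5 hσ φ hφ hP]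
    exact hrel _
  have hX0 : X = 0 := RRed5.redHom_injective (ℓ := ℓ) W A hΔ h5 (by rw [hred, map_zero])
  rw [hX0]
  rfl

/-- (R2) Inertia at `p ∤ 5Δ` acts trivially on `W[5]`. -/
theorem inertia_five_torsion (W : WeierstrassCurve ℤ) (p : ℕ) (hp : p.Prime)
    (hgood : ¬ (p : ℤ) ∣ W.Δ) (hp5 : p ≠ 5) (A : ValuationSubring Qbar) (hA : A.LiesOverPrime p)
    (τ : Qbar ≃ₐ[ℚ] Qbar) (hτ : τ ∈ A.inertiaSubgroupIn ℚ) (P : (S51.gal_V W).Point)
    (hP : 5 • P = 0) : τ • P = P := by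
  have : Fact p.Prime := ⟨hp⟩
  have := S37.charP_residueField A hp hA
  let _ : Algebra (ZMod p) (IsLocalRing.ResidueField A) := ZMod.algebra _ p
  let _ : DecidableEq (IsLocalRing.ResidueField A) := Classical.decEq _
  obtain ⟨hΔ, h5⟩ := RRed5.residue_hyps W hp hgood hp5 A hA
  have hτP : 5 • (τ • P) = 0 := RRed5.smul_mem_T5 W τ hP
  have h1 : RRed5.redHom (ℓ := p) W A hΔ h5 ⟨τ • P, hτP⟩ =
      RRed5.redHom (ℓ := p) W A hΔ h5 ⟨P, hP⟩ :=
    RRed5.red_inertia W A hΔ h5 hτ hP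
  exact congrArg Subtype.val (RRed5.redHom_injective (ℓ := p) W A hΔ h5 h1)

end Fermat.Agent.S52
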