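import Fermat.Agent.S52.M3Basic
import Fermat.Agent.S52.M3Density
import Fermat.Agent.S52.M3Arith
import Fermat.Agent.S52.M3Roots
import Fermat.Agent.S52.M3Unit
import Fermat.Agent.S52.M3Frob
import Fermat.Agent.S52.M3Final
import Fermat.Agent.S52.RRed5
import Fermat.Agent.S52.M1Short
import Fermat.Agent.S52.M3GalB
import Fermat.Agent.S52.M3FieldB

/-!
# P17 (S52) block M3: a prime `q` at which the whole Klein family has irreducible `3`-torsion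

`exists_irred_prime`: for a rational elliptic curve `W` and a Klein family `K` through its short
model, there are a prime `q` outside any given finite set and a residue class `t₀ mod q` such that
every integral model `W'` of a member `t ≡ t₀ [ZMOD q]` of the family has good reduction at `q`
and no rational root of its `3`-division polynomial.
-/

set_option autoImplicit false

namespace Fermat.Agent.S52

open WeierstrassCurve WeierstrassCurve.Affine Polynomial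

local notation "Qbar" => AlgebraicClosure ℚ
local notation "Γ" => (AlgebraicClosure ℚ ≃ₐ[ℚ] AlgebraicClosure ℚ)

/-- `Δ(shortCurve h τ) = -1259712 (h³ + τ²)`. -/
theorem m3m_shortCurve_Δ {R : Type*} [CommRing R] (h τ : R) :
    (shortCurve h τ).Δ = -1259712 * (h ^ 3 + τ ^ 2) := by
  simp only [shortCurve, WeierstrassCurve.Δ, WeierstrassCurve.b₂, WeierstrassCurve.b₄,
    WeierstrassCurve.b₆, WeierstrassCurve.b₈]
  ring

/-- The short model of a curve with `Δ ≠ 0` has `Δ ≠ 0`. -/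
theorem m3m_shortCurve_Δ_ne (W : WeierstrassCurve ℤ) (hΔ : W.Δ ≠ 0) :
    (shortCurve (-(W.c₄ : ℚ)) (-(W.c₆ : ℚ))).Δ ≠ 0 := by
  rw [m3m_shortCurve_Δ]
  have h := W.c_relation
  have h' : (W.c₄ : ℚ) ^ 3 - (W.c₆ : ℚ) ^ 2 = 1728 * (W.Δ : ℚ) := by exact_mod_cast h.symm
  have h2 : (-(W.c₄ : ℚ)) ^ 3 + (-(W.c₆ : ℚ)) ^ 2 = -(1728 * (W.Δ : ℚ)) := by
    rw [← h']; ring
  rw [h2]
  have : (W.Δ : ℚ) ≠ 0 := by exact_mod_cast hΔ
  simp [this]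

/-- If `σ y = y` then every power of `σ` fixes `y`. -/
theorem m3m_pow_apply_of_fixed (σ : Γ) (y : Qbar) (h : σ y = y) (j : ℕ) : (σ ^ j) y = y := by
  induction j with
  | zero => simp
  | succ n ih => rw [pow_succ, AlgEquiv.mul_apply, h, ih]

/-- `q ∣ n` gives valuation `< 1` at the valuation subrings over `q`. -/
theorem m3m_valuation_lt_of_dvd (q : ℕ) (A : ValuationSubring Qbar) (hA : A.LiesOverPrime q)
    (n : ℤ) (h : (q : ℤ) ∣ n) : A.valuation ((n : ℤ) : Qbar) < 1 := by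
  obtain ⟨m, rfl⟩ := h
  have h1 : A.valuation ((q : ℕ) : Qbar) < 1 := S05.valuation_prime_lt_one hA
  have h2 : A.valuation ((m : ℤ) : Qbar) ≤ 1 := S05.valuation_intCast_le_one m
  push_cast
  rw [map_mul]
  calc A.valuation (q : Qbar) * A.valuation (m : Qbar) ≤ A.valuation (q : Qbar) * 1 :=
        mul_le_mul_right h2 _
    _ = A.valuation (q : Qbar) := mul_one _
    _ < 1 := h1

theorem exists_irred_prime_of (W : WeierstrassCurve ℤ) (hΔ : W.Δ ≠ 0)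
    (K : KleinFamily (-(W.c₄ : ℚ)) (-(W.c₆ : ℚ))) (S : Finset ℕ)
    (hin : ∀ (p : ℕ), p.Prime → ¬ (p : ℤ) ∣ W.Δ → p ≠ 5 →
      ∀ A : ValuationSubring Qbar, A.LiesOverPrime p → ∀ τ ∈ A.inertiaSubgroupIn ℚ,
      ∀ P : ((shortCurve (-(W.c₄ : ℚ)) (-(W.c₆ : ℚ)))⁄Qbar).Point, 5 • P = 0 → τ • P = P) :
    ∃ q : ℕ, q.Prime ∧ q ∉ S ∧ ∃ t₀ : ℤ, ∀ t : ℤ, t ≡ t₀ [ZMOD q] →
      ∀ W' : WeierstrassCurve ℤ, (W'.c₄ : ℚ) = -K.Hp.eval (t : ℚ) →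
        (W'.c₆ : ℚ) = -K.Tp.eval (t : ℚ) →
        ¬ (q : ℤ) ∣ W'.Δ ∧ ¬ ∃ x : ℚ, S51.psi3 (W'.map (Int.castRingHom ℚ)) x = 0 := by
  classical
  obtain ⟨bad, hcone⟩ := K.cone
  obtain ⟨p, u₁, hp, hpS, hp7, hpΔ, hpu, hpu2, hu7, hbad⟩ := m3_exists_choice W.Δ hΔ S bad
  obtain ⟨hpF, hpF2⟩ := m3_kF_dvd p hp u₁ hpu hpu2
  have hrel : (kT u₁ 1 : ℤ) ^ 2 + (kH u₁ 1 : ℤ) ^ 3 = 1728 * (kF u₁ 1 : ℤ) ^ 5 :=
    kT_sq_add_kH_cube u₁ 1
  have hF0ne : (kF u₁ 1 : ℤ) ≠ 0 := by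
    intro h
    apply hpF2
    rw [h]
    exact dvd_zero _
  -- the cone point
  have hkFq : kF (u₁ : ℚ) 1 ≠ 0 := by
    have : kF (u₁ : ℚ) 1 = ((kF u₁ 1 : ℤ) : ℚ) := by simp [kF]
    rw [this]
    exact_mod_cast hF0ne
  obtain ⟨t₁, μ, hμ0, hHp, hTp, hfix⟩ := hcone (u₁ : ℚ) hbad hkFq
  have hHp' : aeval t₁ K.Hp = μ ^ 2 * ((kH u₁ 1 : ℤ) : Qbar) := by
    rw [hHp]
    congr 1
    simp [kH]
  have hTp' : aeval t₁ K.Tp = μ ^ 3 * ((kT u₁ 1 : ℤ) : Qbar) := by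
    rw [hTp]
    congr 1
    simp [kT]
  -- the four roots
  have hd : ((kT u₁ 1 : ℤ) : Qbar) ^ 2 + ((kH u₁ 1 : ℤ) : Qbar) ^ 3 ≠ 0 := by
    have h1 : ((kT u₁ 1 : ℤ) : Qbar) ^ 2 + ((kH u₁ 1 : ℤ) : Qbar) ^ 3 =
        ((1728 * (kF u₁ 1 : ℤ) ^ 5 : ℤ) : Qbar) := by
      rw [← hrel]
      push_cast
      ring
    rw [h1]
    have h2 : (1728 * (kF u₁ 1 : ℤ) ^ 5 : ℤ) ≠ 0 := mul_ne_zero (by norm_num) (pow_ne_zero _ hF0ne)
    exact_mod_cast h2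
  obtain ⟨x, hxinj, hx⟩ := m3_exists_roots ((kH u₁ 1 : ℤ) : Qbar) ((kT u₁ 1 : ℤ) : Qbar) hd
  -- the normal subgroup
  have hEΔ := m3m_shortCurve_Δ_ne W hΔ
  have hN : ∀ A : ValuationSubring Qbar, A.LiesOverPrime p →
      A.inertiaSubgroupIn ℚ ≤ m3FixerB (shortCurve (-(W.c₄ : ℚ)) (-(W.c₆ : ℚ))) := by
    intro A hA τ hτ
    rw [mem_m3FixerB]
    refine ⟨fun P hP => hin p hp hpΔ (by omega) A hA τ hτ P hP, fun ζ hζ => ?_⟩
    exact S42.cy_inertia_apply (by norm_num : (5 : ℕ).Prime) hp (by omega) hA hτ hζ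
  obtain ⟨g, hgN, hg⟩ := m3_exists_galois_B p hp (by omega) u₁ hpu hpu2 hu7 x hxinj hx
    (m3FixerB (shortCurve (-(W.c₄ : ℚ)) (-(W.c₆ : ℚ)))) hN
  -- the field
  obtain ⟨L, hLfin, hLgal, hLX, hLfix⟩ :=
    m3_exists_field_B (shortCurve (-(W.c₄ : ℚ)) (-(W.c₆ : ℚ))) hEΔ (Finset.univ.image x)
  -- the finite sets of bad primes
  obtain ⟨Tμ, hTμ⟩ := m3_exists_finset_unit μ hμ0
  obtain ⟨Tt, hTt⟩ : ∃ T : Finset ℕ, ∀ q : ℕ, q.Prime → q ∉ T →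
      ∀ A : ValuationSubring Qbar, A.LiesOverPrime q → A.valuation t₁ ≤ 1 := by
    by_cases ht : t₁ = 0
    · exact ⟨∅, fun q _ _ A _ => by rw [ht, map_zero]; exact zero_le_one⟩
    · obtain ⟨T, hT⟩ := m3_exists_finset_unit t₁ ht
      exact ⟨T, fun q hq hqT A hA => (hT q hq hqT A hA).le⟩
  have hTx : ∀ ab : Fin 4 × Fin 4, ∃ T : Finset ℕ, ab.1 ≠ ab.2 → ∀ q : ℕ, q.Prime → q ∉ T →
      ∀ A : ValuationSubring Qbar, A.LiesOverPrime q → A.valuation (x ab.1 - x ab.2) = 1 := by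
    intro ab
    by_cases h : ab.1 = ab.2
    · exact ⟨∅, fun h' => absurd h h'⟩
    · obtain ⟨T, hT⟩ := m3_exists_finset_unit (x ab.1 - x ab.2) (sub_ne_zero.mpr (hxinj.ne h))
      exact ⟨T, fun _ => hT⟩
  choose Tx hTx using hTx
  obtain ⟨TH, hTH⟩ := m3_exists_finset_aeval K.Hp
  obtain ⟨TT, hTT⟩ := m3_exists_finset_aeval K.Tp
  have := hLfin
  have := hLgal
  obtain ⟨q, A, σ, i, j, hq, hqS', hA, hσ, hσi, hσj⟩ := exists_frobenius_gen_on L g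
    (S ∪ Tμ ∪ Tt ∪ (Finset.univ.biUnion Tx) ∪ TH ∪ TT ∪ (1728 * (kF u₁ 1 : ℤ)).natAbs.primeFactors
      ∪ {3})
  simp only [Finset.mem_union, not_or, Finset.mem_singleton, Finset.mem_biUnion, Finset.mem_univ,
    true_and, not_exists] at hqS'
  obtain ⟨⟨⟨⟨⟨⟨⟨hqS, hqTμ⟩, hqTt⟩, hqTx⟩, hqTH⟩, hqTT⟩, hqF⟩, hq3⟩ := hqS'
  have hqF' : ¬ (q : ℤ) ∣ 1728 * (kF u₁ 1 : ℤ) := by
    intro h
    apply hqF
    rw [Nat.mem_primeFactors]
    refine ⟨hq, Int.natCast_dvd.mp h, ?_⟩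
    exact Int.natAbs_ne_zero.mpr (mul_ne_zero (by norm_num) hF0ne)
  -- `σ` fixes the `5`-torsion and `μ₅`, hence `t₁` and `μ`
  have hσN : σ ∈ m3FixerB (shortCurve (-(W.c₄ : ℚ)) (-(W.c₆ : ℚ))) :=
    hLfix σ (g ^ i) hσi (Subgroup.pow_mem _ hgN i)
  obtain ⟨hσt, hσμ⟩ := hfix σ ((mem_m3FixerB _ σ).1 hσN).1 ((mem_m3FixerB _ σ).1 hσN).2
  -- `σ` moves all four roots
  have hmove : ∀ b, σ (x b) ≠ x b := by
    intro b hb
    apply hg b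
    rw [← hσj (x b) (hLX _ (Finset.mem_image_of_mem _ (Finset.mem_univ b)))]
    exact m3m_pow_apply_of_fixed σ (x b) hb j
  have hunit : ∀ a b, a ≠ b → A.valuation (x a - x b) = 1 := by
    intro a b hab
    exact hTx (a, b) hab q hq (hqTx (a, b)) A hA
  have hvμ : A.valuation μ = 1 := hTμ q hq hqTμ A hA
  have hvt₁ : A.valuation t₁ ≤ 1 := hTt q hq hqTt A hA
  obtain ⟨t₀, ht₀⟩ := m3_exists_int_of_frob_fixed q hq A hA σ hσ t₁ hvt₁ hσt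
  refine ⟨q, hq, hqS, t₀, ?_⟩
  intro t ht W' hc4 hc6
  -- `t ≡ t₁` modulo the maximal ideal of `A`
  have h1 : A.valuation ((t : Qbar) - t₁) < 1 := by
    have h2 : A.valuation (((t - t₀ : ℤ) : ℤ) : Qbar) < 1 :=
      m3m_valuation_lt_of_dvd q A hA (t - t₀) ((Int.modEq_iff_dvd.mp ht.symm))
    have h3 : (t : Qbar) - t₁ = ((t - t₀ : ℤ) : Qbar) - (t₁ - (t₀ : Qbar)) := by
      push_cast
      ring
    rw [h3]
    exact lt_of_le_of_lt (A.valuation.map_sub _ _) (max_lt h2 ht₀)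
  have hvt : A.valuation ((t : ℤ) : Qbar) ≤ 1 := S05.valuation_intCast_le_one t
  have hev : ∀ P : ℚ[X], aeval ((t : ℤ) : Qbar) P = algebraMap ℚ Qbar (P.eval (t : ℚ)) := by
    intro P
    have h2 : ((t : ℤ) : Qbar) = algebraMap ℚ Qbar (t : ℚ) := by simp
    rw [h2, Polynomial.aeval_algebraMap_apply]
    rfl
  have hH : A.valuation (((-W'.c₄ : ℤ) : Qbar) - μ ^ 2 * ((kH u₁ 1 : ℤ) : Qbar)) < 1 := by
    have h2 := hTH q hq hqTH A hA ((t : ℤ) : Qbar) t₁ hvt hvt₁ h1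
    rw [hHp', hev] at h2
    have h3 : algebraMap ℚ Qbar (K.Hp.eval (t : ℚ)) = ((-W'.c₄ : ℤ) : Qbar) := by
      have : K.Hp.eval (t : ℚ) = ((-W'.c₄ : ℤ) : ℚ) := by push_cast; rw [hc4]; ring
      rw [this]
      simp
    rw [h3] at h2
    exact h2
  have hT : A.valuation (((-W'.c₆ : ℤ) : Qbar) - μ ^ 3 * ((kT u₁ 1 : ℤ) : Qbar)) < 1 := by
    have h2 := hTT q hq hqTT A hA ((t : ℤ) : Qbar) t₁ hvt hvt₁ h1
    rw [hTp', hev] at h2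
    have h3 : algebraMap ℚ Qbar (K.Tp.eval (t : ℚ)) = ((-W'.c₆ : ℤ) : Qbar) := by
      have : K.Tp.eval (t : ℚ) = ((-W'.c₆ : ℤ) : ℚ) := by push_cast; rw [hc6]; ring
      rw [this]
      simp
    rw [h3] at h2
    exact h2
  refine ⟨m3_good q hq A hA μ hvμ (kH u₁ 1) (kT u₁ 1) (kF u₁ 1) hrel hqF' W' hH hT, ?_⟩
  rintro ⟨r, hr⟩
  have h2 := m3_psi_short (W'.map (Int.castRingHom ℚ)) r
  rw [hr, mul_zero, WeierstrassCurve.map_c₄, WeierstrassCurve.map_c₆] at h2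
  refine m3_final q hq hq3 A hA σ hσ.mem_decompositionSubgroup (kH u₁ 1) (kT u₁ 1) x hx hunit
    hmove μ hvμ hσμ (-W'.c₄) (-W'.c₆) hH hT (36 * r + 3 * (W'.map (Int.castRingHom ℚ)).b₂) ?_
  rw [← h2]
  simp

/-- **Block M3.** -/
theorem exists_irred_prime (W : WeierstrassCurve ℤ) (hΔ : W.Δ ≠ 0)
    (K : KleinFamily (-(W.c₄ : ℚ)) (-(W.c₆ : ℚ))) (S : Finset ℕ) :
    ∃ q : ℕ, q.Prime ∧ q ∉ S ∧ ∃ t₀ : ℤ, ∀ t : ℤ, t ≡ t₀ [ZMOD q] →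
      ∀ W' : WeierstrassCurve ℤ, (W'.c₄ : ℚ) = -K.Hp.eval (t : ℚ) →
        (W'.c₆ : ℚ) = -K.Tp.eval (t : ℚ) →
        ¬ (q : ℤ) ∣ W'.Δ ∧ ¬ ∃ x : ℚ, S51.psi3 (W'.map (Int.castRingHom ℚ)) x = 0 := by
  refine exists_irred_prime_of W hΔ K S ?_
  intro p hp hpΔ hp5 A hA τ hτ P hP
  obtain ⟨e, he⟩ := short_iso W hΔ (-(W.c₄ : ℚ)) (-(W.c₆ : ℚ)) rfl rfl
  have h1 : 5 • e.symm P = 0 := by
    rw [← map_nsmul, hP, map_zero]
  have h2 := inertia_five_torsion W p hp hpΔ hp5 A hA τ hτ (e.symm P) h1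
  have h3 := he τ (e.symm P)
  rw [h2, e.apply_symm_apply] at h3
  exact h3.symm

end Fermat.Agent.S52
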