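import Fermat.Agent.S52.FDefs

/-!
# P17 (S52), block F: the action of `ℤ[T]` on points through the Frobenius endomorphism

* `actE Φ f`: the endomorphism `f(Φ)` of an abelian group, for `f : ℤ[X]`.
* `act C k f = f(frobPt)` on the points of `C` over its function field; it preserves `Lam` and
  commutes with `Point.map ψ` for every `ZMod ℓ`-algebra endomorphism `ψ` of the function field.
-/

set_option autoImplicit false

namespace Fermat.Agent.S52.F

open Polynomial WeierstrassCurve WeierstrassCurve.Affine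

section ActE

variable {A B : Type*} [AddCommGroup A] [AddCommGroup B]

/-- The endomorphism `f(Φ)` of an abelian group `A`, for `f : ℤ[X]` and `Φ : A →+ A`. -/
noncomputable def actE (Φ : A →+ A) (f : ℤ[X]) : A →+ A :=
  Polynomial.aeval (R := ℤ) (A := AddMonoid.End A) Φ f

theorem actE_add (Φ : A →+ A) (f g : ℤ[X]) (a : A) : actE Φ (f + g) a = actE Φ f a + actE Φ g a := by
  simp only [actE, map_add]; rfl

theorem actE_sub (Φ : A →+ A) (f g : ℤ[X]) (a : A) : actE Φ (f - g) a = actE Φ f a - actE Φ g a := by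
  simp only [actE, map_sub]; rfl

theorem actE_neg (Φ : A →+ A) (f : ℤ[X]) (a : A) : actE Φ (-f) a = -actE Φ f a := by
  simp only [actE, map_neg]; rfl

theorem actE_mul (Φ : A →+ A) (f g : ℤ[X]) (a : A) : actE Φ (f * g) a = actE Φ f (actE Φ g a) := by
  simp only [actE, map_mul]; rfl

theorem actE_one (Φ : A →+ A) (a : A) : actE Φ 1 a = a := by
  simp only [actE, map_one]; rfl

theorem actE_zero (Φ : A →+ A) (a : A) : actE Φ 0 a = 0 := by
  simp only [actE, map_zero]; rfl

theorem actE_X (Φ : A →+ A) (a : A) : actE Φ X a = Φ a := by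
  have h : actE Φ X = Φ := Polynomial.aeval_X (R := ℤ) (A := AddMonoid.End A) Φ
  rw [h]

theorem actE_C (Φ : A →+ A) (n : ℤ) (a : A) : actE Φ (Polynomial.C n) a = n • a := by
  have h : actE Φ (Polynomial.C n) = ((n : ℤ) : AddMonoid.End A) := by
    have h1 := Polynomial.aeval_C (R := ℤ) (A := AddMonoid.End A) Φ n
    rw [eq_intCast] at h1
    exact h1
  rw [h]
  exact AddMonoid.End.intCast_apply n a

theorem actE_zsmul (Φ : A →+ A) (n : ℤ) (f : ℤ[X]) (a : A) : actE Φ (n • f) a = n • actE Φ f a := by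
  simp only [actE, map_zsmul]; rfl

/-- `f(Φ)` is compatible with a homomorphism intertwining `Φ` and `Ψ`. -/
theorem map_actE (g : A →+ B) (Φ : A →+ A) (Ψ : B →+ B) (h : ∀ a, g (Φ a) = Ψ (g a)) (f : ℤ[X])
    (a : A) : g (actE Φ f a) = actE Ψ f (g a) := by
  induction f using Polynomial.induction_on generalizing a with
  | C n => rw [actE_C, actE_C, map_zsmul]
  | add p q hp hq => rw [actE_add, actE_add, map_add, hp, hq]
  | monomial n c ih =>
    rw [pow_succ, ← mul_assoc, actE_mul (f := Polynomial.C c * X ^ n), actE_mul (f := Polynomial.C c * X ^ n),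
      actE_X, actE_X, ih, h]

/-- A subgroup stable under `Φ` is stable under `f(Φ)`. -/
theorem actE_mem (Φ : A →+ A) (H : AddSubgroup A) (hH : ∀ a ∈ H, Φ a ∈ H) (f : ℤ[X]) {a : A}
    (ha : a ∈ H) : actE Φ f a ∈ H := by
  induction f using Polynomial.induction_on generalizing a with
  | C n => rw [actE_C]; exact H.zsmul_mem ha n
  | add p q hp hq => rw [actE_add]; exact H.add_mem (hp ha) (hq ha)
  | monomial n c ih =>
    rw [pow_succ, ← mul_assoc, actE_mul (f := Polynomial.C c * X ^ n), actE_X]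
    exact ih (hH a ha)

end ActE

variable {ℓ : ℕ} [Fact ℓ.Prime] (C : WeierstrassCurve (ZMod ℓ)) (k : Type*) [Field k]
  [Algebra (ZMod ℓ) k]

/-- The endomorphism `f(φ)` of `C(KK C k)`, `φ` the Frobenius. -/
noncomputable def act (f : ℤ[X]) : (C.toAffine⁄(KK C k)).Point →+ (C.toAffine⁄(KK C k)).Point :=
  actE (frobPt C k) f

theorem act_mem_Lam (f : ℤ[X]) {Q : (C.toAffine⁄(KK C k)).Point} (hQ : Q ∈ Lam C k) :
    act C k f Q ∈ Lam C k :=
  actE_mem (frobPt C k) (Lam C k) (fun _ ha => frobPt_mem_Lam C k ha) f hQ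

/-- Every `ZMod ℓ`-algebra endomorphism of the function field commutes with the Frobenius on
points. -/
theorem map_frobPt (ψ : KK C k →ₐ[ZMod ℓ] KK C k) (Q : (C.toAffine⁄(KK C k)).Point) :
    Point.map (W' := C.toAffine) ψ (frobPt C k Q) = frobPt C k (Point.map (W' := C.toAffine) ψ Q) := by
  have h : ψ.comp (frobK C k) = (frobK C k).comp ψ :=
    AlgHom.ext fun x => by
      rw [AlgHom.comp_apply, AlgHom.comp_apply, frobK_apply, frobK_apply, map_pow]
  rw [frobPt, Point.map_map, Point.map_map, h]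

/-- Every `ZMod ℓ`-algebra endomorphism of the function field commutes with `f(φ)` on points. -/
theorem map_act (ψ : KK C k →ₐ[ZMod ℓ] KK C k) (f : ℤ[X]) (Q : (C.toAffine⁄(KK C k)).Point) :
    Point.map (W' := C.toAffine) ψ (act C k f Q) = act C k f (Point.map (W' := C.toAffine) ψ Q) :=
  map_actE (Point.map (W' := C.toAffine) ψ) (frobPt C k) (frobPt C k) (map_frobPt C k ψ) f Q

end Fermat.Agent.S52.F
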