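import Mathlib

/-!
# P17 (S52), Block F6: definitions for the count `D(φ - 1) = #C(𝔽_ℓ)`

`C` is a Weierstrass curve over `ZMod ℓ`.  In the affine coordinate ring `𝔽_ℓ[C]` we put
`U = Y ^ ℓ + Y + a₁ X + a₃`, `V = X ^ ℓ - X` and
`N = U ^ 2 + a₁ U V - (a₂ + X ^ ℓ + X) V ^ 2`,
so that `x(φ P - P) = N / V ^ 2` for the generic point `P = (X, Y)`.
-/

set_option autoImplicit false

open Polynomial

namespace Fermat.Agent.S52.FCount

variable {ℓ : ℕ} (C : WeierstrassCurve (ZMod ℓ))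

/-- The class of `Y` in the affine coordinate ring. -/
noncomputable def yc : C.toAffine.CoordinateRing :=
  AdjoinRoot.mk C.toAffine.polynomial (X : (ZMod ℓ)[X][X])

/-- The structure map `𝔽_ℓ[X] → 𝔽_ℓ[C]`. -/
noncomputable def pc : (ZMod ℓ)[X] →+* C.toAffine.CoordinateRing :=
  algebraMap (ZMod ℓ)[X] C.toAffine.CoordinateRing

/-- `V = X ^ ℓ - X`. -/
noncomputable def Vp (ℓ : ℕ) : (ZMod ℓ)[X] := X ^ ℓ - X

/-- `U = Y ^ ℓ + Y + a₁ X + a₃`: the numerator of the slope of the line through `φ P` and `-P`. -/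
noncomputable def Uc : C.toAffine.CoordinateRing :=
  yc C ^ ℓ + yc C + pc C (Polynomial.C C.a₁ * X + Polynomial.C C.a₃)

/-- `N = U ^ 2 + a₁ U V - (a₂ + X ^ ℓ + X) V ^ 2`: the numerator of `x(φ P - P)`. -/
noncomputable def Nc : C.toAffine.CoordinateRing :=
  Uc C ^ 2 + pc C (Polynomial.C C.a₁ * Vp ℓ) * Uc C
    - pc C ((Polynomial.C C.a₂ + X ^ ℓ + X) * Vp ℓ ^ 2)

end Fermat.Agent.S52.FCount
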