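import Mathlib
import Fermat.Agent.S52.FCountDefs

/-!
# P17 (S52), Block F6: the counting / gcd step

Given a monic polynomial `n` of degree `2 ℓ + 1` with the expected local behaviour at every
`c ∈ 𝔽_ℓ`, we split `n = g * p₀`, `(X ^ ℓ - X) ^ 2 = g * p₁` with `p₀`, `p₁` coprime and
`deg p₀ = #C(𝔽_ℓ)`.
-/

set_option autoImplicit false

open Polynomial

namespace Fermat.Agent.S52.FCount

variable {ℓ : ℕ} [Fact ℓ.Prime] (C : WeierstrassCurve (ZMod ℓ))

open Classical in
/-- Number of `y` with `(c, y)` on the curve. -/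
noncomputable def fcc_cnt (c : ZMod ℓ) : ℕ :=
  (Finset.univ.filter fun y => C.toAffine.Equation c y).card

lemma fcc_cnt_le_two (c : ZMod ℓ) : fcc_cnt C c ≤ 2 := by
  classical
  unfold fcc_cnt
  by_cases h : ∃ y, C.toAffine.Equation c y
  · obtain ⟨y, hy⟩ := h
    have hsub : (Finset.univ.filter fun y => C.toAffine.Equation c y) ⊆
        {y, C.toAffine.negY c y} := by
      intro y' hy'
      simp only [Finset.mem_filter, Finset.mem_univ, true_and] at hy'
      simp only [Finset.mem_insert, Finset.mem_singleton]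
      exact WeierstrassCurve.Affine.Y_eq_of_X_eq hy' hy rfl
    exact (Finset.card_le_card hsub).trans Finset.card_le_two
  · have : (Finset.univ.filter fun y => C.toAffine.Equation c y) = ∅ := by
      rw [Finset.filter_eq_empty_iff]
      intro y _ hy
      exact h ⟨y, hy⟩
    rw [this]; simp

lemma fcc_cnt_eq_two {c : ZMod ℓ} (h : fcc_cnt C c = 2) :
    ∃ y, C.toAffine.Equation c y ∧ y ≠ C.toAffine.negY c y := by
  classical
  unfold fcc_cnt at h
  obtain ⟨y, y', hne, hs⟩ := Finset.card_eq_two.mp h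
  have hy : C.toAffine.Equation c y := by
    have : y ∈ (Finset.univ.filter fun y => C.toAffine.Equation c y) := by rw [hs]; simp
    simpa using this
  have hy' : C.toAffine.Equation c y' := by
    have : y' ∈ (Finset.univ.filter fun y => C.toAffine.Equation c y) := by rw [hs]; simp
    simpa using this
  refine ⟨y, hy, ?_⟩
  intro hneg
  rcases WeierstrassCurve.Affine.Y_eq_of_X_eq hy' hy rfl with h1 | h1
  · exact hne h1.symm
  · exact hne (hneg.trans h1.symm)

lemma fcc_cnt_eq_one {c : ZMod ℓ} (h : fcc_cnt C c = 1) :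
    ∃ y, C.toAffine.Equation c y ∧ y = C.toAffine.negY c y := by
  classical
  unfold fcc_cnt at h
  obtain ⟨y, hs⟩ := Finset.card_eq_one.mp h
  have hy : C.toAffine.Equation c y := by
    have : y ∈ (Finset.univ.filter fun y => C.toAffine.Equation c y) := by rw [hs]; simp
    simpa using this
  refine ⟨y, hy, ?_⟩
  have hn : C.toAffine.negY c y ∈ (Finset.univ.filter fun y => C.toAffine.Equation c y) := by
    simp only [Finset.mem_filter, Finset.mem_univ, true_and]
    exact (WeierstrassCurve.Affine.equation_neg c y).mpr hy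
  rw [hs] at hn
  exact (Finset.mem_singleton.mp hn).symm

lemma fcc_cnt_eq_zero {c : ZMod ℓ} (h : fcc_cnt C c = 0) :
    ∀ y, ¬ C.toAffine.Equation c y := by
  classical
  unfold fcc_cnt at h
  intro y hy
  have : y ∈ (Finset.univ.filter fun y => C.toAffine.Equation c y) := by simpa using hy
  rw [Finset.card_eq_zero.mp h] at this
  simp at this

lemma fcc_prod_X_sub_C : ∏ c : ZMod ℓ, (X - Polynomial.C c) = Vp ℓ := by
  have hℓ : 1 < ℓ := (Fact.out : ℓ.Prime).one_lt
  have hroots : (Vp ℓ).roots = Finset.univ.val := by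
    have := FiniteField.roots_X_pow_card_sub_X (ZMod ℓ)
    rwa [ZMod.card] at this
  have hdeg : (Vp ℓ).natDegree = ℓ := FiniteField.X_pow_card_sub_X_natDegree_eq (ZMod ℓ) hℓ
  have hmonic : (Vp ℓ).Monic := by
    unfold Vp
    exact monic_X_pow_sub (by rw [degree_X]; exact_mod_cast hℓ)
  have := prod_multiset_X_sub_C_of_monic_of_roots_card_eq hmonic (by
    rw [hroots, hdeg]; simp [ZMod.card])
  rw [← this, hroots]
  rfl

lemma fcc_card_point (hΔ : C.Δ ≠ 0) :
    Nat.card C.toAffine.Point = 1 + ∑ c : ZMod ℓ, fcc_cnt C c := by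
  classical
  rw [Nat.card_congr C.toAffine.nonsingularPointEquiv]
  have : Nat.card (WithZero {xy : ZMod ℓ × ZMod ℓ // C.toAffine.Nonsingular xy.1 xy.2}) =
      Nat.card (Option {xy : ZMod ℓ × ZMod ℓ // C.toAffine.Nonsingular xy.1 xy.2}) := rfl
  rw [this, Nat.card_eq_fintype_card, Fintype.card_option, Fintype.card_subtype,
    Finset.card_filter, Fintype.sum_prod_type, add_comm]
  congr 1
  refine Finset.sum_congr rfl fun c _ => ?_
  unfold fcc_cnt
  rw [Finset.card_filter]
  refine Finset.sum_congr rfl fun y _ => ?_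
  simp only [(WeierstrassCurve.Affine.equation_iff_nonsingular_of_Δ_ne_zero hΔ)]

theorem exists_primitive_pair_of (hΔ : C.Δ ≠ 0) (n : (ZMod ℓ)[X]) (hmonic : n.Monic)
    (hdeg : n.natDegree = 2 * ℓ + 1)
    (h2 : ∀ c y : ZMod ℓ, C.toAffine.Equation c y → n.eval c = (y - C.toAffine.negY c y) ^ 2)
    (h1 : ∀ c y : ZMod ℓ, C.toAffine.Nonsingular c y → y = C.toAffine.negY c y →
      n.rootMultiplicity c = 1)
    (h0 : ∀ c : ZMod ℓ, (∀ y : ZMod ℓ, ¬ C.toAffine.Equation c y) → (X - Polynomial.C c) ^ 2 ∣ n) :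
    ∃ p₀ p₁ g : (ZMod ℓ)[X], g ≠ 0 ∧ n = g * p₀ ∧ Vp ℓ ^ 2 = g * p₁ ∧ IsCoprime p₀ p₁ ∧
      p₀.natDegree = Nat.card C.toAffine.Point ∧ p₁.natDegree < Nat.card C.toAffine.Point := by
  classical
  have hn0 : n ≠ 0 := hmonic.ne_zero
  set g : (ZMod ℓ)[X] := ∏ c : ZMod ℓ, (X - Polynomial.C c) ^ (2 - fcc_cnt C c) with hg
  set p₁ : (ZMod ℓ)[X] := ∏ c : ZMod ℓ, (X - Polynomial.C c) ^ (fcc_cnt C c) with hp₁
  have hgmonic : g.Monic := monic_prod_of_monic _ _ fun c _ => (monic_X_sub_C c).pow _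
  have hp₁monic : p₁.Monic := monic_prod_of_monic _ _ fun c _ => (monic_X_sub_C c).pow _
  have hgp₁ : Vp ℓ ^ 2 = g * p₁ := by
    rw [← fcc_prod_X_sub_C, hg, hp₁, ← Finset.prod_mul_distrib, ← Finset.prod_pow]
    refine Finset.prod_congr rfl fun c _ => ?_
    rw [← pow_add]
    congr 1
    have := fcc_cnt_le_two C c
    omega
  -- each factor divides `n`
  have hfac : ∀ c : ZMod ℓ, (X - Polynomial.C c) ^ (2 - fcc_cnt C c) ∣ n := by
    intro c
    have hle := fcc_cnt_le_two C c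
    rcases Nat.lt_or_ge (fcc_cnt C c) 1 with hc | hc
    · have hc0 : fcc_cnt C c = 0 := by omega
      rw [hc0]
      exact h0 c (fcc_cnt_eq_zero C hc0)
    rcases Nat.lt_or_ge (fcc_cnt C c) 2 with hc' | hc'
    · have hc1 : fcc_cnt C c = 1 := by omega
      rw [hc1]
      obtain ⟨y, hy, hyn⟩ := fcc_cnt_eq_one C hc1
      have := h2 c y hy
      rw [← hyn, sub_self] at this
      rw [pow_one, dvd_iff_isRoot, IsRoot.def, this]
      simp
    · have hc2 : fcc_cnt C c = 2 := by omega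
      rw [hc2]; simp
  have hgn : g ∣ n := by
    rw [hg]
    refine Finset.prod_dvd_of_coprime ?_ fun c _ => hfac c
    intro c _ c' _ hcc'
    exact ((pairwise_coprime_X_sub_C (K := ZMod ℓ) (s := fun c : ZMod ℓ => c)
      (fun _ _ h => h)) hcc').pow
  obtain ⟨p₀, hp₀⟩ := hgn
  have hp₀0 : p₀ ≠ 0 := by
    rintro rfl
    exact hn0 (by rw [hp₀, mul_zero])
  have hg0 : g ≠ 0 := hgmonic.ne_zero
  -- `p₀` does not vanish where `cnt ≥ 1`
  have hp₀c : ∀ c : ZMod ℓ, 1 ≤ fcc_cnt C c → ¬ (X - Polynomial.C c) ∣ p₀ := by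
    intro c hc hdvd
    have hle := fcc_cnt_le_two C c
    have hdg : (X - Polynomial.C c) ^ (2 - fcc_cnt C c) ∣ g :=
      Finset.dvd_prod_of_mem _ (Finset.mem_univ c)
    have hdn : (X - Polynomial.C c) ^ (2 - fcc_cnt C c + 1) ∣ n := by
      rw [hp₀, pow_succ]
      exact mul_dvd_mul hdg hdvd
    have hrm : 2 - fcc_cnt C c + 1 ≤ n.rootMultiplicity c :=
      (le_rootMultiplicity_iff hn0).mpr hdn
    rcases Nat.lt_or_ge (fcc_cnt C c) 2 with hc' | hc'
    · have hc1 : fcc_cnt C c = 1 := by omega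
      obtain ⟨y, hy, hyn⟩ := fcc_cnt_eq_one C hc1
      have := h1 c y ((WeierstrassCurve.Affine.equation_iff_nonsingular_of_Δ_ne_zero hΔ).mp hy) hyn
      omega
    · have hc2 : fcc_cnt C c = 2 := by omega
      obtain ⟨y, hy, hyn⟩ := fcc_cnt_eq_two C hc2
      have hev := h2 c y hy
      have hpos : 0 < n.rootMultiplicity c := by omega
      have hroot : n.IsRoot c := (rootMultiplicity_pos hn0).mp hpos
      rw [IsRoot.def, hev] at hroot
      exact hyn (sub_eq_zero.mp (pow_eq_zero_iff (two_ne_zero)|>.mp hroot))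
  have hcop : IsCoprime p₀ p₁ := by
    rw [hp₁]
    refine IsCoprime.prod_right fun c _ => ?_
    rcases Nat.eq_zero_or_pos (fcc_cnt C c) with hc | hc
    · rw [hc, pow_zero]; exact isCoprime_one_right
    · refine IsCoprime.pow_right ?_
      exact (((irreducible_X_sub_C c).coprime_iff_not_dvd).mpr (hp₀c c hc)).symm
  -- degrees
  have hdegp₁ : p₁.natDegree = ∑ c : ZMod ℓ, fcc_cnt C c := by
    rw [hp₁, natDegree_prod_of_monic _ _ fun c _ => (monic_X_sub_C c).pow _]
    refine Finset.sum_congr rfl fun c _ => ?_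
    rw [natDegree_pow, natDegree_X_sub_C, mul_one]
  have hdegg : g.natDegree = ∑ c : ZMod ℓ, (2 - fcc_cnt C c) := by
    rw [hg, natDegree_prod_of_monic _ _ fun c _ => (monic_X_sub_C c).pow _]
    refine Finset.sum_congr rfl fun c _ => ?_
    rw [natDegree_pow, natDegree_X_sub_C, mul_one]
  have hsum : ∑ c : ZMod ℓ, (2 - fcc_cnt C c) + ∑ c : ZMod ℓ, fcc_cnt C c = 2 * ℓ := by
    rw [← Finset.sum_add_distrib]
    have : ∀ c ∈ (Finset.univ : Finset (ZMod ℓ)), 2 - fcc_cnt C c + fcc_cnt C c = 2 := by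
      intro c _
      have := fcc_cnt_le_two C c
      omega
    rw [Finset.sum_congr rfl this]
    simp [ZMod.card, mul_comm]
  have hdegn : g.natDegree + p₀.natDegree = 2 * ℓ + 1 := by
    rw [← natDegree_mul hg0 hp₀0, ← hp₀, hdeg]
  have hcard := fcc_card_point C hΔ
  refine ⟨p₀, p₁, g, hg0, hp₀, hgp₁, hcop, ?_, ?_⟩
  · omega
  · omega

end Fermat.Agent.S52.FCount
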