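import Mathlib
import Fermat.Agent.S52.FCountDefs

/-!
# P17 (S52), Block F6: the x-coordinate of `φ P - P` at a point with values in a field

For a point `P = (gx, gy)` of `C` with values in a field `K ⊇ 𝔽_ℓ` such that `gx ^ ℓ ≠ gx`,
the `x`-coordinate of `(gx ^ ℓ, gy ^ ℓ) - (gx, gy)` is `N(gx, gy) / V(gx) ^ 2`, where `N`, `V`
are the elements `Nc C`, `Vp ℓ` of `FCountDefs` and `N(gx, gy)` is the value of the evaluation
homomorphism `evK` of the coordinate ring of `C` at `(gx, gy)`.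
-/

set_option autoImplicit false

open Polynomial WeierstrassCurve WeierstrassCurve.Affine

namespace Fermat.Agent.S52.FCount

variable {ℓ : ℕ} (C : WeierstrassCurve (ZMod ℓ)) {K : Type*} [Field K] [Algebra (ZMod ℓ) K]

theorem fcg_eval₂_polynomial (gx gy : K) :
    (C.toAffine.polynomial).eval₂ ((Polynomial.aeval gx : (ZMod ℓ)[X] →ₐ[ZMod ℓ] K) :
        (ZMod ℓ)[X] →+* K) gy
      = gy ^ 2 + algebraMap (ZMod ℓ) K C.a₁ * gx * gy + algebraMap (ZMod ℓ) K C.a₃ * gy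
        - (gx ^ 3 + algebraMap (ZMod ℓ) K C.a₂ * gx ^ 2 + algebraMap (ZMod ℓ) K C.a₄ * gx
          + algebraMap (ZMod ℓ) K C.a₆) := by
  simp only [WeierstrassCurve.Affine.polynomial, eval₂_sub, eval₂_add, eval₂_mul, eval₂_pow,
    eval₂_X, eval₂_C, AlgHom.coe_toRingHom, map_add, map_mul, map_pow, aeval_X, aeval_C]
  ring

theorem fcg_eval₂_eq_zero {gx gy : K} (h : (C⁄K).Equation gx gy) :
    (C.toAffine.polynomial).eval₂ ((Polynomial.aeval gx : (ZMod ℓ)[X] →ₐ[ZMod ℓ] K) :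
        (ZMod ℓ)[X] →+* K) gy = 0 := by
  rw [fcg_eval₂_polynomial]
  have := (WeierstrassCurve.Affine.equation_iff' gx gy).mp h
  have e1 : (C⁄K).a₁ = algebraMap (ZMod ℓ) K C.a₁ := WeierstrassCurve.map_a₁ ..
  have e2 : (C⁄K).a₂ = algebraMap (ZMod ℓ) K C.a₂ := WeierstrassCurve.map_a₂ ..
  have e3 : (C⁄K).a₃ = algebraMap (ZMod ℓ) K C.a₃ := WeierstrassCurve.map_a₃ ..
  have e4 : (C⁄K).a₄ = algebraMap (ZMod ℓ) K C.a₄ := WeierstrassCurve.map_a₄ ..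
  have e6 : (C⁄K).a₆ = algebraMap (ZMod ℓ) K C.a₆ := WeierstrassCurve.map_a₆ ..
  rw [e1, e2, e3, e4, e6] at this
  exact this

/-- Evaluation of the coordinate ring of `C` at a `K`-point `(gx, gy)`. -/
noncomputable def evK (gx gy : K) (h : (C⁄K).Equation gx gy) : C.toAffine.CoordinateRing →+* K :=
  AdjoinRoot.lift ((Polynomial.aeval gx : (ZMod ℓ)[X] →ₐ[ZMod ℓ] K) : (ZMod ℓ)[X] →+* K) gy
    (fcg_eval₂_eq_zero C h)

variable {C}

@[simp]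
theorem evK_yc {gx gy : K} (h : (C⁄K).Equation gx gy) : evK C gx gy h (yc C) = gy := by
  unfold evK yc
  exact AdjoinRoot.lift_mk _ _ |>.trans (by simp)

@[simp]
theorem evK_pc {gx gy : K} (h : (C⁄K).Equation gx gy) (p : (ZMod ℓ)[X]) :
    evK C gx gy h (pc C p) = Polynomial.aeval gx p := by
  unfold evK pc
  exact AdjoinRoot.lift_of _

theorem evK_Uc {gx gy : K} (h : (C⁄K).Equation gx gy) :
    evK C gx gy h (Uc C) = gy ^ ℓ + gy + (algebraMap (ZMod ℓ) K C.a₁ * gx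
      + algebraMap (ZMod ℓ) K C.a₃) := by
  simp [Uc]

theorem aeval_Vp (gx : K) : Polynomial.aeval gx (Vp ℓ) = gx ^ ℓ - gx := by
  simp [Vp]

theorem evK_Nc {gx gy : K} (h : (C⁄K).Equation gx gy) :
    evK C gx gy h (Nc C) = (gy ^ ℓ + gy + (algebraMap (ZMod ℓ) K C.a₁ * gx
        + algebraMap (ZMod ℓ) K C.a₃)) ^ 2
      + algebraMap (ZMod ℓ) K C.a₁ * (gx ^ ℓ - gx) * (gy ^ ℓ + gy + (algebraMap (ZMod ℓ) K C.a₁ * gx
        + algebraMap (ZMod ℓ) K C.a₃))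
      - (algebraMap (ZMod ℓ) K C.a₂ + gx ^ ℓ + gx) * (gx ^ ℓ - gx) ^ 2 := by
  simp [Nc, evK_Uc, aeval_Vp]

variable [DecidableEq K]

/-- The `x`-coordinate of `(gx ^ ℓ, gy ^ ℓ) - (gx, gy)` is `N(gx, gy) / V(gx) ^ 2`. -/
theorem xRep_frob_sub {gx gy : K} (h : (C⁄K).Nonsingular gx gy)
    (h' : (C⁄K).Nonsingular (gx ^ ℓ) (gy ^ ℓ)) (hne : gx ^ ℓ ≠ gx) :
    (Point.some _ _ h' - Point.some _ _ h).xRep
      = ![evK C gx gy h.1 (Nc C) / (Polynomial.aeval gx (Vp ℓ)) ^ 2, 1] := by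
  have hne' : gx ^ ℓ - gx ≠ 0 := sub_ne_zero.mpr hne
  rw [sub_eq_add_neg, Point.neg_some, Point.add_of_X_ne hne, Point.xRep_some, evK_Nc, aeval_Vp]
  congr 1
  rw [WeierstrassCurve.Affine.slope_of_X_ne hne]
  have e1 : (C⁄K).a₁ = algebraMap (ZMod ℓ) K C.a₁ := WeierstrassCurve.map_a₁ ..
  have e2 : (C⁄K).a₂ = algebraMap (ZMod ℓ) K C.a₂ := WeierstrassCurve.map_a₂ ..
  have e3 : (C⁄K).a₃ = algebraMap (ZMod ℓ) K C.a₃ := WeierstrassCurve.map_a₃ ..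
  simp only [WeierstrassCurve.Affine.addX, WeierstrassCurve.Affine.negY, e1, e2, e3]
  field_simp
  ring

/-- Version with a reduced fraction: if `N = g p₀` and `V ^ 2 = g p₁` with `g(gx) ≠ 0`,
`p₁(gx) ≠ 0`, then the `x`-coordinate of `(gx ^ ℓ, gy ^ ℓ) - (gx, gy)` is `p₀(gx) / p₁(gx)`. -/
theorem xRep_frob_sub_of_factor {gx gy : K} (h : (C⁄K).Nonsingular gx gy)
    (h' : (C⁄K).Nonsingular (gx ^ ℓ) (gy ^ ℓ)) (hne : gx ^ ℓ ≠ gx)
    {p₀ p₁ g : (ZMod ℓ)[X]} (hN : Nc C = pc C (g * p₀)) (hV : Vp ℓ ^ 2 = g * p₁)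
    (hg : Polynomial.aeval gx g ≠ 0) (hp₁ : Polynomial.aeval gx p₁ ≠ 0) :
    (Point.some _ _ h' - Point.some _ _ h).xRep
      = ![Polynomial.aeval gx p₀ / Polynomial.aeval gx p₁, 1] := by
  rw [xRep_frob_sub h h' hne, hN, evK_pc, ← map_pow, hV, map_mul, map_mul]
  congr 1
  field_simp

end Fermat.Agent.S52.FCount
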