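import Mathlib
import Fermat.Agent.S52.FCountDefs

/-!
# P17 (S52), Block F6: local behaviour of `N` at rational points

For `n` with `Nc C = pc C n` we show `n(c) = (y - ȳ)²` at every rational point `(c, y)`, and that
`c` is a simple root of `n` when `(c, y)` is a nonsingular rational `2`-torsion point.
-/

set_option autoImplicit false

open Polynomial

namespace Fermat.Agent.S52.FCount

section fcl_general

variable {ℓ : ℕ} (C : WeierstrassCurve (ZMod ℓ))

/-- Evaluation at a rational point. -/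
noncomputable def fcl_ev {c y : ZMod ℓ} (h : C.toAffine.Equation c y) :
    C.toAffine.CoordinateRing →+* ZMod ℓ :=
  AdjoinRoot.evalEval (p := C.toAffine.polynomial) (x := c) (y := y) h

theorem fcl_ev_pc {c y : ZMod ℓ} (h : C.toAffine.Equation c y) (p : (ZMod ℓ)[X]) :
    fcl_ev C h (pc C p) = p.eval c := by
  have : pc C p = AdjoinRoot.mk C.toAffine.polynomial (Polynomial.C p) := rfl
  rw [this, fcl_ev, AdjoinRoot.evalEval_mk]
  simp [Polynomial.evalEval]

theorem fcl_ev_yc {c y : ZMod ℓ} (h : C.toAffine.Equation c y) :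
    fcl_ev C h (yc C) = y := by
  rw [yc, fcl_ev, AdjoinRoot.evalEval_mk]
  simp [Polynomial.evalEval]

/-- The Weierstrass relation in the coordinate ring. -/
theorem fcl_rel :
    yc C ^ 2 + pc C (Polynomial.C C.a₁ * X + Polynomial.C C.a₃) * yc C
      = pc C (X ^ 3 + Polynomial.C C.a₂ * X ^ 2 + Polynomial.C C.a₄ * X + Polynomial.C C.a₆) := by
  have h : AdjoinRoot.mk C.toAffine.polynomial
      ((X : (ZMod ℓ)[X][X]) ^ 2 + Polynomial.C (Polynomial.C C.a₁ * X + Polynomial.C C.a₃) * X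
        - Polynomial.C (X ^ 3 + Polynomial.C C.a₂ * X ^ 2 + Polynomial.C C.a₄ * X
          + Polynomial.C C.a₆)) = 0 := AdjoinRoot.mk_self
  have e1 : ∀ p : (ZMod ℓ)[X],
      AdjoinRoot.mk C.toAffine.polynomial (Polynomial.C p) = pc C p := fun _ => rfl
  have e2 : AdjoinRoot.mk C.toAffine.polynomial (X : (ZMod ℓ)[X][X]) = yc C := rfl
  rw [map_sub, map_add, map_mul, map_pow, e1, e1, e2] at h
  exact sub_eq_zero.mp h

/-- The Weierstrass relation expanded at a rational `2`-torsion point `(c, y)`. -/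
theorem fcl_local {c y : ZMod ℓ} (h : C.toAffine.Equation c y)
    (hy : 2 * y + C.a₁ * c + C.a₃ = 0) :
    (yc C - pc C (Polynomial.C y)) ^ 2 = - (pc C (X - Polynomial.C c) *
      (pc C (Polynomial.C C.a₁) * (yc C - pc C (Polynomial.C y))
        - pc C (X ^ 2 + Polynomial.C c * X + Polynomial.C (c ^ 2)
            + Polynomial.C C.a₂ * (X + Polynomial.C c) + Polynomial.C C.a₄
            - Polynomial.C (C.a₁ * y)))) := by
  have hrel := fcl_rel C
  have h1 := congrArg (fun t => pc C (Polynomial.C t)) ((C.toAffine.equation_iff c y).mp h)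
  have hy' := congrArg (fun t => pc C (Polynomial.C t)) hy
  simp only [map_add, map_mul, map_pow, map_sub, map_zero, map_ofNat] at hrel h1 hy' ⊢
  linear_combination hrel - (yc C - pc C (Polynomial.C y)) * hy' - h1

end fcl_general

variable {ℓ : ℕ} [Fact ℓ.Prime] (C : WeierstrassCurve (ZMod ℓ))

theorem fcl_ev_Vp {c y : ZMod ℓ} (h : C.toAffine.Equation c y) :
    fcl_ev C h (pc C (Vp ℓ)) = 0 := by
  rw [fcl_ev_pc, Vp]
  simp [ZMod.pow_card]

theorem fcl_ev_Uc {c y : ZMod ℓ} (h : C.toAffine.Equation c y) :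
    fcl_ev C h (Uc C) = y - C.toAffine.negY c y := by
  rw [Uc, map_add, map_add, map_pow, fcl_ev_yc, fcl_ev_pc, ZMod.pow_card,
    WeierstrassCurve.Affine.negY]
  simp
  ring

/-- (L2) at a rational point `(c, y)`: `n(c) = (y - ȳ)²`. -/
theorem eval_eq_sq {n : (ZMod ℓ)[X]} (hn : Nc C = pc C n) {c y : ZMod ℓ}
    (h : C.toAffine.Equation c y) : n.eval c = (y - C.toAffine.negY c y) ^ 2 := by
  have h1 := congrArg (fcl_ev C h) hn
  rw [fcl_ev_pc] at h1
  rw [← h1, Nc, map_sub, map_add, map_mul, map_pow, fcl_ev_Uc]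
  have h2 : fcl_ev C h (pc C (Polynomial.C C.a₁ * Vp ℓ)) = 0 := by
    rw [map_mul, map_mul, fcl_ev_Vp, mul_zero]
  have h3 : fcl_ev C h (pc C ((Polynomial.C C.a₂ + X ^ ℓ + X) * Vp ℓ ^ 2)) = 0 := by
    rw [map_mul, map_mul, map_pow, map_pow, fcl_ev_Vp]
    simp
  rw [h2, h3]
  ring

theorem fcl_charP : CharP C.toAffine.CoordinateRing ℓ :=
  charP_of_injective_algebraMap
    (FaithfulSMul.algebraMap_injective (ZMod ℓ) C.toAffine.CoordinateRing) ℓ

theorem fcl_pc_injective : Function.Injective (pc C) :=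
  FaithfulSMul.algebraMap_injective (ZMod ℓ)[X] C.toAffine.CoordinateRing

/-- A pure ring identity: the numerator `N` is divisible by `z`. -/
theorem fcl_ring_id {R : Type*} [CommRing R] (s z G U' Vc a e : R) (h : s ^ 2 = -(z * G)) :
    (s + z * U') ^ 2 + a * (z * Vc) * (s + z * U') - e * (z * Vc) ^ 2
      = z * (-G + 2 * s * U' + a * s * Vc + z * (U' ^ 2 + a * U' * Vc - e * Vc ^ 2)) := by
  linear_combination h

/-- (L1) at a rational 2-torsion point: simple root. -/
theorem rootMultiplicity_eq_one {n : (ZMod ℓ)[X]} (hn : Nc C = pc C n) {c y : ZMod ℓ}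
    (h : C.toAffine.Nonsingular c y) (hy : y = C.toAffine.negY c y) :
    n.rootMultiplicity c = 1 := by
  have heq : C.toAffine.Equation c y := h.1
  have hy0 : 2 * y + C.a₁ * c + C.a₃ = 0 := by
    rw [WeierstrassCurve.Affine.negY] at hy
    linear_combination hy
  have hX : C.a₁ * y - (3 * c ^ 2 + 2 * C.a₂ * c + C.a₄) ≠ 0 := by
    rcases ((C.toAffine.nonsingular_iff' c y).mp h).2 with h' | h'
    · exact h'
    · exact absurd hy0 h'
  have hroot : n.eval c = 0 := by
    rw [eval_eq_sq C hn heq, ← hy, sub_self]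
    ring
  obtain ⟨m, rfl⟩ : (X - Polynomial.C c) ∣ n := Polynomial.dvd_iff_isRoot.mpr hroot
  have hloc := fcl_local C heq hy0
  have hcp := fcl_charP C
  have hℓ2 : 2 ≤ ℓ := (Fact.out : ℓ.Prime).two_le
  generalize hs : yc C - pc C (Polynomial.C y) = s at hloc
  generalize hz : pc C (X - Polynomial.C c) = z at hloc
  generalize hG : pc C (Polynomial.C C.a₁) * s
        - pc C (X ^ 2 + Polynomial.C c * X + Polynomial.C (c ^ 2)
            + Polynomial.C C.a₂ * (X + Polynomial.C c) + Polynomial.C C.a₄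
            - Polynomial.C (C.a₁ * y)) = G at hloc
  have hsl : s ^ ℓ = yc C ^ ℓ - pc C (Polynomial.C y) := by
    rw [← hs, sub_pow_char, ← map_pow, ← map_pow, ZMod.pow_card]
  have hsl2 : s ^ ℓ = - (z * G) * s ^ (ℓ - 2) := by
    have : s ^ ℓ = s ^ 2 * s ^ (ℓ - 2) := by
      rw [← pow_add]
      congr 1
      omega
    rw [this, hloc]
  have hU : Uc C = s + z * (pc C (Polynomial.C C.a₁) - G * s ^ (ℓ - 2)) := by
    have hy' := congrArg (fun t => pc C (Polynomial.C t)) hy0
    simp only [map_add, map_mul, map_zero, map_ofNat] at hy'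
    have hz' := hz
    rw [Uc]
    simp only [map_add, map_mul, map_sub] at hz' ⊢
    linear_combination hsl2 - hsl + hs + hy' + pc C (Polynomial.C C.a₁) * hz'
  obtain ⟨vc, hvc⟩ : (X - Polynomial.C c) ∣ Vp ℓ :=
    Polynomial.dvd_iff_isRoot.mpr (by simp [Vp, ZMod.pow_card])
  have hV : pc C (Vp ℓ) = z * pc C vc := by rw [hvc, map_mul, hz]
  have hN : Nc C = z * (-G + 2 * s * (pc C (Polynomial.C C.a₁) - G * s ^ (ℓ - 2))
      + pc C (Polynomial.C C.a₁) * s * pc C vc
      + z * ((pc C (Polynomial.C C.a₁) - G * s ^ (ℓ - 2)) ^ 2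
          + pc C (Polynomial.C C.a₁) * (pc C (Polynomial.C C.a₁) - G * s ^ (ℓ - 2)) * pc C vc
          - pc C (Polynomial.C C.a₂ + X ^ ℓ + X) * pc C vc ^ 2)) := by
    rw [Nc, map_mul, map_mul, map_pow, hV, hU]
    exact fcl_ring_id s z G _ _ _ _ hloc
  have hz0 : z ≠ 0 := by
    rw [← hz]
    intro h0
    have := fcl_pc_injective C (h0.trans (map_zero _).symm)
    exact Polynomial.X_sub_C_ne_zero c this
  have hm : pc C m = _ := mul_left_cancel₀ hz0 (by rw [← hN, hn, map_mul, hz])
  have hevs : fcl_ev C heq s = 0 := by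
    rw [← hs, map_sub, fcl_ev_yc, fcl_ev_pc]
    simp
  have hevz : fcl_ev C heq z = 0 := by
    rw [← hz, fcl_ev_pc]
    simp
  have hevG : fcl_ev C heq G = C.a₁ * y - (3 * c ^ 2 + 2 * C.a₂ * c + C.a₄) := by
    rw [← hG, map_sub, map_mul, hevs]
    simp only [fcl_ev_pc]
    simp
    ring
  have hmc : m.eval c ≠ 0 := by
    have := congrArg (fcl_ev C heq) hm
    rw [fcl_ev_pc] at this
    rw [this]
    simp only [map_add, map_mul, map_neg, map_sub, hevs, hevz, hevG]
    intro h0
    apply hX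
    linear_combination -h0
  have hm0 : m ≠ 0 := by
    rintro rfl
    simp at hmc
  rw [Polynomial.rootMultiplicity_mul (mul_ne_zero (Polynomial.X_sub_C_ne_zero c) hm0),
    Polynomial.rootMultiplicity_X_sub_C_self, Polynomial.rootMultiplicity_eq_zero hmc]

end Fermat.Agent.S52.FCount
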