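import Mathlib
import Fermat.Agent.S52.FCountDefs

/-!
# P17 (S52), Block F6: local computation (L0)

If there is no rational point of `C` above `c`, then `(X - c) ^ 2` divides `N`.
-/

set_option autoImplicit false

open Polynomial

namespace Fermat.Agent.S52.FCount

variable {ℓ : ℕ} [Fact ℓ.Prime]

/-- In a field `S` of characteristic `ℓ` containing a root `θ` of the quadratic
`T ^ 2 + b T - d` over `ZMod ℓ` without roots in `ZMod ℓ`, we have `θ ^ ℓ + θ + b = 0`. -/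
theorem fcz_frob {S : Type*} [Field S] [Algebra (ZMod ℓ) S] (b d : ZMod ℓ)
    (h : ∀ y : ZMod ℓ, y ^ 2 + b * y - d ≠ 0) (θ : S)
    (hθ : θ ^ 2 + algebraMap (ZMod ℓ) S b * θ - algebraMap (ZMod ℓ) S d = 0) :
    θ ^ ℓ + θ + algebraMap (ZMod ℓ) S b = 0 := by
  have hinj : Function.Injective (algebraMap (ZMod ℓ) S) := (algebraMap (ZMod ℓ) S).injective
  have hchar : CharP S ℓ := charP_of_injective_algebraMap hinj ℓ
  have hb : (algebraMap (ZMod ℓ) S b) ^ ℓ = algebraMap (ZMod ℓ) S b := by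
    rw [← map_pow, ZMod.pow_card]
  have hd : (algebraMap (ZMod ℓ) S d) ^ ℓ = algebraMap (ZMod ℓ) S d := by
    rw [← map_pow, ZMod.pow_card]
  have h1 : (θ ^ ℓ) ^ 2 + algebraMap (ZMod ℓ) S b * θ ^ ℓ - algebraMap (ZMod ℓ) S d = 0 := by
    have h2 := congrArg (frobenius S ℓ) hθ
    simp only [map_sub, map_add, map_mul, map_pow, map_zero] at h2
    simp only [frobenius_def] at h2
    rw [hb, hd] at h2
    linear_combination h2
  have h3 : (θ ^ ℓ - θ) * (θ ^ ℓ + θ + algebraMap (ZMod ℓ) S b) = 0 := by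
    linear_combination h1 - hθ
  rcases mul_eq_zero.mp h3 with h4 | h4
  · exfalso
    have h5 : θ ^ ℓ = θ := sub_eq_zero.mp h4
    have h6 : θ ∈ (⊥ : Subfield S) := (Subfield.mem_bot_iff_pow_eq_self S ℓ).mpr h5
    obtain ⟨n, hn⟩ := (mem_bot_iff_intCast ℓ S).mp h6
    have h7 : algebraMap (ZMod ℓ) S (n : ZMod ℓ) = θ := by rw [map_intCast, hn]
    apply h (n : ZMod ℓ)
    apply hinj
    rw [map_zero, map_sub, map_add, map_mul, map_pow, h7]
    exact hθ
  · exact h4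

/-- A quadratic extension of `ZMod ℓ` generated by a root of a rootless quadratic. -/
theorem fcz_field (b d : ZMod ℓ) (h : ∀ y : ZMod ℓ, y ^ 2 + b * y - d ≠ 0) :
    ∃ (S : Type) (_ : Field S) (_ : Algebra (ZMod ℓ) S) (θ : S),
      θ ^ 2 + algebraMap (ZMod ℓ) S b * θ - algebraMap (ZMod ℓ) S d = 0 ∧
      θ ^ ℓ + θ + algebraMap (ZMod ℓ) S b = 0 ∧
      ∀ u₀ u₁ : ZMod ℓ, algebraMap (ZMod ℓ) S u₀ + algebraMap (ZMod ℓ) S u₁ * θ = 0 →
        u₀ = 0 ∧ u₁ = 0 := by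
  set q : (ZMod ℓ)[X] := X ^ 2 + Polynomial.C b * X - Polynomial.C d with hq
  have hq2 : q.natDegree = 2 := by
    rw [hq]; compute_degree!
  have hqirr : Irreducible q := by
    apply Polynomial.irreducible_of_degree_le_three_of_not_isRoot
    · rw [hq2]; decide
    · intro x hx
      apply h x
      have := hx
      rw [IsRoot, hq] at this
      simpa using this
  have hfact : Fact (Irreducible q) := ⟨hqirr⟩
  have hθ : (AdjoinRoot.root q) ^ 2 + algebraMap (ZMod ℓ) (AdjoinRoot q) b * AdjoinRoot.root q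
      - algebraMap (ZMod ℓ) (AdjoinRoot q) d = 0 := by
    have h1 := AdjoinRoot.eval₂_root q
    rw [← AdjoinRoot.algebraMap_eq] at h1
    rw [hq] at h1
    simpa using h1
  have hinj : Function.Injective (algebraMap (ZMod ℓ) (AdjoinRoot q)) :=
    (algebraMap (ZMod ℓ) (AdjoinRoot q)).injective
  refine ⟨AdjoinRoot q, inferInstance, inferInstance, AdjoinRoot.root q, hθ,
    fcz_frob b d h _ hθ, ?_⟩
  intro u₀ u₁ hu
  have hu1 : u₁ = 0 := by
    by_contra hne
    apply h (-u₀ / u₁)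
    apply hinj
    have hne' : algebraMap (ZMod ℓ) (AdjoinRoot q) u₁ ≠ 0 := by
      rwa [Ne, map_eq_zero]
    have h8 : algebraMap (ZMod ℓ) (AdjoinRoot q) (-u₀ / u₁) = AdjoinRoot.root q := by
      rw [map_div₀, map_neg, div_eq_iff hne']
      linear_combination -hu
    rw [map_zero, map_sub, map_add, map_mul, map_pow, h8]
    exact hθ
  subst hu1
  refine ⟨?_, rfl⟩
  apply hinj
  rw [map_zero]
  simpa using hu

variable (C : WeierstrassCurve (ZMod ℓ))

theorem fcz_smul (p : (ZMod ℓ)[X]) (y : C.toAffine.CoordinateRing) : p • y = pc C p * y :=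
  Algebra.smul_def p y

theorem fcz_exists_basis (x : C.toAffine.CoordinateRing) :
    ∃ p q : (ZMod ℓ)[X], x = pc C p + pc C q * yc C := by
  obtain ⟨p, q, hpq⟩ := WeierstrassCurve.Affine.CoordinateRing.exists_smul_basis_eq x
  refine ⟨p, q, ?_⟩
  rw [← hpq, fcz_smul, fcz_smul, mul_one]
  rfl

theorem fcz_basis_eq_zero {p q : (ZMod ℓ)[X]} (hpq : pc C p + pc C q * yc C = 0) :
    p = 0 ∧ q = 0 := by
  apply WeierstrassCurve.Affine.CoordinateRing.smul_basis_eq_zero (W' := C.toAffine)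
  rw [fcz_smul, fcz_smul, mul_one]
  exact hpq

/-- (L0) no rational point above `c`: double root. -/
theorem sq_dvd {n : (ZMod ℓ)[X]} (hn : Nc C = pc C n) {c : ZMod ℓ}
    (h : ∀ y : ZMod ℓ, ¬ C.toAffine.Equation c y) : (X - Polynomial.C c) ^ 2 ∣ n := by
  have hq : ∀ y : ZMod ℓ, y ^ 2 + (C.a₁ * c + C.a₃) * y
      - (c ^ 3 + C.a₂ * c ^ 2 + C.a₄ * c + C.a₆) ≠ 0 := by
    intro y hy
    apply h y
    rw [WeierstrassCurve.Affine.equation_iff]
    linear_combination hy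
  obtain ⟨S, _, _, θ, hθ, hθℓ, hlin⟩ := fcz_field _ _ hq
  have hev : C.toAffine.polynomial.eval₂
      ((algebraMap (ZMod ℓ) S).comp (Polynomial.evalRingHom c)) θ = 0 := by
    rw [WeierstrassCurve.Affine.polynomial]
    simp only [eval₂_sub, eval₂_add, eval₂_mul, eval₂_pow, eval₂_X, eval₂_C, RingHom.comp_apply,
      coe_evalRingHom, eval_add, eval_mul, eval_pow, eval_X, eval_C]
    exact hθ
  obtain ⟨ev, ev_pc, ev_y⟩ : ∃ ev : C.toAffine.CoordinateRing →+* S,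
      (∀ p : (ZMod ℓ)[X], ev (pc C p) = algebraMap (ZMod ℓ) S (p.eval c)) ∧ ev (yc C) = θ := by
    refine ⟨AdjoinRoot.lift ((algebraMap (ZMod ℓ) S).comp (Polynomial.evalRingHom c)) θ hev,
      ?_, ?_⟩
    · intro p
      rw [pc, AdjoinRoot.algebraMap_eq, AdjoinRoot.lift_of]
      rfl
    · rw [yc, AdjoinRoot.lift_mk, eval₂_X]
  have ev_U : ev (Uc C) = 0 := by
    rw [Uc, map_add, map_add, map_pow, ev_y, ev_pc]
    simp only [eval_add, eval_mul, eval_X, eval_C]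
    exact hθℓ
  obtain ⟨u₀, u₁, hu⟩ := fcz_exists_basis C (Uc C)
  have hu01 : u₀.eval c = 0 ∧ u₁.eval c = 0 := by
    apply hlin
    rw [← ev_pc, ← ev_pc, ← ev_y, ← map_mul, ← map_add, ← hu, ev_U]
  obtain ⟨v₀, hv₀⟩ := Polynomial.dvd_iff_isRoot.mpr hu01.1
  obtain ⟨v₁, hv₁⟩ := Polynomial.dvd_iff_isRoot.mpr hu01.2
  have hVroot : (Vp ℓ).IsRoot c := by
    rw [IsRoot, Vp]
    simp only [eval_sub, eval_pow, eval_X]
    rw [ZMod.pow_card, sub_self]
  obtain ⟨w, hw⟩ := Polynomial.dvd_iff_isRoot.mpr hVroot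
  obtain ⟨m₀, m₁, hm⟩ := fcz_exists_basis C
    ((pc C v₀ + pc C v₁ * yc C) ^ 2 + pc C (Polynomial.C C.a₁ * w) * (pc C v₀ + pc C v₁ * yc C)
      - pc C ((Polynomial.C C.a₂ + X ^ ℓ + X) * w ^ 2))
  have hN : Nc C = pc C ((X - Polynomial.C c) ^ 2 * m₀)
      + pc C ((X - Polynomial.C c) ^ 2 * m₁) * yc C := by
    rw [Nc, hu, hv₀, hv₁, hw]
    simp only [map_mul, map_pow] at hm ⊢
    linear_combination (pc C (X - Polynomial.C c)) ^ 2 * hm
  have hfin : pc C (n - (X - Polynomial.C c) ^ 2 * m₀)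
      + pc C (-((X - Polynomial.C c) ^ 2 * m₁)) * yc C = 0 := by
    rw [map_sub, map_neg, ← hn, hN]
    ring
  have h0 := (fcz_basis_eq_zero C hfin).1
  exact ⟨m₀, sub_eq_zero.mp h0⟩

end Fermat.Agent.S52.FCount
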