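import Mathlib
import Fermat.Agent.S52.FCountDefs

/-!
# P17 (S52), Block F6: `N` is a polynomial in `X`, monic of degree `2 ℓ + 1`
-/

set_option autoImplicit false

open Polynomial

namespace Fermat.Agent.S52.FCount

variable {ℓ : ℕ} [Fact ℓ.Prime] (C : WeierstrassCurve (ZMod ℓ))

/-- The coordinate ring has characteristic `ℓ`. -/
theorem fcn_charP : CharP C.toAffine.CoordinateRing ℓ :=
  charP_of_injective_algebraMap
    (FaithfulSMul.algebraMap_injective (ZMod ℓ) C.toAffine.CoordinateRing) ℓ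

/-- `Y ^ 2 = f - A Y` in the coordinate ring. -/
theorem fcn_Ysq : yc C ^ 2 =
    pc C (X ^ 3 + Polynomial.C C.a₂ * X ^ 2 + Polynomial.C C.a₄ * X + Polynomial.C C.a₆)
      - pc C (Polynomial.C C.a₁ * X + Polynomial.C C.a₃) * yc C := by
  have h : AdjoinRoot.mk C.toAffine.polynomial C.toAffine.polynomial = 0 := AdjoinRoot.mk_self
  have h2 : AdjoinRoot.mk C.toAffine.polynomial C.toAffine.polynomial =
      yc C ^ 2 + pc C (Polynomial.C C.a₁ * X + Polynomial.C C.a₃) * yc C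
        - pc C (X ^ 3 + Polynomial.C C.a₂ * X ^ 2 + Polynomial.C C.a₄ * X + Polynomial.C C.a₆) := by
    simp only [WeierstrassCurve.Affine.polynomial]
    simp only [map_add, map_mul, map_pow, yc, pc]
    rfl
  rw [h2] at h
  linear_combination h

/-- Frobenius on polynomials in `X` with coefficients in `ZMod ℓ`: the linear form. -/
theorem fcn_frob_lin (a b : ZMod ℓ) :
    (Polynomial.C a * X + Polynomial.C b : (ZMod ℓ)[X]) ^ ℓ =
      Polynomial.C a * X ^ ℓ + Polynomial.C b := by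
  rw [add_pow_char, mul_pow, ← Polynomial.C_pow, ← Polynomial.C_pow, ZMod.pow_card, ZMod.pow_card]

/-- Frobenius on polynomials in `X` with coefficients in `ZMod ℓ`: the cubic. -/
theorem fcn_frob_cubic (a b c : ZMod ℓ) :
    (X ^ 3 + Polynomial.C a * X ^ 2 + Polynomial.C b * X + Polynomial.C c : (ZMod ℓ)[X]) ^ ℓ =
      X ^ (3 * ℓ) + Polynomial.C a * X ^ (2 * ℓ) + Polynomial.C b * X ^ ℓ + Polynomial.C c := by
  rw [add_pow_char, add_pow_char, add_pow_char, mul_pow, mul_pow, ← Polynomial.C_pow,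
    ← Polynomial.C_pow, ← Polynomial.C_pow, ZMod.pow_card, ZMod.pow_card, ZMod.pow_card,
    ← pow_mul, ← pow_mul]

/-- The involution `Y ↦ -Y - A` of the coordinate ring. -/
noncomputable def fcn_iota : C.toAffine.CoordinateRing →+* C.toAffine.CoordinateRing :=
  AdjoinRoot.lift (pc C) (-yc C - pc C (Polynomial.C C.a₁ * X + Polynomial.C C.a₃)) (by
    simp only [WeierstrassCurve.Affine.polynomial]
    simp only [eval₂_add, eval₂_sub, eval₂_mul, eval₂_pow, eval₂_X, eval₂_C]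
    linear_combination fcn_Ysq C)

theorem fcn_iota_pc (p : (ZMod ℓ)[X]) : fcn_iota C (pc C p) = pc C p := by
  unfold fcn_iota pc
  exact AdjoinRoot.lift_of _

theorem fcn_iota_yc :
    fcn_iota C (yc C) = -yc C - pc C (Polynomial.C C.a₁ * X + Polynomial.C C.a₃) := by
  unfold fcn_iota yc
  exact AdjoinRoot.lift_mk _ _ |>.trans (by simp)

theorem fcn_iota_Uc :
    fcn_iota C (Uc C) = -Uc C - pc C (Polynomial.C C.a₁ * Vp ℓ) := by
  have hch := fcn_charP C
  unfold Uc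
  rw [map_add, map_add, map_pow, fcn_iota_pc, fcn_iota_yc, sub_pow_char, neg_pow,
    ← map_pow, fcn_frob_lin]
  rw [neg_one_pow_char _ ℓ]
  unfold Vp
  simp only [map_add, map_sub, map_mul, map_pow]
  ring

theorem fcn_iota_Nc : fcn_iota C (Nc C) = Nc C := by
  unfold Nc
  rw [map_sub, map_add, map_mul, map_pow, fcn_iota_pc, fcn_iota_pc, fcn_iota_Uc]
  simp only [map_add, map_mul, map_pow]
  ring

theorem fcn_smul_one (p : (ZMod ℓ)[X]) :
    p • (1 : C.toAffine.CoordinateRing) = pc C p := by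
  rw [Algebra.smul_def, mul_one]; rfl

theorem fcn_smul_Y (q : (ZMod ℓ)[X]) :
    q • (WeierstrassCurve.Affine.CoordinateRing.mk C.toAffine (X : (ZMod ℓ)[X][X])) =
      pc C q * yc C := by
  rw [Algebra.smul_def]; rfl

/-- Uniqueness of coordinates in the basis `{1, Y}`. -/
theorem fcn_coord_unique {p q p' q' : (ZMod ℓ)[X]}
    (h : pc C p + pc C q * yc C = pc C p' + pc C q' * yc C) : p = p' ∧ q = q' := by
  have h0 : (p - p') • (1 : C.toAffine.CoordinateRing) +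
      (q - q') • (WeierstrassCurve.Affine.CoordinateRing.mk C.toAffine (X : (ZMod ℓ)[X][X])) = 0 := by
    rw [fcn_smul_one, fcn_smul_Y, map_sub, map_sub]
    linear_combination h
  obtain ⟨h1, h2⟩ := WeierstrassCurve.Affine.CoordinateRing.smul_basis_eq_zero h0
  exact ⟨sub_eq_zero.mp h1, sub_eq_zero.mp h2⟩

theorem fcn_exists_coord (x : C.toAffine.CoordinateRing) :
    ∃ p q : (ZMod ℓ)[X], x = pc C p + pc C q * yc C := by
  obtain ⟨p, q, h⟩ := WeierstrassCurve.Affine.CoordinateRing.exists_smul_basis_eq x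
  refine ⟨p, q, ?_⟩
  rw [← h, fcn_smul_one, fcn_smul_Y]

/-- Step 1: `N` is a polynomial in `X`. -/
theorem fcn_Nc_poly (hΔ : C.Δ ≠ 0) : ∃ n : (ZMod ℓ)[X], Nc C = pc C n := by
  obtain ⟨p, q, hpq⟩ := fcn_exists_coord C (Nc C)
  have hι := fcn_iota_Nc C
  rw [hpq, map_add, map_mul, fcn_iota_pc, fcn_iota_pc, fcn_iota_yc] at hι
  have h1 : pc C (p - q * (Polynomial.C C.a₁ * X + Polynomial.C C.a₃)) + pc C (-q) * yc C =
      pc C p + pc C q * yc C := by
    rw [← hι]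
    simp only [map_add, map_sub, map_mul, map_neg]
    ring
  obtain ⟨h2, h3⟩ := fcn_coord_unique C h1
  have hq : q = 0 := by
    by_contra hq
    have hA : (Polynomial.C C.a₁ * X + Polynomial.C C.a₃ : (ZMod ℓ)[X]) = 0 := by
      have : q * (Polynomial.C C.a₁ * X + Polynomial.C C.a₃) = 0 := by linear_combination -h2
      exact (mul_eq_zero.mp this).resolve_left hq
    have h2' : (Polynomial.C (2 : ZMod ℓ) : (ZMod ℓ)[X]) = 0 := by
      have : Polynomial.C (2 : ZMod ℓ) * q = 0 := by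
        have hC2 : (Polynomial.C (2 : ZMod ℓ) : (ZMod ℓ)[X]) = 2 := map_ofNat Polynomial.C 2
        rw [hC2]; linear_combination -h3
      exact (mul_eq_zero.mp this).resolve_right hq
    have h2F : (2 : ZMod ℓ) = 0 := by simpa using h2'
    have ha₁ : C.a₁ = 0 := by
      have := congrArg (fun r => Polynomial.coeff r 1) hA
      simpa using this
    have ha₃ : C.a₃ = 0 := by
      have := congrArg (fun r => Polynomial.coeff r 0) hA
      simpa using this
    apply hΔ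
    simp only [WeierstrassCurve.Δ, WeierstrassCurve.b₂, WeierstrassCurve.b₄, WeierstrassCurve.b₆,
      WeierstrassCurve.b₈, ha₁, ha₃]
    linear_combination (-32 * C.a₂ ^ 3 * C.a₆ + 8 * C.a₂ ^ 2 * C.a₄ ^ 2 - 32 * C.a₄ ^ 3
      - 216 * C.a₆ ^ 2 + 144 * C.a₂ * C.a₄ * C.a₆) * h2F
  refine ⟨p, ?_⟩
  rw [hpq, hq, map_zero, zero_mul, add_zero]

/-- Pole-order bound: `x = p + q Y` with `2 deg p ≤ d` and `2 deg q + 3 ≤ d`. -/
def fcn_Bd (x : C.toAffine.CoordinateRing) (d : ℕ) : Prop :=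
  ∃ p q : (ZMod ℓ)[X], x = pc C p + pc C q * yc C ∧ 2 * p.natDegree ≤ d ∧
    (q = 0 ∨ 2 * q.natDegree + 3 ≤ d)

variable {C}

theorem fcn_Bd_mono {x : C.toAffine.CoordinateRing} {d d' : ℕ} (h : fcn_Bd C x d) (hd : d ≤ d') :
    fcn_Bd C x d' := by
  obtain ⟨p, q, hx, hp, hq⟩ := h
  refine ⟨p, q, hx, by omega, ?_⟩
  rcases hq with hq | hq
  · exact Or.inl hq
  · exact Or.inr (by omega)

theorem fcn_Bd_add {x y : C.toAffine.CoordinateRing} {d : ℕ} (hx : fcn_Bd C x d)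
    (hy : fcn_Bd C y d) : fcn_Bd C (x + y) d := by
  obtain ⟨p, q, hx, hp, hq⟩ := hx
  obtain ⟨p', q', hy, hp', hq'⟩ := hy
  refine ⟨p + p', q + q', ?_, ?_, ?_⟩
  · rw [hx, hy, map_add, map_add]; ring
  · have := natDegree_add_le_of_degree_le (p := p) (q := p') (n := d / 2) (by omega) (by omega)
    omega
  · rcases hq with hq | hq
    · rw [hq, zero_add]; exact hq'
    · rcases hq' with hq' | hq'
      · rw [hq', add_zero]; exact Or.inr hq
      · right
        have := natDegree_add_le_of_degree_le (p := q) (q := q') (n := (d - 3) / 2)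
          (by omega) (by omega)
        omega

theorem fcn_Bd_pc (p : (ZMod ℓ)[X]) : fcn_Bd C (pc C p) (2 * p.natDegree) :=
  ⟨p, 0, by simp, le_refl _, Or.inl rfl⟩

theorem fcn_Bd_pc_mul {x : C.toAffine.CoordinateRing} {d : ℕ} (r : (ZMod ℓ)[X])
    (hx : fcn_Bd C x d) : fcn_Bd C (pc C r * x) (2 * r.natDegree + d) := by
  obtain ⟨p, q, hx, hp, hq⟩ := hx
  refine ⟨r * p, r * q, ?_, ?_, ?_⟩
  · rw [hx, map_mul, map_mul]; ring
  · have := natDegree_mul_le (p := r) (q := p)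
    omega
  · rcases hq with hq | hq
    · left; rw [hq, mul_zero]
    · right
      have := natDegree_mul_le (p := r) (q := q)
      omega

theorem fcn_natDegree_cubic_le (a b c : ZMod ℓ) :
    (X ^ 3 + Polynomial.C a * X ^ 2 + Polynomial.C b * X + Polynomial.C c : (ZMod ℓ)[X]).natDegree
      ≤ 3 := by
  compute_degree

theorem fcn_natDegree_lin_le (a b : ZMod ℓ) :
    (Polynomial.C a * X + Polynomial.C b : (ZMod ℓ)[X]).natDegree ≤ 1 := by
  compute_degree

theorem fcn_Bd_mul_Y {x : C.toAffine.CoordinateRing} {d : ℕ}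
    (hx : fcn_Bd C x d) : fcn_Bd C (x * yc C) (d + 3) := by
  obtain ⟨p, q, hx, hp, hq⟩ := hx
  refine ⟨q * (X ^ 3 + Polynomial.C C.a₂ * X ^ 2 + Polynomial.C C.a₄ * X + Polynomial.C C.a₆),
    p - q * (Polynomial.C C.a₁ * X + Polynomial.C C.a₃), ?_, ?_, ?_⟩
  · rw [hx, map_mul, map_sub, map_mul]
    linear_combination pc C q * fcn_Ysq C
  · rcases hq with hq | hq
    · rw [hq, zero_mul]; simp
    · have := natDegree_mul_le (p := q)
        (q := X ^ 3 + Polynomial.C C.a₂ * X ^ 2 + Polynomial.C C.a₄ * X + Polynomial.C C.a₆)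
      have := fcn_natDegree_cubic_le C.a₂ C.a₄ C.a₆
      omega
  · right
    have h1 : (q * (Polynomial.C C.a₁ * X + Polynomial.C C.a₃)).natDegree ≤ d / 2 := by
      rcases hq with hq | hq
      · rw [hq, zero_mul]; simp
      · have := natDegree_mul_le (p := q) (q := Polynomial.C C.a₁ * X + Polynomial.C C.a₃)
        have := fcn_natDegree_lin_le C.a₁ C.a₃
        omega
    have := natDegree_sub_le_of_le (p := p)
      (q := q * (Polynomial.C C.a₁ * X + Polynomial.C C.a₃)) (m := d / 2) (n := d / 2)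
      (by omega) h1
    have : (p - q * (Polynomial.C C.a₁ * X + Polynomial.C C.a₃)).natDegree ≤ d / 2 := by
      simpa using this
    omega

theorem fcn_Bd_mul {x y : C.toAffine.CoordinateRing} {d e : ℕ} (hx : fcn_Bd C x d)
    (hy : fcn_Bd C y e) : fcn_Bd C (x * y) (d + e) := by
  obtain ⟨p, q, hx, hp, hq⟩ := hx
  have h1 : fcn_Bd C (pc C p * y) (d + e) := fcn_Bd_mono (fcn_Bd_pc_mul p hy) (by omega)
  have hxy : x * y = pc C p * y + pc C q * (y * yc C) := by rw [hx]; ring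
  rw [hxy]
  rcases hq with hq | hq
  · rw [hq, map_zero, zero_mul, add_zero]; exact h1
  · exact fcn_Bd_add h1 (fcn_Bd_mono (fcn_Bd_pc_mul q (fcn_Bd_mul_Y hy)) (by omega))

theorem fcn_Bd_pow {x : C.toAffine.CoordinateRing} {d : ℕ} (hx : fcn_Bd C x d) (n : ℕ) :
    fcn_Bd C (x ^ n) (n * d) := by
  induction n with
  | zero =>
    refine ⟨1, 0, by simp, by simp, Or.inl rfl⟩
  | succ n ih =>
    rw [pow_succ, Nat.succ_mul]
    exact fcn_Bd_mul ih hx

theorem fcn_Bd_Y : fcn_Bd C (yc C) 3 :=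
  ⟨0, 1, by simp, by simp, Or.inr (by simp)⟩

variable (C)

/-- Frobenius applied to the Weierstrass equation. -/
theorem fcn_Ypow_sq : (yc C ^ ℓ) ^ 2 =
    pc C (X ^ (3 * ℓ) + Polynomial.C C.a₂ * X ^ (2 * ℓ) + Polynomial.C C.a₄ * X ^ ℓ
        + Polynomial.C C.a₆)
      - pc C (Polynomial.C C.a₁ * X ^ ℓ + Polynomial.C C.a₃) * yc C ^ ℓ := by
  have hch := fcn_charP C
  rw [← pow_mul, mul_comm, pow_mul, fcn_Ysq, sub_pow_char, mul_pow, ← map_pow, ← map_pow,
    fcn_frob_cubic, fcn_frob_lin]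

/-- The expansion of `N` with leading term `X ^ (2 ℓ + 1)`. -/
theorem fcn_Nc_expand : Nc C = pc C (X ^ (2 * ℓ + 1)) +
    (pc C (X ^ (ℓ + 2) + Polynomial.C (2 * C.a₂) * X ^ (ℓ + 1) + Polynomial.C C.a₄ * X ^ ℓ
        - X ^ 3 - Polynomial.C C.a₂ * X ^ 2 + Polynomial.C C.a₆)
      + yc C ^ ℓ * (pc C (Polynomial.C C.a₁ * X + Polynomial.C C.a₃)
          + pc C (Polynomial.C 2) * yc C)
      + (pc C (Polynomial.C C.a₁ * X + Polynomial.C C.a₃) + pc C 1 * yc C) ^ 2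
      + pc C (Polynomial.C C.a₁ * Vp ℓ)
          * (pc C (Polynomial.C C.a₁ * X + Polynomial.C C.a₃) + pc C 1 * yc C)) := by
  have hZ := fcn_Ypow_sq C
  have h2 : pc C (Polynomial.C 2) = 2 := by rw [map_ofNat Polynomial.C 2, map_ofNat]
  have h2' : (Polynomial.C (2 * C.a₂) : (ZMod ℓ)[X]) = Polynomial.C 2 * Polynomial.C C.a₂ :=
    Polynomial.C_mul
  rw [h2']
  unfold Nc Uc Vp
  simp only [map_add, map_sub, map_mul, map_pow, map_one] at hZ ⊢
  rw [h2]
  linear_combination hZ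

/-- The remainder `N - X ^ (2 ℓ + 1)` has pole order at most `4 ℓ + 1`. -/
theorem fcn_Bd_rest : fcn_Bd C (Nc C - pc C (X ^ (2 * ℓ + 1))) (4 * ℓ + 1) := by
  have hℓ : 2 ≤ ℓ := (Fact.out : ℓ.Prime).two_le
  have hA := fcn_natDegree_lin_le C.a₁ C.a₃
  rw [fcn_Nc_expand, add_sub_cancel_left]
  have hB : fcn_Bd C (pc C (Polynomial.C C.a₁ * X + Polynomial.C C.a₃) + pc C 1 * yc C) 3 :=
    ⟨_, 1, rfl, by omega, Or.inr (by simp)⟩
  have h2YA : fcn_Bd C (pc C (Polynomial.C C.a₁ * X + Polynomial.C C.a₃)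
      + pc C (Polynomial.C 2) * yc C) 3 :=
    ⟨_, Polynomial.C 2, rfl, by omega, Or.inr (by simp)⟩
  have hg : (X ^ (ℓ + 2) + Polynomial.C (2 * C.a₂) * X ^ (ℓ + 1) + Polynomial.C C.a₄ * X ^ ℓ
        - X ^ 3 - Polynomial.C C.a₂ * X ^ 2 + Polynomial.C C.a₆ : (ZMod ℓ)[X]).natDegree
      ≤ ℓ + 2 := by
    compute_degree
    all_goals omega
  have hV : (Polynomial.C C.a₁ * Vp ℓ).natDegree ≤ ℓ := by
    unfold Vp
    compute_degree
    all_goals omega
  refine fcn_Bd_add (fcn_Bd_add (fcn_Bd_add ?_ ?_) ?_) ?_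
  · exact fcn_Bd_mono (fcn_Bd_pc _) (by omega)
  · exact fcn_Bd_mono (fcn_Bd_mul (fcn_Bd_pow fcn_Bd_Y ℓ) h2YA) (by omega)
  · exact fcn_Bd_mono (fcn_Bd_pow hB 2) (by omega)
  · exact fcn_Bd_mono (fcn_Bd_pc_mul _ hB) (by omega)

/-- (N) `N` is a polynomial in `X`, monic of degree `2 ℓ + 1`. -/
theorem exists_poly_Nc (hΔ : C.Δ ≠ 0) :
    ∃ n : (ZMod ℓ)[X], Nc C = pc C n ∧ n.Monic ∧ n.natDegree = 2 * ℓ + 1 := by
  obtain ⟨n, hn⟩ := fcn_Nc_poly C hΔ
  obtain ⟨p, q, hpq, hp, -⟩ := fcn_Bd_rest C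
  have h1 : pc C (n - X ^ (2 * ℓ + 1)) + pc C 0 * yc C = pc C p + pc C q * yc C := by
    rw [← hpq, hn, map_sub, map_zero, zero_mul, add_zero]
  obtain ⟨h2, -⟩ := fcn_coord_unique C h1
  have hdeg : (n - X ^ (2 * ℓ + 1)).natDegree ≤ 2 * ℓ := by rw [h2]; omega
  have hdeg' : (n - X ^ (2 * ℓ + 1)).degree < ((2 * ℓ + 1 : ℕ) : WithBot ℕ) :=
    lt_of_le_of_lt degree_le_natDegree (by exact_mod_cast Nat.lt_succ_of_le hdeg)
  have hn' : n = X ^ (2 * ℓ + 1) + (n - X ^ (2 * ℓ + 1)) := by ring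
  have hmonic : n.Monic := by
    rw [hn']; exact monic_X_pow_add hdeg'
  refine ⟨n, hn, hmonic, ?_⟩
  rw [hn', natDegree_add_eq_left_of_degree_lt (by rwa [degree_X_pow]), natDegree_X_pow]

end Fermat.Agent.S52.FCount
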