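import Mathlib

/-!
# P17 (S52), block F: the function field of an elliptic curve over `𝔽_ℓ` — definitions

`C` is an elliptic curve over `ZMod ℓ`, `k` a field of characteristic `ℓ`.

* `KK C k`: the function field of `C` over `k`.
* `genX`, `genY : KK C k`: the coordinate functions; `genPt`: the generic point of `C` over `KK C k`.
* `iota`: the hyperelliptic involution `Y ↦ -Y - a₁ X - a₃` of `KK C k`.
* `frobK`: the `ℓ`-power Frobenius of `KK C k`; `frobPt`: the induced endomorphism of `C(KK C k)`.
* `Lam`: the subgroup of "odd" points `Q` (those with `iota Q = -Q`).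
-/

set_option autoImplicit false

namespace Fermat.Agent.S52.F

open Polynomial WeierstrassCurve WeierstrassCurve.Affine
open scoped Polynomial.Bivariate

/-- A base change of an elliptic curve is elliptic. -/
instance isElliptic_baseChange {R A : Type*} [CommRing R] [CommRing A] [Algebra R A]
    (W : WeierstrassCurve R) [W.IsElliptic] : (W⁄A).IsElliptic :=
  inferInstanceAs (W.map (algebraMap R A)).IsElliptic

/-- A ring endomorphism of a `ZMod ℓ`-algebra is `ZMod ℓ`-linear. -/
def zmodAlgHom {ℓ : ℕ} {A B : Type*} [CommRing A] [CommRing B] [Algebra (ZMod ℓ) A]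
    [Algebra (ZMod ℓ) B] (f : A →+* B) : A →ₐ[ZMod ℓ] B :=
  { f with
    commutes' := fun r => by
      have h : f.comp (algebraMap (ZMod ℓ) A) = algebraMap (ZMod ℓ) B := Subsingleton.elim _ _
      exact congrArg (fun g : ZMod ℓ →+* B => g r) h }

@[simp]
theorem zmodAlgHom_apply {ℓ : ℕ} {A B : Type*} [CommRing A] [CommRing B] [Algebra (ZMod ℓ) A]
    [Algebra (ZMod ℓ) B] (f : A →+* B) (x : A) : zmodAlgHom (ℓ := ℓ) f x = f x := rfl

variable {ℓ : ℕ} [Fact ℓ.Prime] (C : WeierstrassCurve (ZMod ℓ)) (k : Type*) [Field k]
  [Algebra (ZMod ℓ) k]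

/-- The coordinate ring of `C` over `k`. -/
abbrev CR : Type _ := (C.toAffine⁄k).CoordinateRing

/-- The function field of `C` over `k`. -/
abbrev KK : Type _ := (C.toAffine⁄k).FunctionField

noncomputable instance instDecEqKK : DecidableEq (KK C k) := Classical.decEq _

instance instCharPKK : CharP (KK C k) ℓ :=
  charP_of_injective_algebraMap (algebraMap (ZMod ℓ) (KK C k)).injective ℓ

/-- The coordinate function `X`. -/
noncomputable def genX : KK C k := algebraMap k[X] (KK C k) X

/-- The coordinate function `Y`. -/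
noncomputable def genY : KK C k :=
  algebraMap (CR C k) (KK C k) (CoordinateRing.mk (C.toAffine⁄k) Y)

theorem algebraMap_polynomial_injective : Function.Injective (algebraMap k[X] (KK C k)) := by
  rw [IsScalarTower.algebraMap_eq k[X] (CR C k) (KK C k)]
  exact (IsFractionRing.injective (CR C k) (KK C k)).comp
    (FaithfulSMul.algebraMap_injective k[X] (CR C k))

theorem algebraMap_CR_injective : Function.Injective (algebraMap (CR C k) (KK C k)) :=
  IsFractionRing.injective (CR C k) (KK C k)

theorem algebraMap_C (a : k) : algebraMap k[X] (KK C k) (Polynomial.C a) = algebraMap k (KK C k) a := by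
  rw [← Polynomial.algebraMap_eq, ← IsScalarTower.algebraMap_apply]

theorem algebraMap_eq_aeval (p : k[X]) : algebraMap k[X] (KK C k) p = Polynomial.aeval (genX C k) p := by
  induction p using Polynomial.induction_on' with
  | add p q hp hq => rw [map_add, map_add, hp, hq]
  | monomial n a =>
    rw [← Polynomial.C_mul_X_pow_eq_monomial, map_mul, map_pow, map_mul, map_pow, Polynomial.aeval_C,
      Polynomial.aeval_X, algebraMap_C, genX]

theorem algebraMap_zmod (a : ZMod ℓ) :
    algebraMap k (KK C k) (algebraMap (ZMod ℓ) k a) = algebraMap (ZMod ℓ) (KK C k) a :=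
  (IsScalarTower.algebraMap_apply (ZMod ℓ) k (KK C k) a).symm

/-- The generic point satisfies the Weierstrass equation. -/
theorem gen_equation : (C.toAffine⁄(KK C k)).Equation (genX C k) (genY C k) := by
  have h0 : (CoordinateRing.mk (C.toAffine⁄k)) (C.toAffine⁄k).polynomial = 0 := AdjoinRoot.mk_self
  have h1 := congrArg (algebraMap (CR C k) (KK C k)) h0
  rw [map_zero] at h1
  rw [Affine.equation_iff]
  have hC : ∀ p : k[X], algebraMap (CR C k) (KK C k) (CoordinateRing.mk (C.toAffine⁄k) (Polynomial.C p))
      = algebraMap k[X] (KK C k) p := fun p => by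
    rw [IsScalarTower.algebraMap_apply k[X] (CR C k) (KK C k)]
    rfl
  simp only [Affine.polynomial, map_sub, map_add, map_mul, map_pow, hC, algebraMap_C,
    Affine.baseChange_a₁, Affine.baseChange_a₂, Affine.baseChange_a₃, Affine.baseChange_a₄,
    Affine.baseChange_a₆, algebraMap_zmod] at h1
  simp only [Affine.baseChange_a₁, Affine.baseChange_a₂, Affine.baseChange_a₃, Affine.baseChange_a₄,
    Affine.baseChange_a₆, genX, genY]
  linear_combination h1

/-- The negation polynomial is again a root of the Weierstrass polynomial in the coordinate ring. -/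
theorem eval₂_negPolynomial :
    Polynomial.eval₂ (algebraMap k[X] (CR C k)) (CoordinateRing.mk (C.toAffine⁄k) (C.toAffine⁄k).negPolynomial)
      (C.toAffine⁄k).polynomial = 0 := by
  have h0 : (CoordinateRing.mk (C.toAffine⁄k)) (C.toAffine⁄k).polynomial = 0 := AdjoinRoot.mk_self
  have hC : ∀ p : k[X], algebraMap k[X] (CR C k) p = CoordinateRing.mk (C.toAffine⁄k) (Polynomial.C p) :=
    fun p => rfl
  simp only [Affine.polynomial, Affine.negPolynomial, Polynomial.eval₂_sub, Polynomial.eval₂_add,
    Polynomial.eval₂_mul, Polynomial.eval₂_pow, Polynomial.eval₂_X, Polynomial.eval₂_C, hC, map_sub,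
    map_add, map_mul, map_pow, map_neg] at h0 ⊢
  linear_combination h0

/-- The hyperelliptic involution on the coordinate ring. -/
noncomputable def iotaCR : CR C k →+* CR C k :=
  AdjoinRoot.lift (algebraMap k[X] (CR C k))
    (CoordinateRing.mk (C.toAffine⁄k) (C.toAffine⁄k).negPolynomial) (eval₂_negPolynomial C k)

theorem iotaCR_algebraMap (p : k[X]) : iotaCR C k (algebraMap k[X] (CR C k) p) = algebraMap k[X] (CR C k) p :=
  AdjoinRoot.lift_of _

theorem iotaCR_Y : iotaCR C k (CoordinateRing.mk (C.toAffine⁄k) Y) =
    CoordinateRing.mk (C.toAffine⁄k) (C.toAffine⁄k).negPolynomial :=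
  AdjoinRoot.lift_root _

theorem iotaCR_iotaCR (x : CR C k) : iotaCR C k (iotaCR C k x) = x := by
  obtain ⟨p, q, rfl⟩ := CoordinateRing.exists_smul_basis_eq x
  have hC : ∀ p : k[X], CoordinateRing.mk (C.toAffine⁄k) (Polynomial.C p) = algebraMap k[X] (CR C k) p :=
    fun p => rfl
  have hneg : iotaCR C k (CoordinateRing.mk (C.toAffine⁄k) (C.toAffine⁄k).negPolynomial) =
      CoordinateRing.mk (C.toAffine⁄k) Y := by
    simp only [Affine.negPolynomial, map_sub, map_neg, iotaCR_Y, hC, iotaCR_algebraMap]
    ring
  simp only [Algebra.smul_def, map_add, map_mul, iotaCR_algebraMap, iotaCR_Y, hneg, map_one]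

theorem iotaCR_injective : Function.Injective (iotaCR C k) :=
  Function.LeftInverse.injective (iotaCR_iotaCR C k)

/-- The hyperelliptic involution `Y ↦ -Y - a₁ X - a₃` of the function field, as a ring
homomorphism. -/
noncomputable def iotaRingHom : KK C k →+* KK C k :=
  IsFractionRing.lift (g := (algebraMap (CR C k) (KK C k)).comp (iotaCR C k))
    ((algebraMap_CR_injective C k).comp (iotaCR_injective C k))

/-- The hyperelliptic involution `Y ↦ -Y - a₁ X - a₃` of the function field. -/
noncomputable def iota : KK C k →ₐ[ZMod ℓ] KK C k := zmodAlgHom (iotaRingHom C k)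

theorem iota_algebraMap_CR (x : CR C k) :
    iota C k (algebraMap (CR C k) (KK C k) x) = algebraMap (CR C k) (KK C k) (iotaCR C k x) :=
  IsFractionRing.lift_algebraMap (g := (algebraMap (CR C k) (KK C k)).comp (iotaCR C k))
    ((algebraMap_CR_injective C k).comp (iotaCR_injective C k)) x

theorem iota_algebraMap (p : k[X]) : iota C k (algebraMap k[X] (KK C k) p) = algebraMap k[X] (KK C k) p := by
  rw [IsScalarTower.algebraMap_apply k[X] (CR C k) (KK C k), iota_algebraMap_CR, iotaCR_algebraMap]

theorem iota_genX : iota C k (genX C k) = genX C k := iota_algebraMap C k X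

theorem iota_genY : iota C k (genY C k) = (C.toAffine⁄(KK C k)).negY (genX C k) (genY C k) := by
  rw [genY, iota_algebraMap_CR, iotaCR_Y]
  have hC : ∀ p : k[X], algebraMap (CR C k) (KK C k) (CoordinateRing.mk (C.toAffine⁄k) (Polynomial.C p))
      = algebraMap k[X] (KK C k) p := fun p => by
    rw [IsScalarTower.algebraMap_apply k[X] (CR C k) (KK C k)]
    rfl
  simp only [Affine.negPolynomial, Affine.negY, map_sub, map_neg, map_add, map_mul, hC, algebraMap_C,
    Affine.baseChange_a₁, Affine.baseChange_a₃, algebraMap_zmod, genX]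
  ring

theorem iota_iota (x : KK C k) : iota C k (iota C k x) = x := by
  obtain ⟨a, b, hb, rfl⟩ := IsFractionRing.div_surjective (A := CR C k) x
  simp only [map_div₀, iota_algebraMap_CR, iotaCR_iotaCR]

/-- The `ℓ`-power Frobenius endomorphism of the function field. -/
noncomputable def frobK : KK C k →ₐ[ZMod ℓ] KK C k := zmodAlgHom (frobenius (KK C k) ℓ)

theorem frobK_apply (x : KK C k) : frobK C k x = x ^ ℓ := rfl

theorem iota_frobK (x : KK C k) : iota C k (frobK C k x) = frobK C k (iota C k x) := by
  rw [frobK_apply, frobK_apply, map_pow]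

/-- The Frobenius endomorphism of the group of points of `C` over its function field. -/
noncomputable def frobPt : (C.toAffine⁄(KK C k)).Point →+ (C.toAffine⁄(KK C k)).Point :=
  Point.map (W' := C.toAffine) (frobK C k)

/-- The action of the hyperelliptic involution on the points of `C` over its function field. -/
noncomputable def iotaPt : (C.toAffine⁄(KK C k)).Point →+ (C.toAffine⁄(KK C k)).Point :=
  Point.map (W' := C.toAffine) (iota C k)

theorem frobPt_zero : frobPt C k 0 = 0 := rfl

theorem iotaPt_zero : iotaPt C k 0 = 0 := rfl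

theorem frobPt_some {x y : KK C k} (h : (C.toAffine⁄(KK C k)).Nonsingular x y) :
    frobPt C k (.some x y h) = .some (frobK C k x) (frobK C k y)
      ((C.toAffine.baseChange_nonsingular (frobK C k).injective ..).mpr h) := rfl

theorem iotaPt_some {x y : KK C k} (h : (C.toAffine⁄(KK C k)).Nonsingular x y) :
    iotaPt C k (.some x y h) = .some (iota C k x) (iota C k y)
      ((C.toAffine.baseChange_nonsingular (iota C k).injective ..).mpr h) := rfl

theorem iotaPt_iotaPt (Q : (C.toAffine⁄(KK C k)).Point) : iotaPt C k (iotaPt C k Q) = Q := by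
  have h : (iota C k).comp (iota C k) = AlgHom.id (ZMod ℓ) (KK C k) := AlgHom.ext (iota_iota C k)
  rw [iotaPt, Point.map_map, h]
  cases Q <;> rfl

theorem iotaPt_frobPt (Q : (C.toAffine⁄(KK C k)).Point) :
    iotaPt C k (frobPt C k Q) = frobPt C k (iotaPt C k Q) := by
  have h : (iota C k).comp (frobK C k) = (frobK C k).comp (iota C k) :=
    AlgHom.ext (iota_frobK C k)
  rw [iotaPt, frobPt, Point.map_map, Point.map_map, h]

/-- The subgroup of odd points: those `Q` with `ι(Q) = -Q`. -/
noncomputable def Lam : AddSubgroup (C.toAffine⁄(KK C k)).Point :=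
  (iotaPt C k + AddMonoidHom.id _).ker

theorem mem_Lam {Q : (C.toAffine⁄(KK C k)).Point} : Q ∈ Lam C k ↔ iotaPt C k Q = -Q := by
  rw [Lam, AddMonoidHom.mem_ker, AddMonoidHom.add_apply, AddMonoidHom.id_apply, add_eq_zero_iff_eq_neg]

theorem frobPt_mem_Lam {Q : (C.toAffine⁄(KK C k)).Point} (hQ : Q ∈ Lam C k) : frobPt C k Q ∈ Lam C k := by
  rw [mem_Lam] at hQ ⊢
  rw [iotaPt_frobPt, hQ, map_neg]

variable [C.IsElliptic]

/-- The generic point is nonsingular. -/
theorem gen_nonsingular : (C.toAffine⁄(KK C k)).Nonsingular (genX C k) (genY C k) :=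
  (Affine.equation_iff_nonsingular).mp (gen_equation C k)

/-- The generic point of `C` over its function field. -/
noncomputable def genPt : (C.toAffine⁄(KK C k)).Point := .some _ _ (gen_nonsingular C k)

theorem iotaPt_genPt : iotaPt C k (genPt C k) = -genPt C k := by
  rw [iotaPt, genPt, Point.map_some, Point.neg_some]
  congr 1
  · exact iota_genX C k
  · exact iota_genY C k

theorem genPt_mem_Lam : genPt C k ∈ Lam C k := (mem_Lam C k).mpr (iotaPt_genPt C k)

end Fermat.Agent.S52.F
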