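import Mathlib

/-!
# P17 (S52), block F: heights of projective vectors over a field containing `k[X]`

`k` is a field and `L` a field with an algebra structure over `k[X]` (in the application: `k(X)` or
the function field of a curve over `k`). A vector `v : Fin n → L` *has height* `d` if it is a
nonzero multiple `c • p` of a primitive vector `p` of polynomials whose maximal degree is `d`.

* `vecDeg`, `IsPrimVec`, `HasHeight`;
* `HasHeight.unique` : the height is unique (if `k[X] → L` is injective);
* `HasHeight.smul` : invariance under nonzero scaling;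
* `HasHeight.pair` : the pair lemma `h(x₁x₂ : x₁y₂ + y₁x₂ : y₁y₂) = h(x₁ : y₁) + h(x₂ : y₂)`;
* `HasHeight.forms` : the certificate lemma — forms `F` of degree `e` with a Nullstellensatz
  certificate `∑ j, A i j * F j = X i ^ (r + e)` multiply heights by `e`;
* `HasHeight.addSubMap` : the case of Mathlib's `WeierstrassCurve.addSubMap` (`e = 2`).
-/

set_option autoImplicit false

namespace Fermat.Agent.S52

namespace FHeight

open Polynomial

section Poly

variable {k : Type*} [Field k] {n : ℕ}

/-- The maximal degree of the entries of a vector of polynomials. -/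
noncomputable def vecDeg (p : Fin n → k[X]) : ℕ := Finset.univ.sup fun i => (p i).natDegree

/-- A vector of polynomials is primitive if no irreducible polynomial divides all its entries. -/
def IsPrimVec (p : Fin n → k[X]) : Prop := ∀ π : k[X], Irreducible π → ∃ i, ¬ π ∣ p i

theorem natDegree_le_vecDeg (p : Fin n → k[X]) (i : Fin n) : (p i).natDegree ≤ vecDeg p :=
  Finset.le_sup (f := fun i => (p i).natDegree) (Finset.mem_univ i)

theorem vecDeg_le {p : Fin n → k[X]} {d : ℕ} (h : ∀ i, (p i).natDegree ≤ d) : vecDeg p ≤ d :=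
  Finset.sup_le fun i _ => h i

theorem IsPrimVec.ne_zero {p : Fin n → k[X]} (hp : IsPrimVec p) : p ≠ 0 := by
  rintro rfl
  obtain ⟨i, hi⟩ := hp X irreducible_X
  exact hi (dvd_zero _)

theorem IsPrimVec.exists_ne_zero {p : Fin n → k[X]} (hp : IsPrimVec p) : ∃ i, p i ≠ 0 := by
  by_contra h
  push Not at h
  exact hp.ne_zero (funext h)

/-- Some entry has a nonzero coefficient in degree `vecDeg p`. -/
theorem exists_coeff_vecDeg_ne_zero {p : Fin n → k[X]} (hp : ∃ i, p i ≠ 0) :
    ∃ i, (p i).coeff (vecDeg p) ≠ 0 := by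
  obtain ⟨i₀, hi₀⟩ := hp
  have : Nonempty (Fin n) := ⟨i₀⟩
  obtain ⟨i, -, hi⟩ := Finset.exists_mem_eq_sup Finset.univ Finset.univ_nonempty
    (fun i => (p i).natDegree)
  have hi' : vecDeg p = (p i).natDegree := hi
  by_cases h0 : p i = 0
  · -- then `vecDeg p = 0` and `p i₀` is a nonzero constant
    have hd : vecDeg p = 0 := by rw [hi', h0, natDegree_zero]
    refine ⟨i₀, ?_⟩
    rw [hd]
    intro hc
    have h1 : (p i₀).natDegree = 0 := Nat.le_zero.mp (hd ▸ natDegree_le_vecDeg p i₀)
    rw [eq_C_of_natDegree_eq_zero h1, hc, C_0] at hi₀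
    exact hi₀ rfl
  · refine ⟨i, ?_⟩
    rw [hi', coeff_natDegree]
    exact leadingCoeff_ne_zero.mpr h0

/-- A primitive vector generates the unit ideal. -/
theorem IsPrimVec.exists_bezout {p : Fin n → k[X]} (hp : IsPrimVec p) :
    ∃ u : Fin n → k[X], ∑ i, u i * p i = 1 := by
  have htop : Ideal.span (Set.range p) = ⊤ := by
    by_contra hne
    obtain ⟨M, hM, hle⟩ := Ideal.exists_le_maximal _ hne
    obtain ⟨g, hg⟩ := (IsPrincipalIdealRing.principal M).principal
    have hg' : M = Ideal.span {g} := hg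
    have hgirr : Irreducible g := by
      have hprime : Prime g := by
        have hg0 : g ≠ 0 := by
          rintro rfl
          obtain ⟨i, hi⟩ := hp.exists_ne_zero
          have : p i ∈ M := hle (Ideal.subset_span ⟨i, rfl⟩)
          rw [hg', Ideal.mem_span_singleton, zero_dvd_iff] at this
          exact hi this
        have := hM.isPrime
        rw [hg'] at this
        exact (Ideal.span_singleton_prime hg0).mp this
      exact hprime.irreducible
    obtain ⟨i, hi⟩ := hp g hgirr
    apply hi
    have : p i ∈ M := hle (Ideal.subset_span ⟨i, rfl⟩)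
    rwa [hg', Ideal.mem_span_singleton] at this
  have h1 : (1 : k[X]) ∈ Ideal.span (Set.range p) := by
    rw [htop]
    exact Submodule.mem_top
  exact (Ideal.mem_span_range_iff_exists_fun).mp h1

end Poly

/-! ### Heights -/

section Height

variable (k : Type*) [Field k] {L : Type*} [Field L] [Algebra k[X] L] {n : ℕ}

/-- `v` has height `d`: it is a nonzero multiple of a primitive polynomial vector of maximal
degree `d`. -/
def HasHeight (v : Fin n → L) (d : ℕ) : Prop :=
  ∃ (p : Fin n → k[X]) (c : L), c ≠ 0 ∧ IsPrimVec p ∧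
    (∀ i, v i = c * algebraMap k[X] L (p i)) ∧ vecDeg p = d

variable {k}

/-- The height is unique. -/
theorem HasHeight.unique (hinj : Function.Injective (algebraMap k[X] L)) {v : Fin n → L}
    {d d' : ℕ} (h : HasHeight k v d) (h' : HasHeight k v d') : d = d' := by
  obtain ⟨p, c, hc, hp, hv, rfl⟩ := h
  obtain ⟨p', c', hc', hp', hv', rfl⟩ := h'
  obtain ⟨u, hu⟩ := hp.exists_bezout
  obtain ⟨u', hu'⟩ := hp'.exists_bezout
  have hrel : ∀ i, c * algebraMap k[X] L (p i) = c' * algebraMap k[X] L (p' i) :=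
    fun i => (hv i).symm.trans (hv' i)
  -- `c = c' * a` and `c' = c * b`
  have hca : c = c' * algebraMap k[X] L (∑ i, u i * p' i) := by
    have h1 : c = c * algebraMap k[X] L (∑ i, u i * p i) := by rw [hu, map_one, mul_one]
    rw [h1, map_sum, map_sum, Finset.mul_sum, Finset.mul_sum]
    refine Finset.sum_congr rfl fun i _ => ?_
    rw [map_mul, map_mul, mul_left_comm, hrel i, mul_left_comm]
  have hcb : c' = c * algebraMap k[X] L (∑ i, u' i * p i) := by
    have h1 : c' = c' * algebraMap k[X] L (∑ i, u' i * p' i) := by rw [hu', map_one, mul_one]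
    rw [h1, map_sum, map_sum, Finset.mul_sum, Finset.mul_sum]
    refine Finset.sum_congr rfl fun i _ => ?_
    rw [map_mul, map_mul, mul_left_comm, ← hrel i, mul_left_comm]
  set a := ∑ i, u i * p' i with ha
  set b := ∑ i, u' i * p i with hb
  have hba : b * a = 1 := by
    apply hinj
    rw [map_mul, map_one]
    have h2 : c * (algebraMap k[X] L b * algebraMap k[X] L a) = c * 1 := by
      rw [← mul_assoc, ← hcb, ← hca, mul_one]
    exact mul_left_cancel₀ hc h2
  have hbunit : IsUnit b := IsUnit.of_mul_eq_one a hba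
  obtain ⟨r, hr, hrb⟩ := Polynomial.isUnit_iff.mp hbunit
  have hpp : ∀ i, p' i = b * p i ∨ p i = b * p' i := by
    intro i
    right
    apply hinj
    have h3 : c * algebraMap k[X] L (p i) = c * algebraMap k[X] L (b * p' i) := by
      rw [hrel i, map_mul, ← mul_assoc, ← hcb]
    exact mul_left_cancel₀ hc h3
  have hdeg : ∀ i, (p i).natDegree = (p' i).natDegree := by
    intro i
    rcases hpp i with h4 | h4
    · rw [h4, ← hrb, natDegree_C_mul hr.ne_zero]
    · rw [h4, ← hrb, natDegree_C_mul hr.ne_zero]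
  unfold vecDeg
  exact Finset.sup_congr rfl fun i _ => hdeg i

/-- Invariance of the height under nonzero scaling. -/
theorem HasHeight.smul {v : Fin n → L} {d : ℕ} (h : HasHeight k v d) {a : L} (ha : a ≠ 0) :
    HasHeight k (fun i => a * v i) d := by
  obtain ⟨p, c, hc, hp, hv, hd⟩ := h
  exact ⟨p, a * c, mul_ne_zero ha hc, hp, fun i => by show a * v i = _; rw [hv i, mul_assoc], hd⟩

theorem HasHeight.of_eq {v w : Fin n → L} {d : ℕ} (h : HasHeight k v d) (hvw : ∀ i, w i = v i) :
    HasHeight k w d := by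
  have : w = v := funext hvw
  rw [this]
  exact h

/-- A primitive polynomial vector has height its maximal degree. -/
theorem hasHeight_of_isPrimVec {p : Fin n → k[X]} (hp : IsPrimVec p) :
    HasHeight k (fun i => algebraMap k[X] L (p i)) (vecDeg p) :=
  ⟨p, 1, one_ne_zero, hp, fun _ => (one_mul _).symm, rfl⟩

theorem HasHeight.ne_zero {v : Fin n → L} {d : ℕ} (hinj : Function.Injective (algebraMap k[X] L))
    (h : HasHeight k v d) : v ≠ 0 := by
  obtain ⟨p, c, hc, hp, hv, -⟩ := h
  obtain ⟨i, hi⟩ := hp.exists_ne_zero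
  intro h0
  have h1 := hv i
  rw [h0, Pi.zero_apply] at h1
  rcases mul_eq_zero.mp h1.symm with h2 | h2
  · exact hc h2
  · exact hi (hinj (h2.trans (map_zero _).symm))

/-! ### The pair lemma -/

/-- **Pair lemma**: `h(x₁x₂ : x₁y₂ + y₁x₂ : y₁y₂) = h(x₁ : y₁) + h(x₂ : y₂)`. -/
theorem HasHeight.pair {x₁ y₁ x₂ y₂ : L} {d₁ d₂ : ℕ} (h₁ : HasHeight k ![x₁, y₁] d₁)
    (h₂ : HasHeight k ![x₂, y₂] d₂) :
    HasHeight k ![x₁ * x₂, x₁ * y₂ + y₁ * x₂, y₁ * y₂] (d₁ + d₂) := by
  obtain ⟨p, c₁, hc₁, hp, hv₁, rfl⟩ := h₁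
  obtain ⟨q, c₂, hc₂, hq, hv₂, rfl⟩ := h₂
  have hx₁ : x₁ = c₁ * algebraMap k[X] L (p 0) := hv₁ 0
  have hy₁ : y₁ = c₁ * algebraMap k[X] L (p 1) := hv₁ 1
  have hx₂ : x₂ = c₂ * algebraMap k[X] L (q 0) := hv₂ 0
  have hy₂ : y₂ = c₂ * algebraMap k[X] L (q 1) := hv₂ 1
  refine ⟨![p 0 * q 0, p 0 * q 1 + p 1 * q 0, p 1 * q 1], c₁ * c₂, mul_ne_zero hc₁ hc₂, ?_, ?_, ?_⟩
  · -- primitive
    intro π hπ
    have hπp : Prime π := hπ.prime
    by_contra hcon
    push Not at hcon
    have h0 : π ∣ p 0 * q 0 := hcon 0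
    have h1 : π ∣ p 0 * q 1 + p 1 * q 0 := hcon 1
    have h2 : π ∣ p 1 * q 1 := hcon 2
    obtain ⟨i, hi⟩ := hp π hπ
    obtain ⟨j, hj⟩ := hq π hπ
    rcases hπp.dvd_or_dvd h0 with hp0 | hq0
    · -- `π ∣ p 0`, so `π ∤ p 1`, `π ∣ q 1`, `π ∣ q 0`
      have hp1 : ¬ π ∣ p 1 := by
        fin_cases i
        · exact absurd hp0 hi
        · exact hi
      have hq1 : π ∣ q 1 := (hπp.dvd_or_dvd h2).resolve_left hp1
      have h3 : π ∣ p 1 * q 0 := by
        have h4 : π ∣ p 0 * q 1 := Dvd.dvd.mul_right hp0 _
        exact (dvd_add_right h4).mp h1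
      have hq0 : π ∣ q 0 := (hπp.dvd_or_dvd h3).resolve_left hp1
      fin_cases j
      · exact hj hq0
      · exact hj hq1
    · -- `π ∣ q 0`, so `π ∤ q 1`, `π ∣ p 1`, `π ∣ p 0`
      have hq1 : ¬ π ∣ q 1 := by
        fin_cases j
        · exact absurd hq0 hj
        · exact hj
      have hp1 : π ∣ p 1 := (hπp.dvd_or_dvd h2).resolve_right hq1
      have h3 : π ∣ p 0 * q 1 := by
        have h4 : π ∣ p 1 * q 0 := Dvd.dvd.mul_left hq0 _
        exact (dvd_add_left h4).mp h1
      have hp0 : π ∣ p 0 := (hπp.dvd_or_dvd h3).resolve_right hq1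
      fin_cases i
      · exact hi hp0
      · exact hi hp1
  · intro i
    fin_cases i
    · show x₁ * x₂ = c₁ * c₂ * algebraMap k[X] L (p 0 * q 0)
      rw [hx₁, hx₂, map_mul]
      ring
    · show x₁ * y₂ + y₁ * x₂ = c₁ * c₂ * algebraMap k[X] L (p 0 * q 1 + p 1 * q 0)
      rw [hx₁, hx₂, hy₁, hy₂, map_add, map_mul, map_mul]
      ring
    · show y₁ * y₂ = c₁ * c₂ * algebraMap k[X] L (p 1 * q 1)
      rw [hy₁, hy₂, map_mul]
      ring
  · -- the maximal degree
    have hpd : ∀ i, (p i).natDegree ≤ vecDeg p := natDegree_le_vecDeg p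
    have hqd : ∀ i, (q i).natDegree ≤ vecDeg q := natDegree_le_vecDeg q
    apply le_antisymm
    · apply vecDeg_le
      intro i
      fin_cases i
      · exact natDegree_mul_le_of_le (hpd 0) (hqd 0)
      · exact natDegree_add_le_of_degree_le (natDegree_mul_le_of_le (hpd 0) (hqd 1))
          (natDegree_mul_le_of_le (hpd 1) (hqd 0))
      · exact natDegree_mul_le_of_le (hpd 1) (hqd 1)
    · -- top coefficients
      obtain ⟨i, hi⟩ := exists_coeff_vecDeg_ne_zero hp.exists_ne_zero
      obtain ⟨j, hj⟩ := exists_coeff_vecDeg_ne_zero hq.exists_ne_zero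
      have hc : ∀ a b : Fin 2, (p a * q b).coeff (vecDeg p + vecDeg q) =
          (p a).coeff (vecDeg p) * (q b).coeff (vecDeg q) :=
        fun a b => coeff_mul_add_eq_of_natDegree_le (hpd a) (hqd b)
      have key : ∃ l : Fin 3, (![p 0 * q 0, p 0 * q 1 + p 1 * q 0, p 1 * q 1] l).coeff
          (vecDeg p + vecDeg q) ≠ 0 := by
        by_contra hcon
        push Not at hcon
        have e0 : (p 0).coeff (vecDeg p) * (q 0).coeff (vecDeg q) = 0 := by
          rw [← hc]; exact hcon 0
        have e1 : (p 0).coeff (vecDeg p) * (q 1).coeff (vecDeg q) +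
            (p 1).coeff (vecDeg p) * (q 0).coeff (vecDeg q) = 0 := by
          rw [← hc, ← hc, ← coeff_add]; exact hcon 1
        have e2 : (p 1).coeff (vecDeg p) * (q 1).coeff (vecDeg q) = 0 := by
          rw [← hc]; exact hcon 2
        rcases mul_eq_zero.mp e0 with ha | hb
        · -- `α₀ = 0`, so `α₁ ≠ 0`, `β₁ = 0`, `β₀ = 0`
          have ha1 : (p 1).coeff (vecDeg p) ≠ 0 := by
            fin_cases i
            · exact absurd ha hi
            · exact hi
          have hb1 : (q 1).coeff (vecDeg q) = 0 := (mul_eq_zero.mp e2).resolve_left ha1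
          rw [ha, zero_mul, zero_add] at e1
          have hb0 : (q 0).coeff (vecDeg q) = 0 := (mul_eq_zero.mp e1).resolve_left ha1
          fin_cases j
          · exact hj hb0
          · exact hj hb1
        · have hb1 : (q 1).coeff (vecDeg q) ≠ 0 := by
            fin_cases j
            · exact absurd hb hj
            · exact hj
          have ha1 : (p 1).coeff (vecDeg p) = 0 := (mul_eq_zero.mp e2).resolve_right hb1
          rw [ha1, zero_mul, add_zero] at e1
          have ha0 : (p 0).coeff (vecDeg p) = 0 := (mul_eq_zero.mp e1).resolve_right hb1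
          fin_cases i
          · exact hi ha0
          · exact hi ha1
      obtain ⟨l, hl⟩ := key
      exact (le_natDegree_of_ne_zero hl).trans (natDegree_le_vecDeg _ l)

end Height

/-! ### Homogeneous forms evaluated at polynomial vectors -/

section Forms

variable {k : Type*} [Field k] {n m : ℕ}

/-- The exponents of a monomial of a homogeneous polynomial sum to the degree. -/
theorem sum_eq_of_mem_support {F : MvPolynomial (Fin n) k} {e : ℕ} (hF : F.IsHomogeneous e)
    {s : Fin n →₀ ℕ} (hs : s ∈ F.support) : ∑ i, s i = e := by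
  have h1 : Finsupp.weight (1 : Fin n → ℕ) s = e := hF (MvPolynomial.mem_support_iff.mp hs)
  rw [← Finsupp.degree_eq_sum, Finsupp.degree_eq_weight_one]
  exact h1

/-- Homogeneity: `F (c • x) = c ^ e * F x`. -/
theorem aeval_mul_of_isHomogeneous {B : Type*} [CommRing B] [Algebra k B]
    {F : MvPolynomial (Fin n) k} {e : ℕ} (hF : F.IsHomogeneous e) (c : B) (x : Fin n → B) :
    MvPolynomial.aeval (fun i => c * x i) F = c ^ e * MvPolynomial.aeval x F := by
  rw [MvPolynomial.aeval_def, MvPolynomial.aeval_def, MvPolynomial.eval₂_eq',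
    MvPolynomial.eval₂_eq', Finset.mul_sum]
  refine Finset.sum_congr rfl fun s hs => ?_
  have h1 : ∏ i, (c * x i) ^ s i = c ^ e * ∏ i, x i ^ s i := by
    simp_rw [mul_pow]
    rw [Finset.prod_mul_distrib, Finset.prod_pow_eq_pow_sum, sum_eq_of_mem_support hF hs]
  rw [h1]
  ring

/-- Degree bound for a form of degree `r` evaluated at polynomials of degree `≤ d`. -/
theorem natDegree_aeval_le {F : MvPolynomial (Fin n) k} {r : ℕ} (hF : F.IsHomogeneous r)
    {x : Fin n → k[X]} {d : ℕ} (hx : ∀ i, (x i).natDegree ≤ d) :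
    (MvPolynomial.aeval x F).natDegree ≤ r * d := by
  rw [MvPolynomial.aeval_def, MvPolynomial.eval₂_eq']
  refine natDegree_sum_le_of_forall_le _ _ fun s hs => ?_
  have h1 : (∏ i, x i ^ s i).natDegree ≤ r * d := by
    refine (natDegree_prod_le _ _).trans ?_
    calc ∑ i, (x i ^ s i).natDegree ≤ ∑ i, s i * d :=
          Finset.sum_le_sum fun i _ => natDegree_pow_le_of_le (s i) (hx i)
      _ = r * d := by rw [← Finset.sum_mul, sum_eq_of_mem_support hF hs]
  rw [← Polynomial.C_eq_algebraMap]
  exact (natDegree_C_mul_le _ _).trans h1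

variable {L : Type*} [Field L] [Algebra k[X] L] [Algebra k L] [IsScalarTower k k[X] L]

/-- Evaluation of a form commutes with `k[X] → L`. -/
theorem aeval_algebraMap_poly (F : MvPolynomial (Fin n) k) (x : Fin n → k[X]) :
    MvPolynomial.aeval (fun i => algebraMap k[X] L (x i)) F =
      algebraMap k[X] L (MvPolynomial.aeval x F) := by
  rw [MvPolynomial.aeval_def, MvPolynomial.aeval_def, MvPolynomial.eval₂_eq',
    MvPolynomial.eval₂_eq', map_sum]
  refine Finset.sum_congr rfl fun s _ => ?_
  rw [map_mul, map_prod, ← IsScalarTower.algebraMap_apply]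
  simp_rw [map_pow]

/-- **Certificate lemma**: forms `F` of degree `e` with a certificate
`∑ j, A i j * F j = X i ^ (r + e)` (`A i j` of degree `r`) multiply heights by `e`. -/
theorem HasHeight.forms (F : Fin m → MvPolynomial (Fin n) k) (e r : ℕ)
    (hF : ∀ j, (F j).IsHomogeneous e) (A : Fin n → Fin m → MvPolynomial (Fin n) k)
    (hA : ∀ i j, (A i j).IsHomogeneous r)
    (hcert : ∀ (x : Fin n → k[X]) (i : Fin n),
      ∑ j, MvPolynomial.aeval x (A i j) * MvPolynomial.aeval x (F j) = x i ^ (r + e))
    {v : Fin n → L} {d : ℕ} (h : HasHeight k v d) :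
    HasHeight k (fun j => MvPolynomial.aeval v (F j)) (e * d) := by
  obtain ⟨p, c, hc, hp, hv, rfl⟩ := h
  have hv' : v = fun i => c * algebraMap k[X] L (p i) := funext hv
  refine ⟨fun j => MvPolynomial.aeval p (F j), c ^ e, pow_ne_zero e hc, ?_, ?_, ?_⟩
  · -- primitive
    intro π hπ
    by_contra hcon
    push Not at hcon
    obtain ⟨i, hi⟩ := hp π hπ
    apply hi
    have h1 : π ∣ p i ^ (r + e) := by
      rw [← hcert p i]
      exact Finset.dvd_sum fun j _ => Dvd.dvd.mul_left (hcon j) _
    exact hπ.prime.dvd_of_dvd_pow h1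
  · intro j
    show MvPolynomial.aeval v (F j) = c ^ e * algebraMap k[X] L (MvPolynomial.aeval p (F j))
    rw [hv', aeval_mul_of_isHomogeneous (hF j), aeval_algebraMap_poly]
  · apply le_antisymm
    · exact vecDeg_le fun j => natDegree_aeval_le (hF j) (natDegree_le_vecDeg p)
    · obtain ⟨i₀, hi₀⟩ := hp.exists_ne_zero
      have : Nonempty (Fin n) := ⟨i₀⟩
      obtain ⟨i, -, hi⟩ := Finset.exists_mem_eq_sup Finset.univ Finset.univ_nonempty
        (fun i => (p i).natDegree)
      have hi' : vecDeg p = (p i).natDegree := hi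
      set y : Fin m → k[X] := fun j => MvPolynomial.aeval p (F j) with hy
      have h1 : (p i ^ (r + e)).natDegree = (r + e) * vecDeg p := by
        rw [natDegree_pow, hi']
      have h2 : (p i ^ (r + e)).natDegree ≤ r * vecDeg p + vecDeg y := by
        rw [← hcert p i]
        refine natDegree_sum_le_of_forall_le _ _ fun j _ => ?_
        exact natDegree_mul_le_of_le (natDegree_aeval_le (hA i j) (natDegree_le_vecDeg p))
          (natDegree_le_vecDeg y j)
      rw [h1, Nat.add_mul] at h2
      exact Nat.le_of_add_le_add_left h2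

end Forms

/-! ### The addition-and-subtraction map of a Weierstrass curve -/

section AddSubMap

variable {R S : Type*} [CommRing R] [CommRing S] (W : WeierstrassCurve R) (f : R →+* S)

theorem addSubMap_map (j : Fin 3) :
    (W.map f).addSubMap j = MvPolynomial.map f (W.addSubMap j) := by
  fin_cases j <;> simp [WeierstrassCurve.addSubMap, map_ofNat]

theorem addSubMapCoeff_map (ij : Fin 3 × Fin 3) :
    (W.map f).addSubMapCoeff ij = MvPolynomial.map f (W.addSubMapCoeff ij) := by
  obtain ⟨i, j⟩ := ij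
  fin_cases i <;> fin_cases j <;> simp [WeierstrassCurve.addSubMapCoeff, map_ofNat]

end AddSubMap

section AddSubHeight

variable {k : Type*} [Field k]

/-- The Nullstellensatz certificate of `WeierstrassCurve.addSubMap`, over any commutative
`k`-algebra. -/
theorem addSubMap_cert (E : WeierstrassCurve k) [E.IsElliptic] {B : Type*} [CommRing B]
    [Algebra k B] (x : Fin 3 → B) (i : Fin 3) :
    ∑ j, MvPolynomial.aeval x (MvPolynomial.C (↑E.Δ'⁻¹ : k) * E.addSubMapCoeff (i, j)) *
      MvPolynomial.aeval x (E.addSubMap j) = x i ^ (2 + 2) := by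
  have h := WeierstrassCurve.addSubMapCoeff_condition (E.map (algebraMap k B)) x i
  rw [← h]
  refine Finset.sum_congr rfl fun j _ => ?_
  have h1 : (MvPolynomial.C (↑(E.map (algebraMap k B)).Δ'⁻¹ : B) *
      (E.map (algebraMap k B)).addSubMapCoeff (i, j)) =
      MvPolynomial.map (algebraMap k B)
        (MvPolynomial.C (↑E.Δ'⁻¹ : k) * E.addSubMapCoeff (i, j)) := by
    rw [WeierstrassCurve.coe_inv_map_Δ', addSubMapCoeff_map, map_mul, MvPolynomial.map_C]
  rw [h1, addSubMap_map, MvPolynomial.eval_map, MvPolynomial.eval_map, MvPolynomial.aeval_def,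
    MvPolynomial.aeval_def]

variable {L : Type*} [Field L] [Algebra k[X] L] [Algebra k L] [IsScalarTower k k[X] L]

/-- **Biquadratic lemma**: `WeierstrassCurve.addSubMap` doubles heights. -/
theorem HasHeight.addSubMap (E : WeierstrassCurve k) [E.IsElliptic] {v : Fin 3 → L} {d : ℕ}
    (h : HasHeight k v d) :
    HasHeight k (fun j => MvPolynomial.aeval v (E.addSubMap j)) (2 * d) :=
  HasHeight.forms E.addSubMap 2 2 (WeierstrassCurve.isHomogeneous_addSubMap E)
    (fun i j => MvPolynomial.C (↑E.Δ'⁻¹ : k) * E.addSubMapCoeff (i, j))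
    (fun i j => (WeierstrassCurve.isHomogeneous_addSubMapCoeff E (i, j)).C_mul _)
    (fun x i => addSubMap_cert E x i) h

/-- Evaluating the addition-and-subtraction map of a base change. -/
theorem eval_addSubMap_map (E : WeierstrassCurve k) {B : Type*} [CommRing B] [Algebra k B]
    (x : Fin 3 → B) (j : Fin 3) :
    MvPolynomial.eval x ((E.map (algebraMap k B)).addSubMap j) =
      MvPolynomial.aeval x (E.addSubMap j) := by
  rw [addSubMap_map, MvPolynomial.eval_map, MvPolynomial.aeval_def]

/-- The biquadratic lemma in `eval` form, for a curve `E₀` over a base ring `R₀` whose base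
change to `k` is elliptic: the addition-and-subtraction map of `E₀⁄L` doubles heights. -/
theorem HasHeight.addSubMap_baseChange {R₀ : Type*} [CommRing R₀] [Algebra R₀ k] [Algebra R₀ L]
    [IsScalarTower R₀ k L] (E₀ : WeierstrassCurve R₀) [(E₀.map (algebraMap R₀ k)).IsElliptic]
    {v : Fin 3 → L} {d : ℕ} (h : HasHeight k v d) :
    HasHeight k (fun j => MvPolynomial.eval v ((E₀.map (algebraMap R₀ L)).addSubMap j))
      (2 * d) := by
  refine (HasHeight.addSubMap (E₀.map (algebraMap R₀ k)) h).of_eq fun j => ?_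
  rw [addSubMap_map, addSubMap_map, MvPolynomial.eval_map, MvPolynomial.aeval_def,
    MvPolynomial.eval₂_map, ← IsScalarTower.algebraMap_eq]

end AddSubHeight

/-! ### Heights of points of the projective line -/

section Line

variable {k : Type*} [Field k] {L : Type*} [Field L] [Algebra k[X] L]

theorem isPrimVec_of_isCoprime {p q : k[X]} (h : IsCoprime p q) : IsPrimVec ![p, q] := by
  intro π hπ
  by_contra hcon
  push Not at hcon
  exact hπ.not_isUnit (h.isUnit_of_dvd' (hcon 0) (hcon 1))

theorem vecDeg_pair (p q : k[X]) : vecDeg ![p, q] = max p.natDegree q.natDegree := by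
  apply le_antisymm
  · apply vecDeg_le
    intro i
    fin_cases i
    · exact le_max_left _ _
    · exact le_max_right _ _
  · exact max_le (natDegree_le_vecDeg ![p, q] 0) (natDegree_le_vecDeg ![p, q] 1)

/-- The height of `(p : q)` for coprime polynomials `p`, `q`. -/
theorem hasHeight_of_isCoprime {p q : k[X]} (h : IsCoprime p q) :
    HasHeight k ![algebraMap k[X] L p, algebraMap k[X] L q] (max p.natDegree q.natDegree) := by
  refine ⟨![p, q], 1, one_ne_zero, isPrimVec_of_isCoprime h, fun i => ?_, vecDeg_pair p q⟩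
  fin_cases i
  · exact (one_mul _).symm
  · exact (one_mul _).symm

/-- The height of `(p / q : 1)` for coprime polynomials `p`, `q`. -/
theorem hasHeight_div_of_isCoprime (hinj : Function.Injective (algebraMap k[X] L)) {p q : k[X]}
    (h : IsCoprime p q) (hq : q ≠ 0) :
    HasHeight k ![algebraMap k[X] L p / algebraMap k[X] L q, 1]
      (max p.natDegree q.natDegree) := by
  have hq' : algebraMap k[X] L q ≠ 0 := fun h0 => hq (hinj (h0.trans (map_zero _).symm))
  refine ((hasHeight_of_isCoprime (L := L) h).smul (inv_ne_zero hq')).of_eq fun i => ?_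
  fin_cases i
  · show algebraMap k[X] L p / algebraMap k[X] L q = (algebraMap k[X] L q)⁻¹ * algebraMap k[X] L p
    rw [div_eq_inv_mul]
  · show (1 : L) = (algebraMap k[X] L q)⁻¹ * algebraMap k[X] L q
    rw [inv_mul_cancel₀ hq']

/-- The height of `(p : 1)` for a polynomial `p`. -/
theorem hasHeight_poly_one (p : k[X]) :
    HasHeight k ![algebraMap k[X] L p, 1] p.natDegree := by
  have h := hasHeight_of_isCoprime (L := L) (isCoprime_one_right (x := p))
  rw [natDegree_one, max_eq_left (Nat.zero_le _), map_one] at h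
  exact h

/-- The point at infinity `(1 : 0)` has height `0`. -/
theorem hasHeight_one_zero : HasHeight k ![(1 : L), 0] 0 := by
  have h := hasHeight_of_isCoprime (L := L) (isCoprime_zero_right.mpr (isUnit_one (M := k[X])))
  rw [natDegree_one, natDegree_zero, max_self, map_one, map_zero] at h
  exact h

/-- Every nonzero vector of polynomials has a height. -/
theorem exists_hasHeight_of_poly (hinj : Function.Injective (algebraMap k[X] L)) {n : ℕ}
    {p : Fin n → k[X]} (hp : ∃ i, p i ≠ 0) :
    ∃ d, HasHeight k (fun i => algebraMap k[X] L (p i)) d := by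
  obtain ⟨g, hg⟩ := (IsPrincipalIdealRing.principal (Ideal.span (Set.range p))).principal
  have hg' : Ideal.span (Set.range p) = Ideal.span {g} := hg
  have hdvd : ∀ i, g ∣ p i := by
    intro i
    have : p i ∈ Ideal.span (Set.range p) := Ideal.subset_span ⟨i, rfl⟩
    rwa [hg', Ideal.mem_span_singleton] at this
  have hg0 : g ≠ 0 := by
    rintro rfl
    obtain ⟨i, hi⟩ := hp
    exact hi (zero_dvd_iff.mp (hdvd i))
  choose q hq using hdvd
  have hprim : IsPrimVec q := by
    intro π hπ
    by_contra hcon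
    push Not at hcon
    -- then `g * π` divides all `p i`, so `g ∈ (g * π)`
    have hle : Ideal.span (Set.range p) ≤ Ideal.span {g * π} := by
      rw [Ideal.span_le]
      rintro _ ⟨i, rfl⟩
      rw [SetLike.mem_coe, Ideal.mem_span_singleton, hq i]
      exact mul_dvd_mul_left g (hcon i)
    have hmem : g ∈ Ideal.span {g * π} := hle (hg' ▸ Ideal.mem_span_singleton_self g)
    rw [Ideal.mem_span_singleton] at hmem
    obtain ⟨c, hc⟩ := hmem
    have h1 : g * 1 = g * (π * c) := by rw [mul_one, ← mul_assoc]; exact hc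
    have h2 : π * c = 1 := (mul_left_cancel₀ hg0 h1).symm
    exact hπ.not_isUnit (IsUnit.of_mul_eq_one c h2)
  have hg1 : algebraMap k[X] L g ≠ 0 := fun h0 => hg0 (hinj (h0.trans (map_zero _).symm))
  exact ⟨vecDeg q, q, algebraMap k[X] L g, hg1, hprim,
    fun i => by show algebraMap k[X] L (p i) = _; rw [hq i, map_mul], rfl⟩

variable [Algebra k L] [IsScalarTower k k[X] L]

/-- A vector of height `0` is proportional to a vector of constants. -/
theorem HasHeight.exists_const {n : ℕ} {v : Fin n → L} (h : HasHeight k v 0) :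
    ∃ (c : L) (a : Fin n → k), c ≠ 0 ∧ ∀ i, v i = c * algebraMap k L (a i) := by
  obtain ⟨p, c, hc, -, hv, hd⟩ := h
  refine ⟨c, fun i => (p i).coeff 0, hc, fun i => ?_⟩
  have h1 : (p i).natDegree = 0 := Nat.le_zero.mp (hd ▸ natDegree_le_vecDeg p i)
  rw [hv i]
  conv_lhs => rw [eq_C_of_natDegree_eq_zero h1]
  rw [← Polynomial.algebraMap_eq, ← IsScalarTower.algebraMap_apply]

/-- If `(x : 1)` has height `0` then `x` is a constant. -/
theorem HasHeight.exists_const_of_one {x : L} (h : HasHeight k ![x, 1] 0) :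
    ∃ a : k, x = algebraMap k L a := by
  obtain ⟨c, a, hc, hv⟩ := h.exists_const
  have h0 : x = c * algebraMap k L (a 0) := hv 0
  have h1 : (1 : L) = c * algebraMap k L (a 1) := hv 1
  have ha1 : algebraMap k L (a 1) ≠ 0 := by
    intro h2
    rw [h2, mul_zero] at h1
    exact one_ne_zero h1
  refine ⟨a 0 / a 1, ?_⟩
  rw [map_div₀, h0, eq_div_iff ha1, mul_assoc, mul_comm (algebraMap k L (a 0)), ← mul_assoc,
    ← h1, one_mul]

end Line

end FHeight

end Fermat.Agent.S52
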