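import Mathlib
import Fermat.Agent.S52.FDefs
import Fermat.Agent.S52.FHeight
import Fermat.Agent.S52.FCountGlue
import Fermat.Agent.S52.FCountN
import Fermat.Agent.S52.FCountLocal
import Fermat.Agent.S52.FCountLocal0
import Fermat.Agent.S52.FCountComb

/-!
# P17 (S52), Block F6: `D(φ - 1) = #C(𝔽_ℓ)`

The point `φ(P) - P` (`P` the generic point, `φ` the `ℓ`-power Frobenius) has `x`-height
`#C(𝔽_ℓ)`; also `D(1) = 1` and `D(φ) = ℓ`.
-/

set_option autoImplicit false

open Polynomial WeierstrassCurve WeierstrassCurve.Affine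

namespace Fermat.Agent.S52.FCount

open Fermat.Agent.S52.F Fermat.Agent.S52.FHeight

variable {ℓ : ℕ} [Fact ℓ.Prime] (C : WeierstrassCurve (ZMod ℓ))

/-- The reduced fraction `N / V² = p₀ / p₁` has `deg p₀ = #C(𝔽_ℓ) > deg p₁`. -/
theorem exists_primitive_pair (hΔ : C.Δ ≠ 0) :
    ∃ p₀ p₁ g : (ZMod ℓ)[X], g ≠ 0 ∧ Nc C = pc C (g * p₀) ∧ Vp ℓ ^ 2 = g * p₁ ∧
      IsCoprime p₀ p₁ ∧ p₀.natDegree = Nat.card C.toAffine.Point ∧
      p₁.natDegree < Nat.card C.toAffine.Point := by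
  obtain ⟨n, hn, hmonic, hdeg⟩ := exists_poly_Nc C hΔ
  obtain ⟨p₀, p₁, g, hg, hnp, hV, hcop, hd₀, hd₁⟩ := exists_primitive_pair_of C hΔ n hmonic hdeg
    (fun c y h => eval_eq_sq C hn h) (fun c y h hy => rootMultiplicity_eq_one C hn h hy)
    (fun c h => sq_dvd C hn h)
  exact ⟨p₀, p₁, g, hg, hnp ▸ hn, hV, hcop, hd₀, hd₁⟩

variable (k : Type*) [Field k] [Algebra (ZMod ℓ) k] [C.IsElliptic]

theorem fc_Δ_ne_zero : C.Δ ≠ 0 := by
  rw [← C.coe_Δ']
  exact C.Δ'.ne_zero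

theorem fc_aeval_eq (p : (ZMod ℓ)[X]) :
    Polynomial.aeval (genX C k) p
      = algebraMap k[X] (KK C k) (p.map (algebraMap (ZMod ℓ) k)) := by
  rw [algebraMap_eq_aeval, Polynomial.aeval_map_algebraMap]

theorem fc_aeval_ne_zero {p : (ZMod ℓ)[X]} (hp : p ≠ 0) : Polynomial.aeval (genX C k) p ≠ 0 := by
  rw [fc_aeval_eq]
  intro h
  have h0 := (algebraMap_polynomial_injective C k) (h.trans (map_zero _).symm)
  exact hp ((Polynomial.map_eq_zero _).mp h0)

theorem fc_genX_pow_ne : genX C k ^ ℓ ≠ genX C k := by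
  intro h
  have h1 : Polynomial.aeval (genX C k) (Vp ℓ) = 0 := by rw [aeval_Vp, h, sub_self]
  have hV : Vp ℓ ≠ 0 := FiniteField.X_pow_card_sub_X_ne_zero (ZMod ℓ) (Fact.out : ℓ.Prime).one_lt
  exact fc_aeval_ne_zero C k hV h1

/-- `D(1) = 1`: the generic point has `x`-height `1`. -/
theorem hasHeight_genPt : HasHeight k (genPt C k).xRep 1 := by
  have h := hasHeight_poly_one (k := k) (L := KK C k) (X : k[X])
  rw [natDegree_X] at h
  exact h.of_eq (fun i => by rw [genPt, Point.xRep_some]; rfl)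

/-- `D(φ) = ℓ`: the Frobenius of the generic point has `x`-height `ℓ`. -/
theorem hasHeight_frobPt_genPt : HasHeight k (frobPt C k (genPt C k)).xRep ℓ := by
  have h := hasHeight_poly_one (k := k) (L := KK C k) ((X : k[X]) ^ ℓ)
  rw [natDegree_X_pow] at h
  refine h.of_eq (fun i => ?_)
  rw [genPt, frobPt_some, Point.xRep_some, frobK_apply, map_pow]
  rfl

/-- **F6.** `D(φ - 1) = #C(𝔽_ℓ)`: the point `φ(P) - P` has `x`-height `#C(𝔽_ℓ)`. -/
theorem hasHeight_frobPt_sub_genPt :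
    HasHeight k (frobPt C k (genPt C k) - genPt C k).xRep (Nat.card C.toAffine.Point) := by
  obtain ⟨p₀, p₁, g, hg, hN, hV, hcop, hd₀, hd₁⟩ := exists_primitive_pair C (fc_Δ_ne_zero C)
  have hV0 : Vp ℓ ≠ 0 := FiniteField.X_pow_card_sub_X_ne_zero (ZMod ℓ) (Fact.out : ℓ.Prime).one_lt
  have hp₁ : p₁ ≠ 0 := by
    rintro rfl
    rw [mul_zero] at hV
    exact hV0 (pow_eq_zero_iff (two_ne_zero) |>.mp hV)
  have hinj : Function.Injective (algebraMap (ZMod ℓ) k) := (algebraMap (ZMod ℓ) k).injective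
  have hx := xRep_frob_sub_of_factor (C := C) (gen_nonsingular C k)
    ((C.toAffine.baseChange_nonsingular (frobK C k).injective ..).mpr (gen_nonsingular C k))
    (fc_genX_pow_ne C k) hN hV (fc_aeval_ne_zero C k hg) (fc_aeval_ne_zero C k hp₁)
  have hcop' : IsCoprime (p₀.map (algebraMap (ZMod ℓ) k)) (p₁.map (algebraMap (ZMod ℓ) k)) :=
    hcop.map (Polynomial.mapRingHom (algebraMap (ZMod ℓ) k))
  have hp₁' : p₁.map (algebraMap (ZMod ℓ) k) ≠ 0 := (Polynomial.map_ne_zero_iff hinj).mpr hp₁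
  have hh := hasHeight_div_of_isCoprime (algebraMap_polynomial_injective C k) hcop' hp₁'
  rw [Polynomial.natDegree_map_eq_of_injective hinj, Polynomial.natDegree_map_eq_of_injective hinj,
    hd₀, max_eq_left hd₁.le, ← fc_aeval_eq, ← fc_aeval_eq] at hh
  refine hh.of_eq (fun i => ?_)
  have e : frobPt C k (genPt C k) - genPt C k
      = Point.some _ _ ((C.toAffine.baseChange_nonsingular (frobK C k).injective ..).mpr
          (gen_nonsingular C k)) - Point.some _ _ (gen_nonsingular C k) := rfl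
  rw [e]
  exact congrFun hx i

end Fermat.Agent.S52.FCount
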