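import Mathlib

/-!
# P17 (S52), Block F: abstract algebra slices

* `FRing.quad_of_parallelogram`: a `ℤ`-valued function on an abelian group satisfying the
  parallelogram law is a quadratic function (its polar form is biadditive).
* `FRing.quad_mul_relation` (F7, the ring lemma): a multiplicative `ℤ`-valued function `N` on a
  commutative ring satisfying the parallelogram law and `N 1 = 1` kills
  `T ^ 2 - t • T + n • 1` with `n = N T`, `t = N T + 1 - N (T - 1)`.
-/

set_option autoImplicit false

namespace Fermat.Agent.S52.FRing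

section Parallelogram

variable {A : Type*} [AddCommGroup A] (N : A → ℤ)

/-- The parallelogram law. -/
def IsPar : Prop := ∀ x y : A, N (x + y) + N (x - y) = 2 * N x + 2 * N y

variable {N}

theorem IsPar.map_zero (h : IsPar N) : N 0 = 0 := by
  have := h 0 0
  simp only [add_zero, sub_zero] at this
  omega

theorem IsPar.map_neg (h : IsPar N) (x : A) : N (-x) = N x := by
  have h0 := h.map_zero
  have := h 0 x
  simp only [zero_add, zero_sub] at this
  omega

theorem IsPar.map_sub_comm (h : IsPar N) (x y : A) : N (x - y) = N (y - x) := by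
  rw [← h.map_neg (x - y), neg_sub]

/-- The key identity: `N` is a quadratic function. -/
theorem quad_of_parallelogram (h : IsPar N) (x y z : A) :
    N (x + y + z) = N (x + y) + N (y + z) + N (x + z) - N x - N y - N z := by
  have h1 := h (x + y) z
  have h3 := h (x + z) y
  have h5 := h x (y - z)
  have h6 := h y z
  have e1 : x + z + y = x + y + z := by abel
  have e2 : x + z - y = x - (y - z) := by abel
  have e3 : x + (y - z) = x + y - z := by abel
  rw [e1, e2] at h3
  rw [e3] at h5
  omega

/-- The polar form. -/
def polar (N : A → ℤ) (x y : A) : ℤ := N (x + y) - N x - N y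

theorem polar_comm (x y : A) : polar N x y = polar N y x := by
  unfold polar; rw [add_comm]; ring

theorem polar_add_left (h : IsPar N) (x z y : A) :
    polar N (x + z) y = polar N x y + polar N z y := by
  unfold polar
  have := quad_of_parallelogram h x y z
  have e1 : x + z + y = x + y + z := by abel
  have e2 : z + y = y + z := by abel
  rw [e1, e2]
  omega

theorem polar_add_right (h : IsPar N) (x y z : A) :
    polar N x (y + z) = polar N x y + polar N x z := by
  rw [polar_comm, polar_add_left h, polar_comm y x, polar_comm z x]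

theorem polar_self (h : IsPar N) (x : A) : polar N x x = 2 * N x := by
  unfold polar
  have := h x x
  have h0 := h.map_zero
  simp only [sub_self] at this
  omega

theorem polar_zero_left (h : IsPar N) (y : A) : polar N 0 y = 0 := by
  unfold polar; rw [zero_add, h.map_zero]; ring

theorem polar_neg_left (h : IsPar N) (x y : A) : polar N (-x) y = - polar N x y := by
  have := polar_add_left h x (-x) y
  rw [add_neg_cancel, polar_zero_left h] at this
  omega

theorem polar_neg_right (h : IsPar N) (x y : A) : polar N x (-y) = - polar N x y := by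
  rw [polar_comm, polar_neg_left h, polar_comm]

theorem polar_sub_left (h : IsPar N) (x z y : A) :
    polar N (x - z) y = polar N x y - polar N z y := by
  rw [sub_eq_add_neg, polar_add_left h, polar_neg_left h]; ring

theorem polar_sub_right (h : IsPar N) (x y z : A) :
    polar N x (y - z) = polar N x y - polar N x z := by
  rw [sub_eq_add_neg, polar_add_right h, polar_neg_right h]; ring

theorem par_add (N : A → ℤ) (x y : A) : N (x + y) = N x + N y + polar N x y := by
  unfold polar; ring

theorem par_sub (h : IsPar N) (x y : A) : N (x - y) = N x + N y - polar N x y := by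
  rw [sub_eq_add_neg, par_add N, h.map_neg, polar_neg_right h]; ring

theorem polar_nsmul_left (h : IsPar N) (k : ℕ) (x y : A) :
    polar N (k • x) y = k * polar N x y := by
  induction k with
  | zero => simp [polar_zero_left h]
  | succ k ih => rw [succ_nsmul, polar_add_left h, ih]; push_cast; ring

theorem polar_zsmul_left (h : IsPar N) (k : ℤ) (x y : A) :
    polar N (k • x) y = k * polar N x y := by
  obtain ⟨k, rfl | rfl⟩ := k.eq_nat_or_neg
  · rw [natCast_zsmul, polar_nsmul_left h]
  · rw [neg_smul, natCast_zsmul, polar_neg_left h, polar_nsmul_left h]; ring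

theorem polar_zsmul_right (h : IsPar N) (k : ℤ) (x y : A) :
    polar N x (k • y) = k * polar N x y := by
  rw [polar_comm, polar_zsmul_left h, polar_comm]

theorem par_zsmul (h : IsPar N) (k : ℤ) (x : A) : N (k • x) = k ^ 2 * N x := by
  have h1 := polar_self h (k • x)
  rw [polar_zsmul_left h, polar_zsmul_right h, polar_self h] at h1
  have : 2 * N (k • x) = 2 * (k ^ 2 * N x) := by rw [← h1]; ring
  omega

theorem par_nsmul (h : IsPar N) (k : ℕ) (x : A) : N (k • x) = (k : ℤ) ^ 2 * N x := by
  rw [← natCast_zsmul, par_zsmul h]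

theorem par_zsmul_add_zsmul (h : IsPar N) (a b : ℤ) (x y : A) :
    N (a • x + b • y) = a ^ 2 * N x + a * b * polar N x y + b ^ 2 * N y := by
  rw [par_add N, par_zsmul h, par_zsmul h, polar_zsmul_left h, polar_zsmul_right h]; ring

end Parallelogram

section Ring

variable {R : Type*} [CommRing R] {N : R → ℤ}

/-- **F7, the ring lemma.** A multiplicative function `N : R → ℤ` satisfying the parallelogram
law with `N 1 = 1` kills `T ^ 2 - t • T + n • 1`, `n = N T`, `t = N T + 1 - N (T - 1)`. -/
theorem quad_mul_relation (hpar : IsPar N) (hmul : ∀ x y : R, N (x * y) = N x * N y)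
    (h1 : N 1 = 1) (T : R) :
    N (T ^ 2 - (N T + 1 - N (T - 1)) • T + (N T) • (1 : R)) = 0 := by
  obtain ⟨n, hn⟩ : ∃ n, n = N T := ⟨_, rfl⟩
  obtain ⟨t, ht⟩ : ∃ t, t = N T + 1 - N (T - 1) := ⟨_, rfl⟩
  rw [← hn] at ht ⊢
  rw [← ht]
  -- `B(T, 1) = t`
  have hB1 : polar N T 1 = t := by
    have := par_sub hpar T 1
    rw [h1, ← hn] at this
    rw [ht]; omega
  -- `N (T + 1) = n + t + 1`
  have hT1 : N (T + 1) = n + t + 1 := by
    rw [par_add N, h1, hB1, ← hn]; ring
  have hTm1 : N (T - 1) = n - t + 1 := by
    rw [ht]; ring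
  have hT2 : N (T ^ 2) = n ^ 2 := by rw [pow_two, hmul, ← hn]; ring
  -- `B(T², T) = n t`
  have hB2 : polar N (T ^ 2) T = n * t := by
    unfold polar
    have : T ^ 2 + T = T * (T + 1) := by ring
    rw [this, hmul, hT1, hT2, ← hn]; ring
  -- `B(T², 1) = t² - 2 n`
  have hB3 : polar N (T ^ 2) 1 = t ^ 2 - 2 * n := by
    have h2 : N (T ^ 2 - 1) = (n - t + 1) * (n + t + 1) := by
      have : T ^ 2 - 1 = (T - 1) * (T + 1) := by ring
      rw [this, hmul, hTm1, hT1]
    have h3 := par_sub hpar (T ^ 2) 1
    rw [h1, hT2, h2] at h3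
    linear_combination h3
  -- expand
  have e : T ^ 2 - t • T + n • (1 : R) = T ^ 2 + ((-t) • T + n • (1 : R)) := by
    rw [neg_smul]; ring
  rw [e, par_add N, par_zsmul_add_zsmul hpar, polar_add_right hpar,
    polar_zsmul_right hpar, polar_zsmul_right hpar, hT2, h1, hB1, hB2, hB3, ← hn]
  ring

/-- `ℕ`-valued version of the ring lemma, in the shape used for degree functions:
`D (T ^ 2 - a • T + ℓ • 1) = 0` with `ℓ = D T` and `a = ℓ + 1 - D (T - 1)`. -/
theorem quad_mul_relation_nat {D : R → ℕ}
    (hpar : ∀ x y : R, D (x + y) + D (x - y) = 2 * D x + 2 * D y)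
    (hmul : ∀ x y : R, D (x * y) = D x * D y) (h1 : D 1 = 1) (T : R) :
    D (T ^ 2 - ((D T : ℤ) + 1 - (D (T - 1) : ℤ)) • T + ((D T : ℕ) : ℤ) • (1 : R)) = 0 := by
  have hpar' : IsPar (fun x : R => (D x : ℤ)) := by
    intro x y; show (D (x + y) : ℤ) + D (x - y) = 2 * D x + 2 * D y
    exact_mod_cast hpar x y
  have := quad_mul_relation (N := fun x : R => (D x : ℤ)) hpar'
    (fun x y => by show (D (x * y) : ℤ) = D x * D y; exact_mod_cast hmul x y)
    (by show (D 1 : ℤ) = 1; exact_mod_cast h1) T
  exact_mod_cast this

end Ring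

end Fermat.Agent.S52.FRing
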