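import Mathlib
import Fermat.Agent.S52.FRing

set_option autoImplicit false

open Polynomial

namespace Fermat.Agent.S52.FForm

open Fermat.Agent.S52.FRing

section Abstract

variable {M : Type*} [AddCommGroup M]

/-- the action of `ℤ[T]` on an abelian group through an endomorphism `φ`, `T ↦ φ`. -/
noncomputable def polyAct (φ : AddMonoid.End M) : ℤ[X] →+* AddMonoid.End M :=
  (Polynomial.aeval φ : ℤ[X] →ₐ[ℤ] AddMonoid.End M).toRingHom

theorem polyAct_X (φ : AddMonoid.End M) : polyAct φ X = φ := by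
  simp [polyAct]

theorem polyAct_one_apply (φ : AddMonoid.End M) (g : M) : polyAct φ 1 g = g := by
  rw [map_one]; rfl

theorem polyAct_X_apply (φ : AddMonoid.End M) (g : M) : polyAct φ X g = φ g := by
  rw [polyAct_X]

theorem polyAct_add_apply (φ : AddMonoid.End M) (a b : ℤ[X]) (g : M) :
    polyAct φ (a + b) g = polyAct φ a g + polyAct φ b g := by
  rw [map_add]; rfl

theorem polyAct_sub_apply (φ : AddMonoid.End M) (a b : ℤ[X]) (g : M) :
    polyAct φ (a - b) g = polyAct φ a g - polyAct φ b g := by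
  rw [map_sub]; rfl

theorem polyAct_mul_apply (φ : AddMonoid.End M) (a b : ℤ[X]) (g : M) :
    polyAct φ (a * b) g = polyAct φ a (polyAct φ b g) := by
  rw [map_mul]; rfl

theorem polyAct_zsmul_apply (φ : AddMonoid.End M) (m : ℤ) (a : ℤ[X]) (g : M) :
    polyAct φ (m • a) g = m • polyAct φ a g := by
  rw [map_zsmul]; rfl

/-- a `φ`-stable subgroup is stable under the whole of `ℤ[φ]`. -/
theorem polyAct_mem (φ : AddMonoid.End M) (Λ : AddSubgroup M) (hφ : ∀ Q ∈ Λ, φ Q ∈ Λ)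
    (a : ℤ[X]) {Q : M} (hQ : Q ∈ Λ) : polyAct φ a Q ∈ Λ := by
  induction a using Polynomial.induction_on' generalizing Q with
  | add p q hp hq =>
    rw [polyAct_add_apply]
    exact Λ.add_mem (hp hQ) (hq hQ)
  | monomial n c =>
    have hpow : ∀ (n : ℕ) {Q : M}, Q ∈ Λ → polyAct φ (X ^ n) Q ∈ Λ := by
      intro n
      induction n with
      | zero => intro Q hQ; rw [pow_zero, polyAct_one_apply]; exact hQ
      | succ n ih =>
        intro Q hQ
        rw [pow_succ, polyAct_mul_apply, polyAct_X_apply]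
        exact ih (hφ Q hQ)
    have e : (monomial n c : ℤ[X]) = c • X ^ n := by
      rw [← C_mul_X_pow_eq_monomial, zsmul_eq_mul]
      simp
    rw [e, polyAct_zsmul_apply]
    exact Λ.zsmul_mem (hpow n hQ) c

/-- an additive map intertwining `φ` and `φ'` intertwines the actions of `ℤ[T]`. -/
theorem polyAct_map {M' : Type*} [AddCommGroup M'] (φ : AddMonoid.End M) (φ' : AddMonoid.End M')
    (ψ : M →+ M') (h : ∀ Q, ψ (φ Q) = φ' (ψ Q)) (a : ℤ[X]) (Q : M) :
    ψ (polyAct φ a Q) = polyAct φ' a (ψ Q) := by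
  induction a using Polynomial.induction_on' generalizing Q with
  | add p q hp hq =>
    rw [polyAct_add_apply, polyAct_add_apply, map_add, hp, hq]
  | monomial n c =>
    have hpow : ∀ (n : ℕ) (Q : M), ψ (polyAct φ (X ^ n) Q) = polyAct φ' (X ^ n) (ψ Q) := by
      intro n
      induction n with
      | zero => intro Q; rw [pow_zero, polyAct_one_apply, polyAct_one_apply]
      | succ n ih =>
        intro Q
        rw [pow_succ, polyAct_mul_apply, polyAct_mul_apply, polyAct_X_apply, polyAct_X_apply,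
          ih, h]
    have e : (monomial n c : ℤ[X]) = c • X ^ n := by
      rw [← C_mul_X_pow_eq_monomial, zsmul_eq_mul]
      simp
    rw [e, polyAct_zsmul_apply, polyAct_zsmul_apply, map_zsmul, hpow]

/-- elements of `ℤ[φ]` commute with every endomorphism commuting with `φ`. -/
theorem polyAct_comm (φ ψ : AddMonoid.End M) (h : ∀ Q, ψ (φ Q) = φ (ψ Q)) (a : ℤ[X]) (Q : M) :
    ψ (polyAct φ a Q) = polyAct φ a (ψ Q) :=
  polyAct_map φ φ ψ h a Q

/-- the action of a quadratic polynomial `T² - t T + n`. -/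
theorem polyAct_quadratic_apply (φ : AddMonoid.End M) (t n : ℤ) (Q : M) :
    polyAct φ (X ^ 2 - t • X + n • (1 : ℤ[X])) Q = φ (φ Q) - t • φ Q + n • Q := by
  rw [polyAct_add_apply, polyAct_sub_apply, polyAct_zsmul_apply, polyAct_zsmul_apply, pow_two,
    polyAct_mul_apply, polyAct_X_apply, polyAct_X_apply, polyAct_one_apply]

/-- **Abstract form of the Frobenius relation in heights.**  `Ht Q d` says "the `x`-coordinate of
`Q` has height `d`"; if heights exist on a `φ`-stable subgroup `Λ`, satisfy the parallelogram law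
there, and are multiplicative on `ℤ[φ] g` with `Ht g 1`, then the point
`(φ² - t φ + n) g` has height `0`, where `n = ht (φ g)` and `t = n + 1 - ht (φ g - g)`. -/
theorem height_polyAct_quadratic_eq_zero (Ht : M → ℕ → Prop)
    (huniq : ∀ Q (d d' : ℕ), Ht Q d → Ht Q d' → d = d')
    (φ : AddMonoid.End M) (Λ : AddSubgroup M) (hφ : ∀ Q ∈ Λ, φ Q ∈ Λ)
    (hex : ∀ Q ∈ Λ, ∃ d, Ht Q d)
    (hpar : ∀ P ∈ Λ, ∀ Q ∈ Λ, ∀ d₁ d₂ d₃ d₄ : ℕ, Ht P d₁ → Ht Q d₂ → Ht (P + Q) d₃ →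
      Ht (P - Q) d₄ → d₃ + d₄ = 2 * d₁ + 2 * d₂)
    (g : M) (hg : g ∈ Λ) (hg1 : Ht g 1)
    (hmul : ∀ (a b : ℤ[X]) (d₁ d₂ : ℕ), Ht (polyAct φ a g) d₁ → Ht (polyAct φ b g) d₂ →
      Ht (polyAct φ (a * b) g) (d₁ * d₂))
    {n m : ℕ} (hn : Ht (φ g) n) (hm : Ht (φ g - g) m) :
    Ht (polyAct φ (X ^ 2 - ((n : ℤ) + 1 - (m : ℤ)) • X + (n : ℤ) • (1 : ℤ[X])) g) 0 := by
  classical
  -- the height as a function
  let D : M → ℤ := fun Q => if h : ∃ d, Ht Q d then ((Classical.choose h : ℕ) : ℤ) else 0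
  have hD : ∀ {Q : M} {d : ℕ}, Ht Q d → D Q = d := by
    intro Q d h
    have hex' : ∃ d, Ht Q d := ⟨d, h⟩
    simp only [D, dif_pos hex']
    exact_mod_cast huniq Q _ _ (Classical.choose_spec hex') h
  let N : ℤ[X] → ℤ := fun a => D (polyAct φ a g)
  have hmem : ∀ a : ℤ[X], polyAct φ a g ∈ Λ := fun a => polyAct_mem φ Λ hφ a hg
  have hNpar : IsPar N := by
    intro x y
    obtain ⟨d₁, h₁⟩ := hex _ (hmem x)
    obtain ⟨d₂, h₂⟩ := hex _ (hmem y)
    obtain ⟨d₃, h₃⟩ := hex _ (hmem (x + y))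
    obtain ⟨d₄, h₄⟩ := hex _ (hmem (x - y))
    have h₃' := h₃
    have h₄' := h₄
    rw [polyAct_add_apply] at h₃'
    rw [polyAct_sub_apply] at h₄'
    have := hpar _ (hmem x) _ (hmem y) d₁ d₂ d₃ d₄ h₁ h₂ h₃' h₄'
    show D _ + D _ = 2 * D _ + 2 * D _
    rw [hD h₁, hD h₂, hD h₃, hD h₄]
    exact_mod_cast this
  have hNmul : ∀ x y : ℤ[X], N (x * y) = N x * N y := by
    intro x y
    obtain ⟨d₁, h₁⟩ := hex _ (hmem x)
    obtain ⟨d₂, h₂⟩ := hex _ (hmem y)
    show D _ = D _ * D _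
    rw [hD h₁, hD h₂, hD (hmul x y d₁ d₂ h₁ h₂)]
    push_cast
    ring
  have hN1 : N 1 = 1 := by
    show D _ = 1
    rw [polyAct_one_apply, hD hg1]
    rfl
  have hNX : N X = n := by
    show D _ = n
    rw [polyAct_X_apply, hD hn]
  have hNX1 : N (X - 1) = m := by
    show D _ = m
    rw [polyAct_sub_apply, polyAct_X_apply, polyAct_one_apply, hD hm]
  have key := quad_mul_relation hNpar hNmul hN1 X
  rw [hNX, hNX1] at key
  obtain ⟨d, hd⟩ := hex _ (hmem (X ^ 2 - ((n : ℤ) + 1 - (m : ℤ)) • X + (n : ℤ) • (1 : ℤ[X])))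
  have hd0 : (d : ℤ) = 0 := by
    rw [← hD hd]
    exact key
  have hd0' : d = 0 := by exact_mod_cast hd0
  rw [hd0'] at hd
  exact hd

/-- The same statement with the point written out: `φ (φ g) - t • φ g + n • g` has height `0`. -/
theorem height_quadratic_eq_zero (Ht : M → ℕ → Prop)
    (huniq : ∀ Q (d d' : ℕ), Ht Q d → Ht Q d' → d = d')
    (φ : AddMonoid.End M) (Λ : AddSubgroup M) (hφ : ∀ Q ∈ Λ, φ Q ∈ Λ)
    (hex : ∀ Q ∈ Λ, ∃ d, Ht Q d)
    (hpar : ∀ P ∈ Λ, ∀ Q ∈ Λ, ∀ d₁ d₂ d₃ d₄ : ℕ, Ht P d₁ → Ht Q d₂ → Ht (P + Q) d₃ →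
      Ht (P - Q) d₄ → d₃ + d₄ = 2 * d₁ + 2 * d₂)
    (g : M) (hg : g ∈ Λ) (hg1 : Ht g 1)
    (hmul : ∀ (a b : ℤ[X]) (d₁ d₂ : ℕ), Ht (polyAct φ a g) d₁ → Ht (polyAct φ b g) d₂ →
      Ht (polyAct φ (a * b) g) (d₁ * d₂))
    {n m : ℕ} (hn : Ht (φ g) n) (hm : Ht (φ g - g) m) :
    Ht (φ (φ g) - ((n : ℤ) + 1 - (m : ℤ)) • φ g + (n : ℤ) • g) 0 := by
  rw [← polyAct_quadratic_apply]
  exact height_polyAct_quadratic_eq_zero Ht huniq φ Λ hφ hex hpar g hg hg1 hmul hn hm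

end Abstract

end Fermat.Agent.S52.FForm
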