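import Mathlib
set_option autoImplicit false
open Polynomial WeierstrassCurve WeierstrassCurve.Affine
open scoped Polynomial.Bivariate
namespace Fermat.Agent.S52.FRep
variable {k : Type*} [Field k] (W : WeierstrassCurve.Affine k)

/-- bridge: the map from `k[X]` to the function field factors through the coordinate ring. -/
theorem algebraMap_ff (p : k[X]) :
    algebraMap k[X] W.FunctionField p =
      algebraMap W.CoordinateRing W.FunctionField (algebraMap k[X] W.CoordinateRing p) :=
  IsScalarTower.algebraMap_apply k[X] W.CoordinateRing W.FunctionField p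

/-- the representation `p + q Y` in the function field comes from the coordinate ring. -/
theorem rep_eq (p q : k[X]) :
    algebraMap k[X] W.FunctionField p + algebraMap k[X] W.FunctionField q *
      algebraMap W.CoordinateRing W.FunctionField (CoordinateRing.mk W Y) =
    algebraMap W.CoordinateRing W.FunctionField
      (p • (1 : W.CoordinateRing) + q • CoordinateRing.mk W Y) := by
  rw [algebraMap_ff, algebraMap_ff, map_add, Algebra.smul_def, Algebra.smul_def, mul_one, map_mul]

/-- `1, Y` are linearly independent over `k[X]` in the function field. -/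
theorem rep_eq_zero {p q : k[X]}
    (h : algebraMap k[X] W.FunctionField p + algebraMap k[X] W.FunctionField q *
      algebraMap W.CoordinateRing W.FunctionField (CoordinateRing.mk W Y) = 0) :
    p = 0 ∧ q = 0 := by
  rw [rep_eq] at h
  have h' := (IsFractionRing.injective W.CoordinateRing W.FunctionField)
    (h.trans (map_zero _).symm)
  exact CoordinateRing.smul_basis_eq_zero h'

/-- the norm of a nonzero element is nonzero. -/
theorem norm_ne_zero {p q : k[X]}
    (h : p • (1 : W.CoordinateRing) + q • CoordinateRing.mk W Y ≠ 0) :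
    Algebra.norm k[X] (p • (1 : W.CoordinateRing) + q • CoordinateRing.mk W Y) ≠ 0 := by
  intro h0
  have hd := CoordinateRing.degree_norm_smul_basis (W' := W) p q
  rw [h0, degree_zero] at hd
  have h1 : (2 • p.degree : WithBot ℕ) = ⊥ := by
    have := le_max_left (2 • p.degree) (2 • q.degree + 3)
    rw [← hd] at this
    exact le_bot_iff.mp this
  have h2 : (2 • q.degree + 3 : WithBot ℕ) = ⊥ := by
    have := le_max_right (2 • p.degree) (2 • q.degree + 3)
    rw [← hd] at this
    exact le_bot_iff.mp this
  have hp' : p = 0 := by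
    rcases hp : p.degree with _ | d
    · exact degree_eq_bot.mp hp
    · rw [hp] at h1
      exact absurd h1 (by
        change ((2 • d : ℕ) : WithBot ℕ) ≠ ⊥
        exact WithBot.coe_ne_bot)
  have hq' : q = 0 := by
    rcases hq : q.degree with _ | d
    · exact degree_eq_bot.mp hq
    · rw [hq] at h2
      exact absurd h2 (by
        change ((2 • d + 3 : ℕ) : WithBot ℕ) ≠ ⊥
        exact WithBot.coe_ne_bot)
  apply h
  rw [hp', hq', zero_smul, zero_smul, add_zero]

/-- the norm is the product with the conjugate. -/
theorem norm_eq_mul_conj (p q : k[X]) :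
    algebraMap k[X] W.CoordinateRing
        (Algebra.norm k[X] (p • (1 : W.CoordinateRing) + q • CoordinateRing.mk W Y)) =
      (p • (1 : W.CoordinateRing) + q • CoordinateRing.mk W Y) *
        CoordinateRing.mk W (C p + C q * (-(Y : k[X][Y]) - C (C W.a₁ * X + C W.a₃))) := by
  have h := CoordinateRing.coe_norm_smul_basis (W' := W) p q
  refine h.trans ?_
  rw [map_mul]
  have h2 : CoordinateRing.mk W (C p + C q * (Y : k[X][Y])) =
      p • (1 : W.CoordinateRing) + q • CoordinateRing.mk W Y := by
    rw [CoordinateRing.smul, CoordinateRing.smul, mul_one, map_add, map_mul]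
  rw [h2]

/-- every element of the function field is `(p + q Y) / n`. -/
theorem exists_rep (z : W.FunctionField) :
    ∃ p q n : k[X], n ≠ 0 ∧
      z * algebraMap k[X] W.FunctionField n =
        algebraMap k[X] W.FunctionField p + algebraMap k[X] W.FunctionField q *
          algebraMap W.CoordinateRing W.FunctionField (CoordinateRing.mk W Y) := by
  obtain ⟨a, b, hb, rfl⟩ := IsFractionRing.div_surjective (A := W.CoordinateRing) z
  obtain ⟨p', q', rfl⟩ := CoordinateRing.exists_smul_basis_eq b
  have hb0 : p' • (1 : W.CoordinateRing) + q' • CoordinateRing.mk W Y ≠ 0 :=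
    nonZeroDivisors.ne_zero hb
  have hn0 := norm_ne_zero W hb0
  have hnorm := norm_eq_mul_conj W p' q'
  obtain ⟨p, q, hpq⟩ := CoordinateRing.exists_smul_basis_eq
    (a * CoordinateRing.mk W (C p' + C q' * (-(Y : k[X][Y]) - C (C W.a₁ * X + C W.a₃))))
  refine ⟨p, q, _, hn0, ?_⟩
  rw [rep_eq, hpq, algebraMap_ff W, hnorm, map_mul, map_mul]
  have hbF : algebraMap W.CoordinateRing W.FunctionField
      (p' • (1 : W.CoordinateRing) + q' • CoordinateRing.mk W Y) ≠ 0 := by
    intro h
    exact hb0 ((IsFractionRing.injective W.CoordinateRing W.FunctionField)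
      (h.trans (map_zero _).symm))
  rw [div_mul_eq_mul_div, div_eq_iff hbF]
  ring

/-- `2Y + a₁X + a₃ ≠ 0` in the function field of a nonsingular curve. -/
theorem two_Y_add_ne_zero (hΔ : W.Δ ≠ 0) :
    2 * algebraMap W.CoordinateRing W.FunctionField (CoordinateRing.mk W Y) +
      algebraMap k[X] W.FunctionField (C W.a₁ * X + C W.a₃) ≠ 0 := by
  intro h
  have h' : algebraMap k[X] W.FunctionField (C W.a₁ * X + C W.a₃) +
      algebraMap k[X] W.FunctionField 2 *
        algebraMap W.CoordinateRing W.FunctionField (CoordinateRing.mk W Y) = 0 := by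
    rw [map_ofNat, add_comm]
    exact h
  obtain ⟨hL, h2⟩ := rep_eq_zero W h'
  have h2k : (2 : k) = 0 := by
    have := congrArg (fun f : k[X] => f.coeff 0) h2
    simpa using this
  have h1 : W.a₁ = 0 := by
    have := congrArg (fun f : k[X] => f.coeff 1) hL
    simpa using this
  have h3 : W.a₃ = 0 := by
    have := congrArg (fun f : k[X] => f.coeff 0) hL
    simpa using this
  apply hΔ
  rw [WeierstrassCurve.Δ, WeierstrassCurve.b₂, WeierstrassCurve.b₄, WeierstrassCurve.b₆,
    WeierstrassCurve.b₈, h1, h3]
  linear_combination (-8 * W.a₂ ^ 2 * (4 * W.a₂ * W.a₆ - W.a₄ ^ 2) - 32 * W.a₄ ^ 3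
    - 216 * W.a₆ ^ 2 + 144 * W.a₂ * W.a₄ * W.a₆) * h2k

/-- the map from `k[X]` to the function field is injective. -/
theorem algebraMap_ff_eq_zero {p : k[X]} (h : algebraMap k[X] W.FunctionField p = 0) : p = 0 := by
  have h' : algebraMap k[X] W.FunctionField p + algebraMap k[X] W.FunctionField 0 *
      algebraMap W.CoordinateRing W.FunctionField (CoordinateRing.mk W Y) = 0 := by
    rw [h, map_zero, zero_mul, add_zero]
  exact (rep_eq_zero W h').1

/-- a fraction of polynomials can be written in lowest terms. -/
theorem exists_coprime_rep {z : W.FunctionField} {p n : k[X]} (hn : n ≠ 0)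
    (h : z * algebraMap k[X] W.FunctionField n = algebraMap k[X] W.FunctionField p) :
    ∃ p' n' : k[X], n' ≠ 0 ∧ IsCoprime p' n' ∧
      z * algebraMap k[X] W.FunctionField n' = algebraMap k[X] W.FunctionField p' := by
  classical
  obtain ⟨p', hp'⟩ := EuclideanDomain.gcd_dvd_left p n
  obtain ⟨n', hn'⟩ := EuclideanDomain.gcd_dvd_right p n
  have hg := EuclideanDomain.gcd_eq_gcd_ab p n
  generalize EuclideanDomain.gcd p n = g at hp' hn' hg
  generalize EuclideanDomain.gcdA p n = x at hg
  generalize EuclideanDomain.gcdB p n = y at hg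
  have hg0 : g ≠ 0 := by
    rintro rfl
    exact hn (by rw [hn', zero_mul])
  have hn'0 : n' ≠ 0 := by
    rintro rfl
    exact hn (by rw [hn', mul_zero])
  refine ⟨p', n', hn'0, ⟨x, y, ?_⟩, ?_⟩
  · have : g * (x * p' + y * n') = g * 1 := by
      rw [mul_one]
      conv_rhs => rw [hg, hp', hn']
      ring
    exact mul_left_cancel₀ hg0 this
  · have hgF : algebraMap k[X] W.FunctionField g ≠ 0 := fun h0 => hg0 (algebraMap_ff_eq_zero W h0)
    rw [hp', hn', map_mul, map_mul] at h
    have : algebraMap k[X] W.FunctionField g * (z * algebraMap k[X] W.FunctionField n') =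
        algebraMap k[X] W.FunctionField g * algebraMap k[X] W.FunctionField p' := by
      rw [← h]
      ring
    exact mul_left_cancel₀ hgF this

/-- an element of the function field fixed by a ring endomorphism acting as the hyperelliptic involution is a rational function of `X`. -/
theorem exists_ratFunc_of_invariant (hΔ : W.Δ ≠ 0) (σ : W.FunctionField →+* W.FunctionField)
    (hσX : ∀ p : k[X], σ (algebraMap k[X] W.FunctionField p) = algebraMap k[X] W.FunctionField p)
    (hσY : σ (algebraMap W.CoordinateRing W.FunctionField (CoordinateRing.mk W Y)) =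
      -algebraMap W.CoordinateRing W.FunctionField (CoordinateRing.mk W Y) -
        algebraMap k[X] W.FunctionField (C W.a₁ * X + C W.a₃))
    {z : W.FunctionField} (hz : σ z = z) :
    ∃ p n : k[X], n ≠ 0 ∧ IsCoprime p n ∧
      z * algebraMap k[X] W.FunctionField n = algebraMap k[X] W.FunctionField p := by
  obtain ⟨p, q, n, hn, h⟩ := exists_rep W z
  have hσ := congrArg σ h
  rw [map_mul, map_add, map_mul, hσX, hσX, hσX, hσY, hz, h] at hσ
  have hq : algebraMap k[X] W.FunctionField q *
      (2 * algebraMap W.CoordinateRing W.FunctionField (CoordinateRing.mk W Y) +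
        algebraMap k[X] W.FunctionField (C W.a₁ * X + C W.a₃)) = 0 := by
    linear_combination hσ
  have hq0 : q = 0 := by
    rcases mul_eq_zero.mp hq with h0 | h0
    · exact algebraMap_ff_eq_zero W h0
    · exact absurd h0 (two_Y_add_ne_zero W hΔ)
  rw [hq0, map_zero, zero_mul, add_zero] at h
  exact exists_coprime_rep W hn h

/-- an element of the coordinate ring which is a rational function of `X` is a polynomial in `X`. -/
theorem exists_poly_of_mem {z : W.CoordinateRing} {p n : k[X]} (hn : n ≠ 0)
    (h : algebraMap W.CoordinateRing W.FunctionField z * algebraMap k[X] W.FunctionField n =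
      algebraMap k[X] W.FunctionField p) :
    ∃ r : k[X], z = algebraMap k[X] W.CoordinateRing r := by
  obtain ⟨p', q', rfl⟩ := CoordinateRing.exists_smul_basis_eq z
  rw [← rep_eq] at h
  have h' : algebraMap k[X] W.FunctionField (p' * n - p) +
      algebraMap k[X] W.FunctionField (q' * n) *
        algebraMap W.CoordinateRing W.FunctionField (CoordinateRing.mk W Y) = 0 := by
    rw [map_sub, map_mul, map_mul]
    linear_combination h
  obtain ⟨-, hq⟩ := rep_eq_zero W h'
  have hq0 : q' = 0 := by
    rcases mul_eq_zero.mp hq with h0 | h0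
    · exact h0
    · exact absurd h0 hn
  refine ⟨p', ?_⟩
  rw [hq0, zero_smul, add_zero, Algebra.smul_def, mul_one]

end Fermat.Agent.S52.FRep
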