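import Mathlib
import Fermat.Agent.S52.FDefs
import Fermat.Agent.S52.FHeight
import Fermat.Agent.S52.FRep

/-!
# P17 (S52), block F, slice F2: odd points have a height

A point `Q` of `C` over the function field `KK C k` with `ι(Q) = -Q` has an `x`-coordinate fixed
by the hyperelliptic involution `ι`, hence in `k(X)`; so its `x`-coordinate has a height.
-/

set_option autoImplicit false

open Polynomial WeierstrassCurve WeierstrassCurve.Affine

namespace Fermat.Agent.S52.FOdd

open Fermat.Agent.S52.F Fermat.Agent.S52.FHeight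

variable {ℓ : ℕ} [Fact ℓ.Prime] (C : WeierstrassCurve (ZMod ℓ)) [C.IsElliptic]
  (k : Type*) [Field k] [Algebra (ZMod ℓ) k]

/-- An element of the function field fixed by the hyperelliptic involution is a quotient of
coprime polynomials in `X`. -/
theorem fodd_exists_ratFunc {z : KK C k} (hz : iota C k z = z) :
    ∃ p n : k[X], n ≠ 0 ∧ IsCoprime p n ∧
      z * algebraMap k[X] (KK C k) n = algebraMap k[X] (KK C k) p := by
  have hΔ : (C.toAffine⁄k).Δ ≠ 0 := (WeierstrassCurve.isUnit_Δ (C.toAffine⁄k)).ne_zero
  refine FRep.exists_ratFunc_of_invariant (C.toAffine⁄k) hΔ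
    (iota C k : KK C k →+* KK C k) (fun p => iota_algebraMap C k p) ?_ hz
  have h := iota_genY C k
  rw [genY] at h
  rw [RingHom.coe_coe, h]
  simp only [Affine.negY, map_add, map_mul, algebraMap_C, Affine.baseChange_a₁,
    Affine.baseChange_a₃, algebraMap_zmod, genX]
  ring

/-- A fixed element of the involution has a height (as the point `(z : 1)` of the line). -/
theorem fodd_hasHeight_of_iota_eq {z : KK C k} (hz : iota C k z = z) :
    ∃ d : ℕ, HasHeight k ![z, 1] d := by
  obtain ⟨p, n, hn, hcop, h⟩ := fodd_exists_ratFunc C k hz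
  have hinj := algebraMap_polynomial_injective C k
  have hn' : algebraMap k[X] (KK C k) n ≠ 0 := by
    intro h0
    exact hn (hinj (h0.trans (map_zero _).symm))
  have hzeq : z = algebraMap k[X] (KK C k) p / algebraMap k[X] (KK C k) n := by
    rw [eq_div_iff hn', h]
  refine ⟨max p.natDegree n.natDegree, ?_⟩
  rw [hzeq]
  exact hasHeight_div_of_isCoprime hinj hcop hn

/-- **(F2)** odd points have a height. -/
theorem exists_hasHeight_of_mem_Lam {Q : (C.toAffine⁄(KK C k)).Point} (hQ : Q ∈ Lam C k) :
    ∃ d : ℕ, HasHeight k Q.xRep d := by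
  rw [mem_Lam] at hQ
  cases Q with
  | zero => exact ⟨0, hasHeight_one_zero⟩
  | some x y h =>
    rw [iotaPt_some, Point.neg_some] at hQ
    have hx : iota C k x = x := by
      have := congrArg Point.xRep hQ
      simp only [Point.xRep_some] at this
      simpa using congrFun this 0
    obtain ⟨d, hd⟩ := fodd_hasHeight_of_iota_eq C k hx
    exact ⟨d, hd⟩

end Fermat.Agent.S52.FOdd
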