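import Mathlib.AlgebraicGeometry.EllipticCurve.Affine.AddSubMap
import Mathlib.Tactic

/-!
# P17 (S52), block F: the addition-and-subtraction map on `x`-coordinates, degenerate case

For two affine points `P`, `Q` with the same `x`-coordinate on an elliptic curve `W` over a
field, the values of `W.addSubMap` at `P.sym2x Q` are proportional to `(P + Q).sym2x (P - Q)`
(duplication formula).
-/

set_option autoImplicit false

namespace Fermat.Agent.S52.FAddSubDbl

open WeierstrassCurve WeierstrassCurve.Affine MvPolynomial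

variable {F : Type*} [Field F] (W : WeierstrassCurve F)

/-- The values of the three quadratic forms of `addSubMap`. -/
theorem eval_addSubMap (v : Fin 3 → F) :
    eval v (W.addSubMap 0) = v 0 ^ 2 - W.b₄ * v 0 * v 2 - W.b₆ * v 1 * v 2 - W.b₈ * v 2 ^ 2 ∧
    eval v (W.addSubMap 1) =
      2 * v 1 * v 0 + W.b₂ * v 0 * v 2 + W.b₄ * v 1 * v 2 + W.b₆ * v 2 ^ 2 ∧
    eval v (W.addSubMap 2) = v 1 ^ 2 - 4 * v 0 * v 2 := by
  simp [addSubMap]

/-- The values of `addSubMap` at the diagonal `(x², 2x, 1)`. -/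
theorem eval_addSubMap_diag {x y : F} (h : W.toAffine.Equation x y) :
    eval ![x * x, x + x, 1] (W.addSubMap 0) = x ^ 4 - W.b₄ * x ^ 2 - 2 * W.b₆ * x - W.b₈ ∧
    eval ![x * x, x + x, 1] (W.addSubMap 1) = (y - W.toAffine.negY x y) ^ 2 ∧
    eval ![x * x, x + x, 1] (W.addSubMap 2) = 0 := by
  obtain ⟨h0, h1, h2⟩ := eval_addSubMap W ![x * x, x + x, 1]
  rw [h0, h1, h2]
  rw [equation_iff] at h
  simp only [Matrix.cons_val_zero, Matrix.cons_val_one, Matrix.cons_val, negY, b₂, b₄, b₆]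
  refine ⟨by ring, ?_, by ring⟩
  linear_combination (-4 : F) * h

/-- The duplication formula. -/
theorem dbl_formula [DecidableEq F] {x y : F} (h : W.toAffine.Equation x y)
    (hy : y ≠ W.toAffine.negY x y) :
    x ^ 4 - W.b₄ * x ^ 2 - 2 * W.b₆ * x - W.b₈ =
      (y - W.toAffine.negY x y) ^ 2 * W.toAffine.addX x x (W.toAffine.slope x x y y) := by
  have hd : y - W.toAffine.negY x y ≠ 0 := sub_ne_zero.mpr hy
  rw [slope_of_Y_ne rfl hy, addX]
  set d := y - W.toAffine.negY x y with hd_def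
  have e : d ^ 2 * (((3 * x ^ 2 + 2 * W.a₂ * x + W.a₄ - W.a₁ * y) / d) ^ 2 +
      W.a₁ * ((3 * x ^ 2 + 2 * W.a₂ * x + W.a₄ - W.a₁ * y) / d) - W.a₂ - x - x) =
      (3 * x ^ 2 + 2 * W.a₂ * x + W.a₄ - W.a₁ * y) ^ 2 +
        W.a₁ * (3 * x ^ 2 + 2 * W.a₂ * x + W.a₄ - W.a₁ * y) * d - (W.a₂ + 2 * x) * d ^ 2 := by
    field_simp
    ring
  rw [e, hd_def]
  rw [equation_iff] at h
  simp only [negY, b₄, b₆, b₈]
  linear_combination (W.a₁ ^ 2 + 4 * W.a₂ + 8 * x) * h


variable [DecidableEq F] [W.IsElliptic]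

/-- Duplication: the values of `addSubMap` at `sym2x P P` are proportional to
`sym2x (P + P) 0`. -/
theorem dbl_sym2x {x y : F} (h : W.toAffine.Nonsingular x y) :
    ∃ c : F, c ≠ 0 ∧ ∀ i, eval ![x * x, x + x, 1] (W.addSubMap i) =
      c * (Point.some x y h + Point.some x y h).sym2x 0 i := by
  obtain ⟨h0, h1, h2⟩ := eval_addSubMap_diag W h.1
  by_cases hy : y = W.toAffine.negY x y
  · -- 2-torsion
    have hne : (fun i => eval ![x * x, x + x, 1] (W.addSubMap i)) ≠ 0 :=
      W.addSubMap_ne_zero (by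
        intro h0'
        have := congrFun h0' 2
        simp at this)
    have h1' : eval ![x * x, x + x, 1] (W.addSubMap 1) = 0 := by
      rw [h1, sub_eq_zero.mpr hy]
      ring
    refine ⟨eval ![x * x, x + x, 1] (W.addSubMap 0), ?_, ?_⟩
    · intro hc
      apply hne
      funext i
      fin_cases i
      · exact hc
      · exact h1'
      · exact h2
    · intro i
      rw [Point.add_self_of_Y_eq hy, Point.sym2x_zero_zero]
      fin_cases i
      · simp
      · simpa using h1'
      · simpa using h2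
  · refine ⟨(y - W.toAffine.negY x y) ^ 2, pow_ne_zero 2 (sub_ne_zero.mpr hy), ?_⟩
    intro i
    rw [Point.add_self_of_Y_ne hy, Point.sym2x_some_zero]
    fin_cases i
    · simpa using h0.trans (dbl_formula W h.1 hy)
    · simpa using h1
    · simpa using h2

end Fermat.Agent.S52.FAddSubDbl

namespace Fermat.Agent.S52.FAddSub

open WeierstrassCurve WeierstrassCurve.Affine MvPolynomial

/-- The addition-and-subtraction map on `x`-coordinates, for two affine points with the same
`x`-coordinate. -/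
theorem addSub_sym2x_of_x_eq {F : Type*} [Field F] [DecidableEq F] (W : WeierstrassCurve F)
    [W.IsElliptic] {x₁ y₁ x₂ y₂ : F}
    (h₁ : W.toAffine.Nonsingular x₁ y₁) (h₂ : W.toAffine.Nonsingular x₂ y₂) (hx : x₁ = x₂) :
    ∃ c : F, c ≠ 0 ∧ ∀ i,
      eval ((Point.some x₁ y₁ h₁).sym2x (Point.some x₂ y₂ h₂)) (W.addSubMap i) =
        c * ((Point.some x₁ y₁ h₁) + (Point.some x₂ y₂ h₂)).sym2x
          ((Point.some x₁ y₁ h₁) - (Point.some x₂ y₂ h₂)) i := by
  subst hx
  rw [Point.sym2x_some_some]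
  rcases Y_eq_of_X_eq h₁.1 h₂.1 rfl with hy | hy
  · subst hy
    rw [sub_self]
    exact FAddSubDbl.dbl_sym2x W h₁
  · have hneg : -Point.some x₁ y₂ h₂ = Point.some x₁ y₁ h₁ := by
      rw [Point.neg_some]
      congr 1
      exact hy.symm
    rw [sub_eq_add_neg, hneg, Point.add_of_Y_eq rfl hy, Point.sym2x_comm]
    exact FAddSubDbl.dbl_sym2x W h₁

end Fermat.Agent.S52.FAddSub
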