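import Mathlib
import Fermat.Agent.S52.FAddSubDbl

/-!
P17 (S52), BLOCK F: the addition-and-subtraction map on `x`-coordinates does what it claims
(the TODO of `Mathlib.AlgebraicGeometry.EllipticCurve.Affine.AddSubMap`):

`(x(P) x(Q) : x(P) + x(Q) : 1) ↦ (x(P+Q) x(P-Q) : x(P+Q) + x(P-Q) : 1)`.

This file: the generic case `x(P) ≠ x(Q)` and the final statement `fas_addSub`; the case of two
affine points with the same `x` is in `FAddSubDbl.lean` (helper29).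
-/

set_option autoImplicit false

namespace Fermat.Agent.S52

open WeierstrassCurve Affine

namespace FAddSub

section Poly

variable {R : Type*} [CommRing R] (W : WeierstrassCurve R)

/-- The numerator of `x(P + Q)` over the denominator `(x₁ - x₂) ^ 2`, for the chord of slope
`(y₁ - y₂) / (x₁ - x₂)`. -/
def num (x₁ x₂ y₁ y₂ : R) : R :=
  (y₁ - y₂) ^ 2 + W.a₁ * (x₁ - x₂) * (y₁ - y₂) - (W.a₂ + x₁ + x₂) * (x₁ - x₂) ^ 2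

/-- Sum identity: `(x(P+Q) + x(P-Q)) (x₁ - x₂)² = F₁(x₁ x₂, x₁ + x₂, 1)`. -/
theorem num_add_num (x₁ x₂ y₁ y₂ : R)
    (h₁ : y₁ ^ 2 + W.a₁ * x₁ * y₁ + W.a₃ * y₁ = x₁ ^ 3 + W.a₂ * x₁ ^ 2 + W.a₄ * x₁ + W.a₆)
    (h₂ : y₂ ^ 2 + W.a₁ * x₂ * y₂ + W.a₃ * y₂ = x₂ ^ 3 + W.a₂ * x₂ ^ 2 + W.a₄ * x₂ + W.a₆) :
    num W x₁ x₂ y₁ y₂ + num W x₁ x₂ y₁ (-y₂ - W.a₁ * x₂ - W.a₃) =
      2 * (x₁ + x₂) * (x₁ * x₂) + W.b₂ * (x₁ * x₂) + W.b₄ * (x₁ + x₂) + W.b₆ := by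
  simp only [num, b₂, b₄, b₆]
  linear_combination 2 * h₁ + 2 * h₂

/-- Product identity: `x(P+Q) x(P-Q) (x₁ - x₂)⁴ = F₀(x₁ x₂, x₁ + x₂, 1) (x₁ - x₂)²`. -/
theorem num_mul_num (x₁ x₂ y₁ y₂ : R)
    (h₁ : y₁ ^ 2 + W.a₁ * x₁ * y₁ + W.a₃ * y₁ = x₁ ^ 3 + W.a₂ * x₁ ^ 2 + W.a₄ * x₁ + W.a₆)
    (h₂ : y₂ ^ 2 + W.a₁ * x₂ * y₂ + W.a₃ * y₂ = x₂ ^ 3 + W.a₂ * x₂ ^ 2 + W.a₄ * x₂ + W.a₆) :
    num W x₁ x₂ y₁ y₂ * num W x₁ x₂ y₁ (-y₂ - W.a₁ * x₂ - W.a₃) =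
      ((x₁ * x₂) ^ 2 - W.b₄ * (x₁ * x₂) - W.b₆ * (x₁ + x₂) - W.b₈) * (x₁ - x₂) ^ 2 := by
  simp only [num, b₄, b₆, b₈]
  linear_combination
    (2 * ((x₁ ^ 3 + W.a₂ * x₁ ^ 2 + W.a₄ * x₁ + W.a₆) + (x₂ ^ 3 + W.a₂ * x₂ ^ 2 + W.a₄ * x₂ + W.a₆)
        - (W.a₂ + x₁ + x₂) * (x₁ - x₂) ^ 2)
      + (W.a₁ * x₁ + W.a₃) * (W.a₁ * x₂ + W.a₃)
      - 4 * (x₂ ^ 3 + W.a₂ * x₂ ^ 2 + W.a₄ * x₂ + W.a₆) - (W.a₁ * x₂ + W.a₃) ^ 2
      + ((y₁ ^ 2 + (W.a₁ * x₁ + W.a₃) * y₁ - (x₁ ^ 3 + W.a₂ * x₁ ^ 2 + W.a₄ * x₁ + W.a₆))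
        - (y₂ ^ 2 + (W.a₁ * x₂ + W.a₃) * y₂ - (x₂ ^ 3 + W.a₂ * x₂ ^ 2 + W.a₄ * x₂ + W.a₆)))) * h₁
    + (2 * ((x₁ ^ 3 + W.a₂ * x₁ ^ 2 + W.a₄ * x₁ + W.a₆) + (x₂ ^ 3 + W.a₂ * x₂ ^ 2 + W.a₄ * x₂ + W.a₆)
        - (W.a₂ + x₁ + x₂) * (x₁ - x₂) ^ 2)
      + (W.a₁ * x₁ + W.a₃) * (W.a₁ * x₂ + W.a₃)
      - 4 * (x₁ ^ 3 + W.a₂ * x₁ ^ 2 + W.a₄ * x₁ + W.a₆) - (W.a₁ * x₁ + W.a₃) ^ 2
      - ((y₁ ^ 2 + (W.a₁ * x₁ + W.a₃) * y₁ - (x₁ ^ 3 + W.a₂ * x₁ ^ 2 + W.a₄ * x₁ + W.a₆))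
        - (y₂ ^ 2 + (W.a₁ * x₂ + W.a₃) * y₂ - (x₂ ^ 3 + W.a₂ * x₂ ^ 2 + W.a₄ * x₂ + W.a₆)))) * h₂

theorem eval_addSubMap_zero (s t u : R) :
    MvPolynomial.eval ![s, t, u] (W.addSubMap 0) =
      s ^ 2 - W.b₄ * s * u - W.b₆ * t * u - W.b₈ * u ^ 2 := by
  simp [addSubMap]

theorem eval_addSubMap_one (s t u : R) :
    MvPolynomial.eval ![s, t, u] (W.addSubMap 1) =
      2 * t * s + W.b₂ * s * u + W.b₄ * t * u + W.b₆ * u ^ 2 := by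
  simp [addSubMap]

theorem eval_addSubMap_two (s t u : R) :
    MvPolynomial.eval ![s, t, u] (W.addSubMap 2) = t ^ 2 - 4 * s * u := by
  simp [addSubMap]

end Poly

section Field

variable {F : Type*} [Field F] (W : WeierstrassCurve F)

/-- `x(P + Q) = num / (x₁ - x₂)²` for the chord through two points with distinct `x`. -/
theorem addX_slope_eq (x₁ x₂ y₁ y₂ : F) (hx : x₁ ≠ x₂) :
    W.toAffine.addX x₁ x₂ ((y₁ - y₂) / (x₁ - x₂)) = num W x₁ x₂ y₁ y₂ / (x₁ - x₂) ^ 2 := by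
  have hD : x₁ - x₂ ≠ 0 := sub_ne_zero.mpr hx
  simp only [addX, num]
  field_simp
  ring

end Field

end FAddSub

section Main

variable {F : Type*} [Field F] [DecidableEq F] (W : WeierstrassCurve F) [W.IsElliptic]

omit [W.IsElliptic] in
open FAddSub in
/-- The generic case `x(P) ≠ x(Q)`, with `c = (x(P) - x(Q)) ^ 2`. -/
theorem fas_of_X_ne {x₁ y₁ x₂ y₂ : F} (h₁ : W.toAffine.Nonsingular x₁ y₁)
    (h₂ : W.toAffine.Nonsingular x₂ y₂) (hx : x₁ ≠ x₂) :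
    ∃ c : F, c ≠ 0 ∧ ∀ i, MvPolynomial.eval ((Point.some x₁ y₁ h₁).sym2x (Point.some x₂ y₂ h₂))
      (W.addSubMap i) = c * (Point.some x₁ y₁ h₁ + Point.some x₂ y₂ h₂).sym2x
        (Point.some x₁ y₁ h₁ - Point.some x₂ y₂ h₂) i := by
  have hD : x₁ - x₂ ≠ 0 := sub_ne_zero.mpr hx
  have hD2 : (x₁ - x₂) ^ 2 ≠ 0 := pow_ne_zero 2 hD
  refine ⟨(x₁ - x₂) ^ 2, hD2, ?_⟩
  have e₁ := (W.toAffine.equation_iff x₁ y₁).mp h₁.1
  have e₂ := (W.toAffine.equation_iff x₂ y₂).mp h₂.1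
  have hs := num_add_num W x₁ x₂ y₁ y₂ e₁ e₂
  have hp := num_mul_num W x₁ x₂ y₁ y₂ e₁ e₂
  have hsub : Point.some x₁ y₁ h₁ - Point.some x₂ y₂ h₂ =
      Point.some x₁ y₁ h₁ + -Point.some x₂ y₂ h₂ := sub_eq_add_neg _ _
  rw [hsub, Point.neg_some, Point.add_of_X_ne hx, Point.add_of_X_ne hx,
    Point.sym2x_some_some, Point.sym2x_some_some, slope_of_X_ne hx, slope_of_X_ne hx,
    addX_slope_eq W _ _ _ _ hx, addX_slope_eq W _ _ _ _ hx]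
  have hnegY : W.toAffine.negY x₂ y₂ = -y₂ - W.a₁ * x₂ - W.a₃ := rfl
  rw [hnegY]
  intro i
  fin_cases i
  · change MvPolynomial.eval ![x₁ * x₂, x₁ + x₂, 1] (W.addSubMap 0) =
      (x₁ - x₂) ^ 2 * (num W x₁ x₂ y₁ y₂ / (x₁ - x₂) ^ 2 *
        (num W x₁ x₂ y₁ (-y₂ - W.a₁ * x₂ - W.a₃) / (x₁ - x₂) ^ 2))
    rw [eval_addSubMap_zero]
    have h3 : (x₁ - x₂) ^ 2 * (num W x₁ x₂ y₁ y₂ / (x₁ - x₂) ^ 2 *
        (num W x₁ x₂ y₁ (-y₂ - W.a₁ * x₂ - W.a₃) / (x₁ - x₂) ^ 2)) =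
        num W x₁ x₂ y₁ y₂ * num W x₁ x₂ y₁ (-y₂ - W.a₁ * x₂ - W.a₃) / (x₁ - x₂) ^ 2 := by
      field_simp
    rw [h3, hp, mul_div_cancel_right₀ _ hD2]
    ring
  · change MvPolynomial.eval ![x₁ * x₂, x₁ + x₂, 1] (W.addSubMap 1) =
      (x₁ - x₂) ^ 2 * (num W x₁ x₂ y₁ y₂ / (x₁ - x₂) ^ 2 +
        num W x₁ x₂ y₁ (-y₂ - W.a₁ * x₂ - W.a₃) / (x₁ - x₂) ^ 2)
    rw [eval_addSubMap_one]
    have h3 : (x₁ - x₂) ^ 2 * (num W x₁ x₂ y₁ y₂ / (x₁ - x₂) ^ 2 +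
        num W x₁ x₂ y₁ (-y₂ - W.a₁ * x₂ - W.a₃) / (x₁ - x₂) ^ 2) =
        num W x₁ x₂ y₁ y₂ + num W x₁ x₂ y₁ (-y₂ - W.a₁ * x₂ - W.a₃) := by
      field_simp
    rw [h3, hs]
    ring
  · change MvPolynomial.eval ![x₁ * x₂, x₁ + x₂, 1] (W.addSubMap 2) = (x₁ - x₂) ^ 2 * 1
    rw [eval_addSubMap_two]
    ring

/-- **The addition-and-subtraction map on `x`-coordinates**: for points `P`, `Q` of an elliptic
curve over a field, `addSubMap` sends the coordinate vector `(x(P) x(Q) : x(P) + x(Q) : 1)` to a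
nonzero multiple of `(x(P+Q) x(P-Q) : x(P+Q) + x(P-Q) : 1)`. -/
theorem fas_addSub (P Q : W.toAffine.Point) :
    ∃ c : F, c ≠ 0 ∧ ∀ i, MvPolynomial.eval (P.sym2x Q) (W.addSubMap i) =
      c * (P + Q).sym2x (P - Q) i := by
  rcases P with _ | ⟨x₁, y₁, h₁⟩
  · rcases Q with _ | ⟨x₂, y₂, h₂⟩
    · refine ⟨1, one_ne_zero, fun i => ?_⟩
      change MvPolynomial.eval ((0 : W.toAffine.Point).sym2x 0) (W.addSubMap i) =
        1 * ((0 : W.toAffine.Point) + 0).sym2x ((0 : W.toAffine.Point) - 0) i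
      rw [add_zero, sub_zero, Point.sym2x_zero_zero, one_mul]
      fin_cases i
      · change MvPolynomial.eval ![1, 0, 0] (W.addSubMap 0) = 1
        rw [FAddSub.eval_addSubMap_zero]
        ring
      · change MvPolynomial.eval ![1, 0, 0] (W.addSubMap 1) = 0
        rw [FAddSub.eval_addSubMap_one]
        ring
      · change MvPolynomial.eval ![1, 0, 0] (W.addSubMap 2) = 0
        rw [FAddSub.eval_addSubMap_two]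
        ring
    · refine ⟨1, one_ne_zero, fun i => ?_⟩
      change MvPolynomial.eval ((0 : W.toAffine.Point).sym2x (Point.some x₂ y₂ h₂))
        (W.addSubMap i) = 1 * ((0 : W.toAffine.Point) + Point.some x₂ y₂ h₂).sym2x
          ((0 : W.toAffine.Point) - Point.some x₂ y₂ h₂) i
      rw [zero_add, zero_sub, Point.sym2x_neg_right, Point.sym2x_zero_some,
        Point.sym2x_some_some, one_mul]
      fin_cases i
      · change MvPolynomial.eval ![x₂, 1, 0] (W.addSubMap 0) = x₂ * x₂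
        rw [FAddSub.eval_addSubMap_zero]
        ring
      · change MvPolynomial.eval ![x₂, 1, 0] (W.addSubMap 1) = x₂ + x₂
        rw [FAddSub.eval_addSubMap_one]
        ring
      · change MvPolynomial.eval ![x₂, 1, 0] (W.addSubMap 2) = 1
        rw [FAddSub.eval_addSubMap_two]
        ring
  rcases Q with _ | ⟨x₂, y₂, h₂⟩
  · refine ⟨1, one_ne_zero, fun i => ?_⟩
    change MvPolynomial.eval ((Point.some x₁ y₁ h₁).sym2x (0 : W.toAffine.Point))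
      (W.addSubMap i) = 1 * (Point.some x₁ y₁ h₁ + (0 : W.toAffine.Point)).sym2x
        (Point.some x₁ y₁ h₁ - (0 : W.toAffine.Point)) i
    rw [add_zero, sub_zero, Point.sym2x_some_zero, Point.sym2x_some_some, one_mul]
    fin_cases i
    · change MvPolynomial.eval ![x₁, 1, 0] (W.addSubMap 0) = x₁ * x₁
      rw [FAddSub.eval_addSubMap_zero]
      ring
    · change MvPolynomial.eval ![x₁, 1, 0] (W.addSubMap 1) = x₁ + x₁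
      rw [FAddSub.eval_addSubMap_one]
      ring
    · change MvPolynomial.eval ![x₁, 1, 0] (W.addSubMap 2) = 1
      rw [FAddSub.eval_addSubMap_two]
      ring
  by_cases hx : x₁ = x₂
  · exact FAddSub.addSub_sym2x_of_x_eq W h₁ h₂ hx
  · exact fas_of_X_ne W h₁ h₂ hx

end Main

end Fermat.Agent.S52
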