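import Mathlib
import Fermat.Agent.S52.FHeight
import Fermat.Agent.S52.FAddSub
import Fermat.Agent.S52.FDefs

/-!
# P17 (S52), block F, slice F3: the parallelogram law for heights of `x`-coordinates

For an elliptic curve `E₀` (over a base ring `R₀`, elliptic over the field `k`) and points `P`, `Q`
of `E₀` over a field `L ⊇ k[X]`, the heights (in the sense of `FHeight.HasHeight k`) of the
`x`-coordinates satisfy

`h(P + Q) + h(P - Q) = 2 h(P) + 2 h(Q)`

whenever the four heights exist.  This is the glue of the pair lemma and the biquadratic lemma of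
`FHeight` with the addition-and-subtraction formula of `FAddSub`.

* `hasHeight_sym2x` : `h(x(P)x(Q) : x(P) + x(Q) : 1) = h(P) + h(Q)`;
* `hasHeight_sym2x_addSub` : `h(x(P+Q)x(P-Q) : x(P+Q) + x(P-Q) : 1) = 2 (h(P) + h(Q))`;
* `hasHeight_parallelogram` : the parallelogram law;
* `para_KK` : the parallelogram law over the function field `KK C k` of `FDefs`.
-/

set_option autoImplicit false

open Polynomial

namespace Fermat.Agent.S52.FPara

open Fermat.Agent.S52.FHeight WeierstrassCurve WeierstrassCurve.Affine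

section

variable {k : Type*} [Field k] {L : Type*} [Field L] [Algebra k[X] L]

/-- The height of the symmetric pair `(x(P) x(Q) : x(P) + x(Q) : 1)` is the sum of the heights
of `x(P)` and `x(Q)`. -/
theorem hasHeight_sym2x {W : WeierstrassCurve.Affine L} {P Q : W.Point} {d₁ d₂ : ℕ}
    (hP : HasHeight k P.xRep d₁) (hQ : HasHeight k Q.xRep d₂) :
    HasHeight k (P.sym2x Q) (d₁ + d₂) := by
  have hP' : HasHeight k ![P.xRep 0, P.xRep 1] d₁ := by
    refine hP.of_eq fun i => ?_
    fin_cases i <;> rfl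
  have hQ' : HasHeight k ![Q.xRep 0, Q.xRep 1] d₂ := by
    refine hQ.of_eq fun i => ?_
    fin_cases i <;> rfl
  exact hP'.pair hQ'

variable [Algebra k L] [IsScalarTower k k[X] L]
  {R₀ : Type*} [CommRing R₀] [Algebra R₀ k] [Algebra R₀ L] [IsScalarTower R₀ k L]

/-- The height of the symmetric pair of `P + Q` and `P - Q` is twice the sum of the heights of
`x(P)` and `x(Q)`. -/
theorem hasHeight_sym2x_addSub (E₀ : WeierstrassCurve R₀) [(E₀.map (algebraMap R₀ k)).IsElliptic]
    [(E₀.map (algebraMap R₀ L)).IsElliptic] [DecidableEq L]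
    {P Q : (E₀.map (algebraMap R₀ L)).toAffine.Point} {d₁ d₂ : ℕ}
    (hP : HasHeight k P.xRep d₁) (hQ : HasHeight k Q.xRep d₂) :
    HasHeight k ((P + Q).sym2x (P - Q)) (2 * (d₁ + d₂)) := by
  have h1 : HasHeight k (P.sym2x Q) (d₁ + d₂) := hasHeight_sym2x hP hQ
  have h2 := h1.addSubMap_baseChange E₀
  obtain ⟨c, hc, hceq⟩ := fas_addSub (E₀.map (algebraMap R₀ L)) P Q
  refine (h2.smul (inv_ne_zero hc)).of_eq fun i => ?_
  rw [hceq i, inv_mul_cancel_left₀ hc]

/-- **The parallelogram law for heights of `x`-coordinates**: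
`h(P + Q) + h(P - Q) = 2 h(P) + 2 h(Q)`. -/
theorem hasHeight_parallelogram (hinj : Function.Injective (algebraMap k[X] L))
    (E₀ : WeierstrassCurve R₀) [(E₀.map (algebraMap R₀ k)).IsElliptic]
    [(E₀.map (algebraMap R₀ L)).IsElliptic] [DecidableEq L]
    {P Q : (E₀.map (algebraMap R₀ L)).toAffine.Point} {d₁ d₂ d₃ d₄ : ℕ}
    (hP : HasHeight k P.xRep d₁) (hQ : HasHeight k Q.xRep d₂)
    (hadd : HasHeight k (P + Q).xRep d₃) (hsub : HasHeight k (P - Q).xRep d₄) :
    d₃ + d₄ = 2 * d₁ + 2 * d₂ := by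
  have h3 : HasHeight k ((P + Q).sym2x (P - Q)) (2 * (d₁ + d₂)) :=
    hasHeight_sym2x_addSub E₀ hP hQ
  have h4 : HasHeight k ((P + Q).sym2x (P - Q)) (d₃ + d₄) := hasHeight_sym2x hadd hsub
  have := h4.unique hinj h3
  omega

end

section KK

open Fermat.Agent.S52.F

variable {ℓ : ℕ} [Fact ℓ.Prime] (C : WeierstrassCurve (ZMod ℓ)) [C.IsElliptic]
  (k : Type*) [Field k] [Algebra (ZMod ℓ) k]

/-- **The parallelogram law over the function field** `KK C k` of `C` over `k`: for points
`P`, `Q` of `C` over `KK C k`, `h(P + Q) + h(P - Q) = 2 h(P) + 2 h(Q)` as soon as the four heights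
exist. -/
theorem para_KK {P Q : (C.toAffine⁄(KK C k)).Point} {d₁ d₂ d₃ d₄ : ℕ}
    (hP : HasHeight k P.xRep d₁) (hQ : HasHeight k Q.xRep d₂)
    (hadd : HasHeight k (P + Q).xRep d₃) (hsub : HasHeight k (P - Q).xRep d₄) :
    d₃ + d₄ = 2 * d₁ + 2 * d₂ :=
  hasHeight_parallelogram (R₀ := ZMod ℓ) (algebraMap_polynomial_injective C k) C hP hQ hadd hsub

end KK

end Fermat.Agent.S52.FPara
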