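import Fermat.Agent.S52.FHeight

/-!
# P17 (S52), block F: heights multiply under substitution

* `FCompose.fcomp_core`: for coprime `P₀, P₁ ∈ k[X]` of maximal degree `e` and a primitive pair
  `(a, b)` of maximal degree `d`, the homogenised values `P₀ʰ(a, b)`, `P₁ʰ(a, b)` form a primitive
  pair of maximal degree `e * d`.
* `FCompose.hasHeight_comp`: if `σ` is a ring endomorphism of `L` fixing the constants, with
  `![σ X, 1]` of height `d`, then `σ` multiplies the height of every vector of length two by `d`.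
-/

set_option autoImplicit false

open Polynomial

namespace Fermat.Agent.S52.FCompose

section Core

variable {k : Type*} [Field k]

/-- Value of the degree-`e` homogenisation of `P` at the pair `(a, b)` of a commutative
`k`-algebra: `∑_{i+j=e} P_i a^i b^j`. -/
noncomputable def fcompHom {A : Type*} [CommRing A] [Algebra k A] (e : ℕ) (P : k[X]) (a b : A) : A :=
  MvPolynomial.aeval ![a, b] (P.homogenize e)

theorem fcompHom_eq_sum {A : Type*} [CommRing A] [Algebra k A] (e : ℕ) (P : k[X]) (a b : A) :
    fcompHom e P a b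
      = ∑ kl ∈ Finset.HasAntidiagonal.antidiagonal e, algebraMap k A (P.coeff kl.1) * (a ^ kl.1 * b ^ kl.2) := by
  unfold fcompHom
  rw [Polynomial.homogenize, map_sum]
  refine Finset.sum_congr rfl fun kl _ => ?_
  rw [MvPolynomial.aeval_monomial, Finsupp.update_eq_add_single (by simp),
    Finsupp.prod_add_index' (by simp) (by simp [pow_add]),
    Finsupp.prod_single_index (by simp), Finsupp.prod_single_index (by simp)]
  simp

theorem fcompHom_bezout {A : Type*} [CommRing A] [Algebra k A] {P₀ P₁ u v : k[X]} {e m : ℕ}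
    (h : u * P₀ + v * P₁ = 1) (hu : u.natDegree ≤ m) (hv : v.natDegree ≤ m)
    (h₀ : P₀.natDegree ≤ e) (h₁ : P₁.natDegree ≤ e) (a b : A) :
    fcompHom m u a b * fcompHom e P₀ a b + fcompHom m v a b * fcompHom e P₁ a b = b ^ (m + e) := by
  unfold fcompHom
  rw [← map_mul, ← map_mul, ← map_add, ← Polynomial.homogenize_mul _ _ hu h₀,
    ← Polynomial.homogenize_mul _ _ hv h₁, ← Polynomial.homogenize_add, h,
    Polynomial.homogenize_one]
  simp

/-- the top term of the homogenisation modulo `b`. -/
theorem fcompHom_dvd_sub {A : Type*} [CommRing A] [Algebra k A] (e : ℕ) (P : k[X]) (a b : A) :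
    b ∣ fcompHom e P a b - algebraMap k A (P.coeff e) * a ^ e := by
  rw [fcompHom_eq_sum, Finset.Nat.sum_antidiagonal_eq_sum_range_succ_mk, Finset.sum_range_succ]
  simp only [Nat.sub_self, pow_zero, mul_one, add_sub_cancel_right]
  refine Finset.dvd_sum fun i hi => ?_
  have hi' : i < e := Finset.mem_range.mp hi
  refine Dvd.dvd.mul_left (Dvd.dvd.mul_left (dvd_pow_self b (by omega)) _) _

theorem fcompHom_natDegree_le (e : ℕ) (P : k[X]) {a b : k[X]} {d : ℕ}
    (ha : a.natDegree ≤ d) (hb : b.natDegree ≤ d) :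
    (fcompHom e P a b).natDegree ≤ e * d := by
  rw [fcompHom_eq_sum]
  refine Polynomial.natDegree_sum_le_of_forall_le _ _ fun kl hkl => ?_
  have hkl' : kl.1 + kl.2 = e := Finset.HasAntidiagonal.mem_antidiagonal.mp hkl
  have h1 : (a ^ kl.1 * b ^ kl.2).natDegree ≤ kl.1 * d + kl.2 * d :=
    Polynomial.natDegree_mul_le_of_le (Polynomial.natDegree_pow_le_of_le _ ha)
      (Polynomial.natDegree_pow_le_of_le _ hb)
  have h2 : (algebraMap k k[X] (P.coeff kl.1) * (a ^ kl.1 * b ^ kl.2)).natDegree
      ≤ 0 + (kl.1 * d + kl.2 * d) :=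
    Polynomial.natDegree_mul_le_of_le (by rw [← Polynomial.C_eq_algebraMap]; simp) h1
  calc _ ≤ 0 + (kl.1 * d + kl.2 * d) := h2
    _ = e * d := by rw [← hkl']; ring

theorem fcompHom_coeff (e : ℕ) (P : k[X]) {a b : k[X]} {d : ℕ}
    (ha : a.natDegree ≤ d) (hb : b.natDegree ≤ d) :
    (fcompHom e P a b).coeff (e * d) = fcompHom e P (a.coeff d) (b.coeff d) := by
  rw [fcompHom_eq_sum, fcompHom_eq_sum, Polynomial.finsetSum_coeff]
  refine Finset.sum_congr rfl fun kl hkl => ?_
  have hkl' : kl.1 + kl.2 = e := Finset.HasAntidiagonal.mem_antidiagonal.mp hkl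
  rw [← Polynomial.C_eq_algebraMap, Polynomial.coeff_C_mul, Algebra.algebraMap_self,
    RingHom.id_apply]
  congr 1
  have : e * d = kl.1 * d + kl.2 * d := by rw [← hkl']; ring
  rw [this, Polynomial.coeff_mul_add_eq_of_natDegree_le (Polynomial.natDegree_pow_le_of_le _ ha)
    (Polynomial.natDegree_pow_le_of_le _ hb), Polynomial.coeff_pow_of_natDegree_le ha,
    Polynomial.coeff_pow_of_natDegree_le hb]

/-- A coprime pair of polynomials with maximal degree `e` has a nonzero coefficient of
degree `e`. -/
theorem fcomp_exists_coeff_ne_zero {P₀ P₁ : k[X]} (hcop : IsCoprime P₀ P₁) {e : ℕ}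
    (he : max P₀.natDegree P₁.natDegree = e) : P₀.coeff e ≠ 0 ∨ P₁.coeff e ≠ 0 := by
  by_contra hcon
  push Not at hcon
  obtain ⟨h0, h1⟩ := hcon
  have key : ∀ Q : k[X], Q.natDegree = e → Q.coeff e = 0 → Q = 0 := by
    intro Q hQ hc
    rw [← hQ] at hc
    exact Polynomial.leadingCoeff_eq_zero.mp hc
  have hle0 : P₀.natDegree ≤ e := he ▸ le_max_left _ _
  have hle1 : P₁.natDegree ≤ e := he ▸ le_max_right _ _
  rcases max_choice P₀.natDegree P₁.natDegree with hm | hm
  · rw [he] at hm
    have hP0 : P₀ = 0 := key P₀ hm.symm h0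
    have he0 : e = 0 := by rw [hm, hP0]; simp
    subst hP0
    have hu : IsUnit P₁ := isCoprime_zero_left.mp hcop
    have hP1 : P₁ = 0 := key P₁ (by rw [he0]; exact Polynomial.natDegree_eq_zero_of_isUnit hu) h1
    rw [hP1] at hu
    exact not_isUnit_zero hu
  · rw [he] at hm
    have hP1 : P₁ = 0 := key P₁ hm.symm h1
    have he0 : e = 0 := by rw [hm, hP1]; simp
    subst hP1
    have hu : IsUnit P₀ := isCoprime_zero_right.mp hcop
    have hP0 : P₀ = 0 := key P₀ (by rw [he0]; exact Polynomial.natDegree_eq_zero_of_isUnit hu) h0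
    rw [hP0] at hu
    exact not_isUnit_zero hu

/-- **Composition core.**  If `P₀, P₁` are coprime with maximal degree `e` and `(a, b)` is a
primitive pair with maximal degree `d`, then the homogenised values `P₀ʰ(a,b), P₁ʰ(a,b)` form a
primitive pair with maximal degree `e * d`. -/
theorem fcomp_core {P₀ P₁ : k[X]} (hcop : IsCoprime P₀ P₁) {e : ℕ}
    (he : max P₀.natDegree P₁.natDegree = e) {a b : k[X]}
    (hprim : ∀ π : k[X], Irreducible π → π ∣ a → π ∣ b → False) {d : ℕ}
    (hd : max a.natDegree b.natDegree = d) :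
    (∀ π : k[X], Irreducible π → π ∣ fcompHom e P₀ a b → π ∣ fcompHom e P₁ a b → False) ∧
      max (fcompHom e P₀ a b).natDegree (fcompHom e P₁ a b).natDegree = e * d := by
  have hle0 : P₀.natDegree ≤ e := he ▸ le_max_left _ _
  have hle1 : P₁.natDegree ≤ e := he ▸ le_max_right _ _
  have hda : a.natDegree ≤ d := hd ▸ le_max_left _ _
  have hdb : b.natDegree ≤ d := hd ▸ le_max_right _ _
  have hcoef := fcomp_exists_coeff_ne_zero hcop he
  obtain ⟨u, v, huv⟩ := hcop
  have bez : ∀ {A : Type _} [CommRing A] [Algebra k A] (x y : A),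
      fcompHom (max u.natDegree v.natDegree) u x y * fcompHom e P₀ x y
        + fcompHom (max u.natDegree v.natDegree) v x y * fcompHom e P₁ x y
        = y ^ (max u.natDegree v.natDegree + e) :=
    fun x y => fcompHom_bezout huv (le_max_left _ _) (le_max_right _ _) hle0 hle1 x y
  refine ⟨?_, ?_⟩
  · intro π hπ h0 h1
    have hπ' : Prime π := hπ.prime
    have hb : π ∣ b := by
      have : π ∣ b ^ (max u.natDegree v.natDegree + e) := by
        rw [← bez a b]
        exact dvd_add (Dvd.dvd.mul_left h0 _) (Dvd.dvd.mul_left h1 _)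
      exact hπ'.dvd_of_dvd_pow this
    have hmain : ∀ P : k[X], P.coeff e ≠ 0 → π ∣ fcompHom e P a b → π ∣ a := by
      intro P hc hP
      have h2 : π ∣ fcompHom e P a b - algebraMap k k[X] (P.coeff e) * a ^ e :=
        hb.trans (fcompHom_dvd_sub e P a b)
      have h3 : π ∣ algebraMap k k[X] (P.coeff e) * a ^ e := by
        have := dvd_sub hP h2
        rwa [sub_sub_cancel] at this
      have hunit : IsUnit (algebraMap k k[X] (P.coeff e)) := by
        rw [← Polynomial.C_eq_algebraMap]
        exact Polynomial.isUnit_C.mpr (IsUnit.mk0 _ hc)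
      exact hπ'.dvd_of_dvd_pow ((hunit.dvd_mul_left).mp h3)
    rcases hcoef with hc | hc
    · exact hprim π hπ (hmain P₀ hc h0) hb
    · exact hprim π hπ (hmain P₁ hc h1) hb
  · apply le_antisymm
    · exact max_le (fcompHom_natDegree_le e P₀ hda hdb) (fcompHom_natDegree_le e P₁ hda hdb)
    · -- some coefficient at `e * d` is nonzero
      have hab : ¬ (a = 0 ∧ b = 0) := fun ⟨ha, hb⟩ =>
        hprim X Polynomial.irreducible_X (ha ▸ dvd_zero _) (hb ▸ dvd_zero _)
      have hlead : a.coeff d ≠ 0 ∨ b.coeff d ≠ 0 := by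
        have key : ∀ q : k[X], q ≠ 0 → q.natDegree = d → q.coeff d ≠ 0 := by
          intro q hq hqd
          rw [← hqd]
          exact Polynomial.leadingCoeff_ne_zero.mpr hq
        rcases max_choice a.natDegree b.natDegree with hm | hm
        · rw [hd] at hm
          by_cases ha : a = 0
          · have hb : b ≠ 0 := fun hb => hab ⟨ha, hb⟩
            have hd0 : d = 0 := by rw [hm, ha]; simp
            exact Or.inr (key b hb (by omega))
          · exact Or.inl (key a ha hm.symm)
        · rw [hd] at hm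
          by_cases hb : b = 0
          · have ha : a ≠ 0 := fun ha => hab ⟨ha, hb⟩
            have hd0 : d = 0 := by rw [hm, hb]; simp
            exact Or.inl (key a ha (by omega))
          · exact Or.inr (key b hb hm.symm)
      have hne : fcompHom e P₀ (a.coeff d) (b.coeff d) ≠ 0 ∨
          fcompHom e P₁ (a.coeff d) (b.coeff d) ≠ 0 := by
        by_cases hβ : b.coeff d = 0
        · have hα : a.coeff d ≠ 0 := by
            rcases hlead with h | h
            · exact h
            · exact absurd hβ h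
          have hval : ∀ P : k[X], fcompHom e P (a.coeff d) (b.coeff d)
              = P.coeff e * a.coeff d ^ e := by
            intro P
            have := fcompHom_dvd_sub e P (a.coeff d) (b.coeff d)
            rw [hβ, zero_dvd_iff, sub_eq_zero] at this
            rw [hβ, this]
            simp
          rw [hval, hval]
          rcases hcoef with hc | hc
          · exact Or.inl (mul_ne_zero hc (pow_ne_zero _ hα))
          · exact Or.inr (mul_ne_zero hc (pow_ne_zero _ hα))
        · by_contra hcon
          push Not at hcon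
          have := bez (a.coeff d) (b.coeff d)
          rw [hcon.1, hcon.2, mul_zero, mul_zero, add_zero] at this
          exact pow_ne_zero _ hβ this.symm
      rcases hne with h | h
      · refine le_trans ?_ (le_max_left _ _)
        exact Polynomial.le_natDegree_of_ne_zero (by rwa [fcompHom_coeff e P₀ hda hdb])
      · refine le_trans ?_ (le_max_right _ _)
        exact Polynomial.le_natDegree_of_ne_zero (by rwa [fcompHom_coeff e P₁ hda hdb])

end Core

section Wrapper

open Fermat.Agent.S52.FHeight

variable {k L : Type*} [Field k] [Field L] [Algebra k[X] L]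

theorem vecDeg_fin_two (p : Fin 2 → k[X]) :
    vecDeg p = max (p 0).natDegree (p 1).natDegree := by
  have : p = ![p 0, p 1] := by
    ext i; fin_cases i <;> rfl
  conv_lhs => rw [this]
  exact vecDeg_pair _ _

theorem isCoprime_of_isPrimVec {p : Fin 2 → k[X]} (hp : IsPrimVec p) : IsCoprime (p 0) (p 1) := by
  obtain ⟨u, hu⟩ := hp.exists_bezout
  rw [Fin.sum_univ_two] at hu
  exact ⟨u 0, u 1, hu⟩

theorem isPrimVec_fin_two {p : Fin 2 → k[X]}
    (h : ∀ π : k[X], Irreducible π → π ∣ p 0 → π ∣ p 1 → False) : IsPrimVec p := by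
  intro π hπ
  by_contra hcon
  push Not at hcon
  exact h π hπ (hcon 0) (hcon 1)

/-- A ring endomorphism `σ` fixing the constants acts on polynomials in `X` by substitution of
`σ X`; with `σ X = a₀ / a₁` this is the homogenisation. -/
theorem map_algebraMap_mul_pow (σ : L →+* L)
    (hσ : ∀ c : k, σ (algebraMap k[X] L (C c)) = algebraMap k[X] L (C c)) {a₀ a₁ : k[X]} {c' : L}
    (h0 : σ (algebraMap k[X] L X) = c' * algebraMap k[X] L a₀)
    (h1 : (1 : L) = c' * algebraMap k[X] L a₁) {e : ℕ} {P : k[X]} (hP : P.natDegree ≤ e) :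
    σ (algebraMap k[X] L P) * algebraMap k[X] L a₁ ^ e
      = algebraMap k[X] L (fcompHom e P a₀ a₁) := by
  have hsum : σ (algebraMap k[X] L P)
      = ∑ i ∈ Finset.range (e + 1), algebraMap k[X] L (C (P.coeff i))
          * (c' * algebraMap k[X] L a₀) ^ i := by
    conv_lhs => rw [Polynomial.as_sum_range' P (e + 1) (by omega)]
    rw [map_sum, map_sum]
    refine Finset.sum_congr rfl fun i _ => ?_
    rw [← Polynomial.C_mul_X_pow_eq_monomial, map_mul, map_mul, map_pow, map_pow, hσ, h0]
  rw [hsum, fcompHom_eq_sum, Finset.Nat.sum_antidiagonal_eq_sum_range_succ_mk, map_sum,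
    Finset.sum_mul]
  refine Finset.sum_congr rfl fun i hi => ?_
  have hi' : i ≤ e := Nat.lt_succ_iff.mp (Finset.mem_range.mp hi)
  have hpow : algebraMap k[X] L a₁ ^ e
      = algebraMap k[X] L a₁ ^ i * algebraMap k[X] L a₁ ^ (e - i) := by
    rw [← pow_add, Nat.add_sub_cancel' hi']
  have h1' : c' * algebraMap k[X] L a₁ = 1 := h1.symm
  rw [map_mul, map_mul, map_pow, map_pow, ← Polynomial.C_eq_algebraMap, hpow, mul_pow]
  calc algebraMap k[X] L (C (P.coeff i)) * (c' ^ i * algebraMap k[X] L a₀ ^ i)
        * (algebraMap k[X] L a₁ ^ i * algebraMap k[X] L a₁ ^ (e - i))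
      = algebraMap k[X] L (C (P.coeff i)) * ((c' * algebraMap k[X] L a₁) ^ i
          * (algebraMap k[X] L a₀ ^ i * algebraMap k[X] L a₁ ^ (e - i))) := by
        rw [mul_pow]; ring
    _ = _ := by rw [h1', one_pow, one_mul]

/-- **Heights multiply under substitution.**  Let `σ` be a ring endomorphism of `L` fixing the
constants of `k[X]`.  If `![σ X, 1]` has height `d` and the vector `v` (of length two) has height
`e`, then `σ ∘ v` has height `e * d`. -/
theorem hasHeight_comp (σ : L →+* L)
    (hσ : ∀ c : k, σ (algebraMap k[X] L (C c)) = algebraMap k[X] L (C c)) {d e : ℕ}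
    (hX : HasHeight k ![σ (algebraMap k[X] L X), 1] d) {v : Fin 2 → L} (hv : HasHeight k v e) :
    HasHeight k (fun i => σ (v i)) (e * d) := by
  obtain ⟨p, c, hc, hp, hvp, hdeg⟩ := hv
  obtain ⟨a, c', hc', ha, hva, hdega⟩ := hX
  have h0 : σ (algebraMap k[X] L X) = c' * algebraMap k[X] L (a 0) := by simpa using hva 0
  have h1 : (1 : L) = c' * algebraMap k[X] L (a 1) := by simpa using hva 1
  have ha1 : algebraMap k[X] L (a 1) ≠ 0 := by
    intro h
    rw [h, mul_zero] at h1
    exact one_ne_zero h1
  have hcop : IsCoprime (p 0) (p 1) := isCoprime_of_isPrimVec hp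
  have he : max (p 0).natDegree (p 1).natDegree = e := by rw [← vecDeg_fin_two, hdeg]
  have hprim : ∀ π : k[X], Irreducible π → π ∣ a 0 → π ∣ a 1 → False := by
    intro π hπ h0' h1'
    obtain ⟨i, hi⟩ := ha π hπ
    fin_cases i
    · exact hi h0'
    · exact hi h1'
  have hd : max (a 0).natDegree (a 1).natDegree = d := by rw [← vecDeg_fin_two, hdega]
  obtain ⟨hprim', hdeg'⟩ := fcomp_core hcop he hprim hd
  have hle : ∀ i, (p i).natDegree ≤ e := fun i => hdeg ▸ natDegree_le_vecDeg p i
  refine ⟨![fcompHom e (p 0) (a 0) (a 1), fcompHom e (p 1) (a 0) (a 1)],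
    σ c / algebraMap k[X] L (a 1) ^ e, div_ne_zero ((map_ne_zero σ).mpr hc) (pow_ne_zero _ ha1),
    isPrimVec_fin_two (by simpa using hprim'), ?_, ?_⟩
  · intro i
    have key := map_algebraMap_mul_pow σ hσ h0 h1 (hle i)
    have hval : σ (v i) = σ c / algebraMap k[X] L (a 1) ^ e
        * algebraMap k[X] L (fcompHom e (p i) (a 0) (a 1)) := by
      rw [hvp i, map_mul, ← key]
      field_simp
    show σ (v i) = _
    rw [hval]
    fin_cases i <;> rfl
  · rw [vecDeg_pair]
    exact hdeg'

end Wrapper

end Fermat.Agent.S52.FCompose
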