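import Mathlib
set_option autoImplicit false
open Polynomial WeierstrassCurve WeierstrassCurve.Affine
namespace Fermat.Agent.S52.FConst
variable {R : Type*} [CommRing R] (W' : WeierstrassCurve.Affine R) {k L : Type*} [Field k]
  [Field L] [DecidableEq k] [DecidableEq L] [Algebra R k] [Algebra R L] [Algebra k L]
  [IsScalarTower R k L] [IsAlgClosed k]

omit [DecidableEq k] in
/-- a monic quadratic over an algebraically closed field has a root. -/
theorem exists_quadratic_root (s t : k) : ∃ y₁ : k, y₁ ^ 2 + s * y₁ - t = 0 := by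
  have hdeg : (X ^ 2 + C s * X - C t : k[X]).degree ≠ 0 := by
    have h2 : (X ^ 2 + C s * X - C t : k[X]).degree = 2 := by
      have : (X ^ 2 + C s * X - C t : k[X]) = X ^ 2 + (C s * X - C t) := by ring
      rw [this, degree_add_eq_left_of_degree_lt]
      · simp
      · calc (C s * X - C t : k[X]).degree ≤ 1 := by
              compute_degree
          _ < (X ^ 2 : k[X]).degree := by
              rw [degree_X_pow]; norm_num
    rw [h2]; norm_num
  obtain ⟨y₁, hy₁⟩ := IsAlgClosed.exists_root (X ^ 2 + C s * X - C t : k[X]) hdeg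
  refine ⟨y₁, ?_⟩
  simpa using hy₁

omit [DecidableEq k] [DecidableEq L] in
/-- the `y`-coordinate of a point over `L` with `x`-coordinate in `k` lies in `k`. -/
theorem exists_algebraMap_eq_y {x₀ : k} {y : L}
    (h : (W'⁄L).Equation (algebraMap k L x₀) y) : ∃ y₀ : k, algebraMap k L y₀ = y := by
  set s : k := (W'⁄k).a₁ * x₀ + (W'⁄k).a₃ with hs
  set t : k := x₀ ^ 3 + (W'⁄k).a₂ * x₀ ^ 2 + (W'⁄k).a₄ * x₀ + (W'⁄k).a₆ with ht
  obtain ⟨y₁, hy₁⟩ := exists_quadratic_root s t
  have key : (y - algebraMap k L y₁) * (y - algebraMap k L (-s - y₁)) = 0 := by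
    rw [Affine.equation_iff] at h
    have e1 : (W'⁄L).a₁ = algebraMap k L (W'⁄k).a₁ := by
      simp [IsScalarTower.algebraMap_apply R k L]
    have e2 : (W'⁄L).a₂ = algebraMap k L (W'⁄k).a₂ := by
      simp [IsScalarTower.algebraMap_apply R k L]
    have e3 : (W'⁄L).a₃ = algebraMap k L (W'⁄k).a₃ := by
      simp [IsScalarTower.algebraMap_apply R k L]
    have e4 : (W'⁄L).a₄ = algebraMap k L (W'⁄k).a₄ := by
      simp [IsScalarTower.algebraMap_apply R k L]
    have e6 : (W'⁄L).a₆ = algebraMap k L (W'⁄k).a₆ := by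
      simp [IsScalarTower.algebraMap_apply R k L]
    rw [e1, e2, e3, e4, e6] at h
    have hy₁' : algebraMap k L y₁ ^ 2 + algebraMap k L s * algebraMap k L y₁
        - algebraMap k L t = 0 := by
      rw [← map_pow, ← map_mul, ← map_add, ← map_sub, hy₁, map_zero]
    have hs' : algebraMap k L s = algebraMap k L (W'⁄k).a₁ * algebraMap k L x₀
        + algebraMap k L (W'⁄k).a₃ := by
      rw [hs]; simp only [map_add, map_mul]
    have ht' : algebraMap k L t = algebraMap k L x₀ ^ 3
        + algebraMap k L (W'⁄k).a₂ * algebraMap k L x₀ ^ 2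
        + algebraMap k L (W'⁄k).a₄ * algebraMap k L x₀ + algebraMap k L (W'⁄k).a₆ := by
      rw [ht]; simp only [map_add, map_mul, map_pow]
    rw [map_sub, map_neg]
    linear_combination h + y * hs' - hy₁' - ht'
  rcases mul_eq_zero.mp key with h1 | h2
  · exact ⟨y₁, (sub_eq_zero.mp h1).symm⟩
  · exact ⟨-s - y₁, (sub_eq_zero.mp h2).symm⟩

/-- over an algebraically closed field `k`, a point of the curve over an extension `L` whose `x`-coordinate lies in `k` comes from a point over `k`. -/
theorem exists_baseChange_eq {x y : L} (h : (W'⁄L).Nonsingular x y)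
    (hx : x ∈ Set.range (algebraMap k L)) :
    ∃ P₀ : (W'⁄k).Point, Point.baseChange k L P₀ = Point.some x y h := by
  obtain ⟨x₀, rfl⟩ := hx
  obtain ⟨y₀, rfl⟩ := exists_algebraMap_eq_y W' (x₀ := x₀) (y := y) h.1
  have h' : (W'⁄L).Nonsingular (Algebra.ofId k L x₀) (Algebra.ofId k L y₀) := h
  have h₀ : (W'⁄k).Nonsingular x₀ y₀ :=
    (W'.baseChange_nonsingular (f := Algebra.ofId k L) (Algebra.ofId k L).injective x₀ y₀).mp h'
  exact ⟨Point.some x₀ y₀ h₀, rfl⟩
end Fermat.Agent.S52.FConst
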