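import Mathlib
set_option autoImplicit false
open Polynomial WeierstrassCurve WeierstrassCurve.Affine
open scoped Polynomial.Bivariate
namespace Fermat.Agent.S52.FEval
variable {k : Type*} [Field k] (W : WeierstrassCurve.Affine k)

/-- The Weierstrass equation of a point `(u, v)` over an extension, as a root condition. -/
theorem eval₂_polynomial_eq_zero {L : Type*} [Field L] [Algebra k L] {u v : L}
    (h : (W.map (algebraMap k L)).toAffine.Equation u v) :
    W.polynomial.eval₂ ((Polynomial.aeval u : k[X] →ₐ[k] L) : k[X] →+* L) v = 0 := by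
  rw [Affine.equation_iff] at h
  simp only [WeierstrassCurve.map_a₁, WeierstrassCurve.map_a₂, WeierstrassCurve.map_a₃,
    WeierstrassCurve.map_a₄, WeierstrassCurve.map_a₆] at h
  rw [Affine.polynomial]
  simp only [eval₂_add, eval₂_sub, eval₂_mul, eval₂_pow, eval₂_X, eval₂_C, RingHom.coe_coe,
    map_add, map_mul, map_pow, aeval_X, aeval_C]
  linear_combination h

/-- Evaluation at a point `(u, v)` of the curve over an extension, on the coordinate ring. -/
noncomputable def evalCoord {L : Type*} [Field L] [Algebra k L] {u v : L}
    (h : (W.map (algebraMap k L)).toAffine.Equation u v) : W.CoordinateRing →ₐ[k] L :=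
  AdjoinRoot.liftAlgHom W.polynomial (Polynomial.aeval u : k[X] →ₐ[k] L) v
    (eval₂_polynomial_eq_zero W h)

theorem evalCoord_mk {L : Type*} [Field L] [Algebra k L] {u v : L}
    (h : (W.map (algebraMap k L)).toAffine.Equation u v) (f : k[X][Y]) :
    evalCoord W h (CoordinateRing.mk W f) =
      f.eval₂ ((Polynomial.aeval u : k[X] →ₐ[k] L) : k[X] →+* L) v := rfl

theorem evalCoord_mk_C {L : Type*} [Field L] [Algebra k L] {u v : L}
    (h : (W.map (algebraMap k L)).toAffine.Equation u v) (p : k[X]) :
    evalCoord W h (CoordinateRing.mk W (C p)) = Polynomial.aeval u p := by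
  rw [evalCoord_mk, eval₂_C]; rfl

theorem evalCoord_mk_X {L : Type*} [Field L] [Algebra k L] {u v : L}
    (h : (W.map (algebraMap k L)).toAffine.Equation u v) :
    evalCoord W h (CoordinateRing.mk W (C X)) = u := by
  rw [evalCoord_mk_C, aeval_X]

theorem evalCoord_mk_Y {L : Type*} [Field L] [Algebra k L] {u v : L}
    (h : (W.map (algebraMap k L)).toAffine.Equation u v) :
    evalCoord W h (CoordinateRing.mk W Y) = v := by
  rw [evalCoord_mk, eval₂_X]

theorem evalCoord_algebraMap {L : Type*} [Field L] [Algebra k L] {u v : L}
    (h : (W.map (algebraMap k L)).toAffine.Equation u v) (p : k[X]) :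
    evalCoord W h (algebraMap k[X] W.CoordinateRing p) = Polynomial.aeval u p :=
  evalCoord_mk_C W h p

/-- Evaluation at a point with transcendental `x`-coordinate is injective on the coordinate
ring. -/
theorem evalCoord_injective {L : Type*} [Field L] [Algebra k L] {u v : L}
    (h : (W.map (algebraMap k L)).toAffine.Equation u v) (hu : Transcendental k u) :
    Function.Injective (evalCoord W h) := by
  rw [injective_iff_map_eq_zero]
  intro z hz
  obtain ⟨p, q, rfl⟩ := CoordinateRing.exists_smul_basis_eq z
  have key : algebraMap k[X] W.CoordinateRing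
      (Algebra.norm k[X] (p • (1 : W.CoordinateRing) + q • CoordinateRing.mk W Y)) =
      CoordinateRing.mk W ((C p + C q * Y) * (C p + C q * (-(Y : k[X][Y]) -
        C (C W.a₁ * X + C W.a₃)))) :=
    CoordinateRing.coe_norm_smul_basis p q
  have hn : Polynomial.aeval u
      (Algebra.norm k[X] (p • (1 : W.CoordinateRing) + q • CoordinateRing.mk W Y)) = 0 := by
    rw [← evalCoord_algebraMap W h, key, map_mul, map_mul]
    have hz' : evalCoord W h (CoordinateRing.mk W (C p + C q * Y)) = 0 := by
      rw [← hz, CoordinateRing.smul, CoordinateRing.smul, mul_one, map_add, map_mul]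
    rw [hz', zero_mul]
  have hn0 : Algebra.norm k[X] (p • (1 : W.CoordinateRing) + q • CoordinateRing.mk W Y) = 0 :=
    transcendental_iff.mp hu _ hn
  have hdeg := CoordinateRing.degree_norm_smul_basis (W' := W) p q
  rw [hn0, degree_zero] at hdeg
  have hmax : max (2 • p.degree) (2 • q.degree + 3) = ⊥ := hdeg.symm
  rw [max_eq_bot] at hmax
  obtain ⟨h1, h2⟩ := hmax
  have hp : p = 0 := by
    rw [two_nsmul, WithBot.add_eq_bot, or_self] at h1
    exact degree_eq_bot.mp h1
  have hq : q = 0 := by
    rw [WithBot.add_eq_bot, two_nsmul, WithBot.add_eq_bot, or_self] at h2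
    rcases h2 with h2 | h2
    · exact degree_eq_bot.mp h2
    · exact absurd h2 (by simp)
  rw [hp, hq, zero_smul, zero_smul, add_zero]

/-- Evaluation at a point `(u, v)` of the curve over an extension `L`, with `u` transcendental over `k`: a `k`-algebra homomorphism from the function field to `L`. -/
theorem exists_evalHom {L : Type*} [Field L] [Algebra k L] {u v : L}
    (h : (W.map (algebraMap k L)).toAffine.Equation u v) (hu : Transcendental k u) :
    ∃ f : W.FunctionField →ₐ[k] L,
      f (algebraMap W.CoordinateRing W.FunctionField (CoordinateRing.mk W (C X))) = u ∧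
      f (algebraMap W.CoordinateRing W.FunctionField (CoordinateRing.mk W Y)) = v := by
  have hinj := evalCoord_injective W h hu
  refine ⟨IsFractionRing.liftAlgHom (K := W.FunctionField) hinj, ?_, ?_⟩
  · rw [IsFractionRing.liftAlgHom_apply, IsFractionRing.lift_algebraMap]
    exact evalCoord_mk_X W h
  · rw [IsFractionRing.liftAlgHom_apply, IsFractionRing.lift_algebraMap]
    exact evalCoord_mk_Y W h
end Fermat.Agent.S52.FEval
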