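import Fermat.Agent.S52.FAct
import Fermat.Agent.S52.FEval
import Fermat.Agent.S52.FConst
import Fermat.Agent.S52.FCompose

/-!
# P17 (S52), block F: substitution endomorphisms of the function field (F4, F5)

`C` an elliptic curve over `ZMod ℓ`, `k` an algebraically closed field over `ZMod ℓ`,
`KK C k` the function field of `C` over `k`, `act C k f = f(φ)` on `C(KK C k)`.

* `exists_subst`: a point `(x, y)` of `C` over `KK C k` with `x` transcendental over `k` is the
  image of the generic point under a `k`-algebra endomorphism of `KK C k`.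
* `act_mul_height` (F4): heights are multiplicative along `ℤ[φ]`:
  `h(f g · P₀) = h(f · P₀) h(g · P₀)` for the generic point `P₀`.
* `act_eq_zero_of_height_zero` (F5): if `f · P₀` has height `0` then `f(φ)` kills `C(k)`.
* `frobenius_relation_of_height`: the shape used by the final assembly.
-/

set_option autoImplicit false

namespace Fermat.Agent.S52.FSubst

open Polynomial WeierstrassCurve WeierstrassCurve.Affine
open Fermat.Agent.S52.F Fermat.Agent.S52.FHeight

variable {ℓ : ℕ} [Fact ℓ.Prime] (C : WeierstrassCurve (ZMod ℓ)) (k : Type*) [Field k]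
  [Algebra (ZMod ℓ) k]

/-! ### `xRep` and maps of points -/

theorem xRep_map (ψ : KK C k →ₐ[ZMod ℓ] KK C k) (P : (C.toAffine⁄(KK C k)).Point) :
    (Point.map (W' := C.toAffine) ψ P).xRep = fun i => ψ (P.xRep i) := by
  cases P with
  | zero =>
    funext i
    fin_cases i
    · exact (map_one ψ).symm
    · exact (map_zero ψ).symm
  | some x y h =>
    funext i
    fin_cases i
    · rfl
    · exact (map_one ψ).symm

theorem map_some_eq (ψ : KK C k →ₐ[ZMod ℓ] KK C k) {x y x' y' : KK C k}
    (h : (C.toAffine⁄(KK C k)).Nonsingular x y) (h' : (C.toAffine⁄(KK C k)).Nonsingular x' y')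
    (hx : ψ x = x') (hy : ψ y = y') :
    Point.map (W' := C.toAffine) ψ (Point.some x y h) = Point.some x' y' h' := by
  subst hx hy
  rfl

/-! ### Constant points -/

section Const

variable [DecidableEq k]

/-- A `ZMod ℓ`-algebra endomorphism fixing `k` fixes the constant points. -/
theorem map_baseChange_of_fix (ψ : KK C k →ₐ[ZMod ℓ] KK C k)
    (hψ : ∀ a : k, ψ (algebraMap k (KK C k) a) = algebraMap k (KK C k) a)
    (S : (C.toAffine⁄k).Point) :
    Point.map (W' := C.toAffine) ψ (Point.baseChange (W' := C.toAffine) k (KK C k) S)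
      = Point.baseChange (W' := C.toAffine) k (KK C k) S := by
  cases S with
  | zero => rfl
  | some a b h =>
    exact map_some_eq C k ψ _ _ (hψ a) (hψ b)

/-- A constant point has height `0`. -/
theorem hasHeight_baseChange (S : (C.toAffine⁄k).Point) :
    HasHeight k (Point.baseChange (W' := C.toAffine) k (KK C k) S).xRep 0 := by
  cases S with
  | zero => exact hasHeight_one_zero
  | some a b h =>
    have h1 := hasHeight_poly_one (k := k) (L := KK C k) (Polynomial.C a)
    rw [Polynomial.natDegree_C, algebraMap_C] at h1
    exact h1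

/-- The Frobenius on the function field restricts to the Frobenius on constant points. -/
theorem frobPt_baseChange (φ : k →ₐ[ZMod ℓ] k) (hφ : ∀ x : k, φ x = x ^ ℓ)
    (S : (C.toAffine⁄k).Point) :
    frobPt C k (Point.baseChange (W' := C.toAffine) k (KK C k) S)
      = Point.baseChange (W' := C.toAffine) k (KK C k) (Point.map (W' := C.toAffine) φ S) := by
  cases S with
  | zero => rfl
  | some a b h =>
    have ha : frobK C k (algebraMap k (KK C k) a) = algebraMap k (KK C k) (φ a) := by
      rw [frobK_apply, hφ, map_pow]
    have hb : frobK C k (algebraMap k (KK C k) b) = algebraMap k (KK C k) (φ b) := by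
      rw [frobK_apply, hφ, map_pow]
    exact map_some_eq C k (frobK C k) _ _ ha hb

/-- `f(φ)` on the function field restricts to `f(φ)` on constant points. -/
theorem act_baseChange (φ : k →ₐ[ZMod ℓ] k) (hφ : ∀ x : k, φ x = x ^ ℓ) (f : ℤ[X])
    (S : (C.toAffine⁄k).Point) :
    act C k f (Point.baseChange (W' := C.toAffine) k (KK C k) S)
      = Point.baseChange (W' := C.toAffine) k (KK C k)
          (actE (Point.map (W' := C.toAffine) φ) f S) :=
  (map_actE (Point.baseChange (W' := C.toAffine) k (KK C k)) (Point.map (W' := C.toAffine) φ)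
    (frobPt C k) (fun a => (frobPt_baseChange C k φ hφ a).symm) f S).symm

variable [IsAlgClosed k]

/-- Over an algebraically closed field, a point of height `0` is constant. -/
theorem exists_baseChange_of_height_zero {P : (C.toAffine⁄(KK C k)).Point}
    (h : HasHeight k P.xRep 0) :
    ∃ S : (C.toAffine⁄k).Point, Point.baseChange (W' := C.toAffine) k (KK C k) S = P := by
  cases P with
  | zero => exact ⟨0, rfl⟩
  | some x y hxy =>
    obtain ⟨a, ha⟩ := HasHeight.exists_const_of_one (k := k) h
    exact FConst.exists_baseChange_eq (W' := C.toAffine) hxy ⟨a, ha.symm⟩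

omit [DecidableEq k] in
/-- Over an algebraically closed field, an affine point which is not of height `0` has a
transcendental `x`-coordinate. -/
theorem transcendental_of_not_height_zero {x y : KK C k}
    (hxy : (C.toAffine⁄(KK C k)).Nonsingular x y)
    (h : ¬ HasHeight k (Point.some x y hxy).xRep 0) : Transcendental k x := by
  intro halg
  apply h
  have hint : IsIntegral k x := halg.isIntegral
  have hdeg : (minpoly k x).degree = 1 :=
    IsAlgClosed.degree_eq_one_of_irreducible k (minpoly.irreducible hint)
  obtain ⟨a, ha⟩ := minpoly.mem_range_of_degree_eq_one k x hdeg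
  have h1 := hasHeight_poly_one (k := k) (L := KK C k) (Polynomial.C a)
  rw [Polynomial.natDegree_C, algebraMap_C, ha] at h1
  exact h1

end Const

/-! ### The substitution endomorphism attached to a point -/

/-- The curve `C` base changed to `k` and then to `KK C k` is `C` base changed to `KK C k`. -/
theorem map_baseChange_KK :
    (C.toAffine⁄k).map (algebraMap k (KK C k)) = C.toAffine⁄(KK C k) :=
  Affine.map_baseChange (W := C.toAffine) (Algebra.ofId k (KK C k))

/-- A point `(x, y)` of `C` over `KK C k` with `x` transcendental over `k` is the image of the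
generic point under a `k`-algebra endomorphism of the function field. -/
theorem exists_subst {x y : KK C k} (h : (C.toAffine⁄(KK C k)).Equation x y)
    (hx : Transcendental k x) :
    ∃ ψ : KK C k →ₐ[ZMod ℓ] KK C k,
      (∀ a : k, ψ (algebraMap k (KK C k) a) = algebraMap k (KK C k) a) ∧
      ψ (genX C k) = x ∧ ψ (genY C k) = y := by
  have h' : ((C.toAffine⁄k).map (algebraMap k (KK C k))).toAffine.Equation x y := by
    rw [map_baseChange_KK]; exact h
  obtain ⟨f, hfX, hfY⟩ := FEval.exists_evalHom (C.toAffine⁄k) h' hx
  refine ⟨f.restrictScalars (ZMod ℓ), fun a => f.commutes a, ?_, hfY⟩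
  rw [genX, IsScalarTower.algebraMap_apply k[X] (CR C k) (KK C k)]
  exact hfX

variable [C.IsElliptic]

theorem genPt_xRep : (genPt C k).xRep = ![algebraMap k[X] (KK C k) X, 1] := rfl

/-- The generic point has height `1`. -/
theorem hasHeight_genPt : HasHeight k (genPt C k).xRep 1 := by
  have h1 := hasHeight_poly_one (k := k) (L := KK C k) (X : k[X])
  rw [Polynomial.natDegree_X] at h1
  exact h1

section Main

variable [DecidableEq k] [IsAlgClosed k]

omit [DecidableEq k] in
/-- A point which is not of height `0` is the image of the generic point under an endomorphism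
of the function field fixing `k`. -/
theorem exists_subst_point {Q : (C.toAffine⁄(KK C k)).Point} (hQ : ¬ HasHeight k Q.xRep 0) :
    ∃ ψ : KK C k →ₐ[ZMod ℓ] KK C k,
      (∀ a : k, ψ (algebraMap k (KK C k) a) = algebraMap k (KK C k) a) ∧
      Point.map (W' := C.toAffine) ψ (genPt C k) = Q := by
  cases Q with
  | zero => exact absurd hasHeight_one_zero hQ
  | some x y hxy =>
    obtain ⟨ψ, hψ, hX, hY⟩ :=
      exists_subst C k hxy.1 (transcendental_of_not_height_zero C k hxy hQ)
    exact ⟨ψ, hψ, map_some_eq C k ψ _ _ hX hY⟩

/-- **F4: multiplicativity of heights along `ℤ[φ]`.** -/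
theorem act_mul_height (a b : ℤ[X]) (d₁ d₂ : ℕ)
    (h₁ : HasHeight k (act C k a (genPt C k)).xRep d₁)
    (h₂ : HasHeight k (act C k b (genPt C k)).xRep d₂) :
    HasHeight k (act C k (a * b) (genPt C k)).xRep (d₁ * d₂) := by
  have hinj := algebraMap_polynomial_injective C k
  have hmul : act C k (a * b) (genPt C k) = act C k a (act C k b (genPt C k)) :=
    actE_mul (frobPt C k) a b (genPt C k)
  rw [hmul]
  by_cases h0 : HasHeight k (act C k b (genPt C k)).xRep 0
  · -- constant case
    have hd : d₂ = 0 := h₂.unique hinj h0
    obtain ⟨S, hS⟩ := exists_baseChange_of_height_zero C k h0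
    have : CharP k ℓ := charP_of_injective_algebraMap (algebraMap (ZMod ℓ) k).injective ℓ
    have hφ : ∀ x : k, (zmodAlgHom (ℓ := ℓ) (frobenius k ℓ)) x = x ^ ℓ := fun x => rfl
    rw [hd, Nat.mul_zero, ← hS, act_baseChange C k _ hφ]
    exact hasHeight_baseChange C k _
  · obtain ⟨ψ, hψ, hQ⟩ := exists_subst_point C k h0
    rw [← hQ, ← map_act, xRep_map]
    refine FCompose.hasHeight_comp (k := k) (ψ : KK C k →+* KK C k) ?_ ?_ h₁
    · intro c
      rw [algebraMap_C]
      exact hψ c
    · have hx : (Point.map (W' := C.toAffine) ψ (genPt C k)).xRep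
          = ![ψ (algebraMap k[X] (KK C k) X), 1] := by
        rw [xRep_map, genPt_xRep]
        funext i
        fin_cases i
        · rfl
        · exact map_one ψ
      rw [hQ] at hx
      have h₂' := h₂
      rw [hx] at h₂'
      exact h₂' 

/-- **F5: nondegeneracy.**  If `f(φ)` maps the generic point to a point of height `0`, then
`f(φ)` kills every `k`-point. -/
theorem act_eq_zero_of_height_zero (φ : k →ₐ[ZMod ℓ] k) (hφ : ∀ x : k, φ x = x ^ ℓ) (f : ℤ[X])
    (h : HasHeight k (act C k f (genPt C k)).xRep 0) (S : (C.toAffine⁄k).Point) :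
    actE (Point.map (W' := C.toAffine) φ) f S = 0 := by
  have hinj := algebraMap_polynomial_injective C k
  obtain ⟨R₀, hR₀⟩ := exists_baseChange_of_height_zero C k h
  -- the translate of the generic point by `S` is not constant
  have hQ : ¬ HasHeight k
      (genPt C k + Point.baseChange (W' := C.toAffine) k (KK C k) S).xRep 0 := by
    intro hcon
    obtain ⟨Q₀, hQ₀⟩ := exists_baseChange_of_height_zero C k hcon
    have hgen : genPt C k = Point.baseChange (W' := C.toAffine) k (KK C k) (Q₀ - S) := by
      rw [map_sub, hQ₀, add_sub_cancel_right]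
    have h0 : HasHeight k (genPt C k).xRep 0 := by
      rw [hgen]; exact hasHeight_baseChange C k _
    exact one_ne_zero ((hasHeight_genPt C k).unique hinj h0)
  obtain ⟨ψ, hψ, hψQ⟩ := exists_subst_point C k hQ
  have e1 : act C k f (genPt C k + Point.baseChange (W' := C.toAffine) k (KK C k) S)
      = act C k f (genPt C k) := by
    rw [← hψQ, ← map_act, ← hR₀, map_baseChange_of_fix C k ψ hψ]
  rw [map_add, add_eq_left, act_baseChange C k φ hφ] at e1
  have e2 : Point.baseChange (W' := C.toAffine) k (KK C k)
      (actE (Point.map (W' := C.toAffine) φ) f S)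
      = Point.baseChange (W' := C.toAffine) k (KK C k) 0 := by
    rw [e1, map_zero]
  exact Point.map_injective _ e2

/-- The shape used in the final assembly: if `φ²P₀ - t φP₀ + n P₀` has height `0` for the
generic point `P₀`, then `φ² - t φ + n` kills every `k`-point. -/
theorem frobenius_relation_of_height (φ : k →ₐ[ZMod ℓ] k) (hφ : ∀ x : k, φ x = x ^ ℓ) (t n : ℤ)
    (h : HasHeight k (frobPt C k (frobPt C k (genPt C k)) - t • frobPt C k (genPt C k)
      + n • genPt C k).xRep 0) (S : (C.toAffine⁄k).Point) :
    Point.map (W' := C.toAffine) φ (Point.map (W' := C.toAffine) φ S)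
      - t • Point.map (W' := C.toAffine) φ S + n • S = 0 := by
  have key : ∀ {A : Type _} [AddCommGroup A] (Φ : A →+ A) (a : A),
      actE Φ (X ^ 2 - Polynomial.C t * X + Polynomial.C n) a = Φ (Φ a) - t • Φ a + n • a := by
    intro A _ Φ a
    rw [actE_add, actE_sub, actE_C, actE_mul, actE_C, actE_X, pow_two, actE_mul, actE_X, actE_X]
  have h' : HasHeight k (act C k (X ^ 2 - Polynomial.C t * X + Polynomial.C n) (genPt C k)).xRep 0 := by
    rw [act, key]; exact h
  have := act_eq_zero_of_height_zero C k φ hφ _ h' S
  rwa [key] at this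

end Main

end Fermat.Agent.S52.FSubst
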