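import Fermat.Agent.S52.FAct
import Fermat.Agent.S52.FEval

/-!
# P17 (S52), block F: the translation argument

`C` is an elliptic curve over `ZMod ℓ`, `k` a field of characteristic `ℓ`, `KK C k` the function
field of `C` over `k` and `genPt C k` the generic point.

* `ftr_genX_transcendental`: the coordinate function `X` is transcendental over `k`.
* `ftr_exists_transcendental`: for a constant point `P₀ ∈ C(k)` the translate `genPt + P₀` is an
  affine point whose `x`-coordinate is transcendental over `k`.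
* `ftr_exists_translation`: there is a `k`-algebra endomorphism `ψ` of the function field with
  `ψ(genPt) = genPt + P₀`.
* `ftr_act_eq_zero_of_const`: if `f(φ)(genPt)` is a constant point, then `f(φ) = 0` on `C(k)`.
-/

set_option autoImplicit false

namespace Fermat.Agent.S52.F

open Polynomial WeierstrassCurve WeierstrassCurve.Affine

variable {ℓ : ℕ} [Fact ℓ.Prime] (C : WeierstrassCurve (ZMod ℓ)) (k : Type*) [Field k]
  [Algebra (ZMod ℓ) k]

/-- The coordinate function `X` is transcendental over the field of constants. -/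
theorem ftr_genX_transcendental : Transcendental k (genX C k) := by
  rw [transcendental_iff_injective]
  intro p q hpq
  rw [← algebraMap_eq_aeval, ← algebraMap_eq_aeval] at hpq
  exact algebraMap_polynomial_injective C k hpq

/-- The `x`-coordinate of the sum of two affine points with coordinates in an intermediate field
`A` lies in `A`. -/
theorem ftr_add_x_mem (A : IntermediateField k (KK C k)) {x₁ y₁ x₂ y₂ x y : KK C k}
    (h₁ : (C.toAffine⁄(KK C k)).Nonsingular x₁ y₁) (h₂ : (C.toAffine⁄(KK C k)).Nonsingular x₂ y₂)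
    (h : (C.toAffine⁄(KK C k)).Nonsingular x y)
    (hx₁ : x₁ ∈ A) (hy₁ : y₁ ∈ A) (hx₂ : x₂ ∈ A) (hy₂ : y₂ ∈ A)
    (hadd : Point.some x₁ y₁ h₁ + Point.some x₂ y₂ h₂ = Point.some x y h) : x ∈ A := by
  classical
  by_cases hxy : x₁ = x₂ ∧ y₁ = (C.toAffine⁄(KK C k)).negY x₂ y₂
  · rw [Point.add_of_Y_eq hxy.1 hxy.2] at hadd
    exact absurd hadd.symm (Point.some_ne_zero h)
  · rw [Point.add_some hxy] at hadd
    have hx : (C.toAffine⁄(KK C k)).addX x₁ x₂ ((C.toAffine⁄(KK C k)).slope x₁ x₂ y₁ y₂) = x :=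
      (Point.some.inj hadd).1
    rw [← hx]
    have e₁ : x₁ = A.val ⟨x₁, hx₁⟩ := rfl
    have e₂ : x₂ = A.val ⟨x₂, hx₂⟩ := rfl
    have e₃ : y₁ = A.val ⟨y₁, hy₁⟩ := rfl
    have e₄ : y₂ = A.val ⟨y₂, hy₂⟩ := rfl
    rw [e₁, e₂, e₃, e₄, baseChange_slope (W' := C.toAffine) (A.val), baseChange_addX]
    exact SetLike.coe_mem _

/-- The `y`-coordinate of a point whose `x`-coordinate is algebraic over `k` is algebraic
over `k`. -/
theorem ftr_y_mem {u v : KK C k} (h : (C.toAffine⁄(KK C k)).Equation u v)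
    (hu : u ∈ algebraicClosure k (KK C k)) : v ∈ algebraicClosure k (KK C k) := by
  classical
  set A : IntermediateField k (KK C k) := algebraicClosure k (KK C k) with hA
  have heq := (Affine.equation_iff _ _).mp h
  simp only [Affine.baseChange_a₁, Affine.baseChange_a₂, Affine.baseChange_a₃,
    Affine.baseChange_a₄, Affine.baseChange_a₆] at heq
  have ha : ∀ a : ZMod ℓ, algebraMap (ZMod ℓ) (KK C k) a ∈ A := fun a => by
    rw [IsScalarTower.algebraMap_apply (ZMod ℓ) k (KK C k)]
    exact A.algebraMap_mem _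
  let b : A := ⟨algebraMap (ZMod ℓ) (KK C k) C.a₁ * u + algebraMap (ZMod ℓ) (KK C k) C.a₃,
    A.add_mem (A.mul_mem (ha _) hu) (ha _)⟩
  let c : A := ⟨u ^ 3 + algebraMap (ZMod ℓ) (KK C k) C.a₂ * u ^ 2
      + algebraMap (ZMod ℓ) (KK C k) C.a₄ * u + algebraMap (ZMod ℓ) (KK C k) C.a₆,
    A.add_mem (A.add_mem (A.add_mem (A.pow_mem hu 3) (A.mul_mem (ha _) (A.pow_mem hu 2)))
      (A.mul_mem (ha _) hu)) (ha _)⟩
  have hint : IsIntegral A v := by
    refine ⟨X ^ 2 + (Polynomial.C b * X + Polynomial.C (-c)), ?_, ?_⟩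
    · exact Polynomial.monic_X_pow_add (lt_of_le_of_lt (Polynomial.degree_linear_le) (by norm_num))
    · simp only [Polynomial.eval₂_add, Polynomial.eval₂_pow, Polynomial.eval₂_X,
        Polynomial.eval₂_mul, Polynomial.eval₂_C, map_neg, Polynomial.eval₂_neg]
      show v ^ 2 + ((algebraMap (ZMod ℓ) (KK C k) C.a₁ * u + algebraMap (ZMod ℓ) (KK C k) C.a₃) * v
        + -(u ^ 3 + algebraMap (ZMod ℓ) (KK C k) C.a₂ * u ^ 2
          + algebraMap (ZMod ℓ) (KK C k) C.a₄ * u + algebraMap (ZMod ℓ) (KK C k) C.a₆)) = 0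
      linear_combination heq
  have hk : IsIntegral k v := isIntegral_trans (R := k) v hint
  exact mem_algebraicClosure_iff.mpr hk.isAlgebraic

variable [DecidableEq k] [C.IsElliptic]

/-- For a constant point `P₀ ∈ C(k)` the translate `genPt + P₀` of the generic point is an affine
point whose `x`-coordinate is transcendental over `k`. -/
theorem ftr_exists_transcendental (P₀ : (C.toAffine⁄k).Point) :
    ∃ (u v : KK C k) (h : (C.toAffine⁄(KK C k)).Nonsingular u v),
      genPt C k + Point.baseChange k (KK C k) P₀ = Point.some u v h ∧ Transcendental k u := by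
  classical
  set A : IntermediateField k (KK C k) := algebraicClosure k (KK C k) with hA
  have hXA : genX C k ∉ A := fun h =>
    ftr_genX_transcendental C k (mem_algebraicClosure_iff.mp h)
  have hconst : ∀ P : (C.toAffine⁄k).Point, Point.baseChange k (KK C k) P = 0 ∨
      ∃ (x y : KK C k) (h : (C.toAffine⁄(KK C k)).Nonsingular x y),
        Point.baseChange k (KK C k) P = Point.some x y h ∧ x ∈ A ∧ y ∈ A := by
    rintro (_ | ⟨x, y, h⟩)
    · left; rfl
    · right
      exact ⟨_, _, _, Point.map_some _ h, A.algebraMap_mem x, A.algebraMap_mem y⟩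
  rcases hQ : genPt C k + Point.baseChange k (KK C k) P₀ with _ | ⟨u, v, h⟩
  · exfalso
    have h1 : genPt C k = Point.baseChange k (KK C k) (-P₀) := by
      rw [map_neg]
      exact eq_neg_of_add_eq_zero_left hQ
    rcases hconst (-P₀) with h0 | ⟨x, y, h, hxy, hx, hy⟩
    · rw [h0] at h1
      exact Point.some_ne_zero _ h1
    · rw [hxy, genPt] at h1
      exact hXA ((Point.some.inj h1).1 ▸ hx)
  · refine ⟨u, v, h, rfl, ?_⟩
    intro hu
    have huA : u ∈ A := mem_algebraicClosure_iff.mpr hu
    have hvA : v ∈ A := ftr_y_mem C k h.1 huA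
    have h1 : genPt C k = Point.some u v h + Point.baseChange k (KK C k) (-P₀) := by
      rw [← hQ, map_neg]
      abel
    rcases hconst (-P₀) with h0 | ⟨x, y, h', hxy, hx, hy⟩
    · rw [h0, add_zero, genPt] at h1
      exact hXA ((Point.some.inj h1).1 ▸ huA)
    · rw [hxy] at h1
      exact hXA (ftr_add_x_mem C k A h h' (gen_nonsingular C k) huA hvA hx hy h1.symm)

/-- Translation by a constant point `P₀ ∈ C(k)`: a `k`-algebra endomorphism `ψ` of the function
field with `ψ(genPt) = genPt + P₀`. -/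
theorem ftr_exists_translation (P₀ : (C.toAffine⁄k).Point) :
    ∃ ψ : KK C k →ₐ[k] KK C k,
      Point.map (W' := C.toAffine) (ψ.restrictScalars (ZMod ℓ)) (genPt C k) =
        genPt C k + Point.baseChange k (KK C k) P₀ := by
  obtain ⟨u, v, h, hQ, hu⟩ := ftr_exists_transcendental C k P₀
  have heq : ((C.toAffine⁄k).map (algebraMap k (KK C k))).toAffine.Equation u v := by
    have e : (C.toAffine⁄k).map (algebraMap k (KK C k)) = C.toAffine⁄(KK C k) :=
      WeierstrassCurve.map_baseChange (W := C) (Algebra.ofId k (KK C k))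
    rw [e]
    exact h.1
  obtain ⟨ψ, hX, hY⟩ := FEval.exists_evalHom (C.toAffine⁄k) heq hu
  refine ⟨ψ, ?_⟩
  rw [hQ, genPt, Point.map_some]
  simp only [Point.some.injEq]
  exact ⟨hX, hY⟩

omit [C.IsElliptic] in
/-- A `k`-algebra endomorphism of the function field fixes the constant points. -/
theorem ftr_map_baseChange (ψ : KK C k →ₐ[k] KK C k) (R₀ : (C.toAffine⁄k).Point) :
    Point.map (W' := C.toAffine) (ψ.restrictScalars (ZMod ℓ)) (Point.baseChange k (KK C k) R₀) =
      Point.baseChange k (KK C k) R₀ := by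
  rcases R₀ with _ | ⟨x, y, h⟩
  · rfl
  · rw [Point.baseChange, Point.map_some, Point.map_some]
    simp only [Point.some.injEq]
    exact ⟨ψ.commutes x, ψ.commutes y⟩

/-- **Translation argument.**  If `f(φ)` maps the generic point to a constant point, then `f(φ)`
kills every constant point. -/
theorem ftr_act_baseChange_eq_zero (f : ℤ[X]) (R₀ : (C.toAffine⁄k).Point)
    (hR : act C k f (genPt C k) = Point.baseChange k (KK C k) R₀) (P₀ : (C.toAffine⁄k).Point) :
    act C k f (Point.baseChange k (KK C k) P₀) = 0 := by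
  obtain ⟨ψ, hψ⟩ := ftr_exists_translation C k P₀
  have h1 := congrArg (Point.map (W' := C.toAffine) (ψ.restrictScalars (ZMod ℓ))) hR
  rw [map_act, hψ, map_add, hR, ftr_map_baseChange] at h1
  exact add_eq_left.mp h1

omit [C.IsElliptic] in
/-- The base change of points to the function field intertwines a Frobenius of `k` with the
Frobenius of the function field. -/
theorem ftr_baseChange_frob (φ : k →ₐ[ZMod ℓ] k) (hφ : ∀ x : k, φ x = x ^ ℓ)
    (P : (C.toAffine⁄k).Point) :
    Point.baseChange k (KK C k) (Point.map (W' := C.toAffine) φ P) =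
      frobPt C k (Point.baseChange k (KK C k) P) := by
  rcases P with _ | ⟨x, y, h⟩
  · rfl
  · rw [Point.map_some, Point.baseChange, Point.map_some, Point.map_some, frobPt_some]
    simp only [Point.some.injEq, frobK_apply, hφ]
    exact ⟨map_pow _ _ _, map_pow _ _ _⟩

/-- **Translation argument, final form.**  If `f(φ)` maps the generic point of `C` over `k` to a
constant point, then `f(φ) = 0` on `C(k)`, for every endomorphism `φ` of `k` inducing the
`ℓ`-power map. -/
theorem ftr_actE_eq_zero_of_const (φ : k →ₐ[ZMod ℓ] k) (hφ : ∀ x : k, φ x = x ^ ℓ) (f : ℤ[X])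
    (R₀ : (C.toAffine⁄k).Point)
    (hR : act C k f (genPt C k) = Point.baseChange k (KK C k) R₀) (P₀ : (C.toAffine⁄k).Point) :
    actE (Point.map (W' := C.toAffine) φ) f P₀ = 0 := by
  apply Point.map_injective (W' := C.toAffine) (Algebra.ofId k (KK C k))
  rw [map_zero]
  have h := map_actE (Point.baseChange k (KK C k)) (Point.map (W' := C.toAffine) φ) (frobPt C k)
    (ftr_baseChange_frob C k φ hφ) f P₀
  rw [Point.baseChange] at h
  rw [h]
  exact ftr_act_baseChange_eq_zero C k f R₀ hR P₀

omit [C.IsElliptic] in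
/-- Descent along a field extension `j : k → L`: if `f(Φ)` kills the image of `P`, then `f(φ)`
kills `P`. -/
theorem ftr_actE_descent {L : Type*} [Field L] [Algebra (ZMod ℓ) L] [DecidableEq L]
    (j : k →ₐ[ZMod ℓ] L) (φ : k →ₐ[ZMod ℓ] k) (Φ : L →ₐ[ZMod ℓ] L) (hφ : ∀ x : k, φ x = x ^ ℓ)
    (hΦ : ∀ x : L, Φ x = x ^ ℓ) (f : ℤ[X]) (P : (C.toAffine⁄k).Point)
    (h : actE (Point.map (W' := C.toAffine) Φ) f (Point.map (W' := C.toAffine) j P) = 0) :
    actE (Point.map (W' := C.toAffine) φ) f P = 0 := by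
  apply Point.map_injective (W' := C.toAffine) j
  rw [map_zero, map_actE (Point.map (W' := C.toAffine) j) (Point.map (W' := C.toAffine) φ)
    (Point.map (W' := C.toAffine) Φ) ?_ f P]
  · exact h
  · intro Q
    have hc : j.comp φ = Φ.comp j := AlgHom.ext fun x => by
      rw [AlgHom.comp_apply, AlgHom.comp_apply, hφ, hΦ, map_pow]
    rw [Point.map_map, Point.map_map, hc]

/-- The action of a quadratic polynomial `T² - a T + n`. -/
theorem ftr_actE_quadratic {A : Type*} [AddCommGroup A] (Φ : A →+ A) (a n : ℤ) (P : A) :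
    actE Φ (X ^ 2 - Polynomial.C a * X + Polynomial.C n) P = Φ (Φ P) - a • Φ P + n • P := by
  rw [actE_add, actE_sub, pow_two, actE_mul, actE_mul, actE_X, actE_X, actE_C, actE_C]

end Fermat.Agent.S52.F

namespace Fermat.Agent.S52.F

open Polynomial WeierstrassCurve WeierstrassCurve.Affine

/-- **Descent from the algebraic closure.**  If `φ'² - t φ' + n = 0` on the points of `C` over an
algebraic closure of `k` for every endomorphism `φ'` inducing the `ℓ`-power map, then
`φ² - t φ + n = 0` on `C(k)`. -/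
theorem ftr_descend {ℓ : ℕ} [Fact ℓ.Prime] (C : WeierstrassCurve (ZMod ℓ)) (t n : ℤ) {k : Type*}
    [Field k] [Algebra (ZMod ℓ) k] [DecidableEq k] [DecidableEq (AlgebraicClosure k)]
    (H : ∀ φ' : AlgebraicClosure k →ₐ[ZMod ℓ] AlgebraicClosure k, (∀ x, φ' x = x ^ ℓ) →
      ∀ S : (C.toAffine⁄(AlgebraicClosure k)).Point,
        Point.map (W' := C.toAffine) φ' (Point.map (W' := C.toAffine) φ' S) -
          t • Point.map (W' := C.toAffine) φ' S + n • S = 0)
    (φ : k →ₐ[ZMod ℓ] k) (hφ : ∀ x : k, φ x = x ^ ℓ) (P : (C.toAffine⁄k).Point) :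
    Point.map (W' := C.toAffine) φ (Point.map (W' := C.toAffine) φ P) -
      t • Point.map (W' := C.toAffine) φ P + n • P = 0 := by
  have : CharP (AlgebraicClosure k) ℓ :=
    charP_of_injective_algebraMap (algebraMap (ZMod ℓ) (AlgebraicClosure k)).injective ℓ
  let Φ : AlgebraicClosure k →ₐ[ZMod ℓ] AlgebraicClosure k :=
    zmodAlgHom (frobenius (AlgebraicClosure k) ℓ)
  have hΦ : ∀ x : AlgebraicClosure k, Φ x = x ^ ℓ := fun x => rfl
  let j : k →ₐ[ZMod ℓ] AlgebraicClosure k := IsScalarTower.toAlgHom (ZMod ℓ) k (AlgebraicClosure k)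
  rw [← ftr_actE_quadratic]
  apply ftr_actE_descent C k j φ Φ hφ hΦ
  rw [ftr_actE_quadratic]
  exact H Φ hΦ _

universe u

/-- **Reduction of the Frobenius relation to the generic point.**  If, over every algebraically
closed field `L` of characteristic `ℓ`, the point `φ²(g) - a φ(g) + ℓ g` (`g` the generic point of
`C` over its function field over `L`) is a constant point, then `φ² - a φ + ℓ = 0` on `C(k)` for
every field `k` of characteristic `ℓ` and every endomorphism `φ` of `k` inducing the `ℓ`-power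
map. -/
theorem ftr_relation_of_generic {ℓ : ℕ} [Fact ℓ.Prime] (C : WeierstrassCurve (ZMod ℓ))
    [C.IsElliptic] (a : ℤ)
    (hgen : ∀ (L : Type u) [Field L] [Algebra (ZMod ℓ) L] [IsAlgClosed L] [DecidableEq L],
      ∃ R₀ : (C.toAffine⁄L).Point,
        frobPt C L (frobPt C L (genPt C L)) - a • frobPt C L (genPt C L) + (ℓ : ℤ) • genPt C L =
          Point.baseChange L (KK C L) R₀)
    {k : Type u} [Field k] [Algebra (ZMod ℓ) k] [DecidableEq k] (φ : k →ₐ[ZMod ℓ] k)
    (hφ : ∀ x : k, φ x = x ^ ℓ) (P : (C.toAffine⁄k).Point) :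
    Point.map (W' := C.toAffine) φ (Point.map (W' := C.toAffine) φ P) -
      a • Point.map (W' := C.toAffine) φ P + (ℓ : ℤ) • P = 0 := by
  classical
  let L := AlgebraicClosure k
  have : CharP L ℓ := charP_of_injective_algebraMap (algebraMap (ZMod ℓ) L).injective ℓ
  let Φ : L →ₐ[ZMod ℓ] L := zmodAlgHom (frobenius L ℓ)
  have hΦ : ∀ x : L, Φ x = x ^ ℓ := fun x => rfl
  let j : k →ₐ[ZMod ℓ] L := IsScalarTower.toAlgHom (ZMod ℓ) k L
  obtain ⟨R₀, hR₀⟩ := hgen L
  rw [← ftr_actE_quadratic]
  apply ftr_actE_descent C k j φ Φ hφ hΦ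
  apply ftr_actE_eq_zero_of_const C L Φ hΦ _ R₀
  rw [act, ftr_actE_quadratic]
  exact hR₀

end Fermat.Agent.S52.F
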