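import Fermat.Agent.S52.FDefs
import Fermat.Agent.S52.FAct
import Fermat.Agent.S52.FHeight
import Fermat.Agent.S52.FPara
import Fermat.Agent.S52.FForm
import Fermat.Agent.S52.FSubst
import Fermat.Agent.S52.FOdd
import Fermat.Agent.S52.FCount
import Fermat.Agent.S52.FTrans
import Fermat.Prelude.Def_FLTPrelim_Modularity

/-!
# P17 (S52), block F: the Frobenius relation `φ² - a φ + ℓ = 0`

Assembly of the height argument.  For an elliptic curve `C` over `𝔽_ℓ` and an algebraically
closed field `k` of characteristic `ℓ`, the `x`-height on the odd points of `C` over its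
function field over `k` satisfies the parallelogram law and is multiplicative along `ℤ[φ]`,
with `D(1) = 1`, `D(φ) = ℓ`, `D(φ - 1) = #C(𝔽_ℓ)`.  Hence `φ² - a φ + ℓ` has height `0` at the
generic point, so it kills every `k`-point; the general case follows by descent from an
algebraic closure.
-/

set_option autoImplicit false

open Polynomial WeierstrassCurve WeierstrassCurve.Affine

namespace Fermat.Agent.S52.F

open Fermat.Agent.S52.FHeight

variable {ℓ : ℕ} [Fact ℓ.Prime] (C : WeierstrassCurve (ZMod ℓ)) [C.IsElliptic]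
  (k : Type*) [Field k] [Algebra (ZMod ℓ) k]

/-- The quadratic expression in the Frobenius of the generic point has height `0`. -/
theorem fmain_height_zero [DecidableEq k] [IsAlgClosed k] :
    HasHeight k (frobPt C k (frobPt C k (genPt C k))
      - ((ℓ : ℤ) + 1 - (Nat.card C.toAffine.Point : ℤ)) • frobPt C k (genPt C k)
      + (ℓ : ℤ) • genPt C k).xRep 0 := by
  have hinj := algebraMap_polynomial_injective C k
  exact FForm.height_quadratic_eq_zero
    (M := (C.toAffine⁄(KK C k)).Point)
    (fun Q d => HasHeight k Q.xRep d)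
    (fun Q d d' h h' => h.unique hinj h')
    (frobPt C k) (Lam C k)
    (fun Q hQ => frobPt_mem_Lam C k hQ)
    (fun Q hQ => FOdd.exists_hasHeight_of_mem_Lam C k hQ)
    (fun P _ Q _ d₁ d₂ d₃ d₄ h₁ h₂ h₃ h₄ => FPara.para_KK C k h₁ h₂ h₃ h₄)
    (genPt C k) (genPt_mem_Lam C k) (FCount.hasHeight_genPt C k)
    (fun a b d₁ d₂ h₁ h₂ => FSubst.act_mul_height C k a b d₁ d₂ h₁ h₂)
    (FCount.hasHeight_frobPt_genPt C k) (FCount.hasHeight_frobPt_sub_genPt C k)

/-- The Frobenius relation over an algebraically closed field. -/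
theorem fmain_relation_algClosed [DecidableEq k] [IsAlgClosed k]
    (φ : k →ₐ[ZMod ℓ] k) (hφ : ∀ x : k, φ x = x ^ ℓ) (S : (C.toAffine⁄k).Point) :
    Point.map (W' := C.toAffine) φ (Point.map (W' := C.toAffine) φ S)
      - ((ℓ : ℤ) + 1 - (Nat.card C.toAffine.Point : ℤ)) • Point.map (W' := C.toAffine) φ S
      + (ℓ : ℤ) • S = 0 :=
  FSubst.frobenius_relation_of_height C k φ hφ _ _ (fmain_height_zero C k) S

/-- The Frobenius relation over an arbitrary field of characteristic `ℓ`. -/
theorem fmain_relation {k : Type*} [Field k] [Algebra (ZMod ℓ) k] [DecidableEq k]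
    (φ : k →ₐ[ZMod ℓ] k) (hφ : ∀ x : k, φ x = x ^ ℓ) (P : (C.toAffine⁄k).Point) :
    Point.map (W' := C.toAffine) φ (Point.map (W' := C.toAffine) φ P)
      - ((ℓ : ℤ) + 1 - (Nat.card C.toAffine.Point : ℤ)) • Point.map (W' := C.toAffine) φ P
      + (ℓ : ℤ) • P = 0 := by
  classical
  exact ftr_descend C _ _
    (fun φ' hφ' S => fmain_relation_algClosed C (AlgebraicClosure k) φ' hφ' S) φ hφ P

end Fermat.Agent.S52.F

namespace Fermat.Agent.S52

open Fermat.Agent.S52.F

/-- **The Frobenius relation** `φ² - a_ℓ φ + ℓ = 0` on the points of an elliptic curve over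
`𝔽_ℓ` with values in any field of characteristic `ℓ`. -/
theorem frobenius_relation {ℓ : ℕ} [Fact ℓ.Prime] (C : WeierstrassCurve (ZMod ℓ)) (hC : C.Δ ≠ 0)
    {k : Type*} [Field k] [Algebra (ZMod ℓ) k] [DecidableEq k]
    (φ : k →ₐ[ZMod ℓ] k) (hφ : ∀ x : k, φ x = x ^ ℓ) (P : (C⁄k).Point) :
    Point.map φ (Point.map φ P) - C.traceOfFrobenius • Point.map φ P + (ℓ : ℤ) • P = 0 := by
  have : C.IsElliptic := ⟨isUnit_iff_ne_zero.mpr hC⟩
  have h := fmain_relation C φ hφ P
  have ht : C.traceOfFrobenius = (ℓ : ℤ) + 1 - (Nat.card C.toAffine.Point : ℤ) := by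
    unfold WeierstrassCurve.traceOfFrobenius WeierstrassCurve.card
    rw [Nat.card_zmod]
  rw [ht]
  exact h

end Fermat.Agent.S52
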