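import Fermat.Agent.S52.RRed5
import Fermat.Agent.S52.FMain

/-!
# P17 (S52), block R: main exports

* `frob_quadratic`: a Frobenius element `σ` at a place `A` over `ℓ ∤ 5Δ` satisfies
  `σ² - a_ℓ σ + ℓ = 0` on `W[5]` (reduction of the `5`-torsion, `RRed5.lean`, and the Frobenius
  relation on the reduced curve, block F);
* `inertia_five_torsion` (proved in `RRed5.lean`): inertia at a place over `p ∤ 5Δ` acts
  trivially on `W[5]`.
-/

set_option autoImplicit false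

namespace Fermat.Agent.S52

open WeierstrassCurve WeierstrassCurve.Affine

local notation "Qbar" => AlgebraicClosure ℚ

/-- (R1 = R ∘ F) Frobenius elements satisfy `σ² - a_ℓ σ + ℓ = 0` on `W[5]`, `ℓ ∤ 5Δ`. -/
theorem frob_quadratic (W : WeierstrassCurve ℤ) (ℓ : ℕ) (hℓ : ℓ.Prime) (hgood : ¬ (ℓ : ℤ) ∣ W.Δ)
    (hℓ5 : ℓ ≠ 5) (A : ValuationSubring Qbar) (hA : A.LiesOverPrime ℓ) (σ : Qbar ≃ₐ[ℚ] Qbar)
    (hσ : A.IsFrobeniusAt σ ℓ) (P : (S51.gal_V W).Point) (hP : 5 • P = 0) :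
    σ • (σ • P) - W.apOfModel ℓ • (σ • P) + (ℓ : ℤ) • P = 0 := by
  have : Fact ℓ.Prime := ⟨hℓ⟩
  have := S37.charP_residueField A hℓ hA
  let _ : Algebra (ZMod ℓ) (IsLocalRing.ResidueField A) := ZMod.algebra _ ℓ
  let _ : DecidableEq (IsLocalRing.ResidueField A) := Classical.decEq _
  have hφ : ∀ x, FiniteField.frobeniusAlgHom (ZMod ℓ) (IsLocalRing.ResidueField A) x = x ^ ℓ := by
    intro x
    rw [FiniteField.coe_frobeniusAlgHom, ZMod.card]
  exact frob_quadratic_of_relation W ℓ hℓ hgood hℓ5 A hA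
    (FiniteField.frobeniusAlgHom (ZMod ℓ) (IsLocalRing.ResidueField A)) hφ
    (fun Q => frobenius_relation (W.reductionMod ℓ) (RRed5.reductionMod_Δ_ne_zero W hgood) _ hφ Q)
    σ hσ P hP

end Fermat.Agent.S52
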