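import Fermat.Agent.S52.Defs

/-!
# P17 (S52), block X: the `5`-torsion sections of the Klein family (definitions)

Integral normalisation: on the curve `shortCurve (5 ^ 4 * kH u v) (5 ^ 6 * kT u v)` the sections
`P = (ksXiP, ksEtaP)`, `2P = (ksXiP2, ksEtaP2)` (forms in `u⁵, v⁵` over `ℤ[z]`, `z` a root of the
fifth cyclotomic polynomial) and `Q = (ksXiQ, ksEtaQ)`, `2Q = (ksXiQ2, ksEtaQ2)` (integer forms)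
have integral coefficients; `ksL, ksL2, ksM, ksM2, ksN` are the (polynomial) slopes.
-/

set_option autoImplicit false

namespace Fermat.Agent.S52

section ksDefs

variable {R : Type*} [CommRing R]

/-- `kH` as a form in `X = u⁵`, `Y = v⁵`. -/
def ksHxy (X Y : R) : R := -(X ^ 4 + Y ^ 4) + 228 * (X ^ 3 * Y - X * Y ^ 3) - 494 * X ^ 2 * Y ^ 2

/-- `kT` as a form in `X = u⁵`, `Y = v⁵`. -/
def ksTxy (X Y : R) : R :=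
  X ^ 6 + Y ^ 6 + 522 * (X ^ 5 * Y - X * Y ^ 5) - 10005 * (X ^ 4 * Y ^ 2 + X ^ 2 * Y ^ 4)

theorem ksHxy_eq (u v : R) : kH u v = ksHxy (u ^ 5) (v ^ 5) := by
  unfold kH ksHxy
  ring

theorem ksTxy_eq (u v : R) : kT u v = ksTxy (u ^ 5) (v ^ 5) := by
  unfold kT ksTxy
  ring

/-- `x(P)` in `X = u⁵`, `Y = v⁵`. -/
def ksXiPxy (z X Y : R) : R := (-465)*Y^2 + 990*X*Y + (-285)*X^2 + (-180)*z^2*Y^2 + 1980*z^2*X*Y + 180*z^2*X^2 + (-180)*z^3*Y^2 + 1980*z^3*X*Y + 180*z^3*X^2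

/-- `y(P)` in `X = u⁵`, `Y = v⁵`. -/
def ksEtaPxy (z X Y : R) : R := 2700*Y^3 + (-24300)*X*Y^2 + (-62100)*X^2*Y + (-5400)*X^3 + 5400*z*Y^3 + (-48600)*z*X*Y^2 + (-124200)*z*X^2*Y + (-10800)*z*X^3 + (-2700)*z^2*Y^3 + 37800*z^2*X*Y^2 + (-86400)*z^2*X^2*Y + (-8100)*z^2*X^3 + 8100*z^3*Y^3 + (-86400)*z^3*X*Y^2 + (-37800)*z^3*X^2*Y + (-2700)*z^3*X^3

/-- `x(2P)` in `X = u⁵`, `Y = v⁵`. -/
def ksXiP2xy (z X Y : R) : R := (-285)*Y^2 + (-990)*X*Y + (-465)*X^2 + 180*z^2*Y^2 + (-1980)*z^2*X*Y + (-180)*z^2*X^2 + 180*z^3*Y^2 + (-1980)*z^3*X*Y + (-180)*z^3*X^2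

/-- `y(2P)` in `X = u⁵`, `Y = v⁵`. -/
def ksEtaP2xy (z X Y : R) : R := 5400*Y^3 + (-62100)*X*Y^2 + 24300*X^2*Y + 2700*X^3 + 10800*z*Y^3 + (-124200)*z*X*Y^2 + 48600*z*X^2*Y + 5400*z*X^3 + 8100*z^2*Y^3 + (-86400)*z^2*X*Y^2 + (-37800)*z^2*X^2*Y + (-2700)*z^2*X^3 + 2700*z^3*Y^3 + (-37800)*z^3*X*Y^2 + 86400*z^3*X^2*Y + 8100*z^3*X^3

/-- tangent slope at `P`. -/
def ksLxy (z X Y : R) : R := 3*Y + 21*X + 6*z*Y + 42*z*X + 24*z^2*Y + 18*z^2*X + (-18)*z^3*Y + 24*z^3*X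

/-- tangent slope at `2P`. -/
def ksL2xy (z X Y : R) : R := (-21)*Y + 3*X + (-42)*z*Y + 6*z*X + (-18)*z^2*Y + 24*z^2*X + (-24)*z^3*Y + (-18)*z^3*X

/-- `x(P)`. -/
def ksXiP (z u v : R) : R := ksXiPxy z (u ^ 5) (v ^ 5)

/-- `y(P)`. -/
def ksEtaP (z u v : R) : R := ksEtaPxy z (u ^ 5) (v ^ 5)

/-- `x(2P)`. -/
def ksXiP2 (z u v : R) : R := ksXiP2xy z (u ^ 5) (v ^ 5)

/-- `y(2P)`. -/
def ksEtaP2 (z u v : R) : R := ksEtaP2xy z (u ^ 5) (v ^ 5)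

/-- `x(Q)`. -/
def ksXiQ (u v : R) : R := 75*v^10 + 900*u*v^9 + 1800*u^2*v^8 + 2700*u^3*v^7 + 4500*u^4*v^6 + 2250*u^5*v^5 + 1800*u^6*v^4 + (-900)*u^7*v^3 + 900*u^8*v^2 + 75*u^10

/-- `y(Q)`. -/
def ksEtaQ (u v : R) : R := (-13500)*u*v^14 + (-54000)*u^2*v^13 + (-121500)*u^3*v^12 + (-202500)*u^4*v^11 + (-337500)*u^5*v^10 + (-391500)*u^6*v^9 + (-283500)*u^7*v^8 + (-81000)*u^8*v^7 + (-67500)*u^9*v^6 + (-54000)*u^11*v^4 + (-13500)*u^12*v^3 + (-13500)*u^13*v^2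

/-- `x(2Q)`. -/
def ksXiQ2 (u v : R) : R := 75*v^10 + 900*u^2*v^8 + 900*u^3*v^7 + 1800*u^4*v^6 + (-2250)*u^5*v^5 + 4500*u^6*v^4 + (-2700)*u^7*v^3 + 1800*u^8*v^2 + (-900)*u^9*v + 75*u^10

/-- `y(2Q)`. -/
def ksEtaQ2 (u v : R) : R := (-13500)*u^2*v^13 + 13500*u^3*v^12 + (-54000)*u^4*v^11 + (-67500)*u^6*v^9 + 81000*u^7*v^8 + (-283500)*u^8*v^7 + 391500*u^9*v^6 + (-337500)*u^10*v^5 + 202500*u^11*v^4 + (-121500)*u^12*v^3 + 54000*u^13*v^2 + (-13500)*u^14*v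

/-- tangent slope at `Q`. -/
def ksM (u v : R) : R := (-15)*v^5 + (-60)*u*v^4 + (-30)*u^2*v^3 + (-90)*u^3*v^2 + 30*u^4*v + (-15)*u^5

/-- tangent slope at `2Q`. -/
def ksM2 (u v : R) : R := (-15)*v^5 + (-30)*u*v^4 + (-90)*u^2*v^3 + 30*u^3*v^2 + (-60)*u^4*v + 15*u^5

/-- slope of the chord through `Q(zu, z⁴v)` and `P(u,v)`. -/
def ksN (z u v : R) : R := (-3)*v^5 + 30*u*v^4 + 60*u^2*v^3 + 30*u^3*v^2 + 9*u^5 + (-6)*z*v^5 + 30*z*u^2*v^3 + (-30)*z*u^3*v^2 + 18*z*u^5 + 6*z^2*v^5 + (-30)*z^2*u*v^4 + 30*z^2*u^2*v^3 + 12*z^2*u^5 + (-12)*z^3*v^5 + 30*z^3*u^2*v^3 + 6*z^3*u^5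

/-- first coordinate of the covariant `w = (∂kF/∂v, -∂kF/∂u)`. -/
def ksWu (u v : R) : R := u * (u ^ 10 + 66 * u ^ 5 * v ^ 5 - 11 * v ^ 10)

/-- second coordinate of the covariant `w = (∂kF/∂v, -∂kF/∂u)`. -/
def ksWv (u v : R) : R := -(v * (11 * u ^ 10 + 66 * u ^ 5 * v ^ 5 - v ^ 10))

end ksDefs

end Fermat.Agent.S52
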