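import Fermat.Agent.S52.XSecPt
import Fermat.Agent.S52.XDefs

set_option autoImplicit false
set_option linter.unusedSectionVars false

/-!
# P17 (S52), block X: the level structure `θ : (ℤ/5)² → E[5]` and its coordinates

On `E = shortCurve (5⁴ kH u v) (5⁶ kT u v)` (with `kF u v ≠ 0`, `ζ` a primitive fifth root of
unity) the sections `P = (ksXiP, ksEtaP)` and `Q = (ksXiQ, ksEtaQ)` have order `5`, and
`Q(T₀ᵐ v) + m • P = Q` for `T₀ v = (ζ u, ζ⁴ v)` (`ks_sections`).  The homomorphism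
`θ (a, b) = a • P + b • Q` is injective and `θ c`, `c ≠ 0`, is the affine point with the explicit
coordinates `ksSecX c`, `ksSecY c` (`ks_exists_theta`):

* `θ (a, 0) = a • P` is `P, 2P, -2P, -P` for `a = 1, 2, 3, 4`;
* for `b ≠ 0`, `θ (a, b) = b • R` with `R = Q(T₀ʲ v)`, `j = -a/b`, and `b • R` is `R, 2R, -2R, -R`.
-/

namespace Fermat.Agent.S52

open WeierstrassCurve WeierstrassCurve.Affine Polynomial

/-! ### Ring homomorphisms commute with the section formulas -/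

section Maps

variable {R S : Type*} [CommRing R] [CommRing S] (f : R →+* S)

theorem ksXiP_map (z u v : R) : f (ksXiP z u v) = ksXiP (f z) (f u) (f v) := by
  simp only [ksXiP, ksXiPxy, map_add, map_mul, map_pow, map_neg, map_ofNat]

theorem ksEtaP_map (z u v : R) : f (ksEtaP z u v) = ksEtaP (f z) (f u) (f v) := by
  simp only [ksEtaP, ksEtaPxy, map_add, map_mul, map_pow, map_neg, map_ofNat]

theorem ksXiP2_map (z u v : R) : f (ksXiP2 z u v) = ksXiP2 (f z) (f u) (f v) := by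
  simp only [ksXiP2, ksXiP2xy, map_add, map_mul, map_pow, map_neg, map_ofNat]

theorem ksEtaP2_map (z u v : R) : f (ksEtaP2 z u v) = ksEtaP2 (f z) (f u) (f v) := by
  simp only [ksEtaP2, ksEtaP2xy, map_add, map_mul, map_pow, map_neg, map_ofNat]

theorem ksXiQ_map (u v : R) : f (ksXiQ u v) = ksXiQ (f u) (f v) := by
  simp only [ksXiQ, map_add, map_mul, map_pow, map_neg, map_ofNat]

theorem ksEtaQ_map (u v : R) : f (ksEtaQ u v) = ksEtaQ (f u) (f v) := by
  simp only [ksEtaQ, map_add, map_mul, map_pow, map_neg, map_ofNat]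

theorem ksXiQ2_map (u v : R) : f (ksXiQ2 u v) = ksXiQ2 (f u) (f v) := by
  simp only [ksXiQ2, map_add, map_mul, map_pow, map_neg, map_ofNat]

theorem ksEtaQ2_map (u v : R) : f (ksEtaQ2 u v) = ksEtaQ2 (f u) (f v) := by
  simp only [ksEtaQ2, map_add, map_mul, map_pow, map_neg, map_ofNat]

end Maps

/-! ### The coordinates of `θ c` -/

/-- The shift index `j = -a / b` (as a natural number `< 5`). -/
def ksJ (a b : ZMod 5) : ℕ := (-(a * (b * b * b))).val

/-- `x`-coordinate of `n • R` for `n = 1, 2, 3, 4` when `2 • R = R₂`, `2 • R₂ = -R`. -/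
def ksMulX {R : Type*} (n : ℕ) (x x2 : R) : R := if n = 1 ∨ n = 4 then x else x2

/-- `y`-coordinate of `n • R` for `n = 1, 2, 3, 4` when `2 • R = R₂`, `2 • R₂ = -R`. -/
def ksMulY {R : Type*} [Neg R] (n : ℕ) (y y2 : R) : R :=
  if n = 1 then y else if n = 2 then y2 else if n = 3 then -y2 else -y

/-- `x(θ c)`. -/
def ksSecX (c : ZMod 5 × ZMod 5) {R : Type*} [CommRing R] (z u v : R) : R :=
  if c.2 = 0 then ksMulX c.1.val (ksXiP z u v) (ksXiP2 z u v)
  else ksMulX c.2.val (ksXiQ (z ^ ksJ c.1 c.2 * u) (z ^ (4 * ksJ c.1 c.2) * v))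
    (ksXiQ2 (z ^ ksJ c.1 c.2 * u) (z ^ (4 * ksJ c.1 c.2) * v))

/-- `y(θ c)`. -/
def ksSecY (c : ZMod 5 × ZMod 5) {R : Type*} [CommRing R] (z u v : R) : R :=
  if c.2 = 0 then ksMulY c.1.val (ksEtaP z u v) (ksEtaP2 z u v)
  else ksMulY c.2.val (ksEtaQ (z ^ ksJ c.1 c.2 * u) (z ^ (4 * ksJ c.1 c.2) * v))
    (ksEtaQ2 (z ^ ksJ c.1 c.2 * u) (z ^ (4 * ksJ c.1 c.2) * v))

theorem ksMulX_map {R S : Type*} [CommRing R] [CommRing S] (f : R →+* S) (n : ℕ) (x x2 : R) :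
    f (ksMulX n x x2) = ksMulX n (f x) (f x2) := by
  unfold ksMulX
  split_ifs <;> rfl

theorem ksMulY_map {R S : Type*} [CommRing R] [CommRing S] (f : R →+* S) (n : ℕ) (y y2 : R) :
    f (ksMulY n y y2) = ksMulY n (f y) (f y2) := by
  unfold ksMulY
  split_ifs <;> simp only [map_neg]

theorem ksSecX_map {R S : Type*} [CommRing R] [CommRing S] (f : R →+* S) (c : ZMod 5 × ZMod 5)
    (z u v : R) : f (ksSecX c z u v) = ksSecX c (f z) (f u) (f v) := by
  unfold ksSecX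
  split_ifs <;>
    simp only [ksMulX_map, ksXiP_map, ksXiP2_map, ksXiQ_map, ksXiQ2_map, map_mul, map_pow]

theorem ksSecY_map {R S : Type*} [CommRing R] [CommRing S] (f : R →+* S) (c : ZMod 5 × ZMod 5)
    (z u v : R) : f (ksSecY c z u v) = ksSecY c (f z) (f u) (f v) := by
  unfold ksSecY
  split_ifs <;>
    simp only [ksMulY_map, ksEtaP_map, ksEtaP2_map, ksEtaQ_map, ksEtaQ2_map, map_mul, map_pow]

/-- The arithmetic of the shift index: `a + b j ≡ 0 (mod 5)`. -/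
theorem ks_arith : ∀ a b : ZMod 5, b ≠ 0 → 5 ∣ a.val + b.val * ksJ a b := by
  decide

/-! ### Multiples of a point of order five -/

section Group

variable {G : Type*} [AddCommGroup G]

theorem ks_five_nsmul {R R2 : G} (h2 : 2 • R = R2) (h4 : 2 • R2 = -R) : 5 • R = 0 := by
  have h : 5 • R = 2 • (2 • R) + R := by abel
  rw [h, h2, h4, neg_add_cancel]

theorem ks_three_nsmul {R R2 : G} (h2 : 2 • R = R2) (h4 : 2 • R2 = -R) : 3 • R = -R2 := by
  have h5 := ks_five_nsmul h2 h4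
  have h : 3 • R = 5 • R - 2 • R := by abel
  rw [h, h5, h2, zero_sub]

theorem ks_four_nsmul {R R2 : G} (h2 : 2 • R = R2) (h4 : 2 • R2 = -R) : 4 • R = -R := by
  have h : 4 • R = 2 • (2 • R) := by abel
  rw [h, h2, h4]

/-- The homomorphism `ZMod 5 →+ G`, `a ↦ a • P`, for `5 • P = 0`. -/
noncomputable def ksLift (P : G) (hP : 5 • P = 0) : ZMod 5 →+ G :=
  ZMod.lift 5 ⟨zmultiplesHom G P, by
    show (zmultiplesHom G P) ((5 : ℕ) : ℤ) = 0
    rw [zmultiplesHom_apply, natCast_zsmul]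
    exact hP⟩

theorem ksLift_apply (P : G) (hP : 5 • P = 0) (a : ZMod 5) : ksLift P hP a = a.val • P := by
  have ha : ((a.val : ℤ) : ZMod 5) = a := by
    rw [Int.cast_natCast, ZMod.natCast_zmod_val]
  conv_lhs => rw [← ha]
  unfold ksLift
  rw [ZMod.lift_coe]
  show (zmultiplesHom G P) (a.val : ℤ) = a.val • P
  rw [zmultiplesHom_apply, natCast_zsmul]

end Group

/-! ### Points of the short curve -/

section Pts

variable {K : Type*} [Field K] [DecidableEq K]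

theorem ks_some_congr {E : Affine K} {x y x' y' : K} (h : E.Nonsingular x y) (hx : x = x')
    (hy : y = y') : ∃ h' : E.Nonsingular x' y', Point.some x y h = Point.some x' y' h' := by
  subst hx hy
  exact ⟨h, rfl⟩

theorem ks_neg_some {E : Affine K} {A B : K} (hE : E = shortCurve A B) {x y : K}
    (h : E.Nonsingular x y) :
    ∃ h' : E.Nonsingular x (-y), -Point.some x y h = Point.some x (-y) h' := by
  subst hE
  rw [Point.neg_some]
  exact ks_some_congr _ rfl (by simp [negY, shortCurve])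

theorem ks_mul_pattern {E : Affine K} {A B : K} (hE : E = shortCurve A B) {x y x2 y2 : K}
    (hR : E.Nonsingular x y) (hR2 : E.Nonsingular x2 y2)
    (h2 : 2 • Point.some x y hR = Point.some x2 y2 hR2)
    (h4 : 2 • Point.some x2 y2 hR2 = -Point.some x y hR) {n : ℕ} (hn1 : 1 ≤ n) (hn4 : n ≤ 4) :
    ∃ hns, n • Point.some x y hR = Point.some (ksMulX n x x2) (ksMulY n y y2) hns := by
  interval_cases n
  · obtain ⟨h', e⟩ := ks_some_congr hR (x' := ksMulX 1 x x2) (y' := ksMulY 1 y y2)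
      (by simp [ksMulX]) (by simp [ksMulY])
    exact ⟨h', by rw [one_nsmul, e]⟩
  · obtain ⟨h', e⟩ := ks_some_congr hR2 (x' := ksMulX 2 x x2) (y' := ksMulY 2 y y2)
      (by simp [ksMulX]) (by simp [ksMulY])
    exact ⟨h', by rw [h2, e]⟩
  · obtain ⟨h0, e0⟩ := ks_neg_some hE hR2
    obtain ⟨h', e⟩ := ks_some_congr h0 (x' := ksMulX 3 x x2) (y' := ksMulY 3 y y2)
      (by simp [ksMulX]) (by simp [ksMulY])
    exact ⟨h', by rw [ks_three_nsmul h2 h4, e0, e]⟩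
  · obtain ⟨h0, e0⟩ := ks_neg_some hE hR
    obtain ⟨h', e⟩ := ks_some_congr h0 (x' := ksMulX 4 x x2) (y' := ksMulY 4 y y2)
      (by simp [ksMulX]) (by simp [ksMulY])
    exact ⟨h', by rw [ks_four_nsmul h2 h4, e0, e]⟩

end Pts

/-! ### Iterates of `T₀` -/

section Iter

variable {R : Type*} [CommRing R]

theorem ksT0_pow_kF (z u v : R) (hz : 1 + z + z ^ 2 + z ^ 3 + z ^ 4 = 0) (m : ℕ) :
    kF (z ^ m * u) (z ^ (4 * m) * v) = kF u v := by
  induction m with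
  | zero => simp
  | succ m ih =>
    have e1 : z ^ (m + 1) * u = z * (z ^ m * u) := by ring
    have e2 : z ^ (4 * (m + 1)) * v = z ^ 4 * (z ^ (4 * m) * v) := by ring
    rw [e1, e2, ksT0_kF _ _ _ hz, ih]

theorem ksT0_pow_kH (z u v : R) (hz : 1 + z + z ^ 2 + z ^ 3 + z ^ 4 = 0) (m : ℕ) :
    kH (z ^ m * u) (z ^ (4 * m) * v) = kH u v := by
  induction m with
  | zero => simp
  | succ m ih =>
    have e1 : z ^ (m + 1) * u = z * (z ^ m * u) := by ring
    have e2 : z ^ (4 * (m + 1)) * v = z ^ 4 * (z ^ (4 * m) * v) := by ring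
    rw [e1, e2, ksT0_kH _ _ _ hz, ih]

theorem ksT0_pow_kT (z u v : R) (hz : 1 + z + z ^ 2 + z ^ 3 + z ^ 4 = 0) (m : ℕ) :
    kT (z ^ m * u) (z ^ (4 * m) * v) = kT u v := by
  induction m with
  | zero => simp
  | succ m ih =>
    have e1 : z ^ (m + 1) * u = z * (z ^ m * u) := by ring
    have e2 : z ^ (4 * (m + 1)) * v = z ^ 4 * (z ^ (4 * m) * v) := by ring
    rw [e1, e2, ksT0_kT _ _ _ hz, ih]

theorem ksT0_pow_XiP (z u v : R) (hz : 1 + z + z ^ 2 + z ^ 3 + z ^ 4 = 0) (m : ℕ) :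
    ksXiP z (z ^ m * u) (z ^ (4 * m) * v) = ksXiP z u v := by
  induction m with
  | zero => simp
  | succ m ih =>
    have e1 : z ^ (m + 1) * u = z * (z ^ m * u) := by ring
    have e2 : z ^ (4 * (m + 1)) * v = z ^ 4 * (z ^ (4 * m) * v) := by ring
    rw [e1, e2, ksT0_XiP _ _ _ hz, ih]

theorem ksT0_pow_EtaP (z u v : R) (hz : 1 + z + z ^ 2 + z ^ 3 + z ^ 4 = 0) (m : ℕ) :
    ksEtaP z (z ^ m * u) (z ^ (4 * m) * v) = ksEtaP z u v := by
  induction m with
  | zero => simp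
  | succ m ih =>
    have e1 : z ^ (m + 1) * u = z * (z ^ m * u) := by ring
    have e2 : z ^ (4 * (m + 1)) * v = z ^ 4 * (z ^ (4 * m) * v) := by ring
    rw [e1, e2, ksT0_EtaP _ _ _ hz, ih]

end Iter

/-! ### The sections and the level structure -/

section Main

variable {K : Type*} [Field K] [CharZero K] [DecidableEq K]

/-- `Q(T₀ᵐ v) + m • P(v) = Q(v)`. -/
theorem ks_shift (ζ u v : K) (hζ : 1 + ζ + ζ ^ 2 + ζ ^ 3 + ζ ^ 4 = 0) (hF : kF u v ≠ 0)
    (E : Affine K) (hE : E = shortCurve (5 ^ 4 * kH u v) (5 ^ 6 * kT u v))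
    (hP : E.Nonsingular (ksXiP ζ u v) (ksEtaP ζ u v))
    (hQ : E.Nonsingular (ksXiQ u v) (ksEtaQ u v)) (m : ℕ) :
    ∃ hQm : E.Nonsingular (ksXiQ (ζ ^ m * u) (ζ ^ (4 * m) * v))
        (ksEtaQ (ζ ^ m * u) (ζ ^ (4 * m) * v)),
      Point.some _ _ hQm + m • Point.some _ _ hP = Point.some _ _ hQ := by
  induction m with
  | zero =>
    obtain ⟨h', e⟩ := ks_some_congr hQ (x' := ksXiQ (ζ ^ 0 * u) (ζ ^ (4 * 0) * v))
      (y' := ksEtaQ (ζ ^ 0 * u) (ζ ^ (4 * 0) * v)) (by simp) (by simp)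
    exact ⟨h', by rw [zero_nsmul, add_zero, ← e]⟩
  | succ m ih =>
    obtain ⟨hQm, ihm⟩ := ih
    have hFm : kF (ζ ^ m * u) (ζ ^ (4 * m) * v) ≠ 0 := by
      rw [ksT0_pow_kF _ _ _ hζ]
      exact hF
    have hEm : E = shortCurve (5 ^ 4 * kH (ζ ^ m * u) (ζ ^ (4 * m) * v))
        (5 ^ 6 * kT (ζ ^ m * u) (ζ ^ (4 * m) * v)) := by
      rw [ksT0_pow_kH _ _ _ hζ, ksT0_pow_kT _ _ _ hζ]
      exact hE
    obtain ⟨hQT, hP', hQ', hadd⟩ := ks_pt_add ζ (ζ ^ m * u) (ζ ^ (4 * m) * v) hζ hFm E hEm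
    have e1 : ζ * (ζ ^ m * u) = ζ ^ (m + 1) * u := by ring
    have e2 : ζ ^ 4 * (ζ ^ (4 * m) * v) = ζ ^ (4 * (m + 1)) * v := by ring
    obtain ⟨hQm1, eQ⟩ := ks_some_congr hQT (congrArg₂ ksXiQ e1 e2) (congrArg₂ ksEtaQ e1 e2)
    obtain ⟨hP'', eP⟩ := ks_some_congr hP' (ksT0_pow_XiP ζ u v hζ m) (ksT0_pow_EtaP ζ u v hζ m)
    refine ⟨hQm1, ?_⟩
    rw [eQ, eP] at hadd
    rw [succ_nsmul', ← add_assoc, hadd]
    exact ihm

/-- The package used by the `cone` argument. -/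
theorem ks_sections (ζ u v : K) (hζ : 1 + ζ + ζ ^ 2 + ζ ^ 3 + ζ ^ 4 = 0) (hF : kF u v ≠ 0)
    (E : Affine K) (hE : E = shortCurve (5 ^ 4 * kH u v) (5 ^ 6 * kT u v)) :
    ∃ (hP : E.Nonsingular (ksXiP ζ u v) (ksEtaP ζ u v))
      (hP2 : E.Nonsingular (ksXiP2 ζ u v) (ksEtaP2 ζ u v))
      (hQ : E.Nonsingular (ksXiQ u v) (ksEtaQ u v)),
      5 • Point.some _ _ hP = 0 ∧ 2 • Point.some _ _ hP = Point.some _ _ hP2 ∧
      5 • Point.some _ _ hQ = 0 ∧
      ∀ m : ℕ, ∃ hQm : E.Nonsingular (ksXiQ (ζ ^ m * u) (ζ ^ (4 * m) * v))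
          (ksEtaQ (ζ ^ m * u) (ζ ^ (4 * m) * v)),
        Point.some _ _ hQm + m • Point.some _ _ hP = Point.some _ _ hQ := by
  obtain ⟨hP, hP2, h2, h4⟩ := ks_pt_P ζ u v hζ hF E hE
  obtain ⟨hQ, hQ2, k2, k4⟩ := ks_pt_Q u v hF E hE
  exact ⟨hP, hP2, hQ, ks_five_nsmul h2 h4, h2, ks_five_nsmul k2 k4,
    fun m => ks_shift ζ u v hζ hF E hE hP hQ m⟩

/-- `θ(a,b) = a • P + b • Q` is injective with explicit coordinates. -/
theorem ks_exists_theta (ζ u v : K) (hζ : 1 + ζ + ζ ^ 2 + ζ ^ 3 + ζ ^ 4 = 0) (hF : kF u v ≠ 0)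
    (E : Affine K) (hE : E = shortCurve (5 ^ 4 * kH u v) (5 ^ 6 * kT u v)) :
    ∃ θ : ZMod 5 × ZMod 5 →+ E.Point, Function.Injective θ ∧
      ∀ c : ZMod 5 × ZMod 5, c ≠ 0 →
        ∃ hns, θ c = Point.some (ksSecX c ζ u v) (ksSecY c ζ u v) hns := by
  obtain ⟨hP, hP2, h2, h4⟩ := ks_pt_P ζ u v hζ hF E hE
  obtain ⟨hQ, hQ2, k2, k4⟩ := ks_pt_Q u v hF E hE
  have h5P := ks_five_nsmul h2 h4
  have h5Q := ks_five_nsmul k2 k4
  let θ : ZMod 5 × ZMod 5 →+ E.Point :=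
    (ksLift (Point.some _ _ hP) h5P).coprod (ksLift (Point.some _ _ hQ) h5Q)
  have hθ : ∀ c : ZMod 5 × ZMod 5,
      θ c = c.1.val • Point.some _ _ hP + c.2.val • Point.some _ _ hQ := fun c => by
    show (ksLift (Point.some _ _ hP) h5P).coprod (ksLift (Point.some _ _ hQ) h5Q) c = _
    rw [AddMonoidHom.coprod_apply, ksLift_apply, ksLift_apply]
  have hcoord : ∀ c : ZMod 5 × ZMod 5, c ≠ 0 →
      ∃ hns, θ c = Point.some (ksSecX c ζ u v) (ksSecY c ζ u v) hns := by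
    rintro ⟨a, b⟩ hc
    rw [hθ]
    by_cases hb : b = 0
    · subst hb
      have ha : a ≠ 0 := fun h => hc (by rw [h]; rfl)
      have hv1 : 1 ≤ a.val := Nat.one_le_iff_ne_zero.mpr fun h => ha ((ZMod.val_eq_zero a).mp h)
      have hv4 : a.val ≤ 4 := Nat.lt_succ_iff.mp (ZMod.val_lt a)
      obtain ⟨hns, e⟩ := ks_mul_pattern hE hP hP2 h2 h4 hv1 hv4
      have ex : ksMulX a.val (ksXiP ζ u v) (ksXiP2 ζ u v) = ksSecX (a, 0) ζ u v :=
        (if_pos rfl).symm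
      have ey : ksMulY a.val (ksEtaP ζ u v) (ksEtaP2 ζ u v) = ksSecY (a, 0) ζ u v :=
        (if_pos rfl).symm
      obtain ⟨hns', e'⟩ := ks_some_congr hns ex ey
      refine ⟨hns', ?_⟩
      show a.val • Point.some _ _ hP + (0 : ZMod 5).val • Point.some _ _ hQ = _
      rw [ZMod.val_zero, zero_nsmul, add_zero, e, e']
    · have hFj : kF (ζ ^ ksJ a b * u) (ζ ^ (4 * ksJ a b) * v) ≠ 0 := by
        rw [ksT0_pow_kF _ _ _ hζ]
        exact hF
      have hEj : E = shortCurve (5 ^ 4 * kH (ζ ^ ksJ a b * u) (ζ ^ (4 * ksJ a b) * v))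
          (5 ^ 6 * kT (ζ ^ ksJ a b * u) (ζ ^ (4 * ksJ a b) * v)) := by
        rw [ksT0_pow_kH _ _ _ hζ, ksT0_pow_kT _ _ _ hζ]
        exact hE
      obtain ⟨hR, hR2, r2, r4⟩ := ks_pt_Q (ζ ^ ksJ a b * u) (ζ ^ (4 * ksJ a b) * v) hFj E hEj
      obtain ⟨hQj, hshift⟩ := ks_shift ζ u v hζ hF E hE hP hQ (ksJ a b)
      have hv1 : 1 ≤ b.val := Nat.one_le_iff_ne_zero.mpr fun h => hb ((ZMod.val_eq_zero b).mp h)
      have hv4 : b.val ≤ 4 := Nat.lt_succ_iff.mp (ZMod.val_lt b)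
      obtain ⟨hns, e⟩ := ks_mul_pattern hEj hR hR2 r2 r4 hv1 hv4
      have key : a.val • Point.some _ _ hP + b.val • Point.some _ _ hQ =
          b.val • Point.some _ _ hR := by
        obtain ⟨q, hq⟩ := ks_arith a b hb
        have e1 : b.val • (ksJ a b • Point.some _ _ hP) =
            (b.val * ksJ a b) • Point.some _ _ hP := (mul_nsmul' _ _ _).symm
        have e2 : (a.val + b.val * ksJ a b) • Point.some _ _ hP = 0 := by
          rw [hq, mul_nsmul, h5P, nsmul_zero]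
        rw [← hshift, nsmul_add, e1]
        have e3 : a.val • Point.some _ _ hP + (b.val • Point.some _ _ hQj +
            (b.val * ksJ a b) • Point.some _ _ hP) =
            b.val • Point.some _ _ hQj + (a.val + b.val * ksJ a b) • Point.some _ _ hP := by
          rw [add_nsmul]
          abel
        rw [e3, e2, add_zero]
      have ex : ksMulX b.val (ksXiQ (ζ ^ ksJ a b * u) (ζ ^ (4 * ksJ a b) * v))
          (ksXiQ2 (ζ ^ ksJ a b * u) (ζ ^ (4 * ksJ a b) * v)) = ksSecX (a, b) ζ u v :=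
        (if_neg hb).symm
      have ey : ksMulY b.val (ksEtaQ (ζ ^ ksJ a b * u) (ζ ^ (4 * ksJ a b) * v))
          (ksEtaQ2 (ζ ^ ksJ a b * u) (ζ ^ (4 * ksJ a b) * v)) = ksSecY (a, b) ζ u v :=
        (if_neg hb).symm
      obtain ⟨hns', e'⟩ := ks_some_congr hns ex ey
      refine ⟨hns', ?_⟩
      show a.val • Point.some _ _ hP + b.val • Point.some _ _ hQ = _
      rw [key, e, e']
  refine ⟨θ, ?_, hcoord⟩
  rw [injective_iff_map_eq_zero]
  intro c h0
  by_contra hc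
  obtain ⟨hns, e⟩ := hcoord c hc
  rw [e] at h0
  exact Point.some_ne_zero _ h0

end Main

end Fermat.Agent.S52
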