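import Fermat.Agent.S52.XConeCore
import Fermat.Agent.S52.XTheta

/-!
# P17 (S52), block X: the `cone` field of the Klein family

`ks_cone` = `ks_cone_core` (XConeCore) applied to the sections package `ks_sections` (XTheta).
-/

set_option autoImplicit false

namespace Fermat.Agent.S52

open WeierstrassCurve WeierstrassCurve.Affine Polynomial

local notation "Qbar" => AlgebraicClosure ℚ

theorem ks_cone (h τ : ℚ) (Hp Tp : ℚ[X]) (ζ u₀ v₀ : Qbar)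
    (hζ : 1 + ζ + ζ ^ 2 + ζ ^ 3 + ζ ^ 4 = 0) (hF : kF u₀ v₀ ≠ 0)
    (hh : algebraMap ℚ Qbar h = 5 ^ 4 * kH u₀ v₀) (hτ : algebraMap ℚ Qbar τ = 5 ^ 6 * kT u₀ v₀)
    (hHp : ∀ t : Qbar, aeval t Hp =
      5 ^ 4 * kH (u₀ + t * (25 * ksWu u₀ v₀)) (v₀ + t * (25 * ksWv u₀ v₀)))
    (hTp : ∀ t : Qbar, aeval t Tp =
      5 ^ 6 * kT (u₀ + t * (25 * ksWu u₀ v₀)) (v₀ + t * (25 * ksWv u₀ v₀))) :
    ∃ bad : Option ℚ, ∀ u₁ : ℚ, some u₁ ≠ bad → kF u₁ 1 ≠ 0 →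
      ∃ t₁ μ : Qbar, μ ≠ 0 ∧
        aeval t₁ Hp = μ ^ 2 * algebraMap ℚ Qbar (kH u₁ 1) ∧
        aeval t₁ Tp = μ ^ 3 * algebraMap ℚ Qbar (kT u₁ 1) ∧
        ∀ σ : Qbar ≃ₐ[ℚ] Qbar,
          (∀ P : ((shortCurve h τ)⁄Qbar).Point, 5 • P = 0 → σ • P = P) →
          (∀ ζ' : Qbar, ζ' ^ 5 = 1 → σ ζ' = ζ') → σ t₁ = t₁ ∧ σ μ = μ := by
  have hE : ((shortCurve h τ)⁄Qbar) = shortCurve (5 ^ 4 * kH u₀ v₀) (5 ^ 6 * kT u₀ v₀) := by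
    rw [kscone_short_baseChange, hh, hτ]
  exact ks_cone_core h τ Hp Tp ζ u₀ v₀ hζ hF hh (ks_sections ζ u₀ v₀ hζ hF _ hE) hHp hTp

end Fermat.Agent.S52
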