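import Fermat.Agent.S52.Defs

/-!
# P17 (S52), block X: `kF` and `kH` have no common zero besides the origin
-/

set_option autoImplicit false

namespace Fermat.Agent.S52

theorem xnocommon_left {K : Type*} [Field K] (v : K) (hH : kH 0 v = 0) : v = 0 := by
  have h : kH 0 v = -v ^ 20 := by unfold kH; ring
  rw [h, neg_eq_zero] at hH
  exact pow_eq_zero_iff (by norm_num) |>.mp hH

theorem xnocommon_right {K : Type*} [Field K] (u : K) (hH : kH u 0 = 0) : u = 0 := by
  have h : kH u 0 = -u ^ 20 := by unfold kH; ring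
  rw [h, neg_eq_zero] at hH
  exact pow_eq_zero_iff (by norm_num) |>.mp hH

theorem xnocommon {K : Type*} [Field K] [CharZero K] (u v : K) (hF : kF u v = 0)
    (hH : kH u v = 0) : u = 0 ∧ v = 0 := by
  have key : ∀ u v : K, (u = 0 ∨ v = 0) → kH u v = 0 → u = 0 ∧ v = 0 := by
    intro u v h hH
    rcases h with h | h
    · subst h
      exact ⟨rfl, xnocommon_left v hH⟩
    · subst h
      exact ⟨xnocommon_right u hH, rfl⟩
  have hid : kH u v = -(u ^ 10 + 11 * u ^ 5 * v ^ 5 - v ^ 10) ^ 2 +
      125 * (u ^ 5 * v ^ 5) * (2 * ((u ^ 10 + 11 * u ^ 5 * v ^ 5 - v ^ 10) - 11 * (u ^ 5 * v ^ 5))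
        - 3 * (u ^ 5 * v ^ 5)) := by
    unfold kH; ring
  unfold kF at hF
  rcases mul_eq_zero.mp hF with h | hg
  · exact key u v (mul_eq_zero.mp h) hH
  · rw [hid, hg] at hH
    have h2 : (3125 : K) * (u ^ 5 * v ^ 5) ^ 2 = 0 := by linear_combination -hH
    have h3 : (3125 : K) ≠ 0 := by norm_num
    have h4 : u ^ 5 * v ^ 5 = 0 := by
      rcases mul_eq_zero.mp h2 with h | h
      · exact absurd h h3
      · exact pow_eq_zero_iff (by norm_num) |>.mp h
    have h5 : u = 0 ∨ v = 0 := by
      rcases mul_eq_zero.mp h4 with h | h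
      · exact Or.inl (pow_eq_zero_iff (by norm_num) |>.mp h)
      · exact Or.inr (pow_eq_zero_iff (by norm_num) |>.mp h)
    have hH' : kH u v = 0 := by rw [hid, hg]; linear_combination hH
    exact key u v h5 hH'

end Fermat.Agent.S52
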