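import Fermat.Agent.S52.Defs
import Fermat.Agent.S52.XNoCommon

/-!
# P17 (S52), block X: coprimality of `Hp` and `Fp` along a line

If `Hp` and `Fp` are rational polynomials whose values at every `t` of the algebraic closure are
(nonzero multiples of) `kH` and `kF ^ 5` along a line `(a + t * wa, b + t * wb)` which does not
pass through the origin (`a * wb - b * wa ≠ 0`), then `Hp` and `Fp` are coprime: a common root
would be a common zero of `kF` and `kH` away from the origin.
-/

set_option autoImplicit false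

namespace Fermat.Agent.S52

open Polynomial

/-- A line `(a + t * wa, b + t * wb)` with `a * wb - b * wa ≠ 0` avoids the origin. -/
theorem ks_line_ne_zero {K : Type*} [Field K] (a b wa wb t : K) (hw : a * wb - b * wa ≠ 0)
    (h1 : a + t * wa = 0) (h2 : b + t * wb = 0) : False := by
  apply hw
  linear_combination wb * h1 - wa * h2

/-- Generic form of `ks_coprime`: `K` any algebraically closed field of characteristic zero
containing the coefficient field `k`. -/
theorem ks_coprime_gen {k K : Type*} [Field k] [Field K] [CharZero K] [IsAlgClosed K]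
    [Algebra k K] (Hp Fp : k[X]) (a b wa wb c d : K) (hc : c ≠ 0) (hd : d ≠ 0)
    (hw : a * wb - b * wa ≠ 0)
    (hHp : ∀ t : K, aeval t Hp = c * kH (a + t * wa) (b + t * wb))
    (hFp : ∀ t : K, aeval t Fp = d * kF (a + t * wa) (b + t * wb) ^ 5) :
    IsCoprime Hp Fp := by
  rw [Polynomial.isCoprime_iff_aeval_ne_zero_of_isAlgClosed k K]
  intro t
  by_contra hcon
  push_neg at hcon
  obtain ⟨hH, hF⟩ := hcon
  rw [hHp t] at hH
  rw [hFp t] at hF
  have hH0 : kH (a + t * wa) (b + t * wb) = 0 := (mul_eq_zero.mp hH).resolve_left hc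
  have hF0 : kF (a + t * wa) (b + t * wb) = 0 :=
    pow_eq_zero_iff (n := 5) (by norm_num) |>.mp ((mul_eq_zero.mp hF).resolve_left hd)
  obtain ⟨h1, h2⟩ := xnocommon _ _ hF0 hH0
  exact ks_line_ne_zero a b wa wb t hw h1 h2

/-- `Hp` and `Fp` are coprime over `ℚ` when they compute `kH` and `kF ^ 5` (up to nonzero
constants) along a line avoiding the origin. -/
theorem ks_coprime (Hp Fp : ℚ[X]) (a b wa wb c d : AlgebraicClosure ℚ) (hc : c ≠ 0) (hd : d ≠ 0)
    (hw : a * wb - b * wa ≠ 0)
    (hHp : ∀ t : AlgebraicClosure ℚ, aeval t Hp = c * kH (a + t * wa) (b + t * wb))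
    (hFp : ∀ t : AlgebraicClosure ℚ, aeval t Fp = d * kF (a + t * wa) (b + t * wb) ^ 5) :
    IsCoprime Hp Fp :=
  ks_coprime_gen Hp Fp a b wa wb c d hc hd hw hHp hFp

end Fermat.Agent.S52
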