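import Fermat.Agent.S52.XRigid
import Fermat.Agent.S52.XTheta

set_option autoImplicit false

/-!
# S52 (block X): the `5`-torsion identification along the Klein family (`KleinFamily.iso`)

`xiso`: plumbing between the level structure `ks_exists_theta` (over a point `(u, v)` with
`kF u v ≠ 0`) and the rigidity theorem `rigid_iso` of `XRigid.lean`, along the line
`(u₀ + 25 t wu, v₀ + 25 t wv)`.
-/

namespace Fermat.Agent.S52

open WeierstrassCurve WeierstrassCurve.Affine Polynomial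

local notation "Qbar" => AlgebraicClosure ℚ

theorem xiso_shortCurve_map {R S : Type*} [CommRing R] [CommRing S] (f : R →+* S) (a b : R) :
    (shortCurve a b).map f = shortCurve (f a) (f b) := by
  have h27 : f 27 = 27 := map_ofNat f 27
  have h54 : f 54 = 54 := map_ofNat f 54
  ext <;> simp [shortCurve, h27, h54]

theorem xiso_aeval_rat (p : ℚ[X]) (t : ℚ) :
    aeval (t : Qbar) p = algebraMap ℚ Qbar (p.eval t) := by
  rw [← eq_ratCast (algebraMap ℚ Qbar) t, aeval_algebraMap_apply, coe_aeval_eq_eval]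

theorem xiso (h τ : ℚ) (Hp Tp Fp : ℚ[X]) (ζ u₀ v₀ : Qbar)
    (hζ : 1 + ζ + ζ ^ 2 + ζ ^ 3 + ζ ^ 4 = 0) (hF : kF u₀ v₀ ≠ 0)
    (hH0 : Hp.eval 0 = h) (hT0 : Tp.eval 0 = τ)
    (hHp : ∀ t : Qbar, aeval t Hp =
      5 ^ 4 * kH (u₀ + t * (25 * ksWu u₀ v₀)) (v₀ + t * (25 * ksWv u₀ v₀)))
    (hTp : ∀ t : Qbar, aeval t Tp =
      5 ^ 6 * kT (u₀ + t * (25 * ksWu u₀ v₀)) (v₀ + t * (25 * ksWv u₀ v₀)))
    (hFp : ∀ t : Qbar, aeval t Fp =
      5 ^ 12 * kF (u₀ + t * (25 * ksWu u₀ v₀)) (v₀ + t * (25 * ksWv u₀ v₀)) ^ 5) :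
    ∀ t : ℚ, Fp.eval t ≠ 0 →
      ∃ ψ : ((shortCurve h τ)⁄Qbar).Point →
          ((shortCurve (Hp.eval t) (Tp.eval t))⁄Qbar).Point, IsTorsionIso5 ψ := by
  -- nonvanishing of `kF` along the line at good parameters
  have hFt : ∀ t : ℚ, Fp.eval t ≠ 0 →
      kF (u₀ + (t : Qbar) * (25 * ksWu u₀ v₀)) (v₀ + (t : Qbar) * (25 * ksWv u₀ v₀)) ≠ 0 := by
    intro t ht h0
    apply ht
    have h1 := hFp (t : Qbar)
    rw [h0, xiso_aeval_rat] at h1
    have h2 : algebraMap ℚ Qbar (Fp.eval t) = 0 := by rw [h1]; ring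
    exact (map_eq_zero (algebraMap ℚ Qbar)).mp h2
  have hF0 : Fp.eval 0 ≠ 0 := by
    intro h0
    have h1 := hFp ((0 : ℚ) : Qbar)
    rw [xiso_aeval_rat, h0, map_zero] at h1
    have h2 : (5 : Qbar) ^ 12 * kF u₀ v₀ ^ 5 = 0 := by
      rw [h1]
      simp
    rcases mul_eq_zero.mp h2 with h3 | h3
    · exact absurd h3 (by norm_num)
    · exact hF (pow_eq_zero_iff (by norm_num) |>.mp h3)
  refine rigid_iso h τ Hp Tp Fp hH0 hT0 hF0
    (fun c => ksSecX c (C ζ) (C u₀ + X * C (25 * ksWu u₀ v₀)) (C v₀ + X * C (25 * ksWv u₀ v₀)))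
    (fun c => ksSecY c (C ζ) (C u₀ + X * C (25 * ksWu u₀ v₀)) (C v₀ + X * C (25 * ksWv u₀ v₀)))
    ?_
  intro t ht
  have hE : ((shortCurve (Hp.eval t) (Tp.eval t))⁄Qbar : Affine Qbar) =
      shortCurve (5 ^ 4 * kH (u₀ + (t : Qbar) * (25 * ksWu u₀ v₀))
          (v₀ + (t : Qbar) * (25 * ksWv u₀ v₀)))
        (5 ^ 6 * kT (u₀ + (t : Qbar) * (25 * ksWu u₀ v₀))
          (v₀ + (t : Qbar) * (25 * ksWv u₀ v₀))) := by
    rw [← hHp (t : Qbar), ← hTp (t : Qbar), xiso_aeval_rat, xiso_aeval_rat]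
    exact xiso_shortCurve_map (algebraMap ℚ Qbar) _ _
  obtain ⟨θ, hinj, hc⟩ := ks_exists_theta ζ _ _ hζ (hFt t ht) _ hE
  refine ⟨θ, hinj, fun c hc0 => ?_⟩
  obtain ⟨hns, e⟩ := hc c hc0
  have ex : ksSecX c ζ (u₀ + (t : Qbar) * (25 * ksWu u₀ v₀))
      (v₀ + (t : Qbar) * (25 * ksWv u₀ v₀)) =
      (ksSecX c (C ζ) (C u₀ + X * C (25 * ksWu u₀ v₀))
        (C v₀ + X * C (25 * ksWv u₀ v₀))).eval (t : Qbar) := by
    have h1 := ksSecX_map (evalRingHom (t : Qbar)) c (C ζ) (C u₀ + X * C (25 * ksWu u₀ v₀))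
      (C v₀ + X * C (25 * ksWv u₀ v₀))
    simp only [coe_evalRingHom, eval_add, eval_mul, eval_C, eval_X] at h1
    exact h1.symm
  have ey : ksSecY c ζ (u₀ + (t : Qbar) * (25 * ksWu u₀ v₀))
      (v₀ + (t : Qbar) * (25 * ksWv u₀ v₀)) =
      (ksSecY c (C ζ) (C u₀ + X * C (25 * ksWu u₀ v₀))
        (C v₀ + X * C (25 * ksWv u₀ v₀))).eval (t : Qbar) := by
    have h1 := ksSecY_map (evalRingHom (t : Qbar)) c (C ζ) (C u₀ + X * C (25 * ksWu u₀ v₀))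
      (C v₀ + X * C (25 * ksWv u₀ v₀))
    simp only [coe_evalRingHom, eval_add, eval_mul, eval_C, eval_X] at h1
    exact h1.symm
  obtain ⟨hns', e'⟩ := ks_some_congr hns ex ey
  exact ⟨hns', e.trans e'⟩

end Fermat.Agent.S52
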