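import Fermat.Agent.S52.XExist
import Fermat.Agent.S52.XCoprime
import Fermat.Agent.S52.XIso
import Fermat.Agent.S52.XCone

/-!
# P17 (S52), block X: the Klein family from rational line polynomials

`exists_kleinFamily_of_fam`: the Klein family through `shortCurve h τ`, given rational
polynomials `Hp`, `Tp` computing `5⁴ kH`, `5⁶ kT` along the scaled line through a base point
`(u₀, v₀)` of the fibre (`xexist`); coprimality (`ks_coprime`), the torsion identification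
(`xiso`) and the cone statement (`ks_cone`).
-/

set_option autoImplicit false

namespace Fermat.Agent.S52

open WeierstrassCurve WeierstrassCurve.Affine Polynomial

local notation "Qbar" => AlgebraicClosure ℚ

/-- A primitive fifth root of unity in `ℚ̄`. -/
theorem xmain_exists_zeta : ∃ ζ : Qbar, 1 + ζ + ζ ^ 2 + ζ ^ 3 + ζ ^ 4 = 0 := by
  have hdeg : (1 + X + X ^ 2 + X ^ 3 + X ^ 4 : Qbar[X]).degree ≠ 0 := by
    have h : (1 + X + X ^ 2 + X ^ 3 + X ^ 4 : Qbar[X]) = X ^ 4 + (X ^ 3 + X ^ 2 + X + 1) := by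
      ring
    rw [h, degree_add_eq_left_of_degree_lt]
    · rw [degree_X_pow]; norm_num
    · rw [degree_X_pow]
      refine lt_of_le_of_lt (degree_add_le _ _) (max_lt (lt_of_le_of_lt (degree_add_le _ _)
        (max_lt (lt_of_le_of_lt (degree_add_le _ _) (max_lt ?_ ?_)) ?_)) ?_)
      · rw [degree_X_pow]; norm_num
      · rw [degree_X_pow]; norm_num
      · rw [degree_X]; norm_num
      · rw [degree_one]; norm_num
  obtain ⟨ζ, hζ⟩ := IsAlgClosed.exists_root _ hdeg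
  refine ⟨ζ, ?_⟩
  simpa using hζ

/-- The Klein family through `shortCurve h τ`, from rational polynomials along the scaled
line. -/
theorem exists_kleinFamily_of_fam (h τ : ℚ) (hh : h ≠ 0) (hτ : τ ≠ 0) (hd : h ^ 3 + τ ^ 2 ≠ 0)
    (hfam : ∀ u₀ v₀ : Qbar, algebraMap ℚ Qbar h = 5 ^ 4 * kH u₀ v₀ →
      algebraMap ℚ Qbar τ = 5 ^ 6 * kT u₀ v₀ →
      ∃ Hp Tp : ℚ[X], Hp.eval 0 = h ∧ Tp.eval 0 = τ ∧
        (∀ t : Qbar, aeval t Hp =
          5 ^ 4 * kH (u₀ + t * (25 * ksWu u₀ v₀)) (v₀ + t * (25 * ksWv u₀ v₀))) ∧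
        (∀ t : Qbar, aeval t Tp =
          5 ^ 6 * kT (u₀ + t * (25 * ksWu u₀ v₀)) (v₀ + t * (25 * ksWv u₀ v₀)))) :
    Nonempty (KleinFamily h τ) := by
  obtain ⟨ζ, hζ⟩ := xmain_exists_zeta
  -- the base point
  have hh' : algebraMap ℚ Qbar h / 5 ^ 4 ≠ 0 :=
    div_ne_zero ((_root_.map_ne_zero _).mpr hh) (by norm_num)
  have hτ' : algebraMap ℚ Qbar τ / 5 ^ 6 ≠ 0 :=
    div_ne_zero ((_root_.map_ne_zero _).mpr hτ) (by norm_num)
  obtain ⟨u₀, v₀, hu, hv⟩ := xexist (algebraMap ℚ Qbar h / 5 ^ 4) (algebraMap ℚ Qbar τ / 5 ^ 6)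
    hh' hτ'
  have hH : algebraMap ℚ Qbar h = 5 ^ 4 * kH u₀ v₀ := by rw [hu]; field_simp
  have hT : algebraMap ℚ Qbar τ = 5 ^ 6 * kT u₀ v₀ := by rw [hv]; field_simp
  have hF : kF u₀ v₀ ≠ 0 := by
    intro h0
    have h1 := kT_sq_add_kH_cube u₀ v₀
    rw [h0] at h1
    have h2 : algebraMap ℚ Qbar (h ^ 3 + τ ^ 2) = 0 := by
      rw [map_add, map_pow, map_pow, hH, hT]
      linear_combination (5 : Qbar) ^ 12 * h1
    exact hd ((map_eq_zero _).mp h2)
  -- the polynomials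
  obtain ⟨Hp, Tp, hH0, hT0, hHp, hTp⟩ := hfam u₀ v₀ hH hT
  set Fp : ℚ[X] := C (1 / 1728) * (Tp ^ 2 + Hp ^ 3) with hFpdef
  have hrel : Tp ^ 2 + Hp ^ 3 = C 1728 * Fp := by
    rw [hFpdef, ← mul_assoc, ← C_mul]
    norm_num
  have hFp : ∀ t : Qbar, aeval t Fp =
      5 ^ 12 * kF (u₀ + t * (25 * ksWu u₀ v₀)) (v₀ + t * (25 * ksWv u₀ v₀)) ^ 5 := by
    intro t
    have h1 := kT_sq_add_kH_cube (u₀ + t * (25 * ksWu u₀ v₀)) (v₀ + t * (25 * ksWv u₀ v₀))
    rw [hFpdef, map_mul, aeval_C, map_add, map_pow, map_pow, hHp, hTp]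
    have h2 : algebraMap ℚ Qbar (1 / 1728) = 1 / 1728 := by
      rw [map_div₀, map_one, map_ofNat]
    rw [h2]
    linear_combination (5 : Qbar) ^ 12 / 1728 * h1
  have hdet : u₀ * (25 * ksWv u₀ v₀) - v₀ * (25 * ksWu u₀ v₀) ≠ 0 := by
    have h1 : u₀ * (25 * ksWv u₀ v₀) - v₀ * (25 * ksWu u₀ v₀) = -300 * kF u₀ v₀ := by
      unfold ksWu ksWv kF; ring
    rw [h1]
    exact mul_ne_zero (by norm_num) hF
  have hcop : IsCoprime Hp Fp :=
    ks_coprime Hp Fp u₀ v₀ (25 * ksWu u₀ v₀) (25 * ksWv u₀ v₀) (5 ^ 4) (5 ^ 12) (by norm_num)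
      (by norm_num) hdet hHp hFp
  exact ⟨{ Hp := Hp
           Tp := Tp
           Fp := Fp
           Hp_zero := hH0
           Tp_zero := hT0
           rel := hrel
           coprime := hcop
           iso := xiso h τ Hp Tp Fp ζ u₀ v₀ hζ hF hH0 hT0 hHp hTp hFp
           cone := ks_cone h τ Hp Tp ζ u₀ v₀ hζ hF hH hT hHp hTp }⟩

end Fermat.Agent.S52
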