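import Fermat.Agent.S52.XRSDefs

/-!
# P17 (S52), block X: the Rubin–Silverberg identity for `kH`

`xrsHval (kH u v) (kT u v) t = kH (u + t * xrsWu u v) (v + t * xrsWv u v)`.
Both sides are first rewritten (by cheap identities in independent variables) into shapes on
which `ring` needs few monomial multiplications: binomial expansions in `t * a`, `t * b` on the
left and a double Horner scheme on the right.
-/

set_option autoImplicit false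

namespace Fermat.Agent.S52

set_option maxHeartbeats 4000000 in
theorem xrs_kH_abs {R : Type*} [CommRing R] (u v t a b : R) :
    kH (u + t * (u * a)) (v + t * -(v * b)) =
      -(u ^ 20 * (1 + 20 * (t * a) + 190 * (t ^ 2 * a ^ 2) + 1140 * (t ^ 3 * a ^ 3) + 4845 * (t ^ 4 * a ^ 4) + 15504 * (t ^ 5 * a ^ 5) + 38760 * (t ^ 6 * a ^ 6) + 77520 * (t ^ 7 * a ^ 7) + 125970 * (t ^ 8 * a ^ 8) + 167960 * (t ^ 9 * a ^ 9) + 184756 * (t ^ 10 * a ^ 10) + 167960 * (t ^ 11 * a ^ 11) + 125970 * (t ^ 12 * a ^ 12) + 77520 * (t ^ 13 * a ^ 13) + 38760 * (t ^ 14 * a ^ 14) + 15504 * (t ^ 15 * a ^ 15) + 4845 * (t ^ 16 * a ^ 16) + 1140 * (t ^ 17 * a ^ 17) + 190 * (t ^ 18 * a ^ 18) + 20 * (t ^ 19 * a ^ 19) + (t ^ 20 * a ^ 20)) + v ^ 20 * (1 - 20 * (t * b) + 190 * (t ^ 2 * b ^ 2) - 1140 * (t ^ 3 * b ^ 3) + 4845 * (t ^ 4 * b ^ 4) - 15504 * (t ^ 5 * b ^ 5) + 38760 * (t ^ 6 *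 b ^ 6) - 77520 * (t ^ 7 * b ^ 7) + 125970 * (t ^ 8 * b ^ 8) - 167960 * (t ^ 9 * b ^ 9) + 184756 * (t ^ 10 * b ^ 10) - 167960 * (t ^ 11 * b ^ 11) + 125970 * (t ^ 12 * b ^ 12) - 77520 * (t ^ 13 * b ^ 13) + 38760 * (t ^ 14 * b ^ 14) - 15504 * (t ^ 15 * b ^ 15) + 4845 * (t ^ 16 * b ^ 16) - 1140 * (t ^ 17 * b ^ 17) + 190 * (t ^ 18 * b ^ 18) - 20 * (t ^ 19 * b ^ 19) + (t ^ 20 * b ^ 20))) +
      (u ^ 5 * v ^ 5) * (((((((((((228 * (u ^ 10 * (1 + 10 * (t * a) + 45 * (t ^ 2 * a ^ 2) + 120 * (t ^ 3 * a ^ 3) + 210 * (t ^ 4 * a ^ 4) + 252 * (t ^ 5 * a ^ 5) + 210 * (t ^ 6 * a ^ 6) + 120 * (t ^ 7 * a ^ 7) + 45 * (t ^ 8 * a ^ 8) + 10 * (t ^ 9 * a ^ 9) + (t ^ 10 * a ^ 10)) - v ^ 10 * (1 - 10 * (t * b) + 45 * (t ^ 2 * b ^ 2) - 120 * (t ^ 3 * b ^ 3) + 210 * (t ^ 4 * b ^ 4) - 252 * (t ^ 5 * b ^ 5) + 210 * (t ^ 6 * b ^ 6) - 120 * (t ^ 7 * b ^ 7) + 45 * (t ^ 8 * b ^ 8)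 - 10 * (t ^ 9 * b ^ 9) + (t ^ 10 * b ^ 10))) - 494 * (u ^ 5 * v ^ 5 * ((1 + 5 * (t * a) + 10 * (t ^ 2 * a ^ 2) + 10 * (t ^ 3 * a ^ 3) + 5 * (t ^ 4 * a ^ 4) + (t ^ 5 * a ^ 5)) * (1 - 5 * (t * b) + 10 * (t ^ 2 * b ^ 2) - 10 * (t ^ 3 * b ^ 3) + 5 * (t ^ 4 * b ^ 4) - (t ^ 5 * b ^ 5))))) * (1 + t * a)) * (1 + t * a)) * (1 + t * a)) * (1 + t * a)) * (1 + t * a)) * (1 - t * b)) * (1 - t * b)) * (1 - t * b)) * (1 - t * b)) * (1 - t * b)) := by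
  unfold kH
  ring

set_option maxHeartbeats 4000000 in
theorem xrs_Hval_horner {R : Type*} [CommRing R] (H T t : R) :
    xrsHval H T t =
      H * (1 + H * t ^ 2 * ((-190) + H * t ^ 2 * ((-855) + H * t ^ 2 * ((-102600) + H * t ^ 2 * ((-1000350) + H * t ^ 2 * (10003500 + H * t ^ 2 * ((-45015750) + H * t ^ 2 * ((-207765000) + H * t ^ 2 * ((-77911875) + H * t ^ 2 * ((-779118750) + H * t ^ 2 * (184528125))))))))))) +
      T * t * (((-20) + H * t ^ 2 * (1140 + H * t ^ 2 * ((-15504) + H * t ^ 2 * (259920 + H * t ^ 2 * (7736040 + H * t ^ 2 * ((-54685800) + H * t ^ 2 * (35089200 + H * t ^ 2 * (415530000 + H * t ^ 2 * ((-353200500) + H * t ^ 2 * (694372500)))))))))) + T * t ^ 3 * (((-5700) + H * t ^ 2 * ((-63840) + H * t ^ 2 * ((-1126320) + H * t ^ 2 * ((-5619744) + H * t ^ 2 * ((-7202520) + H * t ^ 2 * ((-495188640) + H * t ^ 2 * ((-714711600) + H * t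 ^ 2 * ((-2182917600) + H * t ^ 2 * (549301500))))))))) + T * t ^ 3 * ((182400 + H * t ^ 2 * (7904000 + H * t ^ 2 * ((-54853760) + H * t ^ 2 * ((-23201280) + H * t ^ 2 * (882458496 + H * t ^ 2 * ((-715080960) + H * t ^ 2 * (2044414080))))))) + T * t ^ 3 * (((-15808000) + H * t ^ 2 * (37939200 + H * t ^ 2 * ((-287462400) + H * t ^ 2 * ((-1220474880) + H * t ^ 2 * ((-2026391040) + H * t ^ 2 * (544997376)))))) + T * t ^ 3 * (((-58368000) + H * t ^ 2 * (466944000 + H * t ^ 2 * ((-361881600) + H * t ^ 2 * (2005401600)))) + T * t ^ 3 * (((-583680000) + H * t ^ 2 * ((-622592000) + H * t ^ 2 * (180224000))) + T * t ^ 3 * ((655360000)))))))) := by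
  unfold xrsHval
  ring

set_option maxHeartbeats 4000000 in
theorem xrsHval_eq {R : Type*} [CommRing R] (u v t : R) :
    xrsHval (kH u v) (kT u v) t = kH (u + t * xrsWu u v) (v + t * xrsWv u v) := by
  have h1 : kH (u + t * xrsWu u v) (v + t * xrsWv u v) = _ :=
    xrs_kH_abs u v t (u ^ 10 + 66 * u ^ 5 * v ^ 5 - 11 * v ^ 10)
      (11 * u ^ 10 + 66 * u ^ 5 * v ^ 5 - v ^ 10)
  rw [h1, xrs_Hval_horner]
  unfold kH kT
  ring

end Fermat.Agent.S52
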