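import Fermat.Agent.S52.XFamD
import Fermat.Agent.S52.XRSH
import Fermat.Agent.S52.XMainCore

/-!
# P17 (S52), block X: `exists_kleinFamily`

The Klein family through `shortCurve h τ`: `exists_kleinFamily_of_fam` fed with the rational line
polynomials of `xfam_D_of` (Rubin–Silverberg identity for `kH`, descent for `kT`).
-/

set_option autoImplicit false

namespace Fermat.Agent.S52

/-- **Block X.** The Klein family through `shortCurve h τ`. -/
theorem exists_kleinFamily (h τ : ℚ) (hh : h ≠ 0) (hτ : τ ≠ 0) (hd : h ^ 3 + τ ^ 2 ≠ 0) :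
    Nonempty (KleinFamily h τ) :=
  exists_kleinFamily_of_fam h τ hh hτ hd
    (fun u₀ v₀ hh' hτ' => xfam_D_of (fun u v t => xrsHval_eq u v t) h τ hτ u₀ v₀ hh' hτ')

end Fermat.Agent.S52
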