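import Mathlib
import Fermat.Agent.S52.FCountDefs

/-!
# P17 (S52), Block F6: local factor at an `x`-coordinate with no rational point

If `c : 𝔽_ℓ` has no rational point above it, then `(X - c) ^ 2` divides the numerator `N`.
-/

set_option autoImplicit false

open Polynomial WeierstrassCurve

namespace Fermat.Agent.S52.FCount

variable {ℓ : ℕ} [Fact ℓ.Prime] (C : WeierstrassCurve (ZMod ℓ))

/-- Every element of the coordinate ring is `p + q * Y`. -/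
theorem fl0b_decomp (x : C.toAffine.CoordinateRing) :
    ∃ p q : (ZMod ℓ)[X], x = pc C p + pc C q * yc C := by
  obtain ⟨p, q, hpq⟩ := Affine.CoordinateRing.exists_smul_basis_eq x
  refine ⟨p, q, ?_⟩
  rw [← hpq, Algebra.smul_def, Algebra.smul_def, mul_one]
  rfl

/-- `1, Y` are independent over `𝔽_ℓ[X]`. -/
theorem fl0b_indep {p q : (ZMod ℓ)[X]} (hpq : pc C p + pc C q * yc C = 0) : p = 0 ∧ q = 0 := by
  apply Affine.CoordinateRing.smul_basis_eq_zero (W' := C.toAffine)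
  rw [Algebra.smul_def, Algebra.smul_def, mul_one]
  exact hpq

section ev

variable {K : Type*} [Field K] [Algebra (ZMod ℓ) K]

theorem fl0b_eval₂ (c : ZMod ℓ) (r : K)
    (hr : r ^ 2 + algebraMap (ZMod ℓ) K (C.a₁ * c + C.a₃) * r
      = algebraMap (ZMod ℓ) K (c ^ 3 + C.a₂ * c ^ 2 + C.a₄ * c + C.a₆)) :
    Polynomial.eval₂ ((algebraMap (ZMod ℓ) K).comp (Polynomial.evalRingHom c)) r
      C.toAffine.polynomial = 0 := by
  simp only [Affine.polynomial, eval₂_sub, eval₂_add, eval₂_mul, eval₂_pow, eval₂_X, eval₂_C,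
    RingHom.comp_apply, coe_evalRingHom, eval_add, eval_mul, eval_C, eval_X, eval_pow]
  linear_combination hr

/-- Evaluation `X ↦ c`, `Y ↦ r` of the coordinate ring. -/
noncomputable def fl0b_ev (c : ZMod ℓ) (r : K)
    (hr : r ^ 2 + algebraMap (ZMod ℓ) K (C.a₁ * c + C.a₃) * r
      = algebraMap (ZMod ℓ) K (c ^ 3 + C.a₂ * c ^ 2 + C.a₄ * c + C.a₆)) :
    C.toAffine.CoordinateRing →+* K :=
  AdjoinRoot.lift ((algebraMap (ZMod ℓ) K).comp (Polynomial.evalRingHom c)) r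
    (fl0b_eval₂ C c r hr)

theorem fl0b_ev_pc (c : ZMod ℓ) (r : K)
    (hr : r ^ 2 + algebraMap (ZMod ℓ) K (C.a₁ * c + C.a₃) * r
      = algebraMap (ZMod ℓ) K (c ^ 3 + C.a₂ * c ^ 2 + C.a₄ * c + C.a₆)) (p : (ZMod ℓ)[X]) :
    fl0b_ev C c r hr (pc C p) = algebraMap (ZMod ℓ) K (p.eval c) :=
  AdjoinRoot.lift_of _

theorem fl0b_ev_yc (c : ZMod ℓ) (r : K)
    (hr : r ^ 2 + algebraMap (ZMod ℓ) K (C.a₁ * c + C.a₃) * r
      = algebraMap (ZMod ℓ) K (c ^ 3 + C.a₂ * c ^ 2 + C.a₄ * c + C.a₆)) :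
    fl0b_ev C c r hr (yc C) = r :=
  AdjoinRoot.lift_root _

/-- A root above a fibre without rational points is not rational and its conjugate is the
other root. -/
theorem fl0b_root_facts (c : ZMod ℓ) (r : K)
    (hr : r ^ 2 + algebraMap (ZMod ℓ) K (C.a₁ * c + C.a₃) * r
      = algebraMap (ZMod ℓ) K (c ^ 3 + C.a₂ * c ^ 2 + C.a₄ * c + C.a₆))
    (h : ∀ y : ZMod ℓ, ¬ C.toAffine.Equation c y) :
    (∀ y : ZMod ℓ, algebraMap (ZMod ℓ) K y ≠ r) ∧
      r ^ ℓ + r + algebraMap (ZMod ℓ) K (C.a₁ * c + C.a₃) = 0 := by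
  have hinj : Function.Injective (algebraMap (ZMod ℓ) K) := (algebraMap (ZMod ℓ) K).injective
  have h1 : ∀ y : ZMod ℓ, algebraMap (ZMod ℓ) K y ≠ r := by
    rintro y rfl
    apply h y
    rw [Affine.equation_iff]
    apply hinj
    rw [← hr]
    simp only [map_add, map_mul, map_pow]
    ring
  refine ⟨h1, ?_⟩
  have hch : CharP K ℓ := charP_of_injective_algebraMap hinj ℓ
  have hr' : (r ^ ℓ) ^ 2 + algebraMap (ZMod ℓ) K (C.a₁ * c + C.a₃) * r ^ ℓ
      = algebraMap (ZMod ℓ) K (c ^ 3 + C.a₂ * c ^ 2 + C.a₄ * c + C.a₆) := by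
    have h2 : (r ^ 2 + algebraMap (ZMod ℓ) K (C.a₁ * c + C.a₃) * r) ^ ℓ
        = algebraMap (ZMod ℓ) K (c ^ 3 + C.a₂ * c ^ 2 + C.a₄ * c + C.a₆) ^ ℓ := by rw [hr]
    rw [add_pow_char, mul_pow, ← map_pow, ← map_pow, ZMod.pow_card, ZMod.pow_card] at h2
    rw [← h2]
    ring
  have h3 : (r ^ ℓ - r) * (r ^ ℓ + r + algebraMap (ZMod ℓ) K (C.a₁ * c + C.a₃)) = 0 := by
    linear_combination hr' - hr
  rcases mul_eq_zero.mp h3 with h4 | h4
  · exfalso
    have h5 : r ∈ (⊥ : Subfield K) :=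
      (Subfield.mem_bot_iff_pow_eq_self K ℓ).mpr (sub_eq_zero.mp h4)
    obtain ⟨n, hn⟩ := (mem_bot_iff_intCast ℓ K).mp h5
    apply h1 (n : ZMod ℓ)
    rw [map_intCast, hn]
  · exact h4

end ev

/-- `U` is divisible by `X - c` when the fibre above `c` has no rational point. -/
theorem fl0b_U_dvd {c : ZMod ℓ} (h : ∀ y : ZMod ℓ, ¬ C.toAffine.Equation c y) :
    ∃ U₁ : C.toAffine.CoordinateRing, Uc C = pc C (X - Polynomial.C c) * U₁ := by
  obtain ⟨r, hr⟩ : ∃ r : AlgebraicClosure (ZMod ℓ),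
      r ^ 2 + algebraMap (ZMod ℓ) (AlgebraicClosure (ZMod ℓ)) (C.a₁ * c + C.a₃) * r
        = algebraMap (ZMod ℓ) (AlgebraicClosure (ZMod ℓ))
          (c ^ 3 + C.a₂ * c ^ 2 + C.a₄ * c + C.a₆) := by
    obtain ⟨r, hr⟩ := IsAlgClosed.exists_root
      (Polynomial.C (1 : AlgebraicClosure (ZMod ℓ)) * X ^ 2
        + Polynomial.C (algebraMap (ZMod ℓ) (AlgebraicClosure (ZMod ℓ)) (C.a₁ * c + C.a₃)) * X
        + Polynomial.C (-algebraMap (ZMod ℓ) (AlgebraicClosure (ZMod ℓ))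
          (c ^ 3 + C.a₂ * c ^ 2 + C.a₄ * c + C.a₆)))
      (by rw [Polynomial.degree_quadratic one_ne_zero]; decide)
    refine ⟨r, ?_⟩
    simp only [IsRoot, eval_add, eval_mul, eval_C, eval_pow, eval_X] at hr
    linear_combination hr
  obtain ⟨h1, h2⟩ := fl0b_root_facts C c r hr h
  obtain ⟨p, q, hpq⟩ := fl0b_decomp C (Uc C)
  have hU : fl0b_ev C c r hr (Uc C) = 0 := by
    rw [Uc, map_add, map_add, map_pow, fl0b_ev_yc, fl0b_ev_pc]
    simp only [eval_add, eval_mul, eval_C, eval_X]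
    exact h2
  have hpq' : algebraMap (ZMod ℓ) (AlgebraicClosure (ZMod ℓ)) (p.eval c)
      + algebraMap (ZMod ℓ) (AlgebraicClosure (ZMod ℓ)) (q.eval c) * r = 0 := by
    rw [← hU, hpq]
    simp only [map_add, map_mul, fl0b_ev_yc, fl0b_ev_pc]
  have hq : q.eval c = 0 := by
    by_contra hq
    apply h1 (-(p.eval c) / q.eval c)
    have hq' : algebraMap (ZMod ℓ) (AlgebraicClosure (ZMod ℓ)) (q.eval c) ≠ 0 := by
      rwa [Ne, map_eq_zero]
    rw [map_div₀, map_neg]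
    field_simp
    linear_combination -hpq'
  have hp : p.eval c = 0 := by
    rw [hq, map_zero, zero_mul, add_zero, map_eq_zero] at hpq'
    exact hpq'
  obtain ⟨p₁, rfl⟩ := Polynomial.dvd_iff_isRoot.mpr hp
  obtain ⟨q₁, rfl⟩ := Polynomial.dvd_iff_isRoot.mpr hq
  refine ⟨pc C p₁ + pc C q₁ * yc C, ?_⟩
  rw [hpq]
  simp only [map_mul]
  ring

/-- If the fibre above `c` has no rational point then `(X - c) ^ 2` divides `N`. -/
theorem sq_dvd_B {n : (ZMod ℓ)[X]} (hn : Nc C = pc C n) {c : ZMod ℓ}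
    (h : ∀ y : ZMod ℓ, ¬ C.toAffine.Equation c y) : (X - Polynomial.C c) ^ 2 ∣ n := by
  obtain ⟨U₁, hU⟩ := fl0b_U_dvd C h
  have hV : (X - Polynomial.C c) ∣ Vp ℓ := by
    rw [Polynomial.dvd_iff_isRoot]
    simp [Vp, IsRoot, ZMod.pow_card]
  obtain ⟨V₁, hV⟩ := hV
  obtain ⟨m₁, m₂, hM⟩ := fl0b_decomp C
    (U₁ ^ 2 + pc C (Polynomial.C C.a₁ * V₁) * U₁
      - pc C ((Polynomial.C C.a₂ + X ^ ℓ + X) * V₁ ^ 2))
  have hN : pc C n = pc C ((X - Polynomial.C c) ^ 2)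
      * (U₁ ^ 2 + pc C (Polynomial.C C.a₁ * V₁) * U₁
        - pc C ((Polynomial.C C.a₂ + X ^ ℓ + X) * V₁ ^ 2)) := by
    rw [← hn, Nc, hU, hV]
    simp only [map_mul, map_pow]
    ring
  rw [hM] at hN
  have h0 : pc C (n - (X - Polynomial.C c) ^ 2 * m₁)
      + pc C (-((X - Polynomial.C c) ^ 2 * m₂)) * yc C = 0 := by
    simp only [map_sub, map_neg, map_mul]
    linear_combination hN
  obtain ⟨h1, -⟩ := fl0b_indep C h0
  exact ⟨m₁, sub_eq_zero.mp h1⟩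

end Fermat.Agent.S52.FCount
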