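import Fermat.Agent.S52.Defs
import Fermat.Agent.S51.Defs

/-!
# P17 (S52), block M3: basic definitions

* `m3Psi H T X = 3 X⁴ + 162 H X² + 648 T X − 729 H²`: the `3`-division polynomial of
  `shortCurve H T` as a function;
* `m3_psi_short`: the `3`-division polynomial of a Weierstrass curve `V` in terms of that of its
  short model: `m3Psi (−c₄) (−c₆) (36 x + 3 b₂) = 6⁸ ψ₃(V)(x)`;
* `m3PairFix π`: the permutation `π` of four letters preserves the pairing `{{0,1},{2,3}}`.
-/

set_option autoImplicit false

namespace Fermat.Agent.S52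

open WeierstrassCurve

/-- The `3`-division polynomial of `shortCurve H T`, as a function. -/
def m3Psi {R : Type*} [CommRing R] (H T X : R) : R :=
  3 * X ^ 4 + 162 * H * X ^ 2 + 648 * T * X - 729 * H ^ 2

/-- The `3`-division polynomial of `V` and that of its short model. -/
theorem m3_psi_short {R : Type*} [CommRing R] (V : WeierstrassCurve R) (x : R) :
    m3Psi (-V.c₄) (-V.c₆) (36 * x + 3 * V.b₂) = 6 ^ 8 * S51.psi3 V x := by
  unfold m3Psi S51.psi3
  rw [WeierstrassCurve.c₄, WeierstrassCurve.c₆, WeierstrassCurve.b₈]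
  simp only [WeierstrassCurve.b₂, WeierstrassCurve.b₄, WeierstrassCurve.b₆]
  ring

/-- Compatibility of `m3Psi` with ring homomorphisms. -/
theorem m3Psi_map {R S : Type*} [CommRing R] [CommRing S] (f : R →+* S) (H T X : R) :
    f (m3Psi H T X) = m3Psi (f H) (f T) (f X) := by
  unfold m3Psi
  simp only [map_sub, map_add, map_mul, map_pow, map_ofNat]

/-- The permutation `π` preserves the pairing `{{0,1},{2,3}}`. -/
def m3PairFix (π : Equiv.Perm (Fin 4)) : Prop :=
  ({π 0, π 1} : Finset (Fin 4)) = {0, 1} ∨ ({π 0, π 1} : Finset (Fin 4)) = {2, 3}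

instance (π : Equiv.Perm (Fin 4)) : Decidable (m3PairFix π) := by
  unfold m3PairFix
  infer_instance

end Fermat.Agent.S52
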