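import Fermat.Agent.S52.Defs
import Fermat.Agent.S51.Galois
import Fermat.Agent.S42.Cyclo

/-!
# P17 (S52), block M3: the field of `5`-torsion and fifth roots of unity

* `m3Fixer E`: the (normal) subgroup of `Gal(ℚ̄/ℚ)` of automorphisms fixing all `5`-torsion
  points of `E` over `ℚ̄` and all fifth roots of unity;
* `m3_exists_field`: a finite Galois extension `L/ℚ` inside `ℚ̄`, containing a given finite set,
  such that membership in `m3Fixer E` only depends on the restriction to `L`.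
-/

set_option autoImplicit false

namespace Fermat.Agent.S52

open WeierstrassCurve WeierstrassCurve.Affine Polynomial

local notation "Qbar" => AlgebraicClosure ℚ
local notation "Γ" => (AlgebraicClosure ℚ ≃ₐ[ℚ] AlgebraicClosure ℚ)

/-- The Galois action commutes with multiplication by a natural number. -/
theorem m3fd_smul_nsmul (E : WeierstrassCurve ℚ) (σ : Γ) (k : ℕ) (P : (E⁄Qbar).Point) :
    σ • (k • P) = k • (σ • P) :=
  map_nsmul (Point.map σ.toAlgHom) k P

/-- The Galois automorphisms fixing all `5`-torsion points of `E` over `ℚ̄` and all fifth roots of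
unity. -/
def m3Fixer (E : WeierstrassCurve ℚ) : Subgroup Γ where
  carrier := {σ | (∀ P : (E⁄Qbar).Point, 5 • P = 0 → σ • P = P) ∧
    ∀ ζ : Qbar, ζ ^ 5 = 1 → σ ζ = ζ}
  mul_mem' := by
    rintro σ τ ⟨hσ1, hσ2⟩ ⟨hτ1, hτ2⟩
    refine ⟨fun P hP => ?_, fun ζ hζ => ?_⟩
    · rw [mul_smul, hτ1 P hP, hσ1 P hP]
    · rw [AlgEquiv.mul_apply, hτ2 ζ hζ, hσ2 ζ hζ]
  one_mem' := ⟨fun P _ => one_smul _ P, fun _ _ => rfl⟩
  inv_mem' := by
    rintro σ ⟨hσ1, hσ2⟩
    refine ⟨fun P hP => ?_, fun ζ hζ => ?_⟩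
    · rw [inv_smul_eq_iff, hσ1 P hP]
    · rw [AlgEquiv.aut_inv, AlgEquiv.symm_apply_eq, hσ2 ζ hζ]

theorem mem_m3Fixer (E : WeierstrassCurve ℚ) (σ : Γ) :
    σ ∈ m3Fixer E ↔ (∀ P : (E⁄Qbar).Point, 5 • P = 0 → σ • P = P) ∧
      ∀ ζ : Qbar, ζ ^ 5 = 1 → σ ζ = ζ := Iff.rfl

instance m3Fixer_normal (E : WeierstrassCurve ℚ) : (m3Fixer E).Normal := by
  constructor
  rintro n ⟨hn1, hn2⟩ g
  refine ⟨fun P hP => ?_, fun ζ hζ => ?_⟩
  · have h5 : 5 • (g⁻¹ • P) = 0 := by
      rw [← m3fd_smul_nsmul, hP]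
      rfl
    rw [mul_smul, mul_smul, hn1 _ h5, smul_inv_smul]
  · have h5 : (g⁻¹ ζ) ^ 5 = 1 := by
      rw [← map_pow, hζ, map_one]
    rw [AlgEquiv.mul_apply, AlgEquiv.mul_apply, hn2 _ h5, AlgEquiv.aut_inv,
      AlgEquiv.apply_symm_apply]

/-- The `y`-coordinate of an affine point (`0` for the point at infinity). -/
noncomputable def m3fd_yc {k : Type*} [Field k] {V : Affine k} : V.Point → k
  | .zero => 0
  | .some _ y _ => y

/-- Two Galois automorphisms agreeing on the coordinates of a point act in the same way on it. -/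
theorem m3fd_smul_eq (E : WeierstrassCurve ℚ) (σ τ : Γ) (P : (E⁄Qbar).Point)
    (hx : σ (S51.xc P) = τ (S51.xc P)) (hy : σ (m3fd_yc P) = τ (m3fd_yc P)) :
    σ • P = τ • P := by
  cases P with
  | zero => rfl
  | some x y h =>
    have hx' : σ x = τ x := hx
    have hy' : σ y = τ y := hy
    show Point.map σ.toAlgHom (Point.some x y h) = Point.map τ.toAlgHom (Point.some x y h)
    simp only [Point.map_some]
    rw [Point.some.injEq]
    exact ⟨hx', hy'⟩

/-- A finite Galois extension `L/ℚ` inside `ℚ̄` containing a given finite set and such that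
membership in `m3Fixer E` only depends on the restriction to `L`. -/
theorem m3_exists_field (E : WeierstrassCurve ℚ) (hE : E.Δ ≠ 0) (X : Finset Qbar) :
    ∃ L : IntermediateField ℚ Qbar, FiniteDimensional ℚ L ∧ IsGalois ℚ L ∧ (∀ x ∈ X, x ∈ L) ∧
      ∀ σ τ : Γ, (∀ x ∈ L, σ x = τ x) → τ ∈ m3Fixer E → σ ∈ m3Fixer E := by
  classical
  have hΔ : (E⁄Qbar).Δ ≠ 0 := by
    have h1 : (E⁄Qbar).Δ = algebraMap ℚ Qbar E.Δ := by
      simp [WeierstrassCurve.baseChange, WeierstrassCurve.map_Δ]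
    rw [h1]
    simpa using hE
  have hfin : {P : (E⁄Qbar).Point | 5 • P = 0}.Finite := (S51.five_torsion_finite _ hΔ).1
  set T : Finset (E⁄Qbar).Point := hfin.toFinset with hT
  set R5 : Finset Qbar := (nthRoots 5 (1 : Qbar)).toFinset with hR5
  set Y : Finset Qbar := X ∪ R5 ∪ T.image S51.xc ∪ T.image m3fd_yc with hY
  let L₀ : IntermediateField ℚ Qbar := IntermediateField.adjoin ℚ (Y : Set Qbar)
  have : FiniteDimensional ℚ L₀ :=
    IntermediateField.finiteDimensional_adjoin (fun x _ => Algebra.IsIntegral.isIntegral x)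
  obtain ⟨L, hle, hfd, hgal⟩ := S42.cy_exists_finite_galois_ge L₀
  have hYL : ∀ y ∈ Y, y ∈ L := fun y hy =>
    hle (IntermediateField.subset_adjoin ℚ _ (Finset.mem_coe.mpr hy))
  refine ⟨L, hfd, hgal, fun x hx => hYL x ?_, ?_⟩
  · rw [hY]
    simp only [Finset.mem_union]
    exact Or.inl (Or.inl (Or.inl hx))
  · rintro σ τ hστ ⟨hτ1, hτ2⟩
    refine ⟨fun P hP => ?_, fun ζ hζ => ?_⟩
    · have hPT : P ∈ T := by
        rw [hT, Set.Finite.mem_toFinset]
        exact hP
      have hx : S51.xc P ∈ Y := by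
        rw [hY]
        simp only [Finset.mem_union]
        exact Or.inl (Or.inr (Finset.mem_image_of_mem _ hPT))
      have hy : m3fd_yc P ∈ Y := by
        rw [hY]
        simp only [Finset.mem_union]
        exact Or.inr (Finset.mem_image_of_mem _ hPT)
      rw [m3fd_smul_eq E σ τ P (hστ _ (hYL _ hx)) (hστ _ (hYL _ hy))]
      exact hτ1 P hP
    · have hζY : ζ ∈ Y := by
        rw [hY]
        simp only [Finset.mem_union]
        refine Or.inl (Or.inl (Or.inr ?_))
        rw [hR5, Multiset.mem_toFinset, mem_nthRoots (by norm_num)]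
        exact hζ
      rw [hστ ζ (hYL ζ hζY)]
      exact hτ2 ζ hζ

end Fermat.Agent.S52
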