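import Fermat.Agent.S51.Dup

set_option autoImplicit false
set_option linter.unusedSectionVars false

/-!
# S52 (blocks R and F): the `x`-coordinates of `P + Q` and `P - Q`

For nonzero affine points `P`, `Q` with `x(P) ≠ x(Q)` on a Weierstrass curve over a field:

* `(x(P) - x(Q))² * (x(P+Q) + x(P-Q)) = G₁(x(P), x(Q))`,
* `(x(P) - x(Q))² * (x(P+Q) * x(P-Q)) = G₂(x(P), x(Q))`,

where `G₁ = 2x₁x₂(x₁+x₂) + b₂x₁x₂ + b₄(x₁+x₂) + b₆` and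
`G₂ = x₁²x₂² - b₄x₁x₂ - b₆(x₁+x₂) - b₈`.  On the diagonal `G₁(x,x) = dupDen x` and
`G₂(x,x) = dupNum x` (the duplication denominator and numerator of `S51`).
-/

namespace Fermat.Agent.S52

open WeierstrassCurve WeierstrassCurve.Affine
open Fermat.Agent.S51

section Defs

variable {R : Type*} [CommRing R]

/-- The numerator of `x(P+Q) + x(P-Q)` (denominator `(x₁ - x₂)²`). -/
def ras_G1 (V : WeierstrassCurve R) (x₁ x₂ : R) : R :=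
  2 * x₁ * x₂ * (x₁ + x₂) + V.b₂ * x₁ * x₂ + V.b₄ * (x₁ + x₂) + V.b₆

/-- The numerator of `x(P+Q) * x(P-Q)` (denominator `(x₁ - x₂)²`). -/
def ras_G2 (V : WeierstrassCurve R) (x₁ x₂ : R) : R :=
  x₁ ^ 2 * x₂ ^ 2 - V.b₄ * x₁ * x₂ - V.b₆ * (x₁ + x₂) - V.b₈

/-- The symmetric part of the numerator of `x(P+Q)`. -/
def ras_T (V : WeierstrassCurve R) (x₁ x₂ : R) : R :=
  x₁ * x₂ * (x₁ + x₂) + 2 * V.a₂ * x₁ * x₂ + V.a₄ * (x₁ + x₂) + 2 * V.a₆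

theorem ras_G1_self (V : WeierstrassCurve R) (x : R) : ras_G1 V x x = dupDen V x := by
  simp only [ras_G1, dupDen]
  ring

theorem ras_G2_self (V : WeierstrassCurve R) (x : R) : ras_G2 V x x = dupNum V x := by
  simp only [ras_G2, dupNum]
  ring

theorem ras_G1_symm (V : WeierstrassCurve R) (x₁ x₂ : R) : ras_G1 V x₁ x₂ = ras_G1 V x₂ x₁ := by
  simp only [ras_G1]
  ring

theorem ras_G2_symm (V : WeierstrassCurve R) (x₁ x₂ : R) : ras_G2 V x₁ x₂ = ras_G2 V x₂ x₁ := by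
  simp only [ras_G2]
  ring

/-- `G₁`, `G₂` commute with ring homomorphisms. -/
theorem ras_G1_map {S : Type*} [CommRing S] (f : R →+* S) (V : WeierstrassCurve R) (x₁ x₂ : R) :
    ras_G1 (V.map f) (f x₁) (f x₂) = f (ras_G1 V x₁ x₂) := by
  simp only [ras_G1, WeierstrassCurve.map_b₂, WeierstrassCurve.map_b₄, WeierstrassCurve.map_b₆,
    map_add, map_mul, map_ofNat]

theorem ras_G2_map {S : Type*} [CommRing S] (f : R →+* S) (V : WeierstrassCurve R) (x₁ x₂ : R) :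
    ras_G2 (V.map f) (f x₁) (f x₂) = f (ras_G2 V x₁ x₂) := by
  simp only [ras_G2, WeierstrassCurve.map_b₄, WeierstrassCurve.map_b₆, WeierstrassCurve.map_b₈,
    map_add, map_sub, map_mul, map_pow]

/-- The polynomial identity behind the product formula. -/
theorem ras_prod_identity (V : WeierstrassCurve R) (x₁ x₂ y₁ y₂ : R)
    (h₁ : y₁ ^ 2 + V.a₁ * x₁ * y₁ + V.a₃ * y₁ = x₁ ^ 3 + V.a₂ * x₁ ^ 2 + V.a₄ * x₁ + V.a₆)
    (h₂ : y₂ ^ 2 + V.a₁ * x₂ * y₂ + V.a₃ * y₂ = x₂ ^ 3 + V.a₂ * x₂ ^ 2 + V.a₄ * x₂ + V.a₆) :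
    (ras_T V x₁ x₂ + y₁ * (-y₂ - V.a₁ * x₂ - V.a₃) + (-y₁ - V.a₁ * x₁ - V.a₃) * y₂) *
        (ras_T V x₁ x₂ + y₁ * y₂ + (-y₁ - V.a₁ * x₁ - V.a₃) * (-y₂ - V.a₁ * x₂ - V.a₃)) =
      (x₁ - x₂) ^ 2 * ras_G2 V x₁ x₂ := by
  simp only [ras_T, ras_G2, WeierstrassCurve.b₄, WeierstrassCurve.b₆, WeierstrassCurve.b₈]
  linear_combination (-(V.a₁ * x₂ + V.a₃) ^ 2 - 4 * (y₂ ^ 2 + V.a₁ * x₂ * y₂ + V.a₃ * y₂)) * h₁ +
    (-(V.a₁ * x₁ + V.a₃) ^ 2 - 4 * (x₁ ^ 3 + V.a₂ * x₁ ^ 2 + V.a₄ * x₁ + V.a₆)) * h₂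

end Defs

section Points

variable {k : Type*} [Field k] [DecidableEq k] {V : Affine k}

/-- The `x`-coordinate of the sum of two affine points with distinct `x`-coordinates. -/
theorem ras_xc_add_some {x₁ y₁ x₂ y₂ : k} (h₁ : V.Nonsingular x₁ y₁) (h₂ : V.Nonsingular x₂ y₂)
    (hx : x₁ ≠ x₂) :
    (x₁ - x₂) ^ 2 * xc (Point.some x₁ y₁ h₁ + Point.some x₂ y₂ h₂) =
      ras_T V x₁ x₂ + y₁ * V.negY x₂ y₂ + V.negY x₁ y₁ * y₂ := by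
  have hE₁ := (equation_iff x₁ y₁).mp h₁.1
  have hE₂ := (equation_iff x₂ y₂).mp h₂.1
  have hd : x₁ - x₂ ≠ 0 := sub_ne_zero.mpr hx
  have hs : (x₁ - x₂) * ((y₁ - y₂) / (x₁ - x₂)) = y₁ - y₂ := mul_div_cancel₀ _ hd
  rw [Point.add_of_X_ne hx, xc_some, slope_of_X_ne hx, addX]
  simp only [ras_T, negY]
  linear_combination ((x₁ - x₂) * ((y₁ - y₂) / (x₁ - x₂)) + (y₁ - y₂) + V.a₁ * (x₁ - x₂)) * hs +
    hE₁ + hE₂

/-- The `x`-coordinate of the difference of two affine points with distinct `x`-coordinates. -/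
theorem ras_xc_sub_some {x₁ y₁ x₂ y₂ : k} (h₁ : V.Nonsingular x₁ y₁) (h₂ : V.Nonsingular x₂ y₂)
    (hx : x₁ ≠ x₂) :
    (x₁ - x₂) ^ 2 * xc (Point.some x₁ y₁ h₁ - Point.some x₂ y₂ h₂) =
      ras_T V x₁ x₂ + y₁ * y₂ + V.negY x₁ y₁ * V.negY x₂ y₂ := by
  have hsub : Point.some x₁ y₁ h₁ - Point.some x₂ y₂ h₂ =
      Point.some x₁ y₁ h₁ + Point.some x₂ (V.negY x₂ y₂) ((nonsingular_neg ..).mpr h₂) := by
    rw [sub_eq_add_neg, Point.neg_some]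
  rw [hsub, ras_xc_add_some h₁ _ hx, negY_negY]

/-- **Sum formula**: `(x₁ - x₂)² (x(P+Q) + x(P-Q)) = G₁(x₁, x₂)`. -/
theorem ras_add_sub_sum {P Q : V.Point} (hP : P ≠ 0) (hQ : Q ≠ 0) (hx : xc P ≠ xc Q) :
    (xc P - xc Q) ^ 2 * (xc (P + Q) + xc (P - Q)) = ras_G1 V (xc P) (xc Q) := by
  match P, Q with
  | .zero, _ => exact absurd rfl hP
  | .some _ _ _, .zero => exact absurd rfl hQ
  | .some x₁ y₁ h₁, .some x₂ y₂ h₂ =>
    have hx' : x₁ ≠ x₂ := hx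
    show (x₁ - x₂) ^ 2 * (xc (Point.some x₁ y₁ h₁ + Point.some x₂ y₂ h₂) +
      xc (Point.some x₁ y₁ h₁ - Point.some x₂ y₂ h₂)) = ras_G1 V x₁ x₂
    rw [mul_add, ras_xc_add_some h₁ h₂ hx', ras_xc_sub_some h₁ h₂ hx']
    simp only [ras_G1, ras_T, negY, WeierstrassCurve.b₂, WeierstrassCurve.b₄,
      WeierstrassCurve.b₆]
    ring

/-- **Product formula**: `(x₁ - x₂)² (x(P+Q) x(P-Q)) = G₂(x₁, x₂)`. -/
theorem ras_add_sub_prod {P Q : V.Point} (hP : P ≠ 0) (hQ : Q ≠ 0) (hx : xc P ≠ xc Q) :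
    (xc P - xc Q) ^ 2 * (xc (P + Q) * xc (P - Q)) = ras_G2 V (xc P) (xc Q) := by
  match P, Q with
  | .zero, _ => exact absurd rfl hP
  | .some _ _ _, .zero => exact absurd rfl hQ
  | .some x₁ y₁ h₁, .some x₂ y₂ h₂ =>
    have hx' : x₁ ≠ x₂ := hx
    have hd : (x₁ - x₂) ^ 2 ≠ 0 := pow_ne_zero _ (sub_ne_zero.mpr hx')
    have hE₁ := (equation_iff x₁ y₁).mp h₁.1
    have hE₂ := (equation_iff x₂ y₂).mp h₂.1
    have ha := ras_xc_add_some h₁ h₂ hx'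
    have hs := ras_xc_sub_some h₁ h₂ hx'
    have hprod := ras_prod_identity V x₁ x₂ y₁ y₂ hE₁ hE₂
    simp only [negY] at ha hs
    show (x₁ - x₂) ^ 2 * (xc (Point.some x₁ y₁ h₁ + Point.some x₂ y₂ h₂) *
      xc (Point.some x₁ y₁ h₁ - Point.some x₂ y₂ h₂)) = ras_G2 V x₁ x₂
    apply mul_left_cancel₀ hd
    calc (x₁ - x₂) ^ 2 * ((x₁ - x₂) ^ 2 * (xc (Point.some x₁ y₁ h₁ + Point.some x₂ y₂ h₂) *
          xc (Point.some x₁ y₁ h₁ - Point.some x₂ y₂ h₂)))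
        = ((x₁ - x₂) ^ 2 * xc (Point.some x₁ y₁ h₁ + Point.some x₂ y₂ h₂)) *
          ((x₁ - x₂) ^ 2 * xc (Point.some x₁ y₁ h₁ - Point.some x₂ y₂ h₂)) := by ring
      _ = (x₁ - x₂) ^ 2 * ras_G2 V x₁ x₂ := by rw [ha, hs, hprod]

end Points

end Fermat.Agent.S52
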