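import Fermat.Agent.S52.RAddSub
import Fermat.Agent.S52.RDefs
import Fermat.Agent.S51.Torsion5

set_option autoImplicit false
set_option linter.unusedSectionVars false

/-!
# S52 (block R): additivity of the reduction map on integral points

Let `A` be a valuation subring of a field `L` with residue field `κ`, `E₀` a Weierstrass curve
over `A`, `E = E₀ ⊗ L` and `Eb = E₀ ⊗ κ` with `Eb.Δ ≠ 0`.  For the reduction map `rRed` of
`RDefs.lean` we prove: if `P`, `Q`, `P + Q`, `P - Q` are all `A`-integral then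
`rRed (P + Q) = rRed P + rRed Q` (`rrc_red_add`).  No formal groups: the proof uses the identities
for `x(P+Q) + x(P-Q)` and `x(P+Q) x(P-Q)` and the duplication formula.

The exported statements (`rRed_some_exists`, `rRed_neg`, `rRed_add`) are for the base changes of a
Weierstrass curve over `ℤ`.
-/

namespace Fermat.Agent.S52

open WeierstrassCurve WeierstrassCurve.Affine
open Fermat.Agent.S51

section Alg

variable {R S : Type*} [CommRing R] [CommRing S]

theorem rrc_dupDen_map (f : R →+* S) (V : WeierstrassCurve R) (x : R) :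
    dupDen (V.map f) (f x) = f (dupDen V x) := by
  rw [← ras_G1_self, ras_G1_map, ras_G1_self]

theorem rrc_dupNum_map (f : R →+* S) (V : WeierstrassCurve R) (x : R) :
    dupNum (V.map f) (f x) = f (dupNum V x) := by
  rw [← ras_G2_self, ras_G2_map, ras_G2_self]

/-- If the duplication denominator vanishes after reduction although `x(2P)` is integral, then
the reduced curve is singular. -/
theorem rrc_disc_zero_of_dup (f : R →+* S) (V : WeierstrassCurve R) {x x2 : R}
    (h : x2 * dupDen V x = dupNum V x) (h0 : dupDen (V.map f) (f x) = 0) : (V.map f).Δ = 0 := by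
  have h1 : dupNum (V.map f) (f x) = 0 := by
    rw [rrc_dupNum_map, ← h, map_mul, ← rrc_dupDen_map, h0, mul_zero]
  rw [← t5_disc (V.map f) (f x), h0, h1]
  ring

/-- If two `x`-coordinates become equal after reduction although `x(P+Q)`, `x(P-Q)` are integral,
then the reduced curve is singular. -/
theorem rrc_disc_zero_of_eq (f : R →+* S) (V : WeierstrassCurve R) {x₁ x₂ s p : R}
    (h1 : (x₁ - x₂) ^ 2 * s = ras_G1 V x₁ x₂) (h2 : (x₁ - x₂) ^ 2 * p = ras_G2 V x₁ x₂)
    (hf : f x₁ = f x₂) : (V.map f).Δ = 0 := by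
  have hz : f ((x₁ - x₂) ^ 2) = 0 := by
    rw [map_pow, map_sub, hf, sub_self]
    exact zero_pow two_ne_zero
  have e1 : dupDen (V.map f) (f x₁) = 0 := by
    have h := ras_G1_map f V x₁ x₂
    rw [← hf, ras_G1_self] at h
    rw [h, ← h1, map_mul, hz, zero_mul]
  have e2 : dupNum (V.map f) (f x₁) = 0 := by
    have h := ras_G2_map f V x₁ x₂
    rw [← hf, ras_G2_self] at h
    rw [h, ← h2, map_mul, hz, zero_mul]
  rw [← t5_disc (V.map f) (f x₁), e1, e2]
  ring

theorem rrc_some_eq_some {F : Type*} [CommRing F] {W : Affine F} {x y x' y' : F}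
    {h : W.Nonsingular x y} {h' : W.Nonsingular x' y'} (hx : x = x') (hy : y = y') :
    Point.some x y h = Point.some x' y' h' := by
  subst hx hy
  rfl

end Alg

section Red

variable {L : Type*} [Field L] (A : ValuationSubring L)
  {E₀ : WeierstrassCurve A} {E : Affine L} {Eb : Affine (IsLocalRing.ResidueField A)}

theorem rrc_xc_mem {P : E.Point} (hP : RInt A E P) : xc P ∈ A := by
  cases P with
  | zero => exact A.zero_mem
  | some x y h => exact hP.1

theorem rrc_nonsingular (hE : E₀.map A.subtype = E)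
    (hEb : E₀.map (IsLocalRing.residue A) = Eb) (hΔ : Eb.Δ ≠ 0)
    {a b : A} (h : E.Equation (a : L) (b : L)) :
    Eb.Nonsingular (IsLocalRing.residue A a) (IsLocalRing.residue A b) := by
  subst hE hEb
  have h0 : E₀.toAffine.Equation a b :=
    (Affine.map_equation (W := E₀.toAffine) A.subtype_injective a b).mp h
  exact (equation_iff_nonsingular_of_Δ_ne_zero hΔ).mp (h0.map _)

theorem rrc_red_some (hE : E₀.map A.subtype = E)
    (hEb : E₀.map (IsLocalRing.residue A) = Eb) (hΔ : Eb.Δ ≠ 0)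
    (a b : A) (h : E.Nonsingular (a : L) (b : L)) :
    rRed A E Eb (Point.some (a : L) (b : L) h) =
      Point.some (IsLocalRing.residue A a) (IsLocalRing.residue A b)
        (rrc_nonsingular A hE hEb hΔ h.1) :=
  rRed_some A E Eb h a.2 b.2 (rrc_nonsingular A hE hEb hΔ h.1)

theorem rrc_red_of_eq (hE : E₀.map A.subtype = E)
    (hEb : E₀.map (IsLocalRing.residue A) = Eb) (hΔ : Eb.Δ ≠ 0)
    {P : E.Point} {x y : L} {h : E.Nonsingular x y}
    (hP : P = Point.some x y h) {a b : A} (hx : x = a) (hy : y = b)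
    {c d : IsLocalRing.ResidueField A} {h' : Eb.Nonsingular c d}
    (hc : IsLocalRing.residue A a = c) (hd : IsLocalRing.residue A b = d) :
    rRed A E Eb P = Point.some c d h' := by
  subst hP hx hy hc hd
  exact rrc_red_some A hE hEb hΔ a b h

theorem rrc_negY_coe (hE : E₀.map A.subtype = E) (a b : A) :
    E.negY (a : L) (b : L) = ((E₀.toAffine.negY a b : A) : L) := by
  subst hE
  exact Affine.map_negY (W' := E₀.toAffine) A.subtype a b

theorem rrc_negY_res (hEb : E₀.map (IsLocalRing.residue A) = Eb) (a b : A) :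
    Eb.negY (IsLocalRing.residue A a) (IsLocalRing.residue A b) =
      IsLocalRing.residue A (E₀.toAffine.negY a b) := by
  subst hEb
  exact Affine.map_negY (W' := E₀.toAffine) (IsLocalRing.residue A) a b

/-- Reduction commutes with negation on integral points. -/
theorem rrc_red_neg (hE : E₀.map A.subtype = E)
    (hEb : E₀.map (IsLocalRing.residue A) = Eb) (hΔ : Eb.Δ ≠ 0)
    {P : E.Point} (hP : RInt A E P) : rRed A E Eb (-P) = - rRed A E Eb P := by
  cases P with
  | zero => rfl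
  | some x y h =>
    obtain ⟨hx, hy⟩ := hP
    obtain ⟨a, rfl⟩ : ∃ a : A, (a : L) = x := ⟨⟨x, hx⟩, rfl⟩
    obtain ⟨b, rfl⟩ : ∃ b : A, (b : L) = y := ⟨⟨y, hy⟩, rfl⟩
    rw [rrc_red_some A hE hEb hΔ a b h, Point.neg_some, Point.neg_some]
    exact rrc_red_of_eq A hE hEb hΔ rfl rfl (rrc_negY_coe A hE a b) rfl
      (rrc_negY_res A hEb a b).symm

theorem rrc_div_unit {u : A} (hu : IsUnit u) (n : A) :
    (n : L) / (u : L) = ((n * ((hu.unit⁻¹ : Aˣ) : A) : A) : L) ∧
      IsLocalRing.residue A n / IsLocalRing.residue A u =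
        IsLocalRing.residue A (n * ((hu.unit⁻¹ : Aˣ) : A)) := by
  have hu0 : (u : L) ≠ 0 := by
    intro h
    have h0 : u = 0 := Subtype.ext h
    rw [h0] at hu
    exact not_isUnit_zero hu
  have hmul : ((hu.unit⁻¹ : Aˣ) : A) * u = 1 := by
    have h := hu.unit.inv_mul
    rwa [IsUnit.unit_spec] at h
  constructor
  · rw [div_eq_iff hu0]
    have h1 : ((n * ((hu.unit⁻¹ : Aˣ) : A) : A) : L) * (u : L) =
        ((n * (((hu.unit⁻¹ : Aˣ) : A) * u) : A) : L) := by
      push_cast
      ring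
    rw [h1, hmul, mul_one]
  · have hru : IsLocalRing.residue A u ≠ 0 := (IsLocalRing.residue_ne_zero_iff_isUnit u).mpr hu
    rw [div_eq_iff hru, ← map_mul, mul_assoc, hmul, mul_one]

variable [DecidableEq L] [DecidableEq (IsLocalRing.ResidueField A)]

/-- Additivity when the slope is integral and reduces to the slope of the reduced points. -/
theorem rrc_red_add_of_slope (hE : E₀.map A.subtype = E)
    (hEb : E₀.map (IsLocalRing.residue A) = Eb) (hΔ : Eb.Δ ≠ 0)
    {a₁ b₁ a₂ b₂ lam : A} (h₁ : E.Nonsingular (a₁ : L) (b₁ : L))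
    (h₂ : E.Nonsingular (a₂ : L) (b₂ : L))
    (hxy : ¬ ((a₁ : L) = a₂ ∧ (b₁ : L) = E.negY a₂ b₂))
    (hxy' : ¬ (IsLocalRing.residue A a₁ = IsLocalRing.residue A a₂ ∧
      IsLocalRing.residue A b₁ = Eb.negY (IsLocalRing.residue A a₂) (IsLocalRing.residue A b₂)))
    (hs : E.slope (a₁ : L) a₂ b₁ b₂ = lam)
    (hs' : Eb.slope (IsLocalRing.residue A a₁) (IsLocalRing.residue A a₂)
      (IsLocalRing.residue A b₁) (IsLocalRing.residue A b₂) = IsLocalRing.residue A lam) :
    rRed A E Eb (Point.some _ _ h₁ + Point.some _ _ h₂) =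
      rRed A E Eb (Point.some _ _ h₁) + rRed A E Eb (Point.some _ _ h₂) := by
  rw [rrc_red_some A hE hEb hΔ a₁ b₁ h₁, rrc_red_some A hE hEb hΔ a₂ b₂ h₂, Point.add_some hxy']
  refine rrc_red_of_eq A hE hEb hΔ (Point.add_some hxy) (a := E₀.toAffine.addX a₁ a₂ lam)
    (b := E₀.toAffine.addY a₁ a₂ b₁ lam) ?_ ?_ ?_ ?_
  · rw [hs]
    subst hE
    exact Affine.map_addX (W' := E₀.toAffine) A.subtype a₁ a₂ lam
  · rw [hs]
    subst hE
    exact Affine.map_addY (W' := E₀.toAffine) A.subtype a₁ b₁ a₂ lam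
  · rw [hs']
    subst hEb
    exact (Affine.map_addX (W' := E₀.toAffine) (IsLocalRing.residue A) a₁ a₂ lam).symm
  · rw [hs']
    subst hEb
    exact (Affine.map_addY (W' := E₀.toAffine) (IsLocalRing.residue A) a₁ b₁ a₂ lam).symm

/-- **Additivity of reduction**: if `P`, `Q`, `P + Q`, `P - Q` are integral, then
`red (P + Q) = red P + red Q`. -/
theorem rrc_red_add (hE : E₀.map A.subtype = E)
    (hEb : E₀.map (IsLocalRing.residue A) = Eb) (hΔ : Eb.Δ ≠ 0)
    {P Q : E.Point} (hP : RInt A E P) (hQ : RInt A E Q) (hPQ : RInt A E (P + Q))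
    (hPQ' : RInt A E (P - Q)) :
    rRed A E Eb (P + Q) = rRed A E Eb P + rRed A E Eb Q := by
  subst hE hEb
  cases P with
  | zero =>
    show rRed A _ _ (0 + Q) = 0 + rRed A _ _ Q
    rw [zero_add, zero_add]
  | some x₁ y₁ h₁ =>
  cases Q with
  | zero =>
    show rRed A _ _ (Point.some x₁ y₁ h₁ + 0) = rRed A _ _ (Point.some x₁ y₁ h₁) + 0
    rw [add_zero, add_zero]
  | some x₂ y₂ h₂ =>
  obtain ⟨hx₁, hy₁⟩ := hP
  obtain ⟨hx₂, hy₂⟩ := hQ
  obtain ⟨a₁, rfl⟩ : ∃ a : A, (a : L) = x₁ := ⟨⟨x₁, hx₁⟩, rfl⟩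
  obtain ⟨b₁, rfl⟩ : ∃ b : A, (b : L) = y₁ := ⟨⟨y₁, hy₁⟩, rfl⟩
  obtain ⟨a₂, rfl⟩ : ∃ a : A, (a : L) = x₂ := ⟨⟨x₂, hx₂⟩, rfl⟩
  obtain ⟨b₂, rfl⟩ : ∃ b : A, (b : L) = y₂ := ⟨⟨y₂, hy₂⟩, rfl⟩
  by_cases hxy : (a₁ : L) = a₂ ∧ (b₁ : L) = (E₀.map A.subtype).toAffine.negY a₂ b₂
  · -- `P = -Q`
    have hneg : Point.some _ _ h₁ = - Point.some _ _ h₂ := by
      rw [Point.neg_some]
      exact rrc_some_eq_some hxy.1 hxy.2
    have hi₂ : RInt A _ (Point.some _ _ h₂) := ⟨a₂.2, b₂.2⟩
    rw [hneg, neg_add_cancel, rrc_red_neg A rfl rfl hΔ hi₂, neg_add_cancel]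
    rfl
  · by_cases hx : (a₁ : L) = a₂
    · -- doubling
      have hy : (b₁ : L) ≠ (E₀.map A.subtype).toAffine.negY a₂ b₂ := fun h => hxy ⟨hx, h⟩
      have hyy : (b₁ : L) = b₂ := Y_eq_of_Y_ne h₁.1 h₂.1 hx hy
      have ha : a₁ = a₂ := Subtype.ext hx
      have hb : b₁ = b₂ := Subtype.ext hyy
      subst ha hb
      rw [Point.add_of_Y_ne hy] at hPQ
      have hx2 := hPQ.1
      have hP0 : Point.some _ _ h₁ ≠ 0 := Point.some_ne_zero _
      have h2P : 2 • Point.some _ _ h₁ ≠ 0 := by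
        rw [two_nsmul, Point.add_of_Y_ne hy]
        exact Point.some_ne_zero _
      have hdup := xc_two_nsmul hP0 h2P
      rw [two_nsmul, Point.add_of_Y_ne hy] at hdup
      simp only [xc_some] at hdup
      have e1 : dupDen (E₀.map A.subtype) (a₁ : L) = ((dupDen E₀ a₁ : A) : L) :=
        rrc_dupDen_map A.subtype E₀ a₁
      have e2 : dupNum (E₀.map A.subtype) (a₁ : L) = ((dupNum E₀ a₁ : A) : L) :=
        rrc_dupNum_map A.subtype E₀ a₁
      have hdupA : (⟨_, hx2⟩ : A) * dupDen E₀ a₁ = dupNum E₀ a₁ := by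
        apply Subtype.ext
        show _ * ((dupDen E₀ a₁ : A) : L) = ((dupNum E₀ a₁ : A) : L)
        rw [← e1, ← e2]
        exact hdup
      have hden : dupDen (E₀.map (IsLocalRing.residue A)) (IsLocalRing.residue A a₁) ≠ 0 :=
        fun h0 => hΔ (rrc_disc_zero_of_dup (IsLocalRing.residue A) E₀ hdupA h0)
      have hns := rrc_nonsingular A (E₀ := E₀) rfl rfl hΔ h₁.1
      have hyk : IsLocalRing.residue A b₁ ≠
          (E₀.map (IsLocalRing.residue A)).toAffine.negY (IsLocalRing.residue A a₁)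
            (IsLocalRing.residue A b₁) := by
        intro h
        apply hden
        rw [dup_dupDen_eq_sq hns.1, ← h, sub_self]
        exact zero_pow two_ne_zero
      have hu_res : IsLocalRing.residue A (b₁ - E₀.toAffine.negY a₁ b₁) ≠ 0 := by
        rw [map_sub, ← rrc_negY_res A rfl a₁ b₁]
        exact sub_ne_zero.mpr hyk
      have hu : IsUnit (b₁ - E₀.toAffine.negY a₁ b₁) :=
        (IsLocalRing.residue_ne_zero_iff_isUnit _).mp hu_res
      obtain ⟨hd1, hd2⟩ := rrc_div_unit A hu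
        (3 * a₁ ^ 2 + 2 * E₀.a₂ * a₁ + E₀.a₄ - E₀.a₁ * b₁)
      refine rrc_red_add_of_slope A rfl rfl hΔ h₁ h₂ hxy (fun h => hyk h.2)
        (lam := (3 * a₁ ^ 2 + 2 * E₀.a₂ * a₁ + E₀.a₄ - E₀.a₁ * b₁) * ((hu.unit⁻¹ : Aˣ) : A)) ?_ ?_
      · rw [slope_of_Y_ne rfl hy, ← hd1, rrc_negY_coe A rfl a₁ b₁]
        rfl
      · rw [slope_of_Y_ne rfl hyk, ← hd2, rrc_negY_res A rfl a₁ b₁]
        simp only [map_sub, map_add, map_mul, map_pow, map_ofNat, WeierstrassCurve.map_a₁,
          WeierstrassCurve.map_a₂, WeierstrassCurve.map_a₄]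
    · -- generic case
      have hxc : xc (Point.some (a₁ : L) (b₁ : L) h₁) ≠ xc (Point.some (a₂ : L) (b₂ : L) h₂) := hx
      have hsum := ras_add_sub_sum (Point.some_ne_zero h₁) (Point.some_ne_zero h₂) hxc
      have hprod := ras_add_sub_prod (Point.some_ne_zero h₁) (Point.some_ne_zero h₂) hxc
      have hp := rrc_xc_mem A hPQ
      have hm := rrc_xc_mem A hPQ'
      have hsumA : (a₁ - a₂) ^ 2 * ((⟨_, hp⟩ : A) + ⟨_, hm⟩) = ras_G1 E₀ a₁ a₂ := by
        apply Subtype.ext
        exact hsum.trans (ras_G1_map A.subtype E₀ a₁ a₂)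
      have hprodA : (a₁ - a₂) ^ 2 * ((⟨_, hp⟩ : A) * ⟨_, hm⟩) = ras_G2 E₀ a₁ a₂ := by
        apply Subtype.ext
        exact hprod.trans (ras_G2_map A.subtype E₀ a₁ a₂)
      have hck : IsLocalRing.residue A a₁ ≠ IsLocalRing.residue A a₂ :=
        fun h => hΔ (rrc_disc_zero_of_eq (IsLocalRing.residue A) E₀ hsumA hprodA h)
      have hu_res : IsLocalRing.residue A (a₁ - a₂) ≠ 0 := by
        rw [map_sub]
        exact sub_ne_zero.mpr hck
      have hu : IsUnit (a₁ - a₂) := (IsLocalRing.residue_ne_zero_iff_isUnit _).mp hu_res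
      obtain ⟨hd1, hd2⟩ := rrc_div_unit A hu (b₁ - b₂)
      refine rrc_red_add_of_slope A rfl rfl hΔ h₁ h₂ hxy (fun h => hck h.1)
        (lam := (b₁ - b₂) * ((hu.unit⁻¹ : Aˣ) : A)) ?_ ?_
      · rw [slope_of_X_ne hx, ← hd1]
        rfl
      · rw [slope_of_X_ne hck, ← hd2, map_sub, map_sub]

end Red

/-! ### Exports: curves over `ℤ` -/

section Exports

variable {L : Type*} [Field L] (A : ValuationSubring L) (W : WeierstrassCurve ℤ)

theorem rrc_int_hE (E : Affine L) (hE : E = W.map (Int.castRingHom L)) :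
    (W.map (Int.castRingHom A)).map A.subtype = E := by
  rw [hE, WeierstrassCurve.map_map]
  congr 1

theorem rrc_int_hC (C : Affine (IsLocalRing.ResidueField A))
    (hC : C = W.map (Int.castRingHom (IsLocalRing.ResidueField A))) :
    (W.map (Int.castRingHom A)).map (IsLocalRing.residue A) = C := by
  rw [hC, WeierstrassCurve.map_map]
  congr 1

theorem rrc_int_hΔ (hΔ : ((W.Δ : ℤ) : IsLocalRing.ResidueField A) ≠ 0)
    (C : Affine (IsLocalRing.ResidueField A))
    (hC : C = W.map (Int.castRingHom (IsLocalRing.ResidueField A))) : C.Δ ≠ 0 := by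
  rw [hC, WeierstrassCurve.map_Δ, eq_intCast]
  exact hΔ

/-- The reduction of an affine point with coordinates in `A` is the affine point with the residue
coordinates (which is nonsingular, as the reduced curve is). -/
theorem rRed_some_exists (hΔ : ((W.Δ : ℤ) : IsLocalRing.ResidueField A) ≠ 0) (E : Affine L)
    (hE : E = W.map (Int.castRingHom L)) (C : Affine (IsLocalRing.ResidueField A))
    (hC : C = W.map (Int.castRingHom (IsLocalRing.ResidueField A))) {x y : L}
    (h : E.Nonsingular x y) (hx : x ∈ A) (hy : y ∈ A) :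
    ∃ hns : C.Nonsingular (IsLocalRing.residue A ⟨x, hx⟩) (IsLocalRing.residue A ⟨y, hy⟩),
      rRed A E C (Point.some x y h) = Point.some _ _ hns := by
  have hns := rrc_nonsingular A (rrc_int_hE A W E hE) (rrc_int_hC A W C hC)
    (rrc_int_hΔ A W hΔ C hC) (a := ⟨x, hx⟩) (b := ⟨y, hy⟩) h.1
  exact ⟨hns, rRed_some A E C h hx hy hns⟩

/-- Reduction commutes with negation on integral points. -/
theorem rRed_neg (hΔ : ((W.Δ : ℤ) : IsLocalRing.ResidueField A) ≠ 0) (E : Affine L)
    (hE : E = W.map (Int.castRingHom L)) (C : Affine (IsLocalRing.ResidueField A))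
    (hC : C = W.map (Int.castRingHom (IsLocalRing.ResidueField A))) {P : E.Point}
    (hP : RInt A E P) : rRed A E C (-P) = - rRed A E C P :=
  rrc_red_neg A (rrc_int_hE A W E hE) (rrc_int_hC A W C hC) (rrc_int_hΔ A W hΔ C hC) hP

/-- **Additivity of reduction**: if `P`, `Q`, `P + Q`, `P - Q` are integral, then
`rRed (P + Q) = rRed P + rRed Q`. -/
theorem rRed_add [DecidableEq L] [DecidableEq (IsLocalRing.ResidueField A)]
    (hΔ : ((W.Δ : ℤ) : IsLocalRing.ResidueField A) ≠ 0) (E : Affine L)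
    (hE : E = W.map (Int.castRingHom L)) (C : Affine (IsLocalRing.ResidueField A))
    (hC : C = W.map (Int.castRingHom (IsLocalRing.ResidueField A)))
    {P Q : E.Point} (hP : RInt A E P) (hQ : RInt A E Q) (hPQ : RInt A E (P + Q))
    (hPQ' : RInt A E (P - Q)) : rRed A E C (P + Q) = rRed A E C P + rRed A E C Q :=
  rrc_red_add A (rrc_int_hE A W E hE) (rrc_int_hC A W C hC) (rrc_int_hΔ A W hΔ C hC) hP hQ hPQ hPQ'

end Exports

end Fermat.Agent.S52
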