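import Mathlib

/-!
# P17 (S52), block X: elementary algebra for the cone / level-structure uniqueness

Data-independent lemmas used to prove that a Galois automorphism fixing the `5`-torsion of the
base curve and the fifth roots of unity multiplies the base point `v₀` by a fifth root of unity:

* `xcone_pow5` (U2): `a ^ 5 = b ^ 5` forces `a = ζ ^ i * b`;
* `xcone_pq` (U1): the quantities `p² + q²`, `p² + 11 p q - q²` and the Klein form `H` (written
  in `p = u⁵`, `q = v⁵`) determine `(p, q)` up to a common sign;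
* `xcone_diag`: `diag (ζ ^ i, ζ ^ j) = ζ ^ k • diag (ζ, ζ⁴) ^ m`;
* `xcone_line`, `xcone_bad`: the point of the line `v₀ + s t w₀` on a given rational direction.
-/

set_option autoImplicit false

namespace Fermat.Agent.S52

section U2

variable {K : Type*} [Field K]

theorem xcone_zeta_pow5 (ζ : K) (hζ : 1 + ζ + ζ ^ 2 + ζ ^ 3 + ζ ^ 4 = 0) : ζ ^ 5 = 1 := by
  linear_combination (ζ - 1) * hζ

theorem xcone_zeta_ne_zero (ζ : K) (hζ : 1 + ζ + ζ ^ 2 + ζ ^ 3 + ζ ^ 4 = 0) : ζ ≠ 0 := by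
  rintro rfl
  norm_num at hζ

/-- (U2) Fifth roots: `a ^ 5 = b ^ 5` forces `a = ζ ^ i * b` for some `i < 5`. -/
theorem xcone_pow5 (ζ a b : K) (hζ : 1 + ζ + ζ ^ 2 + ζ ^ 3 + ζ ^ 4 = 0) (h : a ^ 5 = b ^ 5) :
    ∃ i : ℕ, i < 5 ∧ a = ζ ^ i * b := by
  have key : (a - ζ ^ 0 * b) * (a - ζ ^ 1 * b) * (a - ζ ^ 2 * b) * (a - ζ ^ 3 * b) *
      (a - ζ ^ 4 * b) = 0 := by
    linear_combination h + (b ^ 5 - a ^ 4 * b - ζ * b ^ 5 + ζ * a ^ 3 * b ^ 2 -
      ζ ^ 3 * a ^ 2 * b ^ 3 + ζ ^ 3 * a ^ 3 * b ^ 2 + ζ ^ 5 * b ^ 5 - ζ ^ 5 * a ^ 2 * b ^ 3 -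
      ζ ^ 6 * b ^ 5 + ζ ^ 6 * a * b ^ 4) * hζ
  rcases mul_eq_zero.mp key with h4 | h4
  · rcases mul_eq_zero.mp h4 with h3 | h3
    · rcases mul_eq_zero.mp h3 with h2 | h2
      · rcases mul_eq_zero.mp h2 with h1 | h1
        · exact ⟨0, by norm_num, sub_eq_zero.mp h1⟩
        · exact ⟨1, by norm_num, sub_eq_zero.mp h1⟩
      · exact ⟨2, by norm_num, sub_eq_zero.mp h2⟩
    · exact ⟨3, by norm_num, sub_eq_zero.mp h3⟩
  · exact ⟨4, by norm_num, sub_eq_zero.mp h4⟩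

/-- `diag (ζ ^ i, ζ ^ j) = ζ ^ k • diag (ζ, ζ⁴) ^ m` with `k = 3 (i + j)`, `m = 3 (i + 4 j)`. -/
theorem xcone_diag (ζ : K) (hζ5 : ζ ^ 5 = 1) (i j : ℕ) :
    ζ ^ i = ζ ^ (3 * (i + j)) * ζ ^ (3 * (i + 4 * j)) ∧
      ζ ^ j = ζ ^ (3 * (i + j)) * (ζ ^ 4) ^ (3 * (i + 4 * j)) := by
  constructor
  · rw [← pow_add]
    have : 3 * (i + j) + 3 * (i + 4 * j) = i + 5 * (i + 3 * j) := by ring
    rw [this, pow_add, pow_mul, hζ5, one_pow, mul_one]
  · rw [← pow_mul, ← pow_add]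
    have : 3 * (i + j) + 4 * (3 * (i + 4 * j)) = j + 5 * (3 * i + 10 * j) := by ring
    rw [this, pow_add, pow_mul, hζ5, one_pow, mul_one]

/-- If `5 ∣ m` then `diag (ζ, ζ⁴) ^ m = 1`. -/
theorem xcone_pow_of_dvd (ζ : K) (hζ5 : ζ ^ 5 = 1) (m : ℕ) (hm : 5 ∣ m) :
    ζ ^ m = 1 ∧ (ζ ^ 4) ^ m = 1 := by
  obtain ⟨r, rfl⟩ := hm
  constructor
  · rw [pow_mul, hζ5, one_pow]
  · rw [← pow_mul, mul_comm 4, mul_assoc, pow_mul, hζ5, one_pow]

end U2

section U1

variable {K : Type*} [Field K] [CharZero K]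

/-- Klein's form `H` as a quartic form in `p = u⁵`, `q = v⁵`. -/
def kHpq {R : Type*} [CommRing R] (p q : R) : R :=
  -(p ^ 4 + q ^ 4) + 228 * (p ^ 3 * q - p * q ^ 3) - 494 * p ^ 2 * q ^ 2

theorem kHpq_eq {R : Type*} [CommRing R] (p q : R) :
    kHpq p q = 24 * (p ^ 2 + 11 * p * q - q ^ 2) ^ 2 - 25 * (p ^ 2 + q ^ 2) ^ 2 -
      300 * (p ^ 2 + 11 * p * q - q ^ 2) * (p * q) := by
  unfold kHpq
  ring

/-- (U1) `p² + q²`, `p² + 11 p q - q²` and `H` determine `(p, q)` up to a common sign. -/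
theorem xcone_pq (p q p' q' : K) (hn : p * q ≠ 0) (hg : p ^ 2 + 11 * p * q - q ^ 2 ≠ 0)
    (h1 : p' ^ 2 + q' ^ 2 = p ^ 2 + q ^ 2)
    (h2 : p' ^ 2 + 11 * p' * q' - q' ^ 2 = p ^ 2 + 11 * p * q - q ^ 2)
    (h3 : kHpq p' q' = kHpq p q) :
    (p' = p ∧ q' = q) ∨ (p' = -p ∧ q' = -q) := by
  have hp : p ≠ 0 := left_ne_zero_of_mul hn
  rw [kHpq_eq, kHpq_eq, h1, h2] at h3
  have hn' : p' * q' = p * q := by
    have h300 : (300 * (p ^ 2 + 11 * p * q - q ^ 2)) * (p' * q' - p * q) = 0 := by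
      linear_combination -h3
    rcases mul_eq_zero.mp h300 with h | h
    · exact absurd h (mul_ne_zero (by norm_num) hg)
    · exact sub_eq_zero.mp h
  have hpp : p' ^ 2 = p ^ 2 := by
    have : (2 : K) * (p' ^ 2 - p ^ 2) = 0 := by linear_combination h1 + h2 - 11 * hn'
    rcases mul_eq_zero.mp this with h | h
    · exact absurd h (by norm_num)
    · exact sub_eq_zero.mp h
  rcases sq_eq_sq_iff_eq_or_eq_neg.mp hpp with h | h
  · left
    refine ⟨h, ?_⟩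
    rw [h] at hn'
    exact mul_left_cancel₀ hp hn'
  · right
    refine ⟨h, ?_⟩
    rw [h] at hn'
    have : p * (q' + q) = 0 := by linear_combination -hn'
    rcases mul_eq_zero.mp this with h' | h'
    · exact absurd h' hp
    · exact eq_neg_of_add_eq_zero_left h'

end U1

section Line

variable {K : Type*} [Field K]

/-- The point of the line `(a, b) + s t (wa, wb)` on the direction `(u₁, 1)`. -/
theorem xcone_line (a b wa wb s u₁ : K) (hs : s ≠ 0) (hdet : a * wb - b * wa ≠ 0)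
    (hu : wa - wb * u₁ ≠ 0) :
    ∃ t₁ lam : K, lam ≠ 0 ∧ a + s * t₁ * wa = lam * u₁ ∧ b + s * t₁ * wb = lam ∧
      t₁ = -(a - b * u₁) / (s * (wa - wb * u₁)) := by
  have hsu : s * (wa - wb * u₁) ≠ 0 := mul_ne_zero hs hu
  have ht : s * (-(a - b * u₁) / (s * (wa - wb * u₁))) * (wa - wb * u₁) = -(a - b * u₁) := by
    rw [mul_assoc, div_mul_eq_mul_div, mul_div_assoc', mul_comm s, mul_assoc,
      mul_comm (wa - wb * u₁) s, mul_div_assoc, div_self hsu, mul_one]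
  refine ⟨-(a - b * u₁) / (s * (wa - wb * u₁)),
    b + s * (-(a - b * u₁) / (s * (wa - wb * u₁))) * wb, ?_, ?_, rfl, rfl⟩
  · intro h0
    apply hdet
    linear_combination (u₁ * wb - wa) * h0 + wb * ht
  · linear_combination ht

/-- Equivariance of the construction of `xcone_line` under a field automorphism which multiplies
`(a, b)` and `(wa, wb)` by the same nonzero scalar and fixes `s`, `u₁`. -/
theorem xcone_line_equivariant (σ : K →+* K) (a b wa wb s u₁ z : K) (hz : z ≠ 0)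
    (hs : σ s = s) (hu₁ : σ u₁ = u₁) (ha : σ a = z * a) (hb : σ b = z * b)
    (hwa : σ wa = z * wa) (hwb : σ wb = z * wb) (t₁ lam : K)
    (ht : t₁ = -(a - b * u₁) / (s * (wa - wb * u₁))) (hl : b + s * t₁ * wb = lam) :
    σ t₁ = t₁ ∧ σ lam = z * lam := by
  have h1 : σ t₁ = t₁ := by
    rw [ht]
    simp only [map_div₀, map_neg, map_sub, map_mul, hs, hu₁, ha, hb, hwa, hwb]
    have e1 : -(z * a - z * b * u₁) = z * -(a - b * u₁) := by ring
    have e2 : s * (z * wa - z * wb * u₁) = z * (s * (wa - wb * u₁)) := by ring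
    rw [e1, e2, mul_div_mul_left _ _ hz]
  refine ⟨h1, ?_⟩
  rw [← hl]
  simp only [map_add, map_mul, hs, hb, hwb, h1]
  ring

/-- The (at most one) rational direction parallel to `w`. -/
theorem xcone_bad {K : Type*} [Field K] [CharZero K] (wa wb : K) (hw : wa ≠ 0 ∨ wb ≠ 0) :
    ∃ bad : Option ℚ, ∀ u₁ : ℚ, some u₁ ≠ bad → wa - wb * (u₁ : K) ≠ 0 := by
  classical
  by_cases hex : ∃ u₁ : ℚ, wa - wb * (u₁ : K) = 0
  · obtain ⟨u₀, hu₀⟩ := hex
    refine ⟨some u₀, fun u₁ hne h0 => hne ?_⟩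
    have hwb : wb ≠ 0 := by
      intro hwb
      rw [hwb, zero_mul, sub_zero] at hu₀
      rcases hw with h | h
      · exact h hu₀
      · exact h hwb
    have : wb * ((u₁ : K) - (u₀ : K)) = 0 := by linear_combination hu₀ - h0
    rcases mul_eq_zero.mp this with h | h
    · exact absurd h hwb
    · have h' : (u₁ : K) = (u₀ : K) := sub_eq_zero.mp h
      rw [Rat.cast_injective h']
  · exact ⟨none, fun u₁ _ h0 => hex ⟨u₁, h0⟩⟩

end Line

end Fermat.Agent.S52
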