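import Fermat.Agent.S51.Torsion5

/-!
# P17 (S52), block X: at most `25` points of order dividing `5`

Sharpening of `S51.five_torsion_finite`: over a field of characteristic zero the `x`-coordinate
of a nonzero `5`-torsion point is a root of the `5`-division polynomial (degree `12`), hence there
are at most `1 + 2 * 12 = 25` points killed by `5`.
-/

set_option autoImplicit false

namespace Fermat.Agent.S52

open WeierstrassCurve WeierstrassCurve.Affine Polynomial

variable {k : Type*} [Field k] [DecidableEq k]

/-- The `3`-division polynomial does not vanish at the `x`-coordinate of a nonzero `5`-torsion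
point. -/
theorem xcount_psi3_ne_zero {V : Affine k} {P : V.Point} (hP0 : P ≠ 0) (hP : 5 • P = 0) :
    S51.psi3 V (S51.xc P) ≠ 0 := by
  obtain ⟨hne, h1, -⟩ := S51.five_torsion_rel hP0 hP
  have h2 : 2 • P ≠ 0 := S51.t5_two_nsmul_ne_zero hP0 hP
  have hD : S51.dupDen V (S51.xc P) ≠ 0 := fun h => h2 ((S51.dupDen_eq_zero_iff hP0).mp h)
  rw [S51.psi3_eq, h1, ← sub_mul]
  exact mul_ne_zero (sub_ne_zero.mpr hne) hD

/-- The `x`-coordinate of a nonzero `5`-torsion point is a root of the `5`-division
polynomial. -/
theorem xcount_eval_psi5 {V : Affine k} {P : V.Point} (hP0 : P ≠ 0) (hP : 5 • P = 0) :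
    (S51.t5_polyPsi5 V).eval (S51.xc P) = 0 := by
  have h := S51.t5_eval_xc hP0 hP
  rw [S51.t5_eval_poly, S51.t5_id5, ← S51.t5_eval_polyPsi5] at h
  rcases mul_eq_zero.mp h with h | h
  · exact absurd (neg_eq_zero.mp h) (xcount_psi3_ne_zero hP0 hP)
  · exact h

/-- Over a field of characteristic zero, at most `25` points are killed by `5`. -/
theorem xcount_five_torsion [CharZero k] (V : Affine k) :
    {P : V.Point | 5 • P = 0}.Finite ∧ {P : V.Point | 5 • P = 0}.ncard ≤ 25 := by
  classical
  set R : Finset k := (S51.t5_polyPsi5 V).roots.toFinset with hR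
  have hRcard : R.card ≤ 12 := by
    calc R.card ≤ Multiset.card (S51.t5_polyPsi5 V).roots := Multiset.toFinset_card_le _
      _ ≤ (S51.t5_polyPsi5 V).natDegree := Polynomial.card_roots' _
      _ = 12 := S51.t5_natDegree_polyPsi5 V
  let f : k → V.Point := fun x =>
    if h : ∃ P : V.Point, P ≠ 0 ∧ S51.xc P = x then h.choose else 0
  set U : Finset V.Point := insert 0 (R.image f ∪ R.image (fun x => - f x)) with hU
  have hsub : {P : V.Point | 5 • P = 0} ⊆ (U : Set V.Point) := by
    intro P hP
    have hP : 5 • P = 0 := hP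
    rw [Finset.mem_coe, hU, Finset.mem_insert, Finset.mem_union, Finset.mem_image,
      Finset.mem_image]
    by_cases hP0 : P = 0
    · exact Or.inl hP0
    · right
      have hroot : S51.xc P ∈ R := by
        rw [hR, Multiset.mem_toFinset, mem_roots (S51.t5_polyPsi5_ne_zero V)]
        exact xcount_eval_psi5 hP0 hP
      have hex : ∃ Q : V.Point, Q ≠ 0 ∧ S51.xc Q = S51.xc P := ⟨P, hP0, rfl⟩
      have hf : f (S51.xc P) = hex.choose := dif_pos hex
      obtain ⟨hQ0, hQx⟩ := hex.choose_spec
      rcases S51.eq_or_eq_neg_of_xc_eq hP0 hQ0 hQx.symm with h | h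
      · exact Or.inl ⟨S51.xc P, hroot, by rw [hf]; exact h.symm⟩
      · exact Or.inr ⟨S51.xc P, hroot, by rw [hf]; exact h.symm⟩
  have hUcard : U.card ≤ 25 := by
    have h1 : (R.image f).card ≤ 12 := Finset.card_image_le.trans hRcard
    have h2 : (R.image (fun x => - f x)).card ≤ 12 := Finset.card_image_le.trans hRcard
    have h3 := Finset.card_union_le (R.image f) (R.image (fun x => - f x))
    have h4 := Finset.card_insert_le (0 : V.Point) (R.image f ∪ R.image (fun x => - f x))
    rw [hU]
    omega
  refine ⟨U.finite_toSet.subset hsub, ?_⟩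
  calc {P : V.Point | 5 • P = 0}.ncard ≤ (U : Set V.Point).ncard :=
        Set.ncard_le_ncard hsub U.finite_toSet
    _ = U.card := Set.ncard_coe_finset U
    _ ≤ 25 := hUcard

/-- An injective additive map from a group of exponent `5` with `25` elements into the points of
a curve over a field of characteristic zero hits every point killed by `5`. -/
theorem xcount_surj [CharZero k] (V : Affine k) {G : Type*} [AddCommGroup G] [Finite G]
    (hG : Nat.card G = 25) (hG5 : ∀ c : G, 5 • c = 0) (θ : G →+ V.Point)
    (hθ : Function.Injective θ) (P : V.Point) (hP : 5 • P = 0) : ∃ c : G, θ c = P := by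
  classical
  obtain ⟨hfin, hcard⟩ := xcount_five_torsion V
  have hrange : Set.range θ ⊆ {P : V.Point | 5 • P = 0} := by
    rintro _ ⟨c, rfl⟩
    show 5 • θ c = 0
    rw [← map_nsmul, hG5, map_zero]
  have hrc : (Set.range θ).ncard = 25 := by
    rw [Set.ncard_range_of_injective hθ, hG]
  have heq : Set.range θ = {P : V.Point | 5 • P = 0} :=
    Set.eq_of_subset_of_ncard_le hrange (by rw [hrc]; exact hcard) hfin
  have : P ∈ Set.range θ := by rw [heq]; exact hP
  exact this

theorem xcount_card_zmod5_sq : Nat.card (ZMod 5 × ZMod 5) = 25 := by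
  simp

theorem xcount_five_nsmul_zmod5_sq (c : ZMod 5 × ZMod 5) : 5 • c = 0 := by
  revert c
  decide

/-- The case `G = (ℤ/5)²` of `xcount_surj`. -/
theorem xcount_surj_zmod [CharZero k] (V : Affine k) (θ : ZMod 5 × ZMod 5 →+ V.Point)
    (hθ : Function.Injective θ) (P : V.Point) (hP : 5 • P = 0) :
    ∃ c : ZMod 5 × ZMod 5, θ c = P :=
  xcount_surj V xcount_card_zmod5_sq xcount_five_nsmul_zmod5_sq θ hθ P hP

end Fermat.Agent.S52
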