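import Fermat.Agent.S52.Defs
import Fermat.Agent.S52.XCount

/-!
# P17 (S52), block X: rigidity along the family

A *torsion frame* along a family of rational curves `E_t` (`t ∈ ℚ`) consists of polynomials
`X c, Y c ∈ ℚ̄[T]` (`c ∈ (ℤ/5)²`) such that for every good `t` the points
`(X c (t), Y c (t))`, `c ≠ 0`, are the nonzero values of an injective homomorphism
`θ_t : (ℤ/5)² → E_t(ℚ̄)`.  Since `E_t` is defined over `ℚ`, a Galois automorphism `σ` maps
the frame to another frame; both enumerate the `25` points killed by `5`, so a pigeonhole argument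
over the infinitely many good `t` shows that `σ` acts on the frame through a map of
`(ℤ/5)²` which does not depend on `t`.  Hence `θ_t ∘ θ_s⁻¹` is Galois equivariant.
-/

set_option autoImplicit false

namespace Fermat.Agent.S52

open WeierstrassCurve WeierstrassCurve.Affine Polynomial

/-- Pigeonhole: if at every point of an infinite set of rational numbers the pair `(A, B)` agrees
with one of finitely many pairs `(X d, Y d)`, then `(A, B) = (X d, Y d)` for some `d`. -/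
theorem xrigid_pigeon {K : Type*} [Field K] [CharZero K] {ι : Type*} [Finite ι]
    (S : Set ℚ) (hS : S.Infinite) (A B : K[X]) (X Y : ι → K[X])
    (h : ∀ t ∈ S, ∃ d, A.eval (t : K) = (X d).eval (t : K) ∧
      B.eval (t : K) = (Y d).eval (t : K)) :
    ∃ d, A = X d ∧ B = Y d := by
  by_contra hcon
  have hcon' : ∀ d, A = X d → B ≠ Y d := fun d hA hB => hcon ⟨d, hA, hB⟩
  have hfin : ∀ d, {t : ℚ | A.eval (t : K) = (X d).eval (t : K) ∧
      B.eval (t : K) = (Y d).eval (t : K)}.Finite := by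
    intro d
    by_cases hA : A = X d
    · have hB : B - Y d ≠ 0 := sub_ne_zero.mpr (hcon' d hA)
      refine Set.Finite.subset ((Polynomial.finite_setOfPred_isRoot hB).preimage
        (Set.injOn_of_injective (Rat.cast_injective (α := K)))) ?_
      intro t ht
      show IsRoot (B - Y d) (t : K)
      rw [IsRoot.def, eval_sub]
      exact sub_eq_zero.mpr ht.2
    · have hA' : A - X d ≠ 0 := sub_ne_zero.mpr hA
      refine Set.Finite.subset ((Polynomial.finite_setOfPred_isRoot hA').preimage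
        (Set.injOn_of_injective (Rat.cast_injective (α := K)))) ?_
      intro t ht
      show IsRoot (A - X d) (t : K)
      rw [IsRoot.def, eval_sub]
      exact sub_eq_zero.mpr ht.1
  apply hS
  refine Set.Finite.subset (Set.finite_iUnion hfin) ?_
  intro t ht
  obtain ⟨d, hd⟩ := h t ht
  exact Set.mem_iUnion.mpr ⟨d, hd⟩

/-- The set of rational numbers which are not roots of a nonzero polynomial is infinite. -/
theorem xrigid_infinite_good (Fp : ℚ[X]) (hF : Fp ≠ 0) : {t : ℚ | Fp.eval t ≠ 0}.Infinite := by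
  have hfin : {t : ℚ | IsRoot Fp t}.Finite := Polynomial.finite_setOfPred_isRoot hF
  have hcompl : {t : ℚ | Fp.eval t ≠ 0} = {t : ℚ | IsRoot Fp t}ᶜ := by
    ext t
    rfl
  rw [hcompl]
  exact hfin.infinite_compl

local notation "Qbar" => AlgebraicClosure ℚ

section Frame

variable (Hp Tp : ℚ[X])

/-- `θ` is a frame of `E_t` with coordinates given by the values of `X`, `Y` at `t`. -/
def IsFrameAt (X Y : ZMod 5 × ZMod 5 → Qbar[X]) (t : ℚ)
    (θ : ZMod 5 × ZMod 5 →+ ((shortCurve (Hp.eval t) (Tp.eval t))⁄Qbar).Point) : Prop :=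
  Function.Injective θ ∧ ∀ c : ZMod 5 × ZMod 5, c ≠ 0 →
    ∃ hns, θ c = Point.some ((X c).eval (t : Qbar)) ((Y c).eval (t : Qbar)) hns

variable {Hp Tp}

theorem IsFrameAt.surj {X Y : ZMod 5 × ZMod 5 → Qbar[X]} {t : ℚ}
    {θ : ZMod 5 × ZMod 5 →+ ((shortCurve (Hp.eval t) (Tp.eval t))⁄Qbar).Point}
    (hθ : IsFrameAt Hp Tp X Y t θ) (P : ((shortCurve (Hp.eval t) (Tp.eval t))⁄Qbar).Point)
    (hP : 5 • P = 0) : ∃ c, θ c = P :=
  xcount_surj_zmod _ θ hθ.1 P hP

theorem xrigid_five_nsmul {t : ℚ}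
    (θ : ZMod 5 × ZMod 5 →+ ((shortCurve (Hp.eval t) (Tp.eval t))⁄Qbar).Point)
    (c : ZMod 5 × ZMod 5) : 5 • θ c = 0 := by
  rw [← map_nsmul, xcount_five_nsmul_zmod5_sq, map_zero]

/-- The Galois action on an affine point, in coordinates. -/
theorem xrigid_smul_some (E : WeierstrassCurve ℚ) (σ : Qbar ≃ₐ[ℚ] Qbar) (x y : Qbar)
    (h : (E⁄Qbar).Nonsingular x y) :
    ∃ h', σ • (Point.some x y h : (E⁄Qbar).Point) = Point.some (σ x) (σ y) h' :=
  ⟨(Affine.baseChange_nonsingular E (f := σ.toAlgHom) σ.toAlgHom.injective x y).mpr h, rfl⟩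

theorem xrigid_smul_zero (E : WeierstrassCurve ℚ) (σ : Qbar ≃ₐ[ℚ] Qbar) :
    σ • (0 : (E⁄Qbar).Point) = 0 :=
  rfl

theorem xrigid_smul_nsmul (E : WeierstrassCurve ℚ) (σ : Qbar ≃ₐ[ℚ] Qbar) (n : ℕ)
    (P : (E⁄Qbar).Point) : σ • (n • P) = n • (σ • P) :=
  map_nsmul (Point.map σ.toAlgHom) n P

theorem xrigid_smul_eq_zero (E : WeierstrassCurve ℚ) (σ : Qbar ≃ₐ[ℚ] Qbar)
    (P : (E⁄Qbar).Point) (h : σ • P = 0) : P = 0 := by
  have h1 : σ⁻¹ • (σ • P) = P := by rw [smul_smul, inv_mul_cancel, one_smul]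
  rw [← h1, h]
  rfl

theorem xrigid_eval_map (σ : Qbar ≃ₐ[ℚ] Qbar) (p : Qbar[X]) (t : ℚ) :
    (p.map (σ : Qbar →+* Qbar)).eval (t : Qbar) = σ (p.eval (t : Qbar)) := by
  have h1 : (t : Qbar) = (σ : Qbar →+* Qbar) (t : Qbar) := by simp
  rw [h1, eval_map_apply, ← h1]
  rfl

/-- Key step: `σ` acts on a frame through a map of the index set, independent of `t`. -/
theorem xrigid_perm (Fp : ℚ[X]) (hF : Fp ≠ 0) (X Y : ZMod 5 × ZMod 5 → Qbar[X])
    (θ : ∀ t : ℚ, ZMod 5 × ZMod 5 →+ ((shortCurve (Hp.eval t) (Tp.eval t))⁄Qbar).Point)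
    (hθ : ∀ t : ℚ, Fp.eval t ≠ 0 → IsFrameAt Hp Tp X Y t (θ t))
    (σ : Qbar ≃ₐ[ℚ] Qbar) (c : ZMod 5 × ZMod 5) :
    ∃ d : ZMod 5 × ZMod 5, ∀ t : ℚ, Fp.eval t ≠ 0 → σ • θ t c = θ t d := by
  by_cases hc : c = 0
  · refine ⟨0, fun t _ => ?_⟩
    rw [hc, map_zero]
    rfl
  -- pigeonhole over the nonzero indices
  have key : ∃ d : {d : ZMod 5 × ZMod 5 // d ≠ 0}, (X c).map (σ : Qbar →+* Qbar) = X d.1 ∧
      (Y c).map (σ : Qbar →+* Qbar) = Y d.1 := by
    apply xrigid_pigeon {t : ℚ | Fp.eval t ≠ 0} (xrigid_infinite_good Fp hF)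
      ((X c).map (σ : Qbar →+* Qbar)) ((Y c).map (σ : Qbar →+* Qbar))
      (fun d : {d : ZMod 5 × ZMod 5 // d ≠ 0} => X d.1)
      (fun d : {d : ZMod 5 × ZMod 5 // d ≠ 0} => Y d.1)
    intro t ht
    have ht : Fp.eval t ≠ 0 := ht
    obtain ⟨hns, hc'⟩ := (hθ t ht).2 c hc
    obtain ⟨hns', hσ⟩ := xrigid_smul_some (shortCurve (Hp.eval t) (Tp.eval t)) σ _ _ hns
    -- `σ • θ t c` is killed by `5`
    have h5 : 5 • (σ • θ t c) = 0 := by
      rw [← xrigid_smul_nsmul, xrigid_five_nsmul]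
      rfl
    obtain ⟨d, hd⟩ := (hθ t ht).surj _ h5
    have hd0 : d ≠ 0 := by
      intro h0
      rw [h0, map_zero] at hd
      have := xrigid_smul_eq_zero _ σ _ hd.symm
      rw [hc'] at this
      exact Point.some_ne_zero _ this
    obtain ⟨hnsd, hd'⟩ := (hθ t ht).2 d hd0
    rw [hd', hc', hσ] at hd
    have hxy := Point.some.inj hd
    refine ⟨⟨d, hd0⟩, ?_, ?_⟩
    · rw [xrigid_eval_map]
      exact hxy.1.symm
    · rw [xrigid_eval_map]
      exact hxy.2.symm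
  obtain ⟨⟨d, hd0⟩, hX, hY⟩ := key
  refine ⟨d, fun t ht => ?_⟩
  obtain ⟨hns, hc'⟩ := (hθ t ht).2 c hc
  obtain ⟨hns', hσ⟩ := xrigid_smul_some (shortCurve (Hp.eval t) (Tp.eval t)) σ _ _ hns
  obtain ⟨hnsd, hd'⟩ := (hθ t ht).2 d hd0
  rw [hc', hσ, hd']
  have hx : σ ((X c).eval (t : Qbar)) = (X d).eval (t : Qbar) := by
    rw [← xrigid_eval_map, hX]
  have hy : σ ((Y c).eval (t : Qbar)) = (Y d).eval (t : Qbar) := by
    rw [← xrigid_eval_map, hY]
  simp only [hx, hy]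

end Frame

/-- **Rigidity.**  Given a torsion frame along the family `E_t = shortCurve (Hp t) (Tp t)`
(polynomial coordinates `px c`, `py c`, an injective homomorphism `θ_t` from `(ℤ/5)²` for every
rational `t` with `Fp t ≠ 0`), the identification `θ_t ∘ θ_0⁻¹` of the `5`-torsion of `E_0`
with that of `E_t` is Galois equivariant. -/
theorem rigid_iso (h τ : ℚ) (Hp Tp Fp : ℚ[X]) (hH0 : Hp.eval 0 = h) (hT0 : Tp.eval 0 = τ)
    (hF0 : Fp.eval 0 ≠ 0) (px py : ZMod 5 × ZMod 5 → Qbar[X])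
    (hθ : ∀ t : ℚ, Fp.eval t ≠ 0 →
      ∃ θ : ZMod 5 × ZMod 5 →+ ((shortCurve (Hp.eval t) (Tp.eval t))⁄Qbar).Point,
        Function.Injective θ ∧ ∀ c : ZMod 5 × ZMod 5, c ≠ 0 →
          ∃ hns, θ c = Point.some ((px c).eval (t : Qbar)) ((py c).eval (t : Qbar)) hns) :
    ∀ t : ℚ, Fp.eval t ≠ 0 →
      ∃ ψ : ((shortCurve h τ)⁄Qbar).Point →
          ((shortCurve (Hp.eval t) (Tp.eval t))⁄Qbar).Point, IsTorsionIso5 ψ := by
  subst hH0 hT0
  have hF : Fp ≠ 0 := by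
    rintro rfl
    simp at hF0
  classical
  -- choose the frames
  let θ : ∀ t : ℚ, ZMod 5 × ZMod 5 →+ ((shortCurve (Hp.eval t) (Tp.eval t))⁄Qbar).Point :=
    fun t => if ht : Fp.eval t ≠ 0 then (hθ t ht).choose else 0
  have hfr : ∀ t : ℚ, Fp.eval t ≠ 0 → IsFrameAt Hp Tp px py t (θ t) := by
    intro t ht
    have : θ t = (hθ t ht).choose := dif_pos ht
    rw [this]
    exact (hθ t ht).choose_spec
  intro t ht
  have h0 := hfr 0 hF0
  have h1 := hfr t ht
  let ψ : ((shortCurve (Hp.eval 0) (Tp.eval 0))⁄Qbar).Point →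
      ((shortCurve (Hp.eval t) (Tp.eval t))⁄Qbar).Point :=
    fun P => if hP : ∃ c, θ 0 c = P then θ t hP.choose else 0
  have hψ : ∀ c, ψ (θ 0 c) = θ t c := by
    intro c
    have hex : ∃ c', θ 0 c' = θ 0 c := ⟨c, rfl⟩
    have : ψ (θ 0 c) = θ t hex.choose := dif_pos hex
    rw [this, h0.1 hex.choose_spec]
  refine ⟨ψ, ⟨?_, ?_, ?_⟩⟩
  · intro P Q hP hQ
    obtain ⟨c, rfl⟩ := h0.surj P hP
    obtain ⟨d, rfl⟩ := h0.surj Q hQ
    rw [← map_add, hψ, hψ, hψ, map_add]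
  · intro P hP hP0
    obtain ⟨c, rfl⟩ := h0.surj P hP
    rw [hψ] at hP0
    have hc : c = 0 := h1.1 (by rw [hP0, map_zero])
    rw [hc, map_zero]
  · intro σ P hP
    obtain ⟨c, rfl⟩ := h0.surj P hP
    obtain ⟨d, hd⟩ := xrigid_perm Fp hF px py θ hfr σ c
    rw [hd 0 hF0, hψ, hψ, hd t ht]

end Fermat.Agent.S52
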