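import Fermat.Agent.S52.XDefs

/-!
# P17 (S52), block X: the polynomial identities behind the `5`-torsion sections

All identities hold in any commutative ring for any root `z` of `1 + z + z² + z³ + z⁴`
(certificates computed by exact arithmetic).
-/

set_option autoImplicit false
set_option maxHeartbeats 1600000

namespace Fermat.Agent.S52

section ksAlg

variable {R : Type*} [CommRing R]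

theorem ksP_eq (z X Y : R) (hz : 1 + z + z ^ 2 + z ^ 3 + z ^ 4 = 0) :
    ksEtaPxy z X Y ^ 2 = ksXiPxy z X Y ^ 3 + 27 * 5 ^ 4 * ksHxy X Y * ksXiPxy z X Y + 54 * 5 ^ 6 * ksTxy X Y := by
  simp only [ksEtaPxy, ksXiPxy, ksHxy, ksTxy]
  linear_combination (99144000*Y^6 + (-2105352000)*X*Y^5 + 10176840000*X^2*Y^4 + 10176840000*X^3*Y^3 + 7319160000*X^4*Y^2 + 1102248000*X^5*Y + 46656000*X^6 + (-69984000)*z*Y^6 + 1580472000*z*X*Y^5 + (-9156240000)*z*X^2*Y^4 + 1778760000*z*X^3*Y^3 + 9156240000*z*X^4*Y^2 + 1580472000*z*X^5*Y + 69984000*z*X^6 + 99144000*z^2*Y^6 + (-2105352000)*z^2*X*Y^5 + 10176840000*z^2*X^2*Y^4 + 10176840000*z^2*X^3*Y^3 + 7319160000*z^2*X^4*Y^2 + 1102248000*z^2*X^5*Y + 46656000*z^2*X^6 + 11664000*z^4*Y^6 + (-384912000)*z^4*X*Y^5 + 4199040000*z^4*X^2*Y^4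 + (-14754960000)*z^4*X^3*Y^3 + (-4199040000)*z^4*X^4*Y^2 + (-384912000)*z^4*X^5*Y + (-11664000)*z^4*X^6 + 5832000*z^5*Y^6 + (-192456000)*z^5*X*Y^5 + 2099520000*z^5*X^2*Y^4 + (-7377480000)*z^5*X^3*Y^3 + (-2099520000)*z^5*X^4*Y^2 + (-192456000)*z^5*X^5*Y + (-5832000)*z^5*X^6) * hz

theorem ksP_slope (z X Y : R) (hz : 1 + z + z ^ 2 + z ^ 3 + z ^ 4 = 0) :
    ksLxy z X Y * (2 * ksEtaPxy z X Y) = 3 * ksXiPxy z X Y ^ 2 + 27 * 5 ^ 4 * ksHxy X Y := by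
  simp only [ksEtaPxy, ksXiPxy, ksLxy, ksHxy]
  linear_combination ((-615600)*Y^4 + 6577200*X*Y^3 + 3207600*X^2*Y^2 + (-4795200)*X^3*Y + (-453600)*X^4 + 680400*z*Y^4 + (-6706800)*z*X*Y^3 + (-8780400)*z*X^2*Y^2 + (-5767200)*z*X^3*Y + (-453600)*z*X^4 + (-388800)*z^2*Y^4 + 5637600*z^2*X*Y^3 + (-14353200)*z^2*X^2*Y^2 + (-3855600)*z^2*X^3*Y + (-226800)*z^2*X^4) * hz

theorem ksP_dblx (z X Y : R) (hz : 1 + z + z ^ 2 + z ^ 3 + z ^ 4 = 0) :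
    ksXiP2xy z X Y = ksLxy z X Y ^ 2 - 2 * ksXiPxy z X Y := by
  simp only [ksXiP2xy, ksXiPxy, ksLxy]
  linear_combination ((-1224)*Y^2 + 864*X*Y + (-1476)*X^2 + 1188*z*Y^2 + (-1368)*z*X*Y + (-288)*z*X^2 + (-324)*z^2*Y^2 + 864*z^2*X*Y + (-576)*z^2*X^2) * hz

theorem ksP_dbly (z X Y : R) (hz : 1 + z + z ^ 2 + z ^ 3 + z ^ 4 = 0) :
    ksEtaP2xy z X Y = -(ksLxy z X Y * (ksXiP2xy z X Y - ksXiPxy z X Y) + ksEtaPxy z X Y) := by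
  simp only [ksEtaP2xy, ksXiP2xy, ksXiPxy, ksLxy, ksEtaPxy]
  linear_combination (8640*Y^3 + (-88560)*X*Y^2 + (-79920)*X^2*Y + (-6480)*X^3 + 8640*z*Y^3 + (-88560)*z*X*Y^2 + (-79920)*z*X^2*Y + (-6480)*z*X^3 + (-6480)*z^2*Y^3 + 79920*z^2*X*Y^2 + (-88560)*z^2*X^2*Y + (-8640)*z^2*X^3) * hz

theorem ksP2_slope (z X Y : R) (hz : 1 + z + z ^ 2 + z ^ 3 + z ^ 4 = 0) :
    ksL2xy z X Y * (2 * ksEtaP2xy z X Y) = 3 * ksXiP2xy z X Y ^ 2 + 27 * 5 ^ 4 * ksHxy X Y := by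
  simp only [ksEtaP2xy, ksXiP2xy, ksL2xy, ksHxy]
  linear_combination ((-453600)*Y^4 + 4795200*X*Y^3 + 3207600*X^2*Y^2 + (-6577200)*X^3*Y + (-615600)*X^4 + (-453600)*z*Y^4 + 5767200*z*X*Y^3 + (-8780400)*z*X^2*Y^2 + 6706800*z*X^3*Y + 680400*z*X^4 + (-226800)*z^2*Y^4 + 3855600*z^2*X*Y^3 + (-14353200)*z^2*X^2*Y^2 + (-5637600)*z^2*X^3*Y + (-388800)*z^2*X^4) * hz

theorem ksP2_dblx (z X Y : R) (hz : 1 + z + z ^ 2 + z ^ 3 + z ^ 4 = 0) :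
    ksXiPxy z X Y = ksL2xy z X Y ^ 2 - 2 * ksXiP2xy z X Y := by
  simp only [ksXiP2xy, ksXiPxy, ksL2xy]
  linear_combination ((-1476)*Y^2 + (-864)*X*Y + (-1224)*X^2 + (-288)*z*Y^2 + 1368*z*X*Y + 1188*z*X^2 + (-576)*z^2*Y^2 + (-864)*z^2*X*Y + (-324)*z^2*X^2) * hz

theorem ksP2_dbly (z X Y : R) (hz : 1 + z + z ^ 2 + z ^ 3 + z ^ 4 = 0) :
    -ksEtaPxy z X Y = -(ksL2xy z X Y * (ksXiPxy z X Y - ksXiP2xy z X Y) + ksEtaP2xy z X Y) := by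
  simp only [ksEtaP2xy, ksXiP2xy, ksXiPxy, ksL2xy, ksEtaPxy]
  linear_combination (6480*Y^3 + (-79920)*X*Y^2 + 88560*X^2*Y + 8640*X^3 + 6480*z*Y^3 + (-79920)*z*X*Y^2 + 88560*z*X^2*Y + 8640*z*X^3 + 8640*z^2*Y^3 + (-88560)*z^2*X*Y^2 + (-79920)*z^2*X^2*Y + (-6480)*z^2*X^3) * hz

theorem ksP_slopes_X (z X Y : R) (hz : 1 + z + z ^ 2 + z ^ 3 + z ^ 4 = 0) :
    (2250) * X = ((-21) + (-42)*z + (-18)*z^2 + (-24)*z^3) * ksLxy z X Y - (3 + 6*z + 24*z^2 + (-18)*z^3) * ksL2xy z X Y := by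
  simp only [ksLxy, ksL2xy]
  linear_combination (2700*X + (-900)*z*X + 900*z^2*X) * hz

theorem ksP_slopes_Y (z X Y : R) (hz : 1 + z + z ^ 2 + z ^ 3 + z ^ 4 = 0) :
    (2250) * Y = (21 + 42*z + 18*z^2 + 24*z^3) * ksL2xy z X Y - (3 + 6*z + 24*z^2 + (-18)*z^3) * ksLxy z X Y := by
  simp only [ksLxy, ksL2xy]
  linear_combination (2700*Y + (-900)*z*Y + 900*z^2*Y) * hz

theorem ksP_slopes_det (z : R) (hz : 1 + z + z ^ 2 + z ^ 3 + z ^ 4 = 0) :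
    (2250) * (1) = 2250 := by
  ring

theorem ksQ_eq (u v : R) :
    ksEtaQ u v ^ 2 = ksXiQ u v ^ 3 + 27 * 5 ^ 4 * kH u v * ksXiQ u v + 54 * 5 ^ 6 * kT u v := by
  unfold ksEtaQ ksXiQ kH kT
  ring

theorem ksQ_slope (u v : R) :
    ksM u v * (2 * ksEtaQ u v) = 3 * ksXiQ u v ^ 2 + 27 * 5 ^ 4 * kH u v := by
  unfold ksM ksEtaQ ksXiQ kH
  ring

theorem ksQ_dblx (u v : R) :
    ksXiQ2 u v = ksM u v ^ 2 - 2 * ksXiQ u v := by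
  unfold ksXiQ2 ksM ksXiQ
  ring

theorem ksQ_dbly (u v : R) :
    ksEtaQ2 u v = -(ksM u v * (ksXiQ2 u v - ksXiQ u v) + ksEtaQ u v) := by
  unfold ksEtaQ2 ksM ksXiQ2 ksXiQ ksEtaQ
  ring

theorem ksQ2_slope (u v : R) :
    ksM2 u v * (2 * ksEtaQ2 u v) = 3 * ksXiQ2 u v ^ 2 + 27 * 5 ^ 4 * kH u v := by
  unfold ksM2 ksEtaQ2 ksXiQ2 kH
  ring

theorem ksQ2_dblx (u v : R) :
    ksXiQ u v = ksM2 u v ^ 2 - 2 * ksXiQ2 u v := by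
  unfold ksXiQ2 ksM2 ksXiQ
  ring

theorem ksQ2_dbly (u v : R) :
    -ksEtaQ u v = -(ksM2 u v * (ksXiQ u v - ksXiQ2 u v) + ksEtaQ2 u v) := by
  unfold ksEtaQ2 ksM2 ksXiQ2 ksXiQ ksEtaQ
  ring

theorem ksAdd_slope (z u v : R) (hz : 1 + z + z ^ 2 + z ^ 3 + z ^ 4 = 0) :
    ksN z u v * (ksXiQ (z * u) (z ^ 4 * v) - ksXiP z u v) = ksEtaQ (z * u) (z ^ 4 * v) - ksEtaP z u v := by
  simp only [ksN, ksXiQ, ksEtaQ, ksXiP, ksEtaP, ksXiPxy, ksEtaPxy]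
  linear_combination (1305*v^15 + 13950*u*v^14 + 27900*u^2*v^13 + 13950*u^3*v^12 + (-17145)*u^5*v^10 + (-29700)*u^6*v^9 + (-59400)*u^7*v^8 + (-29700)*u^8*v^7 + (-71865)*u^10*v^5 + 8550*u^11*v^4 + 17100*u^12*v^3 + 8550*u^13*v^2 + (-2835)*u^15 + 1305*z*v^15 + (-13950)*z*u*v^14 + (-13950)*z*u^2*v^13 + (-27900)*z*u^3*v^12 + (-17145)*z*u^5*v^10 + 29700*z*u^6*v^9 + 29700*z*u^7*v^8 + 59400*z*u^8*v^7 + (-71865)*z*u^10*v^5 + (-8550)*z*u^11*v^4 + (-8550)*z*u^12*v^3 + (-17100)*z*u^13*v^2 + (-2835)*z*u^15 + (-3060)*z^2*v^15 + (-8550)*z^2*u*v^14 + 10800*z^2*u^2*v^13 + 19350*z^2*u^3*v^12 + 79290*z^2*u^5*v^10 + (-29700)*z^2*u^6*v^9 + (-118800)*z^2*u^7*v^8 + (-89100)*z^2*u^8*v^7 + 29880*z^2*u^10*v^5 + (-13950)*z^2*u^11*v^4 + (-10800)*z^2*u^12*v^3 + 3150*z^2*u^13*v^2 + (-630)*z^2*u^15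 + 1350*z^3*v^15 + 13950*z^3*u*v^14 + 5400*z^3*u^2*v^13 + (-5400)*z^3*u^3*v^12 + (-94050)*z^3*u^5*v^10 + (-29700)*z^3*u^6*v^9 + (-59400)*z^3*u^7*v^8 + 59400*z^3*u^8*v^7 + 14850*z^3*u^10*v^5 + 8550*z^3*u^11*v^4 + (-5400)*z^3*u^12*v^3 + 5400*z^3*u^13*v^2 + 450*z^3*u^15 + (-900)*z^4*v^15 + (-10800)*z^4*u*v^14 + (-19350)*z^4*u^2*v^13 + (-5400)*z^4*u^3*v^12 + 54450*z^4*u^5*v^10 + 118800*z^4*u^6*v^9 + 89100*z^4*u^7*v^8 + 59400*z^4*u^8*v^7 + 39600*z^4*u^10*v^5 + 10800*z^4*u^11*v^4 + (-3150)*z^4*u^12*v^3 + 5400*z^4*u^13*v^2 + 450*z^4*u^15 + 225*z^5*v^15 + 13950*z^5*u*v^14 + 27900*z^5*u^2*v^13 + 19350*z^5*u^3*v^12 + (-7425)*z^5*u^5*v^10 + (-29700)*z^5*u^6*v^9 + (-59400)*z^5*u^7*v^8 + (-89100)*z^5*u^8*v^7 + (-47025)*z^5*u^10*v^5 + 8550*z^5*u^11*v^4 + 17100*z^5*u^12*v^3 + 3150*z^5*u^13*v^2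 + (-675)*z^5*u^15 + 225*z^6*v^15 + (-8550)*z^6*u*v^14 + (-19350)*z^6*u^2*v^13 + (-27900)*z^6*u^3*v^12 + (-7425)*z^6*u^5*v^10 + (-29700)*z^6*u^6*v^9 + 89100*z^6*u^7*v^8 + 59400*z^6*u^8*v^7 + (-47025)*z^6*u^10*v^5 + (-13950)*z^6*u^11*v^4 + (-3150)*z^6*u^12*v^3 + (-17100)*z^6*u^13*v^2 + (-675)*z^6*u^15 + (-900)*z^7*v^15 + (-8550)*z^7*u*v^14 + 5400*z^7*u^2*v^13 + 19350*z^7*u^3*v^12 + 54450*z^7*u^5*v^10 + (-29700)*z^7*u^6*v^9 + (-59400)*z^7*u^7*v^8 + (-89100)*z^7*u^8*v^7 + 39600*z^7*u^10*v^5 + (-13950)*z^7*u^11*v^4 + (-5400)*z^7*u^12*v^3 + 3150*z^7*u^13*v^2 + 450*z^7*u^15 + 1350*z^8*v^15 + 13950*z^8*u*v^14 + 5400*z^8*u^2*v^13 + (-5400)*z^8*u^3*v^12 + (-94050)*z^8*u^5*v^10 + (-29700)*z^8*u^6*v^9 + (-59400)*z^8*u^7*v^8 + 59400*z^8*u^8*v^7 + 14850*z^8*u^10*v^5 + 8550*z^8*u^11*v^4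 + (-5400)*z^8*u^12*v^3 + 5400*z^8*u^13*v^2 + 450*z^8*u^15 + (-900)*z^9*v^15 + (-10800)*z^9*u*v^14 + (-19350)*z^9*u^2*v^13 + (-5400)*z^9*u^3*v^12 + 54450*z^9*u^5*v^10 + 118800*z^9*u^6*v^9 + 89100*z^9*u^7*v^8 + 59400*z^9*u^8*v^7 + 39600*z^9*u^10*v^5 + 10800*z^9*u^11*v^4 + (-3150)*z^9*u^12*v^3 + 5400*z^9*u^13*v^2 + 450*z^9*u^15 + 225*z^10*v^15 + 13950*z^10*u*v^14 + 27900*z^10*u^2*v^13 + 19350*z^10*u^3*v^12 + (-7425)*z^10*u^5*v^10 + (-29700)*z^10*u^6*v^9 + (-59400)*z^10*u^7*v^8 + (-89100)*z^10*u^8*v^7 + (-47250)*z^10*u^10*v^5 + 10800*z^10*u^11*v^4 + 21600*z^10*u^12*v^3 + 5400*z^10*u^13*v^2 + 225*z^11*v^15 + (-8550)*z^11*u*v^14 + (-19350)*z^11*u^2*v^13 + (-27900)*z^11*u^3*v^12 + (-7425)*z^11*u^5*v^10 + (-29700)*z^11*u^6*v^9 + 89100*z^11*u^7*v^8 + 59400*z^11*u^8*v^7 +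 (-47250)*z^11*u^10*v^5 + (-16200)*z^11*u^11*v^4 + (-5400)*z^11*u^12*v^3 + (-21600)*z^11*u^13*v^2 + (-900)*z^12*v^15 + (-8550)*z^12*u*v^14 + 5400*z^12*u^2*v^13 + 19350*z^12*u^3*v^12 + 54450*z^12*u^5*v^10 + (-29700)*z^12*u^6*v^9 + (-59400)*z^12*u^7*v^8 + (-89100)*z^12*u^8*v^7 + 40500*z^12*u^10*v^5 + (-16200)*z^12*u^11*v^4 + (-5400)*z^12*u^12*v^3 + 5400*z^12*u^13*v^2 + 1350*z^13*v^15 + 13950*z^13*u*v^14 + 5400*z^13*u^2*v^13 + (-5400)*z^13*u^3*v^12 + (-94050)*z^13*u^5*v^10 + (-29700)*z^13*u^6*v^9 + (-59400)*z^13*u^7*v^8 + 59400*z^13*u^8*v^7 + 13500*z^13*u^10*v^5 + 10800*z^13*u^11*v^4 + (-5400)*z^13*u^12*v^3 + 5400*z^13*u^13*v^2 + (-900)*z^14*v^15 + (-10800)*z^14*u*v^14 + (-19350)*z^14*u^2*v^13 + (-5400)*z^14*u^3*v^12 + 54450*z^14*u^5*v^10 + 118800*z^14*u^6*v^9 + 89100*z^14*u^7*v^8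 + 59400*z^14*u^8*v^7 + 40500*z^14*u^10*v^5 + 10800*z^14*u^11*v^4 + (-5400)*z^14*u^12*v^3 + 5400*z^14*u^13*v^2 + 225*z^15*v^15 + 13950*z^15*u*v^14 + 27900*z^15*u^2*v^13 + 19350*z^15*u^3*v^12 + (-7425)*z^15*u^5*v^10 + (-29700)*z^15*u^6*v^9 + (-59400)*z^15*u^7*v^8 + (-89100)*z^15*u^8*v^7 + (-47250)*z^15*u^10*v^5 + 10800*z^15*u^11*v^4 + 21600*z^15*u^12*v^3 + 5400*z^15*u^13*v^2 + 225*z^16*v^15 + (-8550)*z^16*u*v^14 + (-19350)*z^16*u^2*v^13 + (-27900)*z^16*u^3*v^12 + (-7425)*z^16*u^5*v^10 + (-29700)*z^16*u^6*v^9 + 89100*z^16*u^7*v^8 + 56700*z^16*u^8*v^7 + 27000*z^16*u^9*v^6 + 6750*z^16*u^10*v^5 + 10800*z^16*u^11*v^4 + (-5400)*z^16*u^12*v^3 + (-13500)*z^16*u^13*v^2 + (-900)*z^17*v^15 + (-8550)*z^17*u*v^14 + 5400*z^17*u^2*v^13 + 19350*z^17*u^3*v^12 + 54450*z^17*u^5*v^10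 + (-29700)*z^17*u^6*v^9 + (-59400)*z^17*u^7*v^8 + (-91800)*z^17*u^8*v^7 + (-27000)*z^17*u^9*v^6 + 13500*z^17*u^10*v^5 + (-70200)*z^17*u^11*v^4 + (-5400)*z^17*u^12*v^3 + 13500*z^17*u^13*v^2 + 1350*z^18*v^15 + 13950*z^18*u*v^14 + 5400*z^18*u^2*v^13 + (-5400)*z^18*u^3*v^12 + (-94050)*z^18*u^5*v^10 + (-29700)*z^18*u^6*v^9 + (-59400)*z^18*u^7*v^8 + 70200*z^18*u^8*v^7 + (-27000)*z^18*u^9*v^6 + 13500*z^18*u^10*v^5 + 37800*z^18*u^11*v^4 + (-5400)*z^18*u^12*v^3 + (-900)*z^19*v^15 + (-10800)*z^19*u*v^14 + (-19350)*z^19*u^2*v^13 + (-5400)*z^19*u^3*v^12 + 54450*z^19*u^5*v^10 + 118800*z^19*u^6*v^9 + 91800*z^19*u^7*v^8 + 16200*z^19*u^8*v^7 + (-27000)*z^19*u^9*v^6 + 13500*z^19*u^10*v^5 + 10800*z^19*u^11*v^4 + (-13500)*z^19*u^12*v^3 + 225*z^20*v^15 + 13950*z^20*u*v^14 + 27900*z^20*u^2*v^13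 + 19350*z^20*u^3*v^12 + (-7425)*z^20*u^5*v^10 + (-29700)*z^20*u^6*v^9 + (-56700)*z^20*u^7*v^8 + (-51300)*z^20*u^8*v^7 + 27000*z^20*u^9*v^6 + (-20250)*z^20*u^10*v^5 + 10800*z^20*u^11*v^4 + 13500*z^20*u^12*v^3 + 225*z^21*v^15 + (-8550)*z^21*u*v^14 + (-19350)*z^21*u^2*v^13 + (-27900)*z^21*u^3*v^12 + (-7425)*z^21*u^5*v^10 + (-29700)*z^21*u^6*v^9 + 78300*z^21*u^7*v^8 + 83700*z^21*u^8*v^7 + 27000*z^21*u^9*v^6 + (-20250)*z^21*u^10*v^5 + 10800*z^21*u^11*v^4 + (-900)*z^22*v^15 + (-8550)*z^22*u*v^14 + 5400*z^22*u^2*v^13 + 19350*z^22*u^3*v^12 + 54450*z^22*u^5*v^10 + (-35100)*z^22*u^6*v^9 + 10800*z^22*u^7*v^8 + (-10800)*z^22*u^8*v^7 + 27000*z^22*u^9*v^6 + 13500*z^22*u^10*v^5 + (-54000)*z^22*u^11*v^4 + 1350*z^23*v^15 + 13950*z^23*u*v^14 + 5400*z^23*u^2*v^13 + (-5400)*z^23*u^3*v^12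 + (-94050)*z^23*u^5*v^10 + (-35100)*z^23*u^6*v^9 + (-124200)*z^23*u^7*v^8 + 16200*z^23*u^8*v^7 + (-108000)*z^23*u^9*v^6 + 13500*z^23*u^10*v^5 + 54000*z^23*u^11*v^4 + (-900)*z^24*v^15 + (-10800)*z^24*u*v^14 + (-19350)*z^24*u^2*v^13 + (-5400)*z^24*u^3*v^12 + 54450*z^24*u^5*v^10 + 140400*z^24*u^6*v^9 + 37800*z^24*u^7*v^8 + 16200*z^24*u^8*v^7 + 27000*z^24*u^9*v^6 + 13500*z^24*u^10*v^5 + 225*z^25*v^15 + 13950*z^25*u*v^14 + 27900*z^25*u^2*v^13 + 19350*z^25*u^3*v^12 + (-14175)*z^25*u^5*v^10 + 5400*z^25*u^6*v^9 + 132300*z^25*u^7*v^8 + 16200*z^25*u^8*v^7 + 27000*z^25*u^9*v^6 + 225*z^26*v^15 + (-8550)*z^26*u*v^14 + (-19350)*z^26*u^2*v^13 + (-27900)*z^26*u^3*v^12 + (-14175)*z^26*u^5*v^10 + (-75600)*z^26*u^6*v^9 + 10800*z^26*u^7*v^8 + (-105300)*z^26*u^8*v^7 + 27000*z^26*u^9*v^6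 + (-900)*z^27*v^15 + (-8550)*z^27*u*v^14 + 5400*z^27*u^2*v^13 + 19350*z^27*u^3*v^12 + 81450*z^27*u^5*v^10 + (-102600)*z^27*u^6*v^9 + 10800*z^27*u^7*v^8 + 56700*z^27*u^8*v^7 + 27000*z^27*u^9*v^6 + 1350*z^28*v^15 + 13950*z^28*u*v^14 + 5400*z^28*u^2*v^13 + (-5400)*z^28*u^3*v^12 + (-13500)*z^28*u^4*v^11 + 450*z^28*u^5*v^10 + 302400*z^28*u^6*v^9 + 10800*z^28*u^7*v^8 + 16200*z^28*u^8*v^7 + (-67500)*z^28*u^9*v^6 + (-900)*z^29*v^15 + (-10800)*z^29*u*v^14 + (-19350)*z^29*u^2*v^13 + (-5400)*z^29*u^3*v^12 + (-13500)*z^29*u^4*v^11 + (-53550)*z^29*u^5*v^10 + 5400*z^29*u^6*v^9 + (-299700)*z^29*u^7*v^8 + 16200*z^29*u^8*v^7 + 67500*z^29*u^9*v^6 + 225*z^30*v^15 + 13950*z^30*u*v^14 + 27900*z^30*u^2*v^13 + 19350*z^30*u^3*v^12 + 54000*z^30*u^4*v^11 + (-149175)*z^30*u^5*v^10 + 5400*z^30*u^6*v^9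 + 267300*z^30*u^7*v^8 + 16200*z^30*u^8*v^7 + 225*z^31*v^15 + (-8550)*z^31*u*v^14 + (-19350)*z^31*u^2*v^13 + (-36000)*z^31*u^3*v^12 + 282825*z^31*u^5*v^10 + 5400*z^31*u^6*v^9 + 10800*z^31*u^7*v^8 + (-81000)*z^31*u^8*v^7 + (-900)*z^32*v^15 + (-8550)*z^32*u*v^14 + 5400*z^32*u^2*v^13 + 11250*z^32*u^3*v^12 + (-27000)*z^32*u^4*v^11 + 450*z^32*u^5*v^10 + (-399600)*z^32*u^6*v^9 + 10800*z^32*u^7*v^8 + 81000*z^32*u^8*v^7 + 1350*z^33*v^15 + 13950*z^33*u*v^14 + 5400*z^33*u^2*v^13 + 27000*z^33*u^3*v^12 + (-94500)*z^33*u^4*v^11 + 450*z^33*u^5*v^10 + 383400*z^33*u^6*v^9 + 10800*z^33*u^7*v^8 + (-900)*z^34*v^15 + (-10800)*z^34*u*v^14 + (-24750)*z^34*u^2*v^13 + 175500*z^34*u^4*v^11 + 450*z^34*u^5*v^10 + 5400*z^34*u^6*v^9 + (-283500)*z^34*u^7*v^8 + 225*z^35*v^15 + 13950*z^35*u*v^14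 + 22500*z^35*u^2*v^13 + (-2250)*z^35*u^3*v^12 + (-338175)*z^35*u^5*v^10 + 5400*z^35*u^6*v^9 + 283500*z^35*u^7*v^8 + 225*z^36*v^15 + (-8550)*z^36*u*v^14 + 2250*z^36*u^2*v^13 + (-90000)*z^36*u^3*v^12 + 336825*z^36*u^5*v^10 + 5400*z^36*u^6*v^9 + (-900)*z^37*v^15 + (-11250)*z^37*u*v^14 + 119250*z^37*u^3*v^12 + 450*z^37*u^5*v^10 + (-391500)*z^37*u^6*v^9 + 1350*z^38*v^15 + 11250*z^38*u*v^14 + (-202500)*z^38*u^4*v^11 + 450*z^38*u^5*v^10 + 391500*z^38*u^6*v^9 + (-900)*z^39*v^15 + (-51750)*z^39*u^2*v^13 + 202500*z^39*u^4*v^11 + 450*z^39*u^5*v^10 + 54000*z^40*u^2*v^13 + (-337500)*z^40*u^5*v^10 + (-121500)*z^41*u^3*v^12 + 337500*z^41*u^5*v^10 + (-13500)*z^42*u*v^14 + 121500*z^42*u^3*v^12 + 13500*z^43*u*v^14 + (-202500)*z^43*u^4*v^11 + (-54000)*z^44*u^2*v^13 + 202500*z^44*u^4*v^11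 + 54000*z^45*u^2*v^13 + (-121500)*z^46*u^3*v^12 + (-13500)*z^47*u*v^14 + 121500*z^47*u^3*v^12 + 13500*z^48*u*v^14 + (-54000)*z^49*u^2*v^13 + 54000*z^50*u^2*v^13 + (-13500)*z^52*u*v^14 + 13500*z^53*u*v^14) * hz

theorem ksAdd_x (z u v : R) (hz : 1 + z + z ^ 2 + z ^ 3 + z ^ 4 = 0) :
    ksXiQ u v = ksN z u v ^ 2 - ksXiQ (z * u) (z ^ 4 * v) - ksXiP z u v := by
  simp only [ksN, ksXiQ, ksEtaQ, ksXiP, ksEtaP, ksXiPxy, ksEtaPxy]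
  linear_combination ((-399)*v^10 + 1080*u*v^9 + 1260*u^2*v^8 + (-720)*u^3*v^7 + (-900)*u^4*v^6 + (-306)*u^5*v^5 + 360*u^6*v^4 + (-1980)*u^7*v^3 + 360*u^8*v^2 + (-291)*u^10 + 363*z*v^10 + (-720)*z*u*v^9 + (-360)*z*u^2*v^8 + (-900)*z*u^3*v^7 + (-900)*z*u^4*v^6 + 2322*z*u^5*v^5 + 360*z*u^6*v^4 + (-720)*z*u^7*v^3 + (-900)*z*u^8*v^2 + (-33)*z*u^10 + (-144)*z^2*v^10 + (-900)*z^2*u*v^9 + 720*z^2*u^2*v^8 + 2700*z^2*u^3*v^7 + (-900)*z^2*u^4*v^6 + 144*z^2*u^5*v^5 + (-1800)*z^2*u^6*v^4 + (-360)*z^2*u^7*v^3 + 900*z^2*u^8*v^2 + (-36)*z^2*u^10 + 900*z^3*u*v^9 + (-4500)*z^3*u^4*v^6 + 1800*z^3*u^6*v^4 + (-1800)*z^4*u^2*v^8 + 4500*z^4*u^4*v^6 + 900*z^4*u^7*v^3 + (-75)*z^5*v^10 + 1800*z^5*u^2*v^8 + (-2250)*z^5*u^5*v^5 + (-900)*z^5*u^7*v^3 + (-75)*z^5*u^10 + 75*z^6*v^10 + (-2700)*z^6*u^3*v^7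 + 2250*z^6*u^5*v^5 + (-900)*z^6*u^8*v^2 + 75*z^6*u^10 + (-900)*z^7*u*v^9 + 2700*z^7*u^3*v^7 + (-1800)*z^7*u^6*v^4 + 900*z^7*u^8*v^2 + 900*z^8*u*v^9 + (-4500)*z^8*u^4*v^6 + 1800*z^8*u^6*v^4 + (-1800)*z^9*u^2*v^8 + 4500*z^9*u^4*v^6 + 900*z^9*u^7*v^3 + (-75)*z^10*v^10 + 1800*z^10*u^2*v^8 + (-2250)*z^10*u^5*v^5 + (-900)*z^10*u^7*v^3 + 75*z^11*v^10 + (-2700)*z^11*u^3*v^7 + 2250*z^11*u^5*v^5 + (-900)*z^11*u^8*v^2 + (-900)*z^12*u*v^9 + 2700*z^12*u^3*v^7 + (-1800)*z^12*u^6*v^4 + 900*z^12*u^8*v^2 + 900*z^13*u*v^9 + (-4500)*z^13*u^4*v^6 + 1800*z^13*u^6*v^4 + (-1800)*z^14*u^2*v^8 + 4500*z^14*u^4*v^6 + 900*z^14*u^7*v^3 + (-75)*z^15*v^10 + 1800*z^15*u^2*v^8 + (-2250)*z^15*u^5*v^5 + (-900)*z^15*u^7*v^3 + 75*z^16*v^10 + (-2700)*z^16*u^3*v^7 + 2250*z^16*u^5*v^5 + (-900)*z^17*u*v^9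 + 2700*z^17*u^3*v^7 + (-1800)*z^17*u^6*v^4 + 900*z^18*u*v^9 + (-4500)*z^18*u^4*v^6 + 1800*z^18*u^6*v^4 + (-1800)*z^19*u^2*v^8 + 4500*z^19*u^4*v^6 + (-75)*z^20*v^10 + 1800*z^20*u^2*v^8 + (-2250)*z^20*u^5*v^5 + 75*z^21*v^10 + (-2700)*z^21*u^3*v^7 + 2250*z^21*u^5*v^5 + (-900)*z^22*u*v^9 + 2700*z^22*u^3*v^7 + 900*z^23*u*v^9 + (-4500)*z^23*u^4*v^6 + (-1800)*z^24*u^2*v^8 + 4500*z^24*u^4*v^6 + (-75)*z^25*v^10 + 1800*z^25*u^2*v^8 + 75*z^26*v^10 + (-2700)*z^26*u^3*v^7 + (-900)*z^27*u*v^9 + 2700*z^27*u^3*v^7 + 900*z^28*u*v^9 + (-1800)*z^29*u^2*v^8 + (-75)*z^30*v^10 + 1800*z^30*u^2*v^8 + 75*z^31*v^10 + (-900)*z^32*u*v^9 + 900*z^33*u*v^9 + (-75)*z^35*v^10 + 75*z^36*v^10) * hz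

theorem ksAdd_y (z u v : R) (hz : 1 + z + z ^ 2 + z ^ 3 + z ^ 4 = 0) :
    ksEtaQ u v = -(ksN z u v * (ksXiQ u v - ksXiQ (z * u) (z ^ 4 * v)) + ksEtaQ (z * u) (z ^ 4 * v)) := by
  simp only [ksN, ksXiQ, ksEtaQ, ksXiP, ksEtaP, ksXiPxy, ksEtaPxy]
  linear_combination ((-225)*v^15 + (-13950)*u*v^14 + (-27900)*u^2*v^13 + (-19350)*u^3*v^12 + 7425*u^5*v^10 + 29700*u^6*v^9 + 59400*u^7*v^8 + 89100*u^8*v^7 + 47025*u^10*v^5 + (-8550)*u^11*v^4 + (-17100)*u^12*v^3 + (-3150)*u^13*v^2 + 675*u^15 + (-225)*z*v^15 + 8550*z*u*v^14 + 19350*z*u^2*v^13 + 27900*z*u^3*v^12 + 7425*z*u^5*v^10 + 29700*z*u^6*v^9 + (-89100)*z*u^7*v^8 + (-59400)*z*u^8*v^7 + 47025*z*u^10*v^5 + 13950*z*u^11*v^4 + 3150*z*u^12*v^3 + 17100*z*u^13*v^2 + 675*z*u^15 + 900*z^2*v^15 + 8550*z^2*u*v^14 + (-5400)*z^2*u^2*v^13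 + (-19350)*z^2*u^3*v^12 + (-54450)*z^2*u^5*v^10 + 29700*z^2*u^6*v^9 + 59400*z^2*u^7*v^8 + 89100*z^2*u^8*v^7 + (-39600)*z^2*u^10*v^5 + 13950*z^2*u^11*v^4 + 5400*z^2*u^12*v^3 + (-3150)*z^2*u^13*v^2 + (-450)*z^2*u^15 + (-1350)*z^3*v^15 + (-13950)*z^3*u*v^14 + (-5400)*z^3*u^2*v^13 + 5400*z^3*u^3*v^12 + 94050*z^3*u^5*v^10 + 29700*z^3*u^6*v^9 + 59400*z^3*u^7*v^8 + (-59400)*z^3*u^8*v^7 + (-14850)*z^3*u^10*v^5 + (-8550)*z^3*u^11*v^4 + 5400*z^3*u^12*v^3 + (-5400)*z^3*u^13*v^2 + (-450)*z^3*u^15 + 900*z^4*v^15 + 10800*z^4*u*v^14 + 19350*z^4*u^2*v^13 + 5400*z^4*u^3*v^12 + (-54450)*z^4*u^5*v^10 + (-118800)*z^4*u^6*v^9 + (-89100)*z^4*u^7*v^8 + (-59400)*z^4*u^8*v^7 + (-39600)*z^4*u^10*v^5 + (-10800)*z^4*u^11*v^4 + 3150*z^4*u^12*v^3 + (-5400)*z^4*u^13*v^2 + (-450)*z^4*u^15 + (-225)*z^5*v^15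 + (-13950)*z^5*u*v^14 + (-27900)*z^5*u^2*v^13 + (-19350)*z^5*u^3*v^12 + 7425*z^5*u^5*v^10 + 29700*z^5*u^6*v^9 + 59400*z^5*u^7*v^8 + 89100*z^5*u^8*v^7 + 47025*z^5*u^10*v^5 + (-8550)*z^5*u^11*v^4 + (-17100)*z^5*u^12*v^3 + (-3150)*z^5*u^13*v^2 + 675*z^5*u^15 + (-225)*z^6*v^15 + 8550*z^6*u*v^14 + 19350*z^6*u^2*v^13 + 27900*z^6*u^3*v^12 + 7425*z^6*u^5*v^10 + 29700*z^6*u^6*v^9 + (-89100)*z^6*u^7*v^8 + (-59400)*z^6*u^8*v^7 + 47025*z^6*u^10*v^5 + 13950*z^6*u^11*v^4 + 3150*z^6*u^12*v^3 + 17100*z^6*u^13*v^2 + 675*z^6*u^15 + 900*z^7*v^15 + 8550*z^7*u*v^14 + (-5400)*z^7*u^2*v^13 + (-19350)*z^7*u^3*v^12 + (-54450)*z^7*u^5*v^10 + 29700*z^7*u^6*v^9 + 59400*z^7*u^7*v^8 + 89100*z^7*u^8*v^7 + (-39600)*z^7*u^10*v^5 + 13950*z^7*u^11*v^4 + 5400*z^7*u^12*v^3 + (-3150)*z^7*u^13*v^2 +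 (-450)*z^7*u^15 + (-1350)*z^8*v^15 + (-13950)*z^8*u*v^14 + (-5400)*z^8*u^2*v^13 + 5400*z^8*u^3*v^12 + 94050*z^8*u^5*v^10 + 29700*z^8*u^6*v^9 + 59400*z^8*u^7*v^8 + (-59400)*z^8*u^8*v^7 + (-14850)*z^8*u^10*v^5 + (-8550)*z^8*u^11*v^4 + 5400*z^8*u^12*v^3 + (-5400)*z^8*u^13*v^2 + (-450)*z^8*u^15 + 900*z^9*v^15 + 10800*z^9*u*v^14 + 19350*z^9*u^2*v^13 + 5400*z^9*u^3*v^12 + (-54450)*z^9*u^5*v^10 + (-118800)*z^9*u^6*v^9 + (-89100)*z^9*u^7*v^8 + (-59400)*z^9*u^8*v^7 + (-39600)*z^9*u^10*v^5 + (-10800)*z^9*u^11*v^4 + 3150*z^9*u^12*v^3 + (-5400)*z^9*u^13*v^2 + (-450)*z^9*u^15 + (-225)*z^10*v^15 + (-13950)*z^10*u*v^14 + (-27900)*z^10*u^2*v^13 + (-19350)*z^10*u^3*v^12 + 7425*z^10*u^5*v^10 + 29700*z^10*u^6*v^9 + 59400*z^10*u^7*v^8 + 89100*z^10*u^8*v^7 + 47250*z^10*u^10*v^5 + (-10800)*z^10*u^11*v^4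 + (-21600)*z^10*u^12*v^3 + (-5400)*z^10*u^13*v^2 + (-225)*z^11*v^15 + 8550*z^11*u*v^14 + 19350*z^11*u^2*v^13 + 27900*z^11*u^3*v^12 + 7425*z^11*u^5*v^10 + 29700*z^11*u^6*v^9 + (-89100)*z^11*u^7*v^8 + (-59400)*z^11*u^8*v^7 + 47250*z^11*u^10*v^5 + 16200*z^11*u^11*v^4 + 5400*z^11*u^12*v^3 + 21600*z^11*u^13*v^2 + 900*z^12*v^15 + 8550*z^12*u*v^14 + (-5400)*z^12*u^2*v^13 + (-19350)*z^12*u^3*v^12 + (-54450)*z^12*u^5*v^10 + 29700*z^12*u^6*v^9 + 59400*z^12*u^7*v^8 + 89100*z^12*u^8*v^7 + (-40500)*z^12*u^10*v^5 + 16200*z^12*u^11*v^4 + 5400*z^12*u^12*v^3 + (-5400)*z^12*u^13*v^2 + (-1350)*z^13*v^15 + (-13950)*z^13*u*v^14 + (-5400)*z^13*u^2*v^13 + 5400*z^13*u^3*v^12 + 94050*z^13*u^5*v^10 + 29700*z^13*u^6*v^9 + 59400*z^13*u^7*v^8 + (-59400)*z^13*u^8*v^7 + (-13500)*z^13*u^10*v^5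 + (-10800)*z^13*u^11*v^4 + 5400*z^13*u^12*v^3 + (-5400)*z^13*u^13*v^2 + 900*z^14*v^15 + 10800*z^14*u*v^14 + 19350*z^14*u^2*v^13 + 5400*z^14*u^3*v^12 + (-54450)*z^14*u^5*v^10 + (-118800)*z^14*u^6*v^9 + (-89100)*z^14*u^7*v^8 + (-59400)*z^14*u^8*v^7 + (-40500)*z^14*u^10*v^5 + (-10800)*z^14*u^11*v^4 + 5400*z^14*u^12*v^3 + (-5400)*z^14*u^13*v^2 + (-225)*z^15*v^15 + (-13950)*z^15*u*v^14 + (-27900)*z^15*u^2*v^13 + (-19350)*z^15*u^3*v^12 + 7425*z^15*u^5*v^10 + 29700*z^15*u^6*v^9 + 59400*z^15*u^7*v^8 + 89100*z^15*u^8*v^7 + 47250*z^15*u^10*v^5 + (-10800)*z^15*u^11*v^4 + (-21600)*z^15*u^12*v^3 + (-5400)*z^15*u^13*v^2 + (-225)*z^16*v^15 + 8550*z^16*u*v^14 + 19350*z^16*u^2*v^13 + 27900*z^16*u^3*v^12 + 7425*z^16*u^5*v^10 + 29700*z^16*u^6*v^9 + (-89100)*z^16*u^7*v^8 + (-56700)*z^16*u^8*v^7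 + (-27000)*z^16*u^9*v^6 + (-6750)*z^16*u^10*v^5 + (-10800)*z^16*u^11*v^4 + 5400*z^16*u^12*v^3 + 13500*z^16*u^13*v^2 + 900*z^17*v^15 + 8550*z^17*u*v^14 + (-5400)*z^17*u^2*v^13 + (-19350)*z^17*u^3*v^12 + (-54450)*z^17*u^5*v^10 + 29700*z^17*u^6*v^9 + 59400*z^17*u^7*v^8 + 91800*z^17*u^8*v^7 + 27000*z^17*u^9*v^6 + (-13500)*z^17*u^10*v^5 + 70200*z^17*u^11*v^4 + 5400*z^17*u^12*v^3 + (-13500)*z^17*u^13*v^2 + (-1350)*z^18*v^15 + (-13950)*z^18*u*v^14 + (-5400)*z^18*u^2*v^13 + 5400*z^18*u^3*v^12 + 94050*z^18*u^5*v^10 + 29700*z^18*u^6*v^9 + 59400*z^18*u^7*v^8 + (-70200)*z^18*u^8*v^7 + 27000*z^18*u^9*v^6 + (-13500)*z^18*u^10*v^5 + (-37800)*z^18*u^11*v^4 + 5400*z^18*u^12*v^3 + 900*z^19*v^15 + 10800*z^19*u*v^14 + 19350*z^19*u^2*v^13 + 5400*z^19*u^3*v^12 + (-54450)*z^19*u^5*v^10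 + (-118800)*z^19*u^6*v^9 + (-91800)*z^19*u^7*v^8 + (-16200)*z^19*u^8*v^7 + 27000*z^19*u^9*v^6 + (-13500)*z^19*u^10*v^5 + (-10800)*z^19*u^11*v^4 + 13500*z^19*u^12*v^3 + (-225)*z^20*v^15 + (-13950)*z^20*u*v^14 + (-27900)*z^20*u^2*v^13 + (-19350)*z^20*u^3*v^12 + 7425*z^20*u^5*v^10 + 29700*z^20*u^6*v^9 + 56700*z^20*u^7*v^8 + 51300*z^20*u^8*v^7 + (-27000)*z^20*u^9*v^6 + 20250*z^20*u^10*v^5 + (-10800)*z^20*u^11*v^4 + (-13500)*z^20*u^12*v^3 + (-225)*z^21*v^15 + 8550*z^21*u*v^14 + 19350*z^21*u^2*v^13 + 27900*z^21*u^3*v^12 + 7425*z^21*u^5*v^10 + 29700*z^21*u^6*v^9 + (-78300)*z^21*u^7*v^8 + (-83700)*z^21*u^8*v^7 + (-27000)*z^21*u^9*v^6 + 20250*z^21*u^10*v^5 + (-10800)*z^21*u^11*v^4 + 900*z^22*v^15 + 8550*z^22*u*v^14 + (-5400)*z^22*u^2*v^13 + (-19350)*z^22*u^3*v^12 + (-54450)*z^22*u^5*v^10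 + 35100*z^22*u^6*v^9 + (-10800)*z^22*u^7*v^8 + 10800*z^22*u^8*v^7 + (-27000)*z^22*u^9*v^6 + (-13500)*z^22*u^10*v^5 + 54000*z^22*u^11*v^4 + (-1350)*z^23*v^15 + (-13950)*z^23*u*v^14 + (-5400)*z^23*u^2*v^13 + 5400*z^23*u^3*v^12 + 94050*z^23*u^5*v^10 + 35100*z^23*u^6*v^9 + 124200*z^23*u^7*v^8 + (-16200)*z^23*u^8*v^7 + 108000*z^23*u^9*v^6 + (-13500)*z^23*u^10*v^5 + (-54000)*z^23*u^11*v^4 + 900*z^24*v^15 + 10800*z^24*u*v^14 + 19350*z^24*u^2*v^13 + 5400*z^24*u^3*v^12 + (-54450)*z^24*u^5*v^10 + (-140400)*z^24*u^6*v^9 + (-37800)*z^24*u^7*v^8 + (-16200)*z^24*u^8*v^7 + (-27000)*z^24*u^9*v^6 + (-13500)*z^24*u^10*v^5 + (-225)*z^25*v^15 + (-13950)*z^25*u*v^14 + (-27900)*z^25*u^2*v^13 + (-19350)*z^25*u^3*v^12 + 14175*z^25*u^5*v^10 + (-5400)*z^25*u^6*v^9 + (-132300)*z^25*u^7*v^8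 + (-16200)*z^25*u^8*v^7 + (-27000)*z^25*u^9*v^6 + (-225)*z^26*v^15 + 8550*z^26*u*v^14 + 19350*z^26*u^2*v^13 + 27900*z^26*u^3*v^12 + 14175*z^26*u^5*v^10 + 75600*z^26*u^6*v^9 + (-10800)*z^26*u^7*v^8 + 105300*z^26*u^8*v^7 + (-27000)*z^26*u^9*v^6 + 900*z^27*v^15 + 8550*z^27*u*v^14 + (-5400)*z^27*u^2*v^13 + (-19350)*z^27*u^3*v^12 + (-81450)*z^27*u^5*v^10 + 102600*z^27*u^6*v^9 + (-10800)*z^27*u^7*v^8 + (-56700)*z^27*u^8*v^7 + (-27000)*z^27*u^9*v^6 + (-1350)*z^28*v^15 + (-13950)*z^28*u*v^14 + (-5400)*z^28*u^2*v^13 + 5400*z^28*u^3*v^12 + 13500*z^28*u^4*v^11 + (-450)*z^28*u^5*v^10 + (-302400)*z^28*u^6*v^9 + (-10800)*z^28*u^7*v^8 + (-16200)*z^28*u^8*v^7 + 67500*z^28*u^9*v^6 + 900*z^29*v^15 + 10800*z^29*u*v^14 + 19350*z^29*u^2*v^13 + 5400*z^29*u^3*v^12 + 13500*z^29*u^4*v^11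 + 53550*z^29*u^5*v^10 + (-5400)*z^29*u^6*v^9 + 299700*z^29*u^7*v^8 + (-16200)*z^29*u^8*v^7 + (-67500)*z^29*u^9*v^6 + (-225)*z^30*v^15 + (-13950)*z^30*u*v^14 + (-27900)*z^30*u^2*v^13 + (-19350)*z^30*u^3*v^12 + (-54000)*z^30*u^4*v^11 + 149175*z^30*u^5*v^10 + (-5400)*z^30*u^6*v^9 + (-267300)*z^30*u^7*v^8 + (-16200)*z^30*u^8*v^7 + (-225)*z^31*v^15 + 8550*z^31*u*v^14 + 19350*z^31*u^2*v^13 + 36000*z^31*u^3*v^12 + (-282825)*z^31*u^5*v^10 + (-5400)*z^31*u^6*v^9 + (-10800)*z^31*u^7*v^8 + 81000*z^31*u^8*v^7 + 900*z^32*v^15 + 8550*z^32*u*v^14 + (-5400)*z^32*u^2*v^13 + (-11250)*z^32*u^3*v^12 + 27000*z^32*u^4*v^11 + (-450)*z^32*u^5*v^10 + 399600*z^32*u^6*v^9 + (-10800)*z^32*u^7*v^8 + (-81000)*z^32*u^8*v^7 + (-1350)*z^33*v^15 + (-13950)*z^33*u*v^14 + (-5400)*z^33*u^2*v^13 + (-27000)*z^33*u^3*v^12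 + 94500*z^33*u^4*v^11 + (-450)*z^33*u^5*v^10 + (-383400)*z^33*u^6*v^9 + (-10800)*z^33*u^7*v^8 + 900*z^34*v^15 + 10800*z^34*u*v^14 + 24750*z^34*u^2*v^13 + (-175500)*z^34*u^4*v^11 + (-450)*z^34*u^5*v^10 + (-5400)*z^34*u^6*v^9 + 283500*z^34*u^7*v^8 + (-225)*z^35*v^15 + (-13950)*z^35*u*v^14 + (-22500)*z^35*u^2*v^13 + 2250*z^35*u^3*v^12 + 338175*z^35*u^5*v^10 + (-5400)*z^35*u^6*v^9 + (-283500)*z^35*u^7*v^8 + (-225)*z^36*v^15 + 8550*z^36*u*v^14 + (-2250)*z^36*u^2*v^13 + 90000*z^36*u^3*v^12 + (-336825)*z^36*u^5*v^10 + (-5400)*z^36*u^6*v^9 + 900*z^37*v^15 + 11250*z^37*u*v^14 + (-119250)*z^37*u^3*v^12 + (-450)*z^37*u^5*v^10 + 391500*z^37*u^6*v^9 + (-1350)*z^38*v^15 + (-11250)*z^38*u*v^14 + 202500*z^38*u^4*v^11 + (-450)*z^38*u^5*v^10 + (-391500)*z^38*u^6*v^9 + 900*z^39*v^15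 + 51750*z^39*u^2*v^13 + (-202500)*z^39*u^4*v^11 + (-450)*z^39*u^5*v^10 + (-54000)*z^40*u^2*v^13 + 337500*z^40*u^5*v^10 + 121500*z^41*u^3*v^12 + (-337500)*z^41*u^5*v^10 + 13500*z^42*u*v^14 + (-121500)*z^42*u^3*v^12 + (-13500)*z^43*u*v^14 + 202500*z^43*u^4*v^11 + 54000*z^44*u^2*v^13 + (-202500)*z^44*u^4*v^11 + (-54000)*z^45*u^2*v^13 + 121500*z^46*u^3*v^12 + 13500*z^47*u*v^14 + (-121500)*z^47*u^3*v^12 + (-13500)*z^48*u*v^14 + 54000*z^49*u^2*v^13 + (-54000)*z^50*u^2*v^13 + 13500*z^52*u*v^14 + (-13500)*z^53*u*v^14) * hz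

theorem ksAdd_ne (z u v : R) (hz : 1 + z + z ^ 2 + z ^ 3 + z ^ 4 = 0) :
    (ksXiQ (z * u) (z ^ 4 * v) - ksXiP z u v) * (2*u^2*v^12 + (-5)*u^4*v^10 + (-10)*u^5*v^9 + (-7)*u^7*v^7 + (-10)*u^9*v^5 + 5*u^10*v^4 + 3*u^12*v^2 + (-5)*z*u^3*v^11 + (-15)*z*u^4*v^10 + (-15)*z*u^5*v^9 + (-10)*z*u^8*v^6 + (-5)*z*u^9*v^5 + (-5)*z*u^10*v^4 + (-1)*z^2*u^2*v^12 + (-10)*z^2*u^3*v^11 + (-15)*z^2*u^4*v^10 + (-10)*z^2*u^5*v^9 + (-14)*z^2*u^7*v^7 + 5*z^2*u^8*v^6 + (-5)*z^2*u^9*v^5 + 5*z^2*u^10*v^4 + z^2*u^12*v^2 + (-1)*z^3*u^2*v^12 + (-5)*z^3*u^3*v^11 + (-5)*z^3*u^4*v^10 + (-14)*z^3*u^7*v^7 + (-10)*z^3*u^8*v^6 + (-10)*z^3*u^9*v^5 + z^3*u^12*v^2) = 900 * kF u v ^ 2 := by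
  simp only [ksXiQ, ksXiP, ksXiPxy, kF]
  linear_combination (30*u^2*v^22 + (-2325)*u^4*v^20 + (-4650)*u^5*v^19 + 14565*u^7*v^17 + 300*u^9*v^15 + 12225*u^10*v^14 + (-98205)*u^12*v^12 + 8475*u^14*v^10 + (-7800)*u^15*v^9 + (-24765)*u^17*v^7 + (-2850)*u^19*v^5 + 1425*u^20*v^4 + (-45)*u^22*v^2 + (-30)*z*u^2*v^22 + (-2325)*z*u^3*v^21 + (-4650)*z*u^4*v^20 + (-2325)*z*u^5*v^19 + (-14565)*z*u^7*v^17 + 300*z*u^8*v^16 + 12225*z*u^9*v^15 + 300*z*u^10*v^14 + 98205*z*u^12*v^12 + 8475*z*u^13*v^11 + (-7800)*z*u^14*v^10 + 8475*z*u^15*v^9 + 24765*z*u^17*v^7 + (-2850)*z*u^18*v^6 + 1425*z*u^19*v^5 + (-2850)*z*u^20*v^4 + 45*z*u^22*v^2 + (-105)*z^2*u^2*v^22 + (-2325)*z^2*u^3*v^21 + (-900)*z^2*u^4*v^20 + 525*z^2*u^5*v^19 + (-10740)*z^2*u^7*v^17 + 11925*z^2*u^8*v^16 + 8100*z^2*u^9*v^15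 + 20400*z^2*u^10*v^14 + 28080*z^2*u^12*v^12 + (-16275)*z^2*u^13*v^11 + 20700*z^2*u^14*v^10 + (-16575)*z^2*u^15*v^9 + (-9660)*z^2*u^17*v^7 + 4275*z^2*u^18*v^6 + 1800*z^2*u^19*v^5 + 1950*z^2*u^20*v^4 + (-255)*z^2*u^22*v^2 + 1425*z^3*u^3*v^21 + 1950*z^3*u^4*v^20 + 1950*z^3*u^5*v^19 + (-3825)*z^3*u^8*v^16 + 16575*z^3*u^9*v^15 + 16575*z^3*u^10*v^14 + 36975*z^3*u^13*v^11 + 20400*z^3*u^14*v^10 + 20400*z^3*u^15*v^9 + (-2475)*z^3*u^18*v^6 + (-525)*z^3*u^19*v^5 + (-525)*z^3*u^20*v^4 + (-75)*z^4*u^2*v^22 + 525*z^4*u^3*v^21 + 525*z^4*u^4*v^20 + 10200*z^4*u^7*v^17 + 20400*z^4*u^8*v^16 + 20400*z^4*u^9*v^15 + (-16575)*z^4*u^13*v^11 + (-16575)*z^4*u^14*v^10 + 10200*z^4*u^17*v^7 + 1950*z^4*u^18*v^6 + 1950*z^4*u^19*v^5 + 75*z^4*u^22*v^2 + (-150)*z^5*u^2*v^22 + (-525)*z^5*u^4*v^20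 + (-1950)*z^5*u^5*v^19 + 14025*z^5*u^7*v^17 + (-20400)*z^5*u^9*v^15 + (-16575)*z^5*u^10*v^14 + (-70125)*z^5*u^12*v^12 + 16575*z^5*u^14*v^10 + (-20400)*z^5*u^15*v^9 + (-24225)*z^5*u^17*v^7 + (-1950)*z^5*u^19*v^5 + 525*z^5*u^20*v^4 + (-225)*z^5*u^22*v^2 + 150*z^6*u^2*v^22 + (-525)*z^6*u^3*v^21 + (-1950)*z^6*u^4*v^20 + (-525)*z^6*u^5*v^19 + (-14025)*z^6*u^7*v^17 + (-20400)*z^6*u^8*v^16 + (-16575)*z^6*u^9*v^15 + (-20400)*z^6*u^10*v^14 + 70125*z^6*u^12*v^12 + 16575*z^6*u^13*v^11 + (-20400)*z^6*u^14*v^10 + 16575*z^6*u^15*v^9 + 24225*z^6*u^17*v^7 + (-1950)*z^6*u^18*v^6 + 525*z^6*u^19*v^5 + (-1950)*z^6*u^20*v^4 + 225*z^6*u^22*v^2 + 75*z^7*u^2*v^22 + (-1425)*z^7*u^3*v^21 + 525*z^7*u^5*v^19 + (-10200)*z^7*u^7*v^17 + 3825*z^7*u^8*v^16 + 20400*z^7*u^10*v^14 + (-36975)*z^7*u^13*v^11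 + (-16575)*z^7*u^15*v^9 + (-10200)*z^7*u^17*v^7 + 2475*z^7*u^18*v^6 + 1950*z^7*u^20*v^4 + (-75)*z^7*u^22*v^2 + 1425*z^8*u^3*v^21 + 1950*z^8*u^4*v^20 + 1950*z^8*u^5*v^19 + (-3825)*z^8*u^8*v^16 + 16575*z^8*u^9*v^15 + 16575*z^8*u^10*v^14 + 36975*z^8*u^13*v^11 + 20400*z^8*u^14*v^10 + 20400*z^8*u^15*v^9 + (-2475)*z^8*u^18*v^6 + (-525)*z^8*u^19*v^5 + (-525)*z^8*u^20*v^4 + (-75)*z^9*u^2*v^22 + 525*z^9*u^3*v^21 + 525*z^9*u^4*v^20 + 10200*z^9*u^7*v^17 + 20400*z^9*u^8*v^16 + 20400*z^9*u^9*v^15 + (-16575)*z^9*u^13*v^11 + (-16575)*z^9*u^14*v^10 + 10200*z^9*u^17*v^7 + 1950*z^9*u^18*v^6 + 1950*z^9*u^19*v^5 + 75*z^9*u^22*v^2 + (-150)*z^10*u^2*v^22 + (-525)*z^10*u^4*v^20 + (-1950)*z^10*u^5*v^19 + 14025*z^10*u^7*v^17 + (-20400)*z^10*u^9*v^15 + (-16575)*z^10*u^10*v^14 + (-69975)*z^10*u^12*v^12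 + 16200*z^10*u^14*v^10 + (-21150)*z^10*u^15*v^9 + (-24750)*z^10*u^17*v^7 + (-2700)*z^10*u^19*v^5 + 900*z^10*u^20*v^4 + 150*z^11*u^2*v^22 + (-525)*z^11*u^3*v^21 + (-1950)*z^11*u^4*v^20 + (-525)*z^11*u^5*v^19 + (-14025)*z^11*u^7*v^17 + (-20400)*z^11*u^8*v^16 + (-16575)*z^11*u^9*v^15 + (-20400)*z^11*u^10*v^14 + 69975*z^11*u^12*v^12 + 16200*z^11*u^13*v^11 + (-21150)*z^11*u^14*v^10 + 16200*z^11*u^15*v^9 + 24750*z^11*u^17*v^7 + (-2700)*z^11*u^18*v^6 + 900*z^11*u^19*v^5 + (-2700)*z^11*u^20*v^4 + 75*z^12*u^2*v^22 + (-1425)*z^12*u^3*v^21 + 525*z^12*u^5*v^19 + (-10200)*z^12*u^7*v^17 + 3825*z^12*u^8*v^16 + 20400*z^12*u^10*v^14 + (-75)*z^12*u^12*v^12 + (-37350)*z^12*u^13*v^11 + (-16200)*z^12*u^15*v^9 + (-11250)*z^12*u^17*v^7 + 3600*z^12*u^18*v^6 + 2700*z^12*u^20*v^4 + 1425*z^13*u^3*v^21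 + 1950*z^13*u^4*v^20 + 1950*z^13*u^5*v^19 + (-3825)*z^13*u^8*v^16 + 16575*z^13*u^9*v^15 + 16575*z^13*u^10*v^14 + 37350*z^13*u^13*v^11 + 21150*z^13*u^14*v^10 + 21150*z^13*u^15*v^9 + (-3600)*z^13*u^18*v^6 + (-900)*z^13*u^19*v^5 + (-900)*z^13*u^20*v^4 + (-75)*z^14*u^2*v^22 + 525*z^14*u^3*v^21 + 525*z^14*u^4*v^20 + 10200*z^14*u^7*v^17 + 20400*z^14*u^8*v^16 + 20400*z^14*u^9*v^15 + 75*z^14*u^12*v^12 + (-16200)*z^14*u^13*v^11 + (-16200)*z^14*u^14*v^10 + 11250*z^14*u^17*v^7 + 2700*z^14*u^18*v^6 + 2700*z^14*u^19*v^5 + (-150)*z^15*u^2*v^22 + (-525)*z^15*u^4*v^20 + (-1950)*z^15*u^5*v^19 + 14025*z^15*u^7*v^17 + (-20400)*z^15*u^9*v^15 + (-16575)*z^15*u^10*v^14 + (-69975)*z^15*u^12*v^12 + 16200*z^15*u^14*v^10 + (-21150)*z^15*u^15*v^9 + (-24750)*z^15*u^17*v^7 + (-2700)*z^15*u^19*v^5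 + 900*z^15*u^20*v^4 + 150*z^16*u^2*v^22 + (-525)*z^16*u^3*v^21 + (-1950)*z^16*u^4*v^20 + (-525)*z^16*u^5*v^19 + (-14025)*z^16*u^7*v^17 + (-20400)*z^16*u^8*v^16 + (-16575)*z^16*u^9*v^15 + (-18600)*z^16*u^10*v^14 + 65475*z^16*u^12*v^12 + 7200*z^16*u^13*v^11 + (-21150)*z^16*u^14*v^10 + 9900*z^16*u^15*v^9 + 15750*z^16*u^17*v^7 + 1800*z^16*u^18*v^6 + 900*z^16*u^19*v^5 + 75*z^17*u^2*v^22 + (-1425)*z^17*u^3*v^21 + 525*z^17*u^5*v^19 + (-10200)*z^17*u^7*v^17 + 3825*z^17*u^8*v^16 + 18600*z^17*u^10*v^14 + (-4500)*z^17*u^11*v^13 + (-9075)*z^17*u^12*v^12 + (-41850)*z^17*u^13*v^11 + (-9900)*z^17*u^15*v^9 + (-9000)*z^17*u^16*v^8 + (-6750)*z^17*u^17*v^7 + (-5400)*z^17*u^18*v^6 + 1425*z^18*u^3*v^21 + 1950*z^18*u^4*v^20 + 1950*z^18*u^5*v^19 + (-3825)*z^18*u^8*v^16 + 16575*z^18*u^9*v^15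 + 15675*z^18*u^10*v^14 + (-4500)*z^18*u^11*v^13 + 41850*z^18*u^13*v^11 + 21150*z^18*u^14*v^10 + 8550*z^18*u^15*v^9 + 13500*z^18*u^16*v^8 + 5400*z^18*u^18*v^6 + (-900)*z^18*u^19*v^5 + (-75)*z^19*u^2*v^22 + 525*z^19*u^3*v^21 + 525*z^19*u^4*v^20 + 10200*z^19*u^7*v^17 + 20400*z^19*u^8*v^16 + 18600*z^19*u^9*v^15 + 9000*z^19*u^11*v^13 + 18075*z^19*u^12*v^12 + (-7200)*z^19*u^13*v^11 + (-9900)*z^19*u^14*v^10 + (-4500)*z^19*u^16*v^8 + 2250*z^19*u^17*v^7 + (-1800)*z^19*u^18*v^6 + (-150)*z^20*u^2*v^22 + (-525)*z^20*u^4*v^20 + (-1950)*z^20*u^5*v^19 + 14025*z^20*u^7*v^17 + (-18600)*z^20*u^9*v^15 + (-11175)*z^20*u^10*v^14 + 13500*z^20*u^11*v^13 + (-60975)*z^20*u^12*v^12 + 9900*z^20*u^14*v^10 + 450*z^20*u^15*v^9 + 4500*z^20*u^16*v^8 + (-6750)*z^20*u^17*v^7 + 150*z^21*u^2*v^22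 + (-525)*z^21*u^3*v^21 + (-1950)*z^21*u^4*v^20 + (-525)*z^21*u^5*v^19 + (-14025)*z^21*u^7*v^17 + (-20400)*z^21*u^8*v^16 + (-15675)*z^21*u^9*v^15 + (-14100)*z^21*u^10*v^14 + 60975*z^21*u^12*v^12 + 7200*z^21*u^13*v^11 + (-8550)*z^21*u^14*v^10 + (-3600)*z^21*u^15*v^9 + 6750*z^21*u^17*v^7 + 1800*z^21*u^18*v^6 + 75*z^22*u^2*v^22 + (-1425)*z^22*u^3*v^21 + 525*z^22*u^5*v^19 + (-10200)*z^22*u^7*v^17 + 7425*z^22*u^8*v^16 + 5100*z^22*u^10*v^14 + (-31500)*z^22*u^11*v^13 + (-18075)*z^22*u^12*v^12 + (-54450)*z^22*u^13*v^11 + (-14400)*z^22*u^15*v^9 + 4500*z^22*u^16*v^8 + (-2250)*z^22*u^17*v^7 + 1425*z^23*u^3*v^21 + 1950*z^23*u^4*v^20 + 1950*z^23*u^5*v^19 + (-7425)*z^23*u^8*v^16 + 6675*z^23*u^9*v^15 + (-6825)*z^23*u^10*v^14 + (-18000)*z^23*u^11*v^13 + 54450*z^23*u^13*v^11 + (-9450)*z^23*u^14*v^10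 + 8550*z^23*u^15*v^9 + (-13500)*z^23*u^16*v^8 + (-75)*z^24*u^2*v^22 + 525*z^24*u^3*v^21 + 525*z^24*u^4*v^20 + 10200*z^24*u^7*v^17 + 18600*z^24*u^8*v^16 + 9600*z^24*u^9*v^15 + 18000*z^24*u^11*v^13 + 18075*z^24*u^12*v^12 + (-32400)*z^24*u^13*v^11 + 17100*z^24*u^14*v^10 + 13500*z^24*u^16*v^8 + 2250*z^24*u^17*v^7 + (-150)*z^25*u^2*v^22 + (-525)*z^25*u^4*v^20 + (-1950)*z^25*u^5*v^19 + 18525*z^25*u^7*v^17 + (-20850)*z^25*u^9*v^15 + (-15675)*z^25*u^10*v^14 + 31500*z^25*u^11*v^13 + (-76725)*z^25*u^12*v^12 + (-39600)*z^25*u^14*v^10 + 2700*z^25*u^15*v^9 + (-4500)*z^25*u^16*v^8 + 150*z^26*u^2*v^22 + (-525)*z^26*u^3*v^21 + (-1950)*z^26*u^4*v^20 + (-525)*z^26*u^5*v^19 + (-18525)*z^26*u^7*v^17 + (-29850)*z^26*u^8*v^16 + (-29175)*z^26*u^9*v^15 + (-16350)*z^26*u^10*v^14 + 76725*z^26*u^12*v^12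 + 9900*z^26*u^13*v^11 + 20700*z^26*u^14*v^10 + (-8100)*z^26*u^15*v^9 + 75*z^27*u^2*v^22 + (-1425)*z^27*u^3*v^21 + 525*z^27*u^5*v^19 + (-12450)*z^27*u^7*v^17 + (-3825)*z^27*u^8*v^16 + 16350*z^27*u^10*v^14 + (-31500)*z^27*u^11*v^13 + (-49575)*z^27*u^12*v^12 + (-20700)*z^27*u^13*v^11 + 8100*z^27*u^15*v^9 + 4500*z^27*u^16*v^8 + 1425*z^28*u^3*v^21 + 1950*z^28*u^4*v^20 + 1950*z^28*u^5*v^19 + 9000*z^28*u^6*v^18 + (-18675)*z^28*u^8*v^16 + (-15825)*z^28*u^9*v^15 + 15675*z^28*u^10*v^14 + (-49500)*z^28*u^11*v^13 + (-24300)*z^28*u^13*v^11 + 1800*z^28*u^14*v^10 + (-2700)*z^28*u^15*v^9 + (-75)*z^29*u^2*v^22 + 525*z^29*u^3*v^21 + 525*z^29*u^4*v^20 + (-9000)*z^29*u^6*v^18 + (-10050)*z^29*u^7*v^17 + (-15150)*z^29*u^8*v^16 + (-1650)*z^29*u^9*v^15 + 49500*z^29*u^11*v^13 + 4575*z^29*u^12*v^12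 + 12600*z^29*u^13*v^11 + (-5400)*z^29*u^14*v^10 + (-150)*z^30*u^2*v^22 + (-525)*z^30*u^4*v^20 + (-1950)*z^30*u^5*v^19 + (-4500)*z^30*u^6*v^18 + (-3975)*z^30*u^7*v^17 + 1650*z^30*u^9*v^15 + (-15675)*z^30*u^10*v^14 + (-31500)*z^30*u^11*v^13 + (-9225)*z^30*u^12*v^12 + 5400*z^30*u^14*v^10 + 2700*z^30*u^15*v^9 + 150*z^31*u^2*v^22 + (-525)*z^31*u^3*v^21 + (-1950)*z^31*u^4*v^20 + 4875*z^31*u^5*v^19 + (-9525)*z^31*u^7*v^17 + (-11850)*z^31*u^8*v^16 + 15825*z^31*u^9*v^15 + (-35250)*z^31*u^10*v^14 + (-17775)*z^31*u^12*v^12 + 900*z^31*u^13*v^11 + (-1800)*z^31*u^14*v^10 + 75*z^32*u^2*v^22 + (-1425)*z^32*u^3*v^21 + (-4875)*z^32*u^5*v^19 + (-9000)*z^32*u^6*v^18 + (-16950)*z^32*u^7*v^17 + 5175*z^32*u^8*v^16 + 35250*z^32*u^10*v^14 + 4500*z^32*u^11*v^13 + 8925*z^32*u^12*v^12 + (-2700)*z^32*u^13*v^11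 + 1425*z^33*u^3*v^21 + 1950*z^33*u^4*v^20 + (-750)*z^33*u^5*v^19 + (-4500)*z^33*u^6*v^18 + (-5175)*z^33*u^8*v^16 + (-15825)*z^33*u^9*v^15 + (-22125)*z^33*u^10*v^14 + (-9000)*z^33*u^11*v^13 + 2700*z^33*u^13*v^11 + 1800*z^33*u^14*v^10 + (-75)*z^34*u^2*v^22 + 525*z^34*u^3*v^21 + 4125*z^34*u^4*v^20 + (-4500)*z^34*u^6*v^18 + (-1050)*z^34*u^7*v^17 + 11850*z^34*u^8*v^16 + (-14250)*z^34*u^9*v^15 + (-9000)*z^34*u^11*v^13 + 75*z^34*u^12*v^12 + (-900)*z^34*u^13*v^11 + (-150)*z^35*u^2*v^22 + (-4125)*z^35*u^4*v^20 + (-8250)*z^35*u^5*v^19 + (-9000)*z^35*u^6*v^18 + 525*z^35*u^7*v^17 + 14250*z^35*u^9*v^15 + 4125*z^35*u^10*v^14 + 4500*z^35*u^11*v^13 + (-225)*z^35*u^12*v^12 + 150*z^36*u^2*v^22 + (-525)*z^36*u^3*v^21 + (-3750)*z^36*u^4*v^20 + (-4125)*z^36*u^5*v^19 + (-525)*z^36*u^7*v^17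 + (-11850)*z^36*u^8*v^16 + (-9375)*z^36*u^9*v^15 + (-8250)*z^36*u^10*v^14 + 225*z^36*u^12*v^12 + 900*z^36*u^13*v^11 + 75*z^37*u^2*v^22 + 375*z^37*u^3*v^21 + (-375)*z^37*u^5*v^19 + 1050*z^37*u^7*v^17 + (-1125)*z^37*u^8*v^16 + (-750)*z^37*u^10*v^14 + (-75)*z^37*u^12*v^12 + (-375)*z^38*u^3*v^21 + (-750)*z^38*u^4*v^20 + (-750)*z^38*u^5*v^19 + 1125*z^38*u^8*v^16 + 375*z^38*u^9*v^15 + 375*z^38*u^10*v^14 + (-75)*z^39*u^2*v^22 + (-375)*z^39*u^3*v^21 + (-375)*z^39*u^4*v^20 + (-1050)*z^39*u^7*v^17 + (-750)*z^39*u^8*v^16 + (-750)*z^39*u^9*v^15 + 75*z^39*u^12*v^12) * hz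

theorem ks_z5 (z : R) (hz : 1 + z + z ^ 2 + z ^ 3 + z ^ 4 = 0) : z ^ 5 = 1 := by
  linear_combination (z - 1) * hz

theorem ksT0_pow_u (z u : R) (hz : 1 + z + z ^ 2 + z ^ 3 + z ^ 4 = 0) : (z * u) ^ 5 = u ^ 5 := by
  rw [mul_pow, ks_z5 z hz, one_mul]

theorem ksT0_pow_v (z v : R) (hz : 1 + z + z ^ 2 + z ^ 3 + z ^ 4 = 0) :
    (z ^ 4 * v) ^ 5 = v ^ 5 := by
  have h5 := ks_z5 z hz
  have : (z ^ 4) ^ 5 = 1 := by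
    calc (z ^ 4) ^ 5 = (z ^ 5) ^ 4 := by ring
      _ = 1 := by rw [h5, one_pow]
  rw [mul_pow, this, one_mul]

theorem ksT0_kH (z u v : R) (hz : 1 + z + z ^ 2 + z ^ 3 + z ^ 4 = 0) :
    kH (z * u) (z ^ 4 * v) = kH u v := by
  rw [ksHxy_eq, ksHxy_eq u v, ksT0_pow_u z u hz, ksT0_pow_v z v hz]

theorem ksT0_kT (z u v : R) (hz : 1 + z + z ^ 2 + z ^ 3 + z ^ 4 = 0) :
    kT (z * u) (z ^ 4 * v) = kT u v := by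
  rw [ksTxy_eq, ksTxy_eq u v, ksT0_pow_u z u hz, ksT0_pow_v z v hz]

theorem ksT0_kF (z u v : R) (hz : 1 + z + z ^ 2 + z ^ 3 + z ^ 4 = 0) :
    kF (z * u) (z ^ 4 * v) = kF u v := by
  have h5 := ks_z5 z hz
  have e1 : (z * u) ^ 5 = u ^ 5 := ksT0_pow_u z u hz
  have e2 : (z ^ 4 * v) ^ 5 = v ^ 5 := ksT0_pow_v z v hz
  have e3 : (z * u) ^ 10 = u ^ 10 := by
    calc (z * u) ^ 10 = ((z * u) ^ 5) ^ 2 := by ring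
      _ = u ^ 10 := by rw [e1]; ring
  have e4 : (z ^ 4 * v) ^ 10 = v ^ 10 := by
    calc (z ^ 4 * v) ^ 10 = ((z ^ 4 * v) ^ 5) ^ 2 := by ring
      _ = v ^ 10 := by rw [e2]; ring
  have e5 : (z * u) * (z ^ 4 * v) = u * v := by
    calc (z * u) * (z ^ 4 * v) = z ^ 5 * (u * v) := by ring
      _ = u * v := by rw [h5, one_mul]
  unfold kF
  rw [e5, e1, e2, e3, e4]

theorem ksT0_XiP (z u v : R) (hz : 1 + z + z ^ 2 + z ^ 3 + z ^ 4 = 0) :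
    ksXiP z (z * u) (z ^ 4 * v) = ksXiP z u v := by
  unfold ksXiP
  rw [ksT0_pow_u z u hz, ksT0_pow_v z v hz]

theorem ksT0_EtaP (z u v : R) (hz : 1 + z + z ^ 2 + z ^ 3 + z ^ 4 = 0) :
    ksEtaP z (z * u) (z ^ 4 * v) = ksEtaP z u v := by
  unfold ksEtaP
  rw [ksT0_pow_u z u hz, ksT0_pow_v z v hz]

theorem ksT0_XiP2 (z u v : R) (hz : 1 + z + z ^ 2 + z ^ 3 + z ^ 4 = 0) :
    ksXiP2 z (z * u) (z ^ 4 * v) = ksXiP2 z u v := by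
  unfold ksXiP2
  rw [ksT0_pow_u z u hz, ksT0_pow_v z v hz]

theorem ksT0_EtaP2 (z u v : R) (hz : 1 + z + z ^ 2 + z ^ 3 + z ^ 4 = 0) :
    ksEtaP2 z (z * u) (z ^ 4 * v) = ksEtaP2 z u v := by
  unfold ksEtaP2
  rw [ksT0_pow_u z u hz, ksT0_pow_v z v hz]

/-- `det [v | w(v)] = -12 kF`. -/
theorem ks_det_w (u v : R) : u * ksWv u v - v * ksWu u v = -12 * kF u v := by
  unfold ksWu ksWv kF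
  ring

end ksAlg

end Fermat.Agent.S52
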