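import Fermat.Agent.S52.Defs

/-!
# P17 (S52), block X: the covariant `w = (∂kF/∂v, -∂kF/∂u)` and the line `v₀ + t w(v₀)`

Shared definitions for the top part of block X: `kWu`, `kWv`, homogeneity and ring-hom
compatibility of the Klein forms, and the line polynomials `xUp`, `xVp`.
-/

set_option autoImplicit false
set_option linter.unusedSimpArgs false

namespace Fermat.Agent.S52

open Polynomial

section Generic

variable {R : Type*} [CommRing R]

/-- First component of the covariant: `∂kF/∂v`. -/
def kWu (u v : R) : R := u * (u ^ 10 + 66 * u ^ 5 * v ^ 5 - 11 * v ^ 10)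

/-- Second component of the covariant: `-∂kF/∂u`. -/
def kWv (u v : R) : R := -(v * (11 * u ^ 10 + 66 * u ^ 5 * v ^ 5 - v ^ 10))

theorem kW_det (u v : R) : u * kWv u v - v * kWu u v = -12 * kF u v := by
  unfold kWu kWv kF; ring

theorem kF_smul (c u v : R) : kF (c * u) (c * v) = c ^ 12 * kF u v := by
  unfold kF; ring

theorem kH_smul (c u v : R) : kH (c * u) (c * v) = c ^ 20 * kH u v := by
  unfold kH; ring

theorem kT_smul (c u v : R) : kT (c * u) (c * v) = c ^ 30 * kT u v := by
  unfold kT; ring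

theorem kWu_smul (c u v : R) : kWu (c * u) (c * v) = c ^ 11 * kWu u v := by
  unfold kWu; ring

theorem kWv_smul (c u v : R) : kWv (c * u) (c * v) = c ^ 11 * kWv u v := by
  unfold kWv; ring

variable {S : Type*} [CommRing S]

theorem kF_map (f : R →+* S) (u v : R) : f (kF u v) = kF (f u) (f v) := by
  simp only [kF, map_mul, map_add, map_sub, map_neg, map_pow, map_ofNat]

theorem kH_map (f : R →+* S) (u v : R) : f (kH u v) = kH (f u) (f v) := by
  simp only [kH, map_mul, map_add, map_sub, map_neg, map_pow, map_ofNat]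

theorem kT_map (f : R →+* S) (u v : R) : f (kT u v) = kT (f u) (f v) := by
  simp only [kT, map_mul, map_add, map_sub, map_neg, map_pow, map_ofNat]

theorem kWu_map (f : R →+* S) (u v : R) : f (kWu u v) = kWu (f u) (f v) := by
  simp only [kWu, map_mul, map_add, map_sub, map_neg, map_pow, map_ofNat]

theorem kWv_map (f : R →+* S) (u v : R) : f (kWv u v) = kWv (f u) (f v) := by
  simp only [kWv, map_mul, map_add, map_sub, map_neg, map_pow, map_ofNat]

/-- The first coordinate of the line `v₀ + t w(v₀)`, as a polynomial in `t`. -/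
noncomputable def xUp (u₀ v₀ : R) : R[X] := C u₀ + X * C (kWu u₀ v₀)

/-- The second coordinate of the line `v₀ + t w(v₀)`, as a polynomial in `t`. -/
noncomputable def xVp (u₀ v₀ : R) : R[X] := C v₀ + X * C (kWv u₀ v₀)

@[simp]
theorem xUp_eval (u₀ v₀ t : R) : (xUp u₀ v₀).eval t = u₀ + t * kWu u₀ v₀ := by
  simp only [xUp, eval_add, eval_mul, eval_C, eval_X]

@[simp]
theorem xVp_eval (u₀ v₀ t : R) : (xVp u₀ v₀).eval t = v₀ + t * kWv u₀ v₀ := by
  simp only [xVp, eval_add, eval_mul, eval_C, eval_X]

/-- The points of the line are never the origin when `kF u₀ v₀` is not a zero divisor. -/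
theorem xline_ne_zero {K : Type*} [Field K] [CharZero K] (u₀ v₀ t : K) (hF : kF u₀ v₀ ≠ 0) :
    ¬ (u₀ + t * kWu u₀ v₀ = 0 ∧ v₀ + t * kWv u₀ v₀ = 0) := by
  rintro ⟨h1, h2⟩
  have h3 : (-12 : K) * kF u₀ v₀ = 0 := by
    rw [← kW_det]
    linear_combination kWv u₀ v₀ * h1 - kWu u₀ v₀ * h2
  rcases mul_eq_zero.mp h3 with h | h
  · norm_num at h
  · exact hF h

end Generic

end Fermat.Agent.S52
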