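import Fermat.Agent.S52.XDefs
import Fermat.Agent.S52.XSecAlg
import Fermat.Agent.S52.XW
import Fermat.Agent.S52.XRigid
import Fermat.Agent.S52.XConeAlg

/-!
# P17 (S52), block X: the `cone` field of the Klein family, from the sections package

`KsSections ζ u v E` is the statement of the sections package (`ks_sections` of `XTheta`) for a
given base point.  From it we prove:

* `kscone_galois`: a Galois automorphism fixing the `5`-torsion of the base curve and the fifth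
  roots of unity multiplies the base point `(u₀, v₀)` by a fifth root of unity;
* `ks_cone_core`: the `cone` field of `KleinFamily`.
-/

set_option autoImplicit false
set_option linter.unusedSectionVars false

namespace Fermat.Agent.S52

open WeierstrassCurve WeierstrassCurve.Affine Polynomial

local notation "Qbar" => AlgebraicClosure ℚ

section Generic

variable {R S : Type*} [CommRing R] [CommRing S]

theorem kscone_map_XiP (f : R →+* S) (z u v : R) :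
    f (ksXiP z u v) = ksXiP (f z) (f u) (f v) := by
  simp only [ksXiP, ksXiPxy, map_mul, map_add, map_neg, map_pow, map_ofNat]

theorem kscone_map_EtaP (f : R →+* S) (z u v : R) :
    f (ksEtaP z u v) = ksEtaP (f z) (f u) (f v) := by
  simp only [ksEtaP, ksEtaPxy, map_mul, map_add, map_neg, map_pow, map_ofNat]

theorem kscone_map_XiP2 (f : R →+* S) (z u v : R) :
    f (ksXiP2 z u v) = ksXiP2 (f z) (f u) (f v) := by
  simp only [ksXiP2, ksXiP2xy, map_mul, map_add, map_neg, map_pow, map_ofNat]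

theorem kscone_map_EtaP2 (f : R →+* S) (z u v : R) :
    f (ksEtaP2 z u v) = ksEtaP2 (f z) (f u) (f v) := by
  simp only [ksEtaP2, ksEtaP2xy, map_mul, map_add, map_neg, map_pow, map_ofNat]

theorem kscone_map_XiQ (f : R →+* S) (u v : R) : f (ksXiQ u v) = ksXiQ (f u) (f v) := by
  simp only [ksXiQ, map_mul, map_add, map_neg, map_pow, map_ofNat]

theorem kscone_map_EtaQ (f : R →+* S) (u v : R) : f (ksEtaQ u v) = ksEtaQ (f u) (f v) := by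
  simp only [ksEtaQ, map_mul, map_add, map_neg, map_pow, map_ofNat]

theorem kscone_map_Wu (f : R →+* S) (u v : R) : f (ksWu u v) = ksWu (f u) (f v) := by
  simp only [ksWu, map_mul, map_add, map_sub, map_pow, map_ofNat]

theorem kscone_map_Wv (f : R →+* S) (u v : R) : f (ksWv u v) = ksWv (f u) (f v) := by
  simp only [ksWv, map_mul, map_add, map_sub, map_neg, map_pow, map_ofNat]

theorem kscone_XiQ_smul (c u v : R) : ksXiQ (c * u) (c * v) = c ^ 10 * ksXiQ u v := by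
  unfold ksXiQ
  ring

theorem kscone_EtaQ_smul (c u v : R) : ksEtaQ (c * u) (c * v) = c ^ 15 * ksEtaQ u v := by
  unfold ksEtaQ
  ring

theorem kscone_Wu_smul (c u v : R) : ksWu (c * u) (c * v) = c ^ 11 * ksWu u v := by
  unfold ksWu
  ring

theorem kscone_Wv_smul (c u v : R) : ksWv (c * u) (c * v) = c ^ 11 * ksWv u v := by
  unfold ksWv
  ring

theorem kscone_kH_cone (l u : R) : kH (l * u) l = l ^ 20 * kH u 1 := by
  unfold kH
  ring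

theorem kscone_kT_cone (l u : R) : kT (l * u) l = l ^ 30 * kT u 1 := by
  unfold kT
  ring

end Generic

section Field

variable {K : Type*} [Field K] [CharZero K]

/-- (U1) via the tangent slopes at `P` and `2P`: the curve together with the points `P`, `2P`
determines `X = u⁵` and `Y = v⁵`. -/
theorem kscone_U1 (ζ X Y X' Y' : K) (hζ : 1 + ζ + ζ ^ 2 + ζ ^ 3 + ζ ^ 4 = 0)
    (hξ : ksXiPxy ζ X' Y' = ksXiPxy ζ X Y) (hη : ksEtaPxy ζ X' Y' = ksEtaPxy ζ X Y)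
    (hξ2 : ksXiP2xy ζ X' Y' = ksXiP2xy ζ X Y) (hη2 : ksEtaP2xy ζ X' Y' = ksEtaP2xy ζ X Y)
    (hH : ksHxy X' Y' = ksHxy X Y) (h0 : ksEtaPxy ζ X Y ≠ 0) (h02 : ksEtaP2xy ζ X Y ≠ 0) :
    X' = X ∧ Y' = Y := by
  have hL : ksLxy ζ X' Y' = ksLxy ζ X Y := by
    have h1 := ksP_slope ζ X' Y' hζ
    have h2 := ksP_slope ζ X Y hζ
    rw [hξ, hη, hH, ← h2] at h1
    exact mul_right_cancel₀ (mul_ne_zero two_ne_zero h0) h1
  have hL2 : ksL2xy ζ X' Y' = ksL2xy ζ X Y := by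
    have h1 := ksP2_slope ζ X' Y' hζ
    have h2 := ksP2_slope ζ X Y hζ
    rw [hξ2, hη2, hH, ← h2] at h1
    exact mul_right_cancel₀ (mul_ne_zero two_ne_zero h02) h1
  have hX := ksP_slopes_X ζ X' Y' hζ
  rw [hL, hL2, ← ksP_slopes_X ζ X Y hζ] at hX
  have hY := ksP_slopes_Y ζ X' Y' hζ
  rw [hL, hL2, ← ksP_slopes_Y ζ X Y hζ] at hY
  exact ⟨mul_left_cancel₀ (by norm_num) hX, mul_left_cancel₀ (by norm_num) hY⟩

variable [DecidableEq K]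

theorem kscone_some_congr {E : Affine K} {x y x' y' : K} (h : E.Nonsingular x y)
    (h' : E.Nonsingular x' y') (hx : x = x') (hy : y = y') :
    (Point.some x y h : E.Point) = Point.some x' y' h' := by
  subst hx hy
  rfl

/-- On a short Weierstrass curve a point killed by `5` has nonzero `y`-coordinate. -/
theorem kscone_y_ne_zero (a b : K) (E : Affine K) (hE : E = shortCurve a b) (x y : K)
    (h : E.Nonsingular x y) (h5 : 5 • (Point.some x y h : E.Point) = 0) : y ≠ 0 := by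
  intro hy
  have h2 : 2 • (Point.some x y h : E.Point) = 0 := by
    rw [S51.dup_two_nsmul_some_eq_zero_iff]
    subst hE
    simp [negY, shortCurve, hy]
  exact S51.t5_two_nsmul_ne_zero (Point.some_ne_zero _) h5 h2

/-- The statement of the sections package at a base point. -/
def KsSections (ζ u v : K) (E : Affine K) : Prop :=
  ∃ (hP : E.Nonsingular (ksXiP ζ u v) (ksEtaP ζ u v))
    (hP2 : E.Nonsingular (ksXiP2 ζ u v) (ksEtaP2 ζ u v))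
    (hQ : E.Nonsingular (ksXiQ u v) (ksEtaQ u v)),
    5 • (Point.some _ _ hP : E.Point) = 0 ∧
    2 • (Point.some _ _ hP : E.Point) = Point.some _ _ hP2 ∧
    5 • (Point.some _ _ hQ : E.Point) = 0 ∧
    ∀ m : ℕ, ∃ hQm : E.Nonsingular (ksXiQ (ζ ^ m * u) (ζ ^ (4 * m) * v))
        (ksEtaQ (ζ ^ m * u) (ζ ^ (4 * m) * v)),
      (Point.some _ _ hQm : E.Point) + m • Point.some _ _ hP = Point.some _ _ hQ

end Field

theorem kscone_short_baseChange (h τ : ℚ) :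
    ((shortCurve h τ)⁄Qbar) = shortCurve (algebraMap ℚ Qbar h) (algebraMap ℚ Qbar τ) := by
  ext <;> simp [shortCurve, WeierstrassCurve.baseChange, WeierstrassCurve.map]

/-- A Galois automorphism fixing the `5`-torsion of the base curve and the fifth roots of unity
multiplies the base point by a fifth root of unity. -/
theorem kscone_galois (h τ : ℚ) (ζ u₀ v₀ : Qbar) (hζ : 1 + ζ + ζ ^ 2 + ζ ^ 3 + ζ ^ 4 = 0)
    (hh : algebraMap ℚ Qbar h = 5 ^ 4 * kH u₀ v₀)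
    (hsec : KsSections ζ u₀ v₀ ((shortCurve h τ)⁄Qbar))
    (σ : Qbar ≃ₐ[ℚ] Qbar)
    (hσ : ∀ P : ((shortCurve h τ)⁄Qbar).Point, 5 • P = 0 → σ • P = P)
    (hσζ : ∀ ζ' : Qbar, ζ' ^ 5 = 1 → σ ζ' = ζ') :
    ∃ z : Qbar, z ^ 5 = 1 ∧ σ u₀ = z * u₀ ∧ σ v₀ = z * v₀ := by
  obtain ⟨hP, hP2, hQ, h5P, h2P, h5Q, hshift⟩ := hsec
  have hζ5 : ζ ^ 5 = 1 := xcone_zeta_pow5 ζ hζ
  have hζσ : σ ζ = ζ := hσζ ζ hζ5
  have hE := kscone_short_baseChange h τ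
  -- `σ` fixes `P`
  have hPc : ksXiP ζ (σ u₀) (σ v₀) = ksXiP ζ u₀ v₀ ∧ ksEtaP ζ (σ u₀) (σ v₀) = ksEtaP ζ u₀ v₀ := by
    have hfix := hσ _ h5P
    obtain ⟨hns', hσP⟩ := xrigid_smul_some (shortCurve h τ) σ _ _ hP
    rw [hσP] at hfix
    have hc := Point.some.inj hfix
    have e1 : σ (ksXiP ζ u₀ v₀) = ksXiP (σ ζ) (σ u₀) (σ v₀) :=
      kscone_map_XiP (σ : Qbar →+* Qbar) ζ u₀ v₀
    have e2 : σ (ksEtaP ζ u₀ v₀) = ksEtaP (σ ζ) (σ u₀) (σ v₀) :=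
      kscone_map_EtaP (σ : Qbar →+* Qbar) ζ u₀ v₀
    rw [hζσ] at e1 e2
    exact ⟨e1.symm.trans hc.1, e2.symm.trans hc.2⟩
  -- `σ` fixes `2P`
  have h5P2 : 5 • (Point.some _ _ hP2 : ((shortCurve h τ)⁄Qbar).Point) = 0 := by
    rw [← h2P, ← mul_nsmul, mul_comm, mul_nsmul, h5P, nsmul_zero]
  have hP2c : ksXiP2 ζ (σ u₀) (σ v₀) = ksXiP2 ζ u₀ v₀ ∧
      ksEtaP2 ζ (σ u₀) (σ v₀) = ksEtaP2 ζ u₀ v₀ := by
    have hfix := hσ _ h5P2
    obtain ⟨hns', hσP⟩ := xrigid_smul_some (shortCurve h τ) σ _ _ hP2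
    rw [hσP] at hfix
    have hc := Point.some.inj hfix
    have e1 : σ (ksXiP2 ζ u₀ v₀) = ksXiP2 (σ ζ) (σ u₀) (σ v₀) :=
      kscone_map_XiP2 (σ : Qbar →+* Qbar) ζ u₀ v₀
    have e2 : σ (ksEtaP2 ζ u₀ v₀) = ksEtaP2 (σ ζ) (σ u₀) (σ v₀) :=
      kscone_map_EtaP2 (σ : Qbar →+* Qbar) ζ u₀ v₀
    rw [hζσ] at e1 e2
    exact ⟨e1.symm.trans hc.1, e2.symm.trans hc.2⟩
  -- `σ` fixes `Q`
  have hQc : ksXiQ (σ u₀) (σ v₀) = ksXiQ u₀ v₀ ∧ ksEtaQ (σ u₀) (σ v₀) = ksEtaQ u₀ v₀ := by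
    have hfix := hσ _ h5Q
    obtain ⟨hns', hσP⟩ := xrigid_smul_some (shortCurve h τ) σ _ _ hQ
    rw [hσP] at hfix
    have hc := Point.some.inj hfix
    have e1 : σ (ksXiQ u₀ v₀) = ksXiQ (σ u₀) (σ v₀) :=
      kscone_map_XiQ (σ : Qbar →+* Qbar) u₀ v₀
    have e2 : σ (ksEtaQ u₀ v₀) = ksEtaQ (σ u₀) (σ v₀) :=
      kscone_map_EtaQ (σ : Qbar →+* Qbar) u₀ v₀
    exact ⟨e1.symm.trans hc.1, e2.symm.trans hc.2⟩
  -- `σ` fixes `kH`
  have hHc : kH (σ u₀) (σ v₀) = kH u₀ v₀ := by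
    have e1 : σ (kH u₀ v₀) = kH (σ u₀) (σ v₀) := kH_map (σ : Qbar →+* Qbar) u₀ v₀
    have e2 : σ (5 ^ 4 * kH u₀ v₀) = 5 ^ 4 * kH u₀ v₀ := by
      rw [← hh]
      exact σ.commutes h
    rw [map_mul, map_pow, map_ofNat, e1] at e2
    exact mul_left_cancel₀ (by norm_num) e2
  -- (U1)
  have hy1 : ksEtaP ζ u₀ v₀ ≠ 0 := kscone_y_ne_zero _ _ _ hE _ _ hP h5P
  have hy2 : ksEtaP2 ζ u₀ v₀ ≠ 0 := kscone_y_ne_zero _ _ _ hE _ _ hP2 h5P2
  obtain ⟨hX, hY⟩ := kscone_U1 ζ (u₀ ^ 5) (v₀ ^ 5) ((σ u₀) ^ 5) ((σ v₀) ^ 5) hζ hPc.1 hPc.2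
    hP2c.1 hP2c.2 (by rw [← ksHxy_eq, ← ksHxy_eq, hHc]) hy1 hy2
  -- (U2)
  obtain ⟨i, -, hi⟩ := xcone_pow5 ζ (σ u₀) u₀ hζ hX
  obtain ⟨j, -, hj⟩ := xcone_pow5 ζ (σ v₀) v₀ hζ hY
  obtain ⟨hd1, hd2⟩ := xcone_diag ζ hζ5 i j
  set k := 3 * (i + j) with hk
  set m := 3 * (i + 4 * j) with hm
  have hzk5 : (ζ ^ k) ^ 5 = 1 := by rw [← pow_mul, mul_comm, pow_mul, hζ5, one_pow]
  have hu : σ u₀ = ζ ^ k * (ζ ^ m * u₀) := by rw [hi, hd1, mul_assoc]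
  have hv : σ v₀ = ζ ^ k * (ζ ^ (4 * m) * v₀) := by rw [hj, hd2, ← pow_mul, mul_assoc]
  -- the shift by `m`
  obtain ⟨hQm, hadd⟩ := hshift m
  have hxm : ksXiQ (ζ ^ m * u₀) (ζ ^ (4 * m) * v₀) = ksXiQ u₀ v₀ := by
    have := hQc.1
    rw [hu, hv, kscone_XiQ_smul] at this
    have h10 : (ζ ^ k) ^ 10 = 1 := by
      calc (ζ ^ k) ^ 10 = ((ζ ^ k) ^ 5) ^ 2 := by ring
        _ = 1 := by rw [hzk5, one_pow]
    rwa [h10, one_mul] at this
  have hym : ksEtaQ (ζ ^ m * u₀) (ζ ^ (4 * m) * v₀) = ksEtaQ u₀ v₀ := by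
    have := hQc.2
    rw [hu, hv, kscone_EtaQ_smul] at this
    have h15 : (ζ ^ k) ^ 15 = 1 := by
      calc (ζ ^ k) ^ 15 = ((ζ ^ k) ^ 5) ^ 3 := by ring
        _ = 1 := by rw [hzk5, one_pow]
    rwa [h15, one_mul] at this
  have hQmQ := kscone_some_congr hQm hQ hxm hym
  rw [hQmQ] at hadd
  have hmP : m • (Point.some _ _ hP : ((shortCurve h τ)⁄Qbar).Point) = 0 := by
    have := add_left_cancel (a := (Point.some _ _ hQ : ((shortCurve h τ)⁄Qbar).Point))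
      (b := m • (Point.some _ _ hP : ((shortCurve h τ)⁄Qbar).Point)) (c := 0)
      (by rw [hadd, add_zero])
    exact this
  have h5m : 5 ∣ m := by
    have : Fact (Nat.Prime 5) := ⟨by norm_num⟩
    have ho : addOrderOf (Point.some _ _ hP : ((shortCurve h τ)⁄Qbar).Point) = 5 :=
      addOrderOf_eq_prime h5P (Point.some_ne_zero _)
    rw [← ho]
    exact addOrderOf_dvd_iff_nsmul_eq_zero.mpr hmP
  obtain ⟨hm1, hm2⟩ := xcone_pow_of_dvd ζ hζ5 m h5m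
  refine ⟨ζ ^ k, hzk5, ?_, ?_⟩
  · rw [hu, hm1, one_mul]
  · rw [hv, pow_mul ζ 4 m, hm2, one_mul]

/-- The `cone` field of `KleinFamily`, from the sections package at the base point. -/
theorem ks_cone_core (h τ : ℚ) (Hp Tp : ℚ[X]) (ζ u₀ v₀ : Qbar)
    (hζ : 1 + ζ + ζ ^ 2 + ζ ^ 3 + ζ ^ 4 = 0) (hF : kF u₀ v₀ ≠ 0)
    (hh : algebraMap ℚ Qbar h = 5 ^ 4 * kH u₀ v₀)
    (hsec : KsSections ζ u₀ v₀ ((shortCurve h τ)⁄Qbar))
    (hHp : ∀ t : Qbar, aeval t Hp =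
      5 ^ 4 * kH (u₀ + t * (25 * ksWu u₀ v₀)) (v₀ + t * (25 * ksWv u₀ v₀)))
    (hTp : ∀ t : Qbar, aeval t Tp =
      5 ^ 6 * kT (u₀ + t * (25 * ksWu u₀ v₀)) (v₀ + t * (25 * ksWv u₀ v₀))) :
    ∃ bad : Option ℚ, ∀ u₁ : ℚ, some u₁ ≠ bad → kF u₁ 1 ≠ 0 →
      ∃ t₁ μ : Qbar, μ ≠ 0 ∧
        aeval t₁ Hp = μ ^ 2 * algebraMap ℚ Qbar (kH u₁ 1) ∧
        aeval t₁ Tp = μ ^ 3 * algebraMap ℚ Qbar (kT u₁ 1) ∧
        ∀ σ : Qbar ≃ₐ[ℚ] Qbar,
          (∀ P : ((shortCurve h τ)⁄Qbar).Point, 5 • P = 0 → σ • P = P) →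
          (∀ ζ' : Qbar, ζ' ^ 5 = 1 → σ ζ' = ζ') → σ t₁ = t₁ ∧ σ μ = μ := by
  have hdet : u₀ * ksWv u₀ v₀ - v₀ * ksWu u₀ v₀ ≠ 0 := by
    rw [ks_det_w]
    exact mul_ne_zero (by norm_num) hF
  have hw : ksWu u₀ v₀ ≠ 0 ∨ ksWv u₀ v₀ ≠ 0 := by
    by_contra hcon
    push Not at hcon
    apply hdet
    rw [hcon.1, hcon.2, mul_zero, mul_zero, sub_zero]
  obtain ⟨bad, hbad⟩ := xcone_bad (ksWu u₀ v₀) (ksWv u₀ v₀) hw
  refine ⟨bad, fun u₁ hu₁ _ => ?_⟩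
  obtain ⟨t₁, lam, hlam, hl1, hl2, ht₁⟩ := xcone_line u₀ v₀ (ksWu u₀ v₀) (ksWv u₀ v₀) 25
    (u₁ : Qbar) (by norm_num) hdet (hbad u₁ hu₁)
  have hc1 : u₀ + t₁ * (25 * ksWu u₀ v₀) = lam * (u₁ : Qbar) := by rw [← hl1]; ring
  have hc2 : v₀ + t₁ * (25 * ksWv u₀ v₀) = lam := by rw [← hl2]; ring
  have hcast : algebraMap ℚ Qbar u₁ = (u₁ : Qbar) := eq_ratCast _ _
  refine ⟨t₁, 25 * lam ^ 10, mul_ne_zero (by norm_num) (pow_ne_zero _ hlam), ?_, ?_, ?_⟩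
  · rw [hHp t₁, hc1, hc2, kscone_kH_cone, kH_map, map_one, hcast]
    ring
  · rw [hTp t₁, hc1, hc2, kscone_kT_cone, kT_map, map_one, hcast]
    ring
  · intro σ hσ hσζ
    obtain ⟨z, hz5, hzu, hzv⟩ := kscone_galois h τ ζ u₀ v₀ hζ hh hsec σ hσ hσζ
    have hz0 : z ≠ 0 := by
      intro h0
      rw [h0] at hz5
      norm_num at hz5
    have hz11 : z ^ 11 = z := by
      calc z ^ 11 = (z ^ 5) ^ 2 * z := by ring
        _ = z := by rw [hz5, one_pow, one_mul]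
    have hwu : σ (ksWu u₀ v₀) = z * ksWu u₀ v₀ := by
      have e : σ (ksWu u₀ v₀) = ksWu (σ u₀) (σ v₀) := kscone_map_Wu (σ : Qbar →+* Qbar) u₀ v₀
      rw [e, hzu, hzv, kscone_Wu_smul, hz11]
    have hwv : σ (ksWv u₀ v₀) = z * ksWv u₀ v₀ := by
      have e : σ (ksWv u₀ v₀) = ksWv (σ u₀) (σ v₀) := kscone_map_Wv (σ : Qbar →+* Qbar) u₀ v₀
      rw [e, hzu, hzv, kscone_Wv_smul, hz11]
    obtain ⟨hσt, hσl⟩ := xcone_line_equivariant (σ : Qbar →+* Qbar) u₀ v₀ (ksWu u₀ v₀)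
      (ksWv u₀ v₀) 25 (u₁ : Qbar) z hz0 (map_ofNat (σ : Qbar →+* Qbar) 25)
      (map_ratCast (σ : Qbar →+* Qbar) u₁) hzu hzv hwu hwv t₁ lam ht₁ hl2
    refine ⟨hσt, ?_⟩
    have hσl' : σ lam = z * lam := hσl
    rw [map_mul, map_pow, hσl', map_ofNat, mul_pow]
    have hz10 : z ^ 10 = 1 := by
      calc z ^ 10 = (z ^ 5) ^ 2 := by ring
        _ = 1 := by rw [hz5, one_pow]
    rw [hz10, one_mul]

end Fermat.Agent.S52
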