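import Fermat.Agent.S52.XNoCommon

/-!
# P17 (S52), block X: every pair `(h, τ)` with `h τ ≠ 0` is a value of `(kH, kT)`
over an algebraically closed field of characteristic zero
-/

set_option autoImplicit false

namespace Fermat.Agent.S52

open Polynomial

/-- The auxiliary polynomial `H(1, X)³ τ² - T(1, X)² h³`. -/
noncomputable def xexistPoly {K : Type*} [Field K] (h τ : K) : K[X] :=
  kH (1 : K[X]) X ^ 3 * C (τ ^ 2) - kT (1 : K[X]) X ^ 2 * C (h ^ 3)

theorem xexistPoly_eval {K : Type*} [Field K] (h τ ρ : K) :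
    (xexistPoly h τ).eval ρ = kH 1 ρ ^ 3 * τ ^ 2 - kT 1 ρ ^ 2 * h ^ 3 := by
  simp [xexistPoly, kH, kT]

theorem xexistPoly_degree_ne_zero {K : Type*} [Field K] [CharZero K] (h τ : K) (hh : h ≠ 0) :
    (xexistPoly h τ).degree ≠ 0 := by
  intro hdeg
  have hC := Polynomial.eq_C_of_degree_eq_zero hdeg
  have e0 : (xexistPoly h τ).eval 0 = (xexistPoly h τ).coeff 0 := by
    conv_lhs => rw [hC]
    simp
  have e1 : (xexistPoly h τ).eval 1 = (xexistPoly h τ).coeff 0 := by
    conv_lhs => rw [hC]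
    simp
  have e2 : (xexistPoly h τ).eval 2 = (xexistPoly h τ).coeff 0 := by
    conv_lhs => rw [hC]
    simp
  rw [xexistPoly_eval] at e0 e1 e2
  have k0 : kH (1 : K) 0 = -1 := by norm_num [kH]
  have t0 : kT (1 : K) 0 = 1 := by norm_num [kT]
  have k1 : kH (1 : K) 1 = -496 := by norm_num [kH]
  have t1 : kT (1 : K) 1 = -20008 := by norm_num [kT]
  have k2 : kH (1 : K) 2 = -9018241 := by norm_num [kH]
  have t2 : kT (1 : K) 2 = -26942902975 := by norm_num [kT]
  rw [k0, t0] at e0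
  rw [k1, t1] at e1
  rw [k2, t2] at e2
  have q1 : (122023935 : K) * τ ^ 2 + 400320063 * h ^ 3 = 0 := by
    linear_combination e0 - e1
  have q2 : (733441552889589371520 : K) * τ ^ 2 + 725920020720263850624 * h ^ 3 = 0 := by
    linear_combination e0 - e2
  have q3 : (-205031751236010119959624120320 : K) * h ^ 3 = 0 := by
    linear_combination 122023935 * q2 - 733441552889589371520 * q1
  rcases mul_eq_zero.mp q3 with q | q
  · norm_num at q
  · exact hh (pow_eq_zero_iff (by norm_num) |>.mp q)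

theorem xexist_root {K : Type*} [Field K] [CharZero K] [IsAlgClosed K] (h τ : K) (hh : h ≠ 0)
    (hτ : τ ≠ 0) :
    ∃ ρ : K, kH 1 ρ ≠ 0 ∧ kT 1 ρ ≠ 0 ∧ kH 1 ρ ^ 3 * τ ^ 2 = kT 1 ρ ^ 2 * h ^ 3 := by
  obtain ⟨ρ, hρ⟩ := IsAlgClosed.exists_root (xexistPoly h τ) (xexistPoly_degree_ne_zero h τ hh)
  rw [IsRoot.def, xexistPoly_eval, sub_eq_zero] at hρ
  have hrel := kT_sq_add_kH_cube (1 : K) ρ
  have both : kH 1 ρ = 0 → kT 1 ρ = 0 → False := by
    intro hc hd
    rw [hc, hd] at hrel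
    have hF : kF (1 : K) ρ = 0 := by
      have h1 : (1728 : K) * kF 1 ρ ^ 5 = 0 := by linear_combination -hrel
      rcases mul_eq_zero.mp h1 with q | q
      · norm_num at q
      · exact pow_eq_zero_iff (by norm_num) |>.mp q
    exact one_ne_zero (xnocommon (1 : K) ρ hF hc).1
  refine ⟨ρ, ?_, ?_, hρ⟩
  · intro hc
    apply both hc
    rw [hc] at hρ
    have h1 : kT 1 ρ ^ 2 * h ^ 3 = 0 := by linear_combination -hρ
    rcases mul_eq_zero.mp h1 with q | q
    · exact pow_eq_zero_iff (by norm_num) |>.mp q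
    · exact absurd (pow_eq_zero_iff (by norm_num) |>.mp q) hh
  · intro hd
    refine both ?_ hd
    rw [hd] at hρ
    have h1 : kH 1 ρ ^ 3 * τ ^ 2 = 0 := by linear_combination hρ
    rcases mul_eq_zero.mp h1 with q | q
    · exact pow_eq_zero_iff (by norm_num) |>.mp q
    · exact absurd (pow_eq_zero_iff (by norm_num) |>.mp q) hτ

theorem xexist {K : Type*} [Field K] [CharZero K] [IsAlgClosed K] (h τ : K) (hh : h ≠ 0)
    (hτ : τ ≠ 0) : ∃ u v : K, kH u v = h ∧ kT u v = τ := by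
  obtain ⟨ρ, hc, hd, hρ⟩ := xexist_root h τ hh hτ
  obtain ⟨l, hl⟩ := IsAlgClosed.exists_pow_nat_eq (τ * kH 1 ρ / (kT 1 ρ * h)) (n := 10)
    (by norm_num)
  have eH : kH l (l * ρ) = (l ^ 10) ^ 2 * kH 1 ρ := by unfold kH; ring
  have eT : kT l (l * ρ) = (l ^ 10) ^ 3 * kT 1 ρ := by unfold kT; ring
  refine ⟨l, l * ρ, ?_, ?_⟩
  · rw [eH, hl]
    field_simp
    linear_combination hρ
  · rw [eT, hl]
    field_simp
    linear_combination hρ

end Fermat.Agent.S52
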