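import Fermat.Agent.S52.XRSDefs

/-!
# P17 (S52), block X: the Rubin–Silverberg polynomials (packaging, no heavy identity)

`xrsH h τ`, `xrsT h τ : ℚ[X]` are the polynomials `t ↦ xrsHval h τ t`, `t ↦ xrsTval h τ t`.
This file contains the formal properties (scaling, value at `0`, compatibility with ring
homomorphisms, evaluation); the identities `xrsHval (kH u v) (kT u v) t = kH (…) (…)` are proved
elsewhere.
-/

set_option autoImplicit false

namespace Fermat.Agent.S52

open Polynomial

theorem xrsHval_scale {R : Type*} [CommRing R] (c H T t : R) :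
    xrsHval (c ^ 2 * H) (c ^ 3 * T) t = c ^ 2 * xrsHval H T (c * t) := by
  unfold xrsHval
  ring

theorem xrsTval_scale {R : Type*} [CommRing R] (c H T t : R) :
    xrsTval (c ^ 2 * H) (c ^ 3 * T) t = c ^ 3 * xrsTval H T (c * t) := by
  unfold xrsTval
  ring

theorem xrsHval_zero {R : Type*} [CommRing R] (H T : R) : xrsHval H T 0 = H := by
  unfold xrsHval
  ring

theorem xrsTval_zero {R : Type*} [CommRing R] (H T : R) : xrsTval H T 0 = T := by
  unfold xrsTval
  ring

theorem xrsHval_map {R S : Type*} [CommRing R] [CommRing S] (f : R →+* S) (H T t : R) :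
    f (xrsHval H T t) = xrsHval (f H) (f T) (f t) := by
  simp only [xrsHval, map_add, map_sub, map_mul, map_pow, map_neg, map_ofNat]

theorem xrsTval_map {R S : Type*} [CommRing R] [CommRing S] (f : R →+* S) (H T t : R) :
    f (xrsTval H T t) = xrsTval (f H) (f T) (f t) := by
  simp only [xrsTval, map_add, map_sub, map_mul, map_pow, map_neg, map_ofNat]

/-- The Rubin–Silverberg polynomial for `kH`, with `h = kH u v`, `τ = kT u v`. -/
noncomputable def xrsH (h τ : ℚ) : ℚ[X] := xrsHval (C h) (C τ) X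

/-- The Rubin–Silverberg polynomial for `kT`, with `h = kH u v`, `τ = kT u v`. -/
noncomputable def xrsT (h τ : ℚ) : ℚ[X] := xrsTval (C h) (C τ) X

theorem xrsH_eval (h τ t : ℚ) : (xrsH h τ).eval t = xrsHval h τ t := by
  have := xrsHval_map (Polynomial.evalRingHom t) (C h) (C τ) X
  simpa [xrsH] using this

theorem xrsT_eval (h τ t : ℚ) : (xrsT h τ).eval t = xrsTval h τ t := by
  have := xrsTval_map (Polynomial.evalRingHom t) (C h) (C τ) X
  simpa [xrsT] using this

theorem xrsH_eval_zero (h τ : ℚ) : (xrsH h τ).eval 0 = h := by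
  rw [xrsH_eval, xrsHval_zero]

theorem xrsT_eval_zero (h τ : ℚ) : (xrsT h τ).eval 0 = τ := by
  rw [xrsT_eval, xrsTval_zero]

theorem xrsH_aeval {K : Type*} [CommRing K] [Algebra ℚ K] (h τ : ℚ) (t : K) :
    aeval t (xrsH h τ) = xrsHval (algebraMap ℚ K h) (algebraMap ℚ K τ) t := by
  have := xrsHval_map ((aeval t : ℚ[X] →ₐ[ℚ] K) : ℚ[X] →+* K) (C h) (C τ) X
  simpa [xrsH] using this

theorem xrsT_aeval {K : Type*} [CommRing K] [Algebra ℚ K] (h τ : ℚ) (t : K) :
    aeval t (xrsT h τ) = xrsTval (algebraMap ℚ K h) (algebraMap ℚ K τ) t := by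
  have := xrsTval_map ((aeval t : ℚ[X] →ₐ[ℚ] K) : ℚ[X] →+* K) (C h) (C τ) X
  simpa [xrsT] using this

end Fermat.Agent.S52
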