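import Fermat.Agent.S52.XDefs
import Fermat.Agent.S52.XRSPoly

/-!
# P17 (S52), block X: the polynomials `Hp`, `Tp` along the scaled line (second team)

`xfam_B_of`: the statement `xfam` of the block-X skeleton, with the two Rubin–Silverberg
identities (`xrsHval_eq`, `xrsTval_eq`, over `ℚ̄`) as hypotheses.
-/

set_option autoImplicit false

namespace Fermat.Agent.S52

open Polynomial

local notation "Qbar" => AlgebraicClosure ℚ

/-- The polynomials `Hp`, `Tp` of the Klein family through `(u₀, v₀)` on the `25`-scaled line,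
given the two Rubin–Silverberg identities over `ℚ̄`. -/
theorem xfam_B_of
    (hH : ∀ u v t : Qbar,
      xrsHval (kH u v) (kT u v) t = kH (u + t * xrsWu u v) (v + t * xrsWv u v))
    (hT : ∀ u v t : Qbar,
      xrsTval (kH u v) (kT u v) t = kT (u + t * xrsWu u v) (v + t * xrsWv u v))
    (h τ : ℚ) (u₀ v₀ : Qbar) (hh : algebraMap ℚ Qbar h = 5 ^ 4 * kH u₀ v₀)
    (hτ : algebraMap ℚ Qbar τ = 5 ^ 6 * kT u₀ v₀) :
    ∃ Hp Tp : ℚ[X], Hp.eval 0 = h ∧ Tp.eval 0 = τ ∧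
      (∀ t : Qbar, aeval t Hp =
        5 ^ 4 * kH (u₀ + t * (25 * ksWu u₀ v₀)) (v₀ + t * (25 * ksWv u₀ v₀))) ∧
      (∀ t : Qbar, aeval t Tp =
        5 ^ 6 * kT (u₀ + t * (25 * ksWu u₀ v₀)) (v₀ + t * (25 * ksWv u₀ v₀))) := by
  have e4 : (5 : Qbar) ^ 4 * kH u₀ v₀ = 25 ^ 2 * kH u₀ v₀ := by norm_num
  have e6 : (5 : Qbar) ^ 6 * kT u₀ v₀ = 25 ^ 3 * kT u₀ v₀ := by norm_num
  have eu : xrsWu u₀ v₀ = ksWu u₀ v₀ := rfl
  have ev : xrsWv u₀ v₀ = ksWv u₀ v₀ := rfl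
  refine ⟨xrsH h τ, xrsT h τ, xrsH_eval_zero h τ, xrsT_eval_zero h τ, fun t => ?_, fun t => ?_⟩
  · rw [xrsH_aeval, hh, hτ, e4, e6, xrsHval_scale, hH, eu, ev]
    have a1 : u₀ + 25 * t * ksWu u₀ v₀ = u₀ + t * (25 * ksWu u₀ v₀) := by ring
    have a2 : v₀ + 25 * t * ksWv u₀ v₀ = v₀ + t * (25 * ksWv u₀ v₀) := by ring
    rw [a1, a2]
    norm_num
  · rw [xrsT_aeval, hh, hτ, e4, e6, xrsTval_scale, hT, eu, ev]
    have a1 : u₀ + 25 * t * ksWu u₀ v₀ = u₀ + t * (25 * ksWu u₀ v₀) := by ring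
    have a2 : v₀ + 25 * t * ksWv u₀ v₀ = v₀ + t * (25 * ksWv u₀ v₀) := by ring
    rw [a1, a2]
    norm_num

end Fermat.Agent.S52
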