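import Fermat.Agent.S52.XRSF
import Fermat.Agent.S52.XRSPoly
import Fermat.Agent.S52.XW
import Fermat.Agent.S51.GaloisDescent

/-!
# P17 (S52), block X: the polynomials `Hp`, `Tp` along the scaled line, by Galois descent

`xfam_D_of`: the polynomials `Hp`, `Tp ∈ ℚ[X]` of the Klein family through `(u₀, v₀)`, using only
the Rubin–Silverberg identity for `kH` (hypothesis) and the one for `kF` (`krf_eq`): the polynomial
`P = 5⁶ kT(line) ∈ ℚ̄[X]` has a rational square and a nonzero rational constant term, hence is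
fixed by the absolute Galois group, hence rational.
-/

set_option autoImplicit false

namespace Fermat.Agent.S52

open Polynomial

local notation "Qbar" => AlgebraicClosure ℚ

/-- A polynomial over `ℚ̄` whose square is rational and whose constant term is a nonzero rational
number is rational. -/
theorem xfamD_descent (P : Qbar[X]) (R : ℚ[X]) (τ : ℚ) (hτ0 : τ ≠ 0)
    (hsq : R.map (algebraMap ℚ Qbar) = P ^ 2) (h0 : P.coeff 0 = algebraMap ℚ Qbar τ) :
    ∃ T : ℚ[X], T.map (algebraMap ℚ Qbar) = P := by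
  rw [← Polynomial.mem_lifts, Polynomial.lifts_iff_coeff_lifts]
  intro n
  have hfix : ∀ σ : Qbar ≃ₐ[ℚ] Qbar, σ (P.coeff n) = P.coeff n := by
    intro σ
    have hcomp : (σ : Qbar →+* Qbar).comp (algebraMap ℚ Qbar) = algebraMap ℚ Qbar :=
      RingHom.ext fun q => σ.commutes q
    have h1 : (P.map (σ : Qbar →+* Qbar)) ^ 2 = P ^ 2 := by
      rw [← Polynomial.map_pow, ← hsq, Polynomial.map_map, hcomp]
    have h2 : (P.map (σ : Qbar →+* Qbar) - P) * (P.map (σ : Qbar →+* Qbar) + P) = 0 := by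
      linear_combination h1
    have h3 : P.map (σ : Qbar →+* Qbar) = P := by
      rcases mul_eq_zero.mp h2 with h | h
      · exact sub_eq_zero.mp h
      · exfalso
        have h4 := congrArg (fun p => p.coeff 0) h
        simp only [Polynomial.coeff_add, Polynomial.coeff_map, Polynomial.coeff_zero, h0] at h4
        have h5 : (σ : Qbar →+* Qbar) (algebraMap ℚ Qbar τ) = algebraMap ℚ Qbar τ :=
          σ.commutes τ
        rw [h5] at h4
        have h6 : algebraMap ℚ Qbar (τ + τ) = 0 := by rw [map_add]; exact h4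
        have h7 : τ + τ = 0 := (map_eq_zero (algebraMap ℚ Qbar)).mp h6
        apply hτ0
        linarith
    have h8 := congrArg (fun p => p.coeff n) h3
    simpa [Polynomial.coeff_map] using h8
  obtain ⟨q, hq⟩ := S51.gd_rat_of_fixed (P.coeff n) hfix
  exact ⟨q, hq⟩

/-- The polynomials `Hp`, `Tp` of the Klein family through `(u₀, v₀)` on the `25`-scaled line,
given the Rubin–Silverberg identity for `kH` over `ℚ̄` (the one for `kT` is not needed). -/
theorem xfam_D_of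
    (hH : ∀ u v t : Qbar,
      xrsHval (kH u v) (kT u v) t = kH (u + t * xrsWu u v) (v + t * xrsWv u v))
    (h τ : ℚ) (hτ0 : τ ≠ 0) (u₀ v₀ : Qbar) (hh : algebraMap ℚ Qbar h = 5 ^ 4 * kH u₀ v₀)
    (hτ : algebraMap ℚ Qbar τ = 5 ^ 6 * kT u₀ v₀) :
    ∃ Hp Tp : ℚ[X], Hp.eval 0 = h ∧ Tp.eval 0 = τ ∧
      (∀ t : Qbar, aeval t Hp =
        5 ^ 4 * kH (u₀ + t * (25 * ksWu u₀ v₀)) (v₀ + t * (25 * ksWv u₀ v₀))) ∧
      (∀ t : Qbar, aeval t Tp =
        5 ^ 6 * kT (u₀ + t * (25 * ksWu u₀ v₀)) (v₀ + t * (25 * ksWv u₀ v₀))) := by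
  have eu : xrsWu u₀ v₀ = ksWu u₀ v₀ := rfl
  have ev : xrsWv u₀ v₀ = ksWv u₀ v₀ := rfl
  have a1 : ∀ t : Qbar, u₀ + 25 * t * ksWu u₀ v₀ = u₀ + t * (25 * ksWu u₀ v₀) := fun t => by ring
  have a2 : ∀ t : Qbar, v₀ + 25 * t * ksWv u₀ v₀ = v₀ + t * (25 * ksWv u₀ v₀) := fun t => by ring
  -- the `H` polynomial
  have hHp : ∀ t : Qbar, aeval t (xrsH h τ) =
      5 ^ 4 * kH (u₀ + t * (25 * ksWu u₀ v₀)) (v₀ + t * (25 * ksWv u₀ v₀)) := by
    intro t
    have e4 : (5 : Qbar) ^ 4 * kH u₀ v₀ = 25 ^ 2 * kH u₀ v₀ := by norm_num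
    have e6 : (5 : Qbar) ^ 6 * kT u₀ v₀ = 25 ^ 3 * kT u₀ v₀ := by norm_num
    rw [xrsH_aeval, hh, hτ, e4, e6, xrsHval_scale, hH, eu, ev, a1, a2]
    norm_num
  -- the line and the polynomial `P = 5⁶ kT(line)`
  set U : Qbar[X] := C u₀ + X * C (25 * ksWu u₀ v₀) with hU
  set V : Qbar[X] := C v₀ + X * C (25 * ksWv u₀ v₀) with hV
  have hUe : ∀ t : Qbar, (Polynomial.evalRingHom t) U = u₀ + t * (25 * ksWu u₀ v₀) := by
    intro t
    simp [hU]
  have hVe : ∀ t : Qbar, (Polynomial.evalRingHom t) V = v₀ + t * (25 * ksWv u₀ v₀) := by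
    intro t
    simp [hV]
  set P : Qbar[X] := C (5 ^ 6) * kT U V with hP
  have hPe : ∀ t : Qbar, P.eval t =
      5 ^ 6 * kT (u₀ + t * (25 * ksWu u₀ v₀)) (v₀ + t * (25 * ksWv u₀ v₀)) := by
    intro t
    have h1 := kT_map (Polynomial.evalRingHom t) U V
    rw [hUe, hVe] at h1
    rw [hP, Polynomial.eval_mul, Polynomial.eval_C]
    rw [Polynomial.coe_evalRingHom] at h1
    rw [h1]
  -- the rational polynomial for `kF(line)⁵`
  set Fq : ℚ[X] := C ((h ^ 3 + τ ^ 2) / (1728 * 5 ^ 12)) *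
    (krfVal (C (h / 625)) (C (τ / 15625)) (C 25 * X)) ^ 5 with hFq
  have hkH : algebraMap ℚ Qbar (h / 625) = kH u₀ v₀ := by
    rw [map_div₀, hh]
    have : algebraMap ℚ Qbar 625 = 625 := map_ofNat _ 625
    rw [this, div_eq_iff (by norm_num)]
    ring
  have hkT : algebraMap ℚ Qbar (τ / 15625) = kT u₀ v₀ := by
    rw [map_div₀, hτ]
    have : algebraMap ℚ Qbar 15625 = 15625 := map_ofNat _ 15625
    rw [this, div_eq_iff (by norm_num)]
    ring
  have hkF : algebraMap ℚ Qbar ((h ^ 3 + τ ^ 2) / (1728 * 5 ^ 12)) = kF u₀ v₀ ^ 5 := by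
    rw [map_div₀, map_add, map_pow, map_pow, hh, hτ]
    have e : algebraMap ℚ Qbar (1728 * 5 ^ 12) = 1728 * 5 ^ 12 := by
      rw [map_mul, map_pow, map_ofNat, map_ofNat]
    rw [e]
    have h1 := kT_sq_add_kH_cube u₀ v₀
    rw [div_eq_iff (by norm_num)]
    linear_combination (5 : Qbar) ^ 12 * h1
  have hFe : ∀ t : Qbar, aeval t Fq =
      kF (u₀ + t * (25 * ksWu u₀ v₀)) (v₀ + t * (25 * ksWv u₀ v₀)) ^ 5 := by
    intro t
    have h1 := krfVal_map ((aeval t : ℚ[X] →ₐ[ℚ] Qbar) : ℚ[X] →+* Qbar)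
      (C (h / 625)) (C (τ / 15625)) (C 25 * X)
    have h2 : ((aeval t : ℚ[X] →ₐ[ℚ] Qbar) : ℚ[X] →+* Qbar) (C 25 * X) = 25 * t := by
      simp
    have h3 : ((aeval t : ℚ[X] →ₐ[ℚ] Qbar) : ℚ[X] →+* Qbar) (C (h / 625)) = kH u₀ v₀ := by
      rw [← hkH]; simp
    have h4 : ((aeval t : ℚ[X] →ₐ[ℚ] Qbar) : ℚ[X] →+* Qbar) (C (τ / 15625)) = kT u₀ v₀ := by
      rw [← hkT]; simp
    rw [h2, h3, h4] at h1
    have h5 := krf_eq u₀ v₀ (25 * t)
    rw [eu, ev, a1, a2] at h5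
    rw [h5, mul_pow, ← hkF, hFq, map_mul, map_pow, Polynomial.aeval_C]
    congr 1
    rw [← h1]
    rfl
  -- the rational polynomial for `P²`
  set Rq : ℚ[X] := C 1728 * C (5 ^ 12) * Fq - (xrsH h τ) ^ 3 with hRq
  have hsq : Rq.map (algebraMap ℚ Qbar) = P ^ 2 := by
    apply Polynomial.funext
    intro t
    rw [Polynomial.eval_map_algebraMap, Polynomial.eval_pow, hPe, hRq]
    simp only [map_sub, map_mul, map_pow, Polynomial.aeval_C]
    have e1 : algebraMap ℚ Qbar 1728 = 1728 := map_ofNat _ 1728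
    have e2 : algebraMap ℚ Qbar 5 = 5 := map_ofNat _ 5
    rw [hFe, hHp, e1, e2]
    have h1 := kT_sq_add_kH_cube (u₀ + t * (25 * ksWu u₀ v₀)) (v₀ + t * (25 * ksWv u₀ v₀))
    linear_combination (-(5 : Qbar) ^ 12) * h1
  have h0 : P.coeff 0 = algebraMap ℚ Qbar τ := by
    rw [Polynomial.coeff_zero_eq_eval_zero, hPe, hτ]
    simp
  obtain ⟨Tp, hTp⟩ := xfamD_descent P Rq τ hτ0 hsq h0
  have hTe : ∀ t : Qbar, aeval t Tp =
      5 ^ 6 * kT (u₀ + t * (25 * ksWu u₀ v₀)) (v₀ + t * (25 * ksWv u₀ v₀)) := by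
    intro t
    rw [← Polynomial.eval_map_algebraMap, hTp, hPe]
  refine ⟨xrsH h τ, Tp, xrsH_eval_zero h τ, ?_, hHp, hTe⟩
  have h1 := hTe 0
  have h2 : aeval (0 : Qbar) Tp = algebraMap ℚ Qbar (Tp.eval 0) := by
    have := Polynomial.aeval_algebraMap_apply Qbar (0 : ℚ) Tp
    rw [map_zero] at this
    rw [this, Polynomial.coe_aeval_eq_eval]
  rw [h2] at h1
  have h3 : algebraMap ℚ Qbar (Tp.eval 0) = algebraMap ℚ Qbar τ := by
    rw [h1, hτ]
    simp
  exact (algebraMap ℚ Qbar).injective h3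

end Fermat.Agent.S52
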