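import Fermat.Agent.S52.Defs

/-!
# P17 (S52), block X: the explicit Rubin–Silverberg identities

With `w(u, v) = (∂kF/∂v, -∂kF/∂u)` the forms `kH`, `kT` along the line `(u, v) + t • w(u, v)` are
polynomials in `t` whose coefficients are integer polynomials in `kH u v` and `kT u v`:
`kH (u + t * xrsWu u v) (v + t * xrsWv u v) = xrsHval (kH u v) (kT u v) t` and similarly for `kT`.
-/

set_option autoImplicit false

namespace Fermat.Agent.S52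

/-- First component `∂kF/∂v` of the covariant `w`. -/
def xrsWu {R : Type*} [CommRing R] (u v : R) : R :=
  u * (u ^ 10 + 66 * u ^ 5 * v ^ 5 - 11 * v ^ 10)

/-- Second component `-∂kF/∂u` of the covariant `w`. -/
def xrsWv {R : Type*} [CommRing R] (u v : R) : R :=
  -(v * (11 * u ^ 10 + 66 * u ^ 5 * v ^ 5 - v ^ 10))

/-- The value at `t` of the Rubin–Silverberg polynomial for `kH`, as a function of
`H = kH u v`, `T = kT u v`. -/
def xrsHval {R : Type*} [CommRing R] (H T t : R) : R :=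
  (H) +
    (-20 * T) * t +
    (-190 * H ^ 2) * t ^ 2 +
    (1140 * H * T) * t ^ 3 +
    (-855 * H ^ 3 - 5700 * T ^ 2) * t ^ 4 +
    (-15504 * H ^ 2 * T) * t ^ 5 +
    (-102600 * H ^ 4 - 63840 * H * T ^ 2) * t ^ 6 +
    (259920 * H ^ 3 * T + 182400 * T ^ 3) * t ^ 7 +
    (-1000350 * H ^ 5 - 1126320 * H ^ 2 * T ^ 2) * t ^ 8 +
    (7736040 * H ^ 4 * T + 7904000 * H * T ^ 3) * t ^ 9 +
    (10003500 * H ^ 6 - 5619744 * H ^ 3 * T ^ 2 - 15808000 * T ^ 4) * t ^ 10 +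
    (-54685800 * H ^ 5 * T - 54853760 * H ^ 2 * T ^ 3) * t ^ 11 +
    (-45015750 * H ^ 7 - 7202520 * H ^ 4 * T ^ 2 + 37939200 * H * T ^ 4) * t ^ 12 +
    (35089200 * H ^ 6 * T - 23201280 * H ^ 3 * T ^ 3 - 58368000 * T ^ 5) * t ^ 13 +
    (-207765000 * H ^ 8 - 495188640 * H ^ 5 * T ^ 2 - 287462400 * H ^ 2 * T ^ 4) * t ^ 14 +
    (415530000 * H ^ 7 * T + 882458496 * H ^ 4 * T ^ 3 + 466944000 * H * T ^ 5) * t ^ 15 +
    (-77911875 * H ^ 9 - 714711600 * H ^ 6 * T ^ 2 - 1220474880 * H ^ 3 * T ^ 4 - 583680000 * T ^ 6) * t ^ 16 +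
    (-353200500 * H ^ 8 * T - 715080960 * H ^ 5 * T ^ 3 - 361881600 * H ^ 2 * T ^ 5) * t ^ 17 +
    (-779118750 * H ^ 10 - 2182917600 * H ^ 7 * T ^ 2 - 2026391040 * H ^ 4 * T ^ 4 - 622592000 * H * T ^ 6) * t ^ 18 +
    (694372500 * H ^ 9 * T + 2044414080 * H ^ 6 * T ^ 3 + 2005401600 * H ^ 3 * T ^ 5 + 655360000 * T ^ 7) * t ^ 19 +
    (184528125 * H ^ 11 + 549301500 * H ^ 8 * T ^ 2 + 544997376 * H ^ 5 * T ^ 4 + 180224000 * H ^ 2 * T ^ 6) * t ^ 20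

/-- The value at `t` of the Rubin–Silverberg polynomial for `kT`, as a function of
`H = kH u v`, `T = kT u v`. -/
def xrsTval {R : Type*} [CommRing R] (H T t : R) : R :=
  (T) +
    (30 * H ^ 2) * t +
    (-435 * H * T) * t ^ 2 +
    (-1160 * H ^ 3 + 2900 * T ^ 2) * t ^ 3 +
    (27405 * H ^ 2 * T) * t ^ 4 +
    (95526 * H ^ 4 - 46980 * H * T ^ 2) * t ^ 5 +
    (-437175 * H ^ 3 * T + 156600 * T ^ 3) * t ^ 6 +
    (1879200 * H ^ 5 + 3915000 * H ^ 2 * T ^ 2) * t ^ 7 +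
    (-8554275 * H ^ 4 * T - 14407200 * H * T ^ 3) * t ^ 8 +
    (24312150 * H ^ 6 + 42021000 * H ^ 3 * T ^ 2 + 32016000 * T ^ 4) * t ^ 9 +
    (-246633255 * H ^ 5 * T - 216588240 * H ^ 2 * T ^ 3) * t ^ 10 +
    (-162081000 * H ^ 7 + 1352475900 * H ^ 4 * T ^ 2 + 1459929600 * H * T ^ 4) * t ^ 11 +
    (4131714825 * H ^ 6 * T + 1612005600 * H ^ 3 * T ^ 3 - 2433216000 * T ^ 5) * t ^ 12 +
    (6928962750 * H ^ 8 - 5235216300 * H ^ 5 * T ^ 2 - 12044419200 * H ^ 2 * T ^ 4) * t ^ 13 +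
    (-43190534475 * H ^ 7 * T - 43045111800 * H ^ 4 * T ^ 3) * t ^ 14 +
    (79575287760 * H ^ 6 * T ^ 2 + 79420170240 * H ^ 3 * T ^ 4) * t ^ 15 +
    (-176688550125 * H ^ 8 * T - 474659611200 * H ^ 5 * T ^ 3 - 297825638400 * H ^ 2 * T ^ 5) * t ^ 16 +
    (-311803323750 * H ^ 10 - 77604382800 * H ^ 7 * T ^ 2 + 935084908800 * H ^ 4 * T ^ 4 + 700766208000 * H * T ^ 6) * t ^ 17 +
    (1694131392375 * H ^ 9 * T + 2776512362400 * H ^ 6 * T ^ 3 + 303665356800 * H ^ 3 * T ^ 5 - 778629120000 * T ^ 7) * t ^ 18 +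
    (328214025000 * H ^ 11 - 3481840250100 * H ^ 8 * T ^ 2 - 8100765158400 * H ^ 5 * T ^ 4 - 4290656256000 * H ^ 2 * T ^ 6) * t ^ 19 +
    (-2874607835625 * H ^ 10 * T - 2424887357760 * H ^ 7 * T ^ 3 + 3892110842880 * H ^ 4 * T ^ 5 + 3442360320000 * H * T ^ 7) * t ^ 20 +
    (-2215444668750 * H ^ 12 - 3077188825500 * H ^ 9 * T ^ 2 - 2709129888000 * H ^ 6 * T ^ 4 - 5125838438400 * H ^ 3 * T ^ 6 - 3278438400000 * T ^ 8) * t ^ 21 +
    (1403114956875 * H ^ 11 * T - 1724509423800 * H ^ 8 * T ^ 3 - 7701051801600 * H ^ 5 * T ^ 5 - 4573421568000 * H ^ 2 * T ^ 7) * t ^ 22 +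
    (-7705894500000 * H ^ 13 - 33414470973000 * H ^ 10 * T ^ 2 - 49888700928000 * H ^ 7 * T ^ 4 - 30337884979200 * H ^ 4 * T ^ 6 - 6157762560000 * H * T ^ 8) * t ^ 23 +
    (5089101159375 * H ^ 12 * T + 22687218914400 * H ^ 9 * T ^ 3 + 35246094796800 * H ^ 6 * T ^ 5 + 22779445248000 * H ^ 3 * T ^ 7 + 5131468800000 * T ^ 9) * t ^ 24 +
    (-17627233668750 * H ^ 14 - 70097953635000 * H ^ 11 * T ^ 2 - 105528606261120 * H ^ 8 * T ^ 4 - 71274600677376 * H ^ 5 * T ^ 6 - 18216714240000 * H ^ 2 * T ^ 8) * t ^ 25 +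
    (40985726371875 * H ^ 13 * T + 163672057566000 * H ^ 10 * T ^ 3 + 245438120632320 * H ^ 7 * T ^ 5 + 163803539865600 * H ^ 4 * T ^ 7 + 41051750400000 * H * T ^ 9) * t ^ 26 +
    (9632368125000 * H ^ 15 + 8104032382500 * H ^ 12 * T ^ 2 - 63806176396800 * H ^ 9 * T ^ 4 - 143803576074240 * H ^ 6 * T ^ 6 - 111934439424000 * H ^ 3 * T ^ 8 - 30408704000000 * T ^ 10) * t ^ 27 +
    (-21432019078125 * H ^ 14 * T - 85719228804000 * H ^ 11 * T ^ 3 - 128580522647040 * H ^ 8 * T ^ 5 - 85731449241600 * H ^ 5 * T ^ 7 - 21438136320000 * H ^ 2 * T ^ 9) * t ^ 28 +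
    (-11210083593750 * H ^ 16 - 49873523512500 * H ^ 13 * T ^ 2 - 87394892457600 * H ^ 10 * T ^ 4 - 75042714746880 * H ^ 7 * T ^ 6 - 31344427008000 * H ^ 4 * T ^ 8 - 5033164800000 * H * T ^ 10) * t ^ 29 +
    (4110363984375 * H ^ 15 * T + 19796866155000 * H ^ 12 * T ^ 3 + 38083944628224 * H ^ 9 * T ^ 5 + 36574189977600 * H ^ 6 * T ^ 7 + 17532190720000 * H ^ 3 * T ^ 9 + 3355443200000 * T ^ 11) * t ^ 30

end Fermat.Agent.S52
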