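import Fermat.Agent.S52.XRSDefs
import Fermat.Agent.S52.XDefs

/-!
# P17 (S52), block X: the Rubin–Silverberg identity for `kF`

`kF (u + t * xrsWu u v) (v + t * xrsWv u v) = kF u v * krfVal (kH u v) (kT u v) t`, where `krfVal`
is an explicit polynomial of degree `12` in `t` with integer coefficients in `H`, `T`.
-/

set_option autoImplicit false

namespace Fermat.Agent.S52

section krf

variable {R : Type*} [CommRing R]

/-- The cofactor of `kF` along the line `v + t • w(v)`, as a function of `H = kH v`, `T = kT v`. -/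
def krfVal (H T t : R) : R :=
  1 + (66 * H) * t ^ 2 + (-440 * T) * t ^ 3 + (-1485 * H ^ 2) * t ^ 4 + (3168 * H * T) * t ^ 5 +
    (-5940 * H ^ 3 - 10560 * T ^ 2) * t ^ 6 + (-4752 * H ^ 2 * T) * t ^ 7 +
    (-66825 * H ^ 4 - 63360 * H * T ^ 2) * t ^ 8 +
    (142560 * H ^ 3 * T + 140800 * T ^ 3) * t ^ 9 +
    (133650 * H ^ 5 + 133056 * H ^ 2 * T ^ 2) * t ^ 10 +
    (-61560 * H ^ 4 * T - 61440 * H * T ^ 3) * t ^ 11 +
    (91125 * H ^ 6 + 193536 * H ^ 3 * T ^ 2 + 102400 * T ^ 4) * t ^ 12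

theorem krfVal_map {S : Type*} [CommRing S] (f : R →+* S) (H T t : R) :
    f (krfVal H T t) = krfVal (f H) (f T) (f t) := by
  simp only [krfVal, map_add, map_sub, map_mul, map_pow, map_neg, map_ofNat, map_one]

/-- The identity in the variables `X = u⁵`, `Y = v⁵`, `t`, with `a = 1 + t g₁`, `b = 1 - t g₂`. -/
theorem krf_xy (X Y t : R) :
    (1 + t * (X ^ 2 + 66 * X * Y - 11 * Y ^ 2)) * (1 - t * (11 * X ^ 2 + 66 * X * Y - Y ^ 2)) *
      ((X * (1 + t * (X ^ 2 + 66 * X * Y - 11 * Y ^ 2)) ^ 5) ^ 2 +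
        11 * (X * (1 + t * (X ^ 2 + 66 * X * Y - 11 * Y ^ 2)) ^ 5) *
          (Y * (1 - t * (11 * X ^ 2 + 66 * X * Y - Y ^ 2)) ^ 5) -
        (Y * (1 - t * (11 * X ^ 2 + 66 * X * Y - Y ^ 2)) ^ 5) ^ 2) =
      (X ^ 2 + 11 * X * Y - Y ^ 2) * krfVal (ksHxy X Y) (ksTxy X Y) t := by
  unfold krfVal ksHxy ksTxy
  ring

theorem krf_eq (u v t : R) :
    kF (u + t * xrsWu u v) (v + t * xrsWv u v) = kF u v * krfVal (kH u v) (kT u v) t := by
  have ha : u + t * xrsWu u v = u * (1 + t * ((u ^ 5) ^ 2 + 66 * u ^ 5 * v ^ 5 - 11 * (v ^ 5) ^ 2)) := by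
    unfold xrsWu
    ring
  have hb : v + t * xrsWv u v = v * (1 - t * (11 * (u ^ 5) ^ 2 + 66 * u ^ 5 * v ^ 5 - (v ^ 5) ^ 2)) := by
    unfold xrsWv
    ring
  have h3 : ∀ a b : R, kF (u * a) (v * b) =
      (u * v) * (a * b * ((u ^ 5 * a ^ 5) ^ 2 + 11 * (u ^ 5 * a ^ 5) * (v ^ 5 * b ^ 5) -
        (v ^ 5 * b ^ 5) ^ 2)) := by
    intro a b
    unfold kF
    ring
  have h4 : kF u v = (u * v) * ((u ^ 5) ^ 2 + 11 * u ^ 5 * v ^ 5 - (v ^ 5) ^ 2) := by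
    unfold kF
    ring
  rw [ha, hb, h3, krf_xy (u ^ 5) (v ^ 5) t, ← ksHxy_eq, ← ksTxy_eq, h4]
  ring

end krf

end Fermat.Agent.S52
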