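import Fermat.Agent.S52.XRSPoly
import Fermat.Agent.S52.XDefs

/-!
# P17 (S52), block X: the Rubin–Silverberg identity for `kT` by interpolation

`xrsg_T`: over a field `K` of characteristic zero,
`xrsTval (kH u v) (kT u v) t = kT (u + t * xrsWu u v) (v + t * xrsWv u v)`.

Method.  In `X = u⁵`, `Y = v⁵` both sides are weighted homogeneous, so (the case `Y = 0` being
a small identity) it suffices to treat `Y = 1`: an identity `xrsgLT x s = xrsgRT x s` between
polynomials of degree `≤ 66` in `x` and `≤ 30` in `s` with integer coefficients.  Such an identity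
follows from its validity on the integer grid `{0, …, 66} × {0, …, 30}`
(`Polynomial.eq_zero_of_natDegree_lt_card_of_eval_eq_zero`, first in `x` over `ℤ`, then in `s`
over `K`), and the grid is checked by evaluation in the kernel.
-/

set_option autoImplicit false

namespace Fermat.Agent.S52

open Polynomial

/-- A polynomial of degree `< N` over a domain of characteristic zero vanishing at
`0, 1, …, N - 1` is zero. -/
theorem xrsg_zero_of_grid {R : Type*} [CommRing R] [IsDomain R] [CharZero R] (P : R[X]) (N : ℕ)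
    (hdeg : P.natDegree < N) (h : ∀ i : ℕ, i < N → P.eval (i : R) = 0) : P = 0 := by
  apply Polynomial.eq_zero_of_natDegree_lt_card_of_eval_eq_zero P
    (f := fun i : Fin N => ((i : ℕ) : R))
  · intro a b hab
    exact Fin.ext (Nat.cast_injective hab)
  · intro i
    exact h i i.2
  · simpa using hdeg

section Generic

variable {R : Type*} [CommRing R]

/-- dehomogenised left side for `kT`: `kT` along the line, at `Y = 1`. -/
def xrsgLT (x s : R) : R :=
  ksTxy (x * (1 + s * (x ^ 2 + 66 * x - 11)) ^ 5) ((1 - s * (11 * x ^ 2 + 66 * x - 1)) ^ 5)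

/-- dehomogenised right side for `kT`. -/
def xrsgRT (x s : R) : R := xrsTval (ksHxy x 1) (ksTxy x 1) s

theorem xrsg_Hxy_smul (c a b : R) : ksHxy (c * a) (c * b) = c ^ 4 * ksHxy a b := by
  unfold ksHxy
  ring

theorem xrsg_Txy_smul (c a b : R) : ksTxy (c * a) (c * b) = c ^ 6 * ksTxy a b := by
  unfold ksTxy
  ring

variable {S : Type*} [CommRing S]

theorem xrsg_Hxy_map (f : R →+* S) (a b : R) : f (ksHxy a b) = ksHxy (f a) (f b) := by
  simp only [ksHxy, map_add, map_sub, map_mul, map_pow, map_neg, map_ofNat]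

theorem xrsg_Txy_map (f : R →+* S) (a b : R) : f (ksTxy a b) = ksTxy (f a) (f b) := by
  simp only [ksTxy, map_add, map_sub, map_mul, map_pow, map_ofNat]

theorem xrsgLT_map (f : R →+* S) (x s : R) : f (xrsgLT x s) = xrsgLT (f x) (f s) := by
  simp only [xrsgLT, xrsg_Txy_map, map_add, map_sub, map_mul, map_pow, map_one, map_ofNat]

theorem xrsgRT_map (f : R →+* S) (x s : R) : f (xrsgRT x s) = xrsgRT (f x) (f s) := by
  simp only [xrsgRT, xrsTval_map, xrsg_Hxy_map, xrsg_Txy_map, map_one]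

end Generic

/-! ### The grid check -/

/-- The identity on the integer grid `{0, …, 66} × {0, …, 30}`, as a boolean. -/
def xrsgCheckT : Bool :=
  (List.range 67).all fun i => (List.range 31).all fun j =>
    xrsgLT (i : ℤ) (j : ℤ) == xrsgRT (i : ℤ) (j : ℤ)

set_option maxRecDepth 100000 in
theorem xrsgCheckT_eq : xrsgCheckT = true := by decide +kernel

theorem xrsg_gridT (i j : ℕ) (hi : i < 67) (hj : j < 31) :
    xrsgLT (i : ℤ) (j : ℤ) = xrsgRT (i : ℤ) (j : ℤ) := by
  have h := xrsgCheckT_eq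
  unfold xrsgCheckT at h
  rw [List.all_eq_true] at h
  have h1 := h i (List.mem_range.mpr hi)
  rw [List.all_eq_true] at h1
  have h2 := h1 j (List.mem_range.mpr hj)
  exact beq_iff_eq.mp h2

/-! ### Interpolation in `x` (over `ℤ`) -/

set_option maxHeartbeats 1000000 in
theorem xrsg_degx (j : ℤ) :
    (xrsgLT (X : ℤ[X]) (C j) - xrsgRT (X : ℤ[X]) (C j)).natDegree ≤ 66 := by
  unfold xrsgLT xrsgRT xrsTval ksTxy ksHxy
  compute_degree

theorem xrsg_polyx (j : ℕ) (hj : j < 31) :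
    xrsgLT (X : ℤ[X]) (C (j : ℤ)) - xrsgRT (X : ℤ[X]) (C (j : ℤ)) = 0 := by
  apply xrsg_zero_of_grid _ 67 (Nat.lt_succ_of_le (xrsg_degx (j : ℤ)))
  intro i hi
  have e1 := xrsgLT_map (Polynomial.evalRingHom ((i : ℕ) : ℤ)) (X : ℤ[X]) (C (j : ℤ))
  have e2 := xrsgRT_map (Polynomial.evalRingHom ((i : ℕ) : ℤ)) (X : ℤ[X]) (C (j : ℤ))
  simp only [coe_evalRingHom, eval_X, eval_C] at e1 e2
  rw [eval_sub, e1, e2, xrsg_gridT i j hi hj, sub_self]

theorem xrsg_x {K : Type*} [Field K] (x : K) (j : ℕ) (hj : j < 31) :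
    xrsgLT x (j : K) = xrsgRT x (j : K) := by
  have h := congrArg (Polynomial.eval₂RingHom (Int.castRingHom K) x) (xrsg_polyx j hj)
  rw [map_sub, map_zero, xrsgLT_map, xrsgRT_map] at h
  simp only [coe_eval₂RingHom, eval₂_X, eval₂_C, Int.coe_castRingHom, Int.cast_natCast] at h
  exact sub_eq_zero.mp h

/-! ### Interpolation in `s` (over `K`) -/

set_option maxHeartbeats 1000000 in
theorem xrsg_degs {K : Type*} [Field K] (x : K) :
    (xrsgLT (C x) (X : K[X]) - xrsgRT (C x) (X : K[X])).natDegree ≤ 30 := by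
  have e1 : ksHxy (C x) (1 : K[X]) = C (ksHxy x 1) := by
    rw [xrsg_Hxy_map, map_one]
  have e2 : ksTxy (C x) (1 : K[X]) = C (ksTxy x 1) := by
    rw [xrsg_Txy_map, map_one]
  unfold xrsgLT xrsgRT
  rw [e1, e2]
  unfold xrsTval ksTxy
  compute_degree

theorem xrsg_xs {K : Type*} [Field K] [CharZero K] (x s : K) : xrsgLT x s = xrsgRT x s := by
  have h0 : xrsgLT (C x) (X : K[X]) - xrsgRT (C x) (X : K[X]) = 0 := by
    apply xrsg_zero_of_grid _ 31 (Nat.lt_succ_of_le (xrsg_degs x))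
    intro j hj
    have e1 := xrsgLT_map (Polynomial.evalRingHom ((j : ℕ) : K)) (C x) (X : K[X])
    have e2 := xrsgRT_map (Polynomial.evalRingHom ((j : ℕ) : K)) (C x) (X : K[X])
    simp only [coe_evalRingHom, eval_X, eval_C] at e1 e2
    rw [eval_sub, e1, e2, xrsg_x x j hj, sub_self]
  have h := congrArg (Polynomial.evalRingHom s) h0
  rw [map_sub, map_zero, xrsgLT_map, xrsgRT_map] at h
  simp only [coe_evalRingHom, eval_X, eval_C] at h
  exact sub_eq_zero.mp h

/-! ### Homogenisation -/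

theorem xrsg_XY0 {R : Type*} [CommRing R] (X t : R) :
    ksTxy (X * (1 + t * (X ^ 2 + 66 * X * 0 - 11 * 0 ^ 2)) ^ 5)
        (0 * (1 - t * (11 * X ^ 2 + 66 * X * 0 - 0 ^ 2)) ^ 5) =
      xrsTval (ksHxy X 0) (ksTxy X 0) t := by
  unfold ksTxy ksHxy xrsTval
  ring

theorem xrsg_XY {K : Type*} [Field K] [CharZero K] (X Y t : K) :
    ksTxy (X * (1 + t * (X ^ 2 + 66 * X * Y - 11 * Y ^ 2)) ^ 5)
        (Y * (1 - t * (11 * X ^ 2 + 66 * X * Y - Y ^ 2)) ^ 5) =
      xrsTval (ksHxy X Y) (ksTxy X Y) t := by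
  by_cases hY : Y = 0
  · subst hY
    exact xrsg_XY0 X t
  · have key := xrsg_xs (X / Y) (Y ^ 2 * t)
    unfold xrsgLT xrsgRT at key
    have hX : X = Y * (X / Y) := by field_simp
    have e1 : X * (1 + t * (X ^ 2 + 66 * X * Y - 11 * Y ^ 2)) ^ 5 =
        Y * (X / Y * (1 + Y ^ 2 * t * ((X / Y) ^ 2 + 66 * (X / Y) - 11)) ^ 5) := by
      field_simp
    have e2 : Y * (1 - t * (11 * X ^ 2 + 66 * X * Y - Y ^ 2)) ^ 5 =
        Y * (1 - Y ^ 2 * t * (11 * (X / Y) ^ 2 + 66 * (X / Y) - 1)) ^ 5 := by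
      field_simp
    have e3 : ksHxy X Y = (Y ^ 2) ^ 2 * ksHxy (X / Y) 1 := by
      have := xrsg_Hxy_smul Y (X / Y) 1
      rw [← hX, mul_one] at this
      rw [this]
      ring
    have e4 : ksTxy X Y = (Y ^ 2) ^ 3 * ksTxy (X / Y) 1 := by
      have := xrsg_Txy_smul Y (X / Y) 1
      rw [← hX, mul_one] at this
      rw [this]
      ring
    rw [e1, e2, xrsg_Txy_smul, key, e3, e4, xrsTval_scale]
    ring

/-- **The Rubin–Silverberg identity for `kT`** over a field of characteristic zero. -/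
theorem xrsg_T {K : Type*} [Field K] [CharZero K] (u v t : K) :
    xrsTval (kH u v) (kT u v) t = kT (u + t * xrsWu u v) (v + t * xrsWv u v) := by
  have e1 : (u + t * xrsWu u v) ^ 5 =
      u ^ 5 * (1 + t * ((u ^ 5) ^ 2 + 66 * u ^ 5 * v ^ 5 - 11 * (v ^ 5) ^ 2)) ^ 5 := by
    unfold xrsWu
    ring
  have e2 : (v + t * xrsWv u v) ^ 5 =
      v ^ 5 * (1 - t * (11 * (u ^ 5) ^ 2 + 66 * u ^ 5 * v ^ 5 - (v ^ 5) ^ 2)) ^ 5 := by
    unfold xrsWv
    ring
  rw [ksTxy_eq (u + t * xrsWu u v), e1, e2, xrsg_XY, ← ksHxy_eq, ← ksTxy_eq]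

end Fermat.Agent.S52
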