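import Fermat.Agent.S52.Defs

/-!
# P17 (S52), block X: addition and duplication on a short Weierstrass curve

Generic lemmas for `shortCurve h τ : y² = x³ + 27 h x + 54 τ` over a field: the equation, the
discriminant, and the chord/tangent formulas in the form "if the slope is `N` then the sum is
`(N² - x₁ - x₂, -(N (x₃ - x₁) + y₁))`".
-/

set_option autoImplicit false

namespace Fermat.Agent.S52

open WeierstrassCurve WeierstrassCurve.Affine

section ksShort

variable {K : Type*} [Field K]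

theorem ksShort_equation (h τ x y : K) :
    (shortCurve h τ).toAffine.Equation x y ↔ y ^ 2 = x ^ 3 + 27 * h * x + 54 * τ := by
  rw [Affine.equation_iff]
  simp [shortCurve]

theorem ksShort_Δ (h τ : K) : (shortCurve h τ).Δ = -1259712 * (h ^ 3 + τ ^ 2) := by
  simp only [shortCurve, WeierstrassCurve.Δ, WeierstrassCurve.b₂, WeierstrassCurve.b₄,
    WeierstrassCurve.b₆, WeierstrassCurve.b₈]
  ring

theorem ksShort_nonsingular [CharZero K] (h τ x y : K) (hΔ : h ^ 3 + τ ^ 2 ≠ 0)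
    (heq : y ^ 2 = x ^ 3 + 27 * h * x + 54 * τ) : (shortCurve h τ).toAffine.Nonsingular x y := by
  have hΔ' : (shortCurve h τ).toAffine.Δ ≠ 0 := by
    show (shortCurve h τ).Δ ≠ 0
    rw [ksShort_Δ]
    exact mul_ne_zero (by norm_num) hΔ
  exact (equation_iff_nonsingular_of_Δ_ne_zero hΔ').mp ((ksShort_equation h τ x y).mpr heq)

theorem ksShort_y_ne_zero [CharZero K] (h τ : K) {x y L : K}
    (h₁ : (shortCurve h τ).toAffine.Nonsingular x y) (hL : L * (2 * y) = 3 * x ^ 2 + 27 * h) :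
    y ≠ 0 := by
  intro hy
  rw [Affine.nonsingular_iff'] at h₁
  obtain ⟨-, h₁ | h₁⟩ := h₁
  · apply h₁
    simp only [shortCurve]
    rw [hy] at hL
    linear_combination hL
  · apply h₁
    simp only [shortCurve]
    rw [hy]
    ring

variable [DecidableEq K]

/-- Tangent formula: if `L · 2y₁ = 3x₁² + 27h` then `2 • (x₁, y₁) = (L² - 2x₁, -(L(x₂ - x₁) + y₁))`. -/
theorem ksShort_dbl [CharZero K] (h τ : K) {x₁ y₁ x₂ y₂ L : K}
    (h₁ : (shortCurve h τ).toAffine.Nonsingular x₁ y₁)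
    (hL : L * (2 * y₁) = 3 * x₁ ^ 2 + 27 * h) (hx₂ : x₂ = L ^ 2 - 2 * x₁)
    (hy₂ : y₂ = -(L * (x₂ - x₁) + y₁)) :
    ∃ h₂ : (shortCurve h τ).toAffine.Nonsingular x₂ y₂,
      2 • Point.some x₁ y₁ h₁ = Point.some x₂ y₂ h₂ := by
  have hy : y₁ ≠ 0 := ksShort_y_ne_zero h τ h₁ hL
  have hneg : (shortCurve h τ).toAffine.negY x₁ y₁ = -y₁ := by
    simp [Affine.negY, shortCurve]
  have hy' : y₁ ≠ (shortCurve h τ).toAffine.negY x₁ y₁ := by
    rw [hneg]
    intro h0
    apply hy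
    have : (2 : K) * y₁ = 0 := by linear_combination h0
    rcases mul_eq_zero.mp this with h2 | h2
    · exact absurd h2 (by norm_num)
    · exact h2
  have hs : (shortCurve h τ).toAffine.slope x₁ x₁ y₁ y₁ = L := by
    rw [Affine.slope_of_Y_ne rfl hy', hneg]
    have h2y : y₁ - -y₁ ≠ 0 := by
      intro h0
      apply hy'
      rw [hneg]
      linear_combination h0
    rw [div_eq_iff h2y]
    simp only [shortCurve]
    linear_combination -hL
  have hX : (shortCurve h τ).toAffine.addX x₁ x₁ ((shortCurve h τ).toAffine.slope x₁ x₁ y₁ y₁)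
      = x₂ := by
    rw [hs, hx₂]
    simp only [Affine.addX, shortCurve]
    ring
  have hY : (shortCurve h τ).toAffine.addY x₁ x₁ y₁ ((shortCurve h τ).toAffine.slope x₁ x₁ y₁ y₁)
      = y₂ := by
    simp only [Affine.addY, Affine.negY, Affine.negAddY]
    rw [hX, hs, hy₂]
    simp only [shortCurve]
    ring
  have hns := Affine.nonsingular_add h₁ h₁ (fun hxy => hy' hxy.right)
  rw [hX, hY] at hns
  refine ⟨hns, ?_⟩
  rw [two_nsmul, Point.add_self_of_Y_ne hy']
  simp only [Point.some.injEq]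
  exact ⟨hX, hY⟩

/-- Chord formula: if `N (x₁ - x₂) = y₁ - y₂`, `x₁ ≠ x₂`, then
`(x₁, y₁) + (x₂, y₂) = (N² - x₁ - x₂, -(N (x₃ - x₁) + y₁))`. -/
theorem ksShort_add (h τ : K) {x₁ y₁ x₂ y₂ x₃ y₃ N : K}
    (h₁ : (shortCurve h τ).toAffine.Nonsingular x₁ y₁)
    (h₂ : (shortCurve h τ).toAffine.Nonsingular x₂ y₂) (hx : x₁ ≠ x₂)
    (hN : N * (x₁ - x₂) = y₁ - y₂) (hx₃ : x₃ = N ^ 2 - x₁ - x₂)
    (hy₃ : y₃ = -(N * (x₃ - x₁) + y₁)) :
    ∃ h₃ : (shortCurve h τ).toAffine.Nonsingular x₃ y₃,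
      Point.some x₁ y₁ h₁ + Point.some x₂ y₂ h₂ = Point.some x₃ y₃ h₃ := by
  have hs : (shortCurve h τ).toAffine.slope x₁ x₂ y₁ y₂ = N := by
    rw [Affine.slope_of_X_ne hx, div_eq_iff (sub_ne_zero.mpr hx)]
    exact hN.symm
  have hX : (shortCurve h τ).toAffine.addX x₁ x₂ ((shortCurve h τ).toAffine.slope x₁ x₂ y₁ y₂)
      = x₃ := by
    rw [hs, hx₃]
    simp only [Affine.addX, shortCurve]
    ring
  have hY : (shortCurve h τ).toAffine.addY x₁ x₂ y₁ ((shortCurve h τ).toAffine.slope x₁ x₂ y₁ y₂)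
      = y₃ := by
    simp only [Affine.addY, Affine.negY, Affine.negAddY]
    rw [hX, hs, hy₃]
    simp only [shortCurve]
    ring
  have hns := Affine.nonsingular_add h₁ h₂ (fun hxy => hx hxy.left)
  rw [hX, hY] at hns
  refine ⟨hns, ?_⟩
  rw [Point.add_of_X_ne hx]
  simp only [Point.some.injEq]
  exact ⟨hX, hY⟩

/-- Negation on a short curve. -/
theorem ksShort_neg (h τ : K) {x y : K} (h₁ : (shortCurve h τ).toAffine.Nonsingular x y) :
    ∃ h₂ : (shortCurve h τ).toAffine.Nonsingular x (-y),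
      -Point.some x y h₁ = Point.some x (-y) h₂ := by
  have hneg : (shortCurve h τ).toAffine.negY x y = -y := by
    simp [Affine.negY, shortCurve]
  have hns := (Affine.nonsingular_neg (W' := (shortCurve h τ).toAffine) x y).mpr h₁
  rw [hneg] at hns
  refine ⟨hns, ?_⟩
  rw [Point.neg_some]
  simp only [Point.some.injEq]
  exact ⟨trivial, hneg⟩

end ksShort

end Fermat.Agent.S52
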