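import Fermat.Agent.S52.XSecAlg
import Fermat.Agent.S52.XShort

/-!
# P17 (S52), block X: the `5`-torsion sections as points

On `E = shortCurve (5⁴ kH u v) (5⁶ kT u v)` over a field of characteristic zero, for `ζ` a root of
`1 + ζ + ζ² + ζ³ + ζ⁴` and `kF u v ≠ 0`:

* `ks_pt_P`: `P = (ksXiP, ksEtaP)` and `P₂ = (ksXiP2, ksEtaP2)` are points with `2P = P₂`,
  `2P₂ = -P`;
* `ks_pt_Q`: the same for `Q = (ksXiQ, ksEtaQ)`, `Q₂ = (ksXiQ2, ksEtaQ2)`;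
* `ks_pt_add`: `Q(ζu, ζ⁴v) + P(u,v) = Q(u,v)`.
-/

set_option autoImplicit false

namespace Fermat.Agent.S52

open WeierstrassCurve WeierstrassCurve.Affine

section ksPt

variable {K : Type*} [Field K] [CharZero K]

theorem ks_disc_ne (u v : K) (hF : kF u v ≠ 0) :
    (5 ^ 4 * kH u v) ^ 3 + (5 ^ 6 * kT u v) ^ 2 ≠ 0 := by
  have h1 := kT_sq_add_kH_cube u v
  have h2 : (5 ^ 4 * kH u v) ^ 3 + (5 ^ 6 * kT u v) ^ 2 = 5 ^ 12 * 1728 * kF u v ^ 5 := by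
    linear_combination (5 : K) ^ 12 * h1
  rw [h2]
  exact mul_ne_zero (by norm_num) (pow_ne_zero 5 hF)

theorem ks_nonsing_P (ζ u v : K) (hζ : 1 + ζ + ζ ^ 2 + ζ ^ 3 + ζ ^ 4 = 0) (hF : kF u v ≠ 0) :
    (shortCurve (5 ^ 4 * kH u v) (5 ^ 6 * kT u v)).toAffine.Nonsingular
      (ksXiP ζ u v) (ksEtaP ζ u v) := by
  apply ksShort_nonsingular _ _ _ _ (ks_disc_ne u v hF)
  have h1 := ksP_eq ζ (u ^ 5) (v ^ 5) hζ
  rw [ksHxy_eq, ksTxy_eq]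
  unfold ksXiP ksEtaP
  linear_combination h1

theorem ks_nonsing_Q (u v : K) (hF : kF u v ≠ 0) :
    (shortCurve (5 ^ 4 * kH u v) (5 ^ 6 * kT u v)).toAffine.Nonsingular
      (ksXiQ u v) (ksEtaQ u v) := by
  apply ksShort_nonsingular _ _ _ _ (ks_disc_ne u v hF)
  have h1 := ksQ_eq u v
  linear_combination h1

variable [DecidableEq K]

theorem ks_pt_P (ζ u v : K) (hζ : 1 + ζ + ζ ^ 2 + ζ ^ 3 + ζ ^ 4 = 0) (hF : kF u v ≠ 0)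
    (E : Affine K) (hE : E = shortCurve (5 ^ 4 * kH u v) (5 ^ 6 * kT u v)) :
    ∃ (hP : E.Nonsingular (ksXiP ζ u v) (ksEtaP ζ u v))
      (hP2 : E.Nonsingular (ksXiP2 ζ u v) (ksEtaP2 ζ u v)),
      2 • Point.some _ _ hP = Point.some _ _ hP2 ∧ 2 • Point.some _ _ hP2 = -Point.some _ _ hP := by
  subst hE
  have hP := ks_nonsing_P ζ u v hζ hF
  obtain ⟨hP2, h2⟩ := ksShort_dbl (5 ^ 4 * kH u v) (5 ^ 6 * kT u v) hP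
    (L := ksLxy ζ (u ^ 5) (v ^ 5)) (x₂ := ksXiP2 ζ u v) (y₂ := ksEtaP2 ζ u v)
    (by
      have h1 := ksP_slope ζ (u ^ 5) (v ^ 5) hζ
      rw [ksHxy_eq]
      unfold ksXiP ksEtaP
      linear_combination h1)
    (ksP_dblx ζ (u ^ 5) (v ^ 5) hζ) (ksP_dbly ζ (u ^ 5) (v ^ 5) hζ)
  obtain ⟨hP', h4⟩ := ksShort_dbl (5 ^ 4 * kH u v) (5 ^ 6 * kT u v) hP2
    (L := ksL2xy ζ (u ^ 5) (v ^ 5)) (x₂ := ksXiP ζ u v) (y₂ := -ksEtaP ζ u v)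
    (by
      have h1 := ksP2_slope ζ (u ^ 5) (v ^ 5) hζ
      rw [ksHxy_eq]
      unfold ksXiP2 ksEtaP2
      linear_combination h1)
    (ksP2_dblx ζ (u ^ 5) (v ^ 5) hζ) (ksP2_dbly ζ (u ^ 5) (v ^ 5) hζ)
  obtain ⟨hP'', hneg⟩ := ksShort_neg (5 ^ 4 * kH u v) (5 ^ 6 * kT u v) hP
  exact ⟨hP, hP2, h2, h4.trans hneg.symm⟩

theorem ks_pt_Q (u v : K) (hF : kF u v ≠ 0)
    (E : Affine K) (hE : E = shortCurve (5 ^ 4 * kH u v) (5 ^ 6 * kT u v)) :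
    ∃ (hQ : E.Nonsingular (ksXiQ u v) (ksEtaQ u v))
      (hQ2 : E.Nonsingular (ksXiQ2 u v) (ksEtaQ2 u v)),
      2 • Point.some _ _ hQ = Point.some _ _ hQ2 ∧ 2 • Point.some _ _ hQ2 = -Point.some _ _ hQ := by
  subst hE
  have hQ := ks_nonsing_Q u v hF
  obtain ⟨hQ2, h2⟩ := ksShort_dbl (5 ^ 4 * kH u v) (5 ^ 6 * kT u v) hQ
    (L := ksM u v) (x₂ := ksXiQ2 u v) (y₂ := ksEtaQ2 u v)
    (by
      have h1 := ksQ_slope u v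
      linear_combination h1)
    (ksQ_dblx u v) (ksQ_dbly u v)
  obtain ⟨hQ', h4⟩ := ksShort_dbl (5 ^ 4 * kH u v) (5 ^ 6 * kT u v) hQ2
    (L := ksM2 u v) (x₂ := ksXiQ u v) (y₂ := -ksEtaQ u v)
    (by
      have h1 := ksQ2_slope u v
      linear_combination h1)
    (ksQ2_dblx u v) (ksQ2_dbly u v)
  obtain ⟨hQ'', hneg⟩ := ksShort_neg (5 ^ 4 * kH u v) (5 ^ 6 * kT u v) hQ
  exact ⟨hQ, hQ2, h2, h4.trans hneg.symm⟩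

/-- `Q(T₀ v) + P(v) = Q(v)`, `T₀ v = (ζ u, ζ⁴ v)`. -/
theorem ks_pt_add (ζ u v : K) (hζ : 1 + ζ + ζ ^ 2 + ζ ^ 3 + ζ ^ 4 = 0) (hF : kF u v ≠ 0)
    (E : Affine K) (hE : E = shortCurve (5 ^ 4 * kH u v) (5 ^ 6 * kT u v)) :
    ∃ (hQT : E.Nonsingular (ksXiQ (ζ * u) (ζ ^ 4 * v)) (ksEtaQ (ζ * u) (ζ ^ 4 * v)))
      (hP : E.Nonsingular (ksXiP ζ u v) (ksEtaP ζ u v))
      (hQ : E.Nonsingular (ksXiQ u v) (ksEtaQ u v)),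
      Point.some _ _ hQT + Point.some _ _ hP = Point.some _ _ hQ := by
  subst hE
  have hP := ks_nonsing_P ζ u v hζ hF
  have hF' : kF (ζ * u) (ζ ^ 4 * v) ≠ 0 := by rw [ksT0_kF ζ u v hζ]; exact hF
  have hQT := ks_nonsing_Q (ζ * u) (ζ ^ 4 * v) hF'
  rw [ksT0_kH ζ u v hζ, ksT0_kT ζ u v hζ] at hQT
  have hx : ksXiQ (ζ * u) (ζ ^ 4 * v) ≠ ksXiP ζ u v := by
    intro h0
    have h1 := ksAdd_ne ζ u v hζ
    rw [h0, sub_self, zero_mul] at h1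
    have h2 : kF u v ^ 2 = 0 := by
      have h900 : (900 : K) ≠ 0 := by norm_num
      exact (mul_eq_zero.mp h1.symm).resolve_left h900
    exact hF (pow_eq_zero_iff (two_ne_zero) |>.mp h2)
  obtain ⟨hQ, hadd⟩ := ksShort_add (5 ^ 4 * kH u v) (5 ^ 6 * kT u v) hQT hP hx
    (N := ksN ζ u v) (x₃ := ksXiQ u v) (y₃ := ksEtaQ u v)
    (ksAdd_slope ζ u v hζ) (ksAdd_x ζ u v hζ) (ksAdd_y ζ u v hζ)
  exact ⟨hQT, hP, hQ, hadd⟩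

end ksPt

end Fermat.Agent.S52
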